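import Mathlib

/-!
Level-one invariants are polynomials in `j = E₄³ / Δ`.
-/

set_option autoImplicit false

namespace Fermat.Agent.S24.InvJ

open UpperHalfPlane ModularForm MatrixGroups EisensteinSeries ModularFormClass

open scoped Manifold

local notation "Δ" => ModularForm.discriminant

/-- the constant term of `E₄ ^ n` is one -/
theorem invJ_qExpansion_E4_pow_coeff_zero (n : ℕ) :
    (qExpansion 1 (E₄.pow n)).coeff 0 = 1 := by
  rw [ModularForm.qExpansion_pow one_pos one_mem_strictPeriods_SL]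
  simp only [PowerSeries.coeff_zero_eq_constantCoeff, map_pow]
  have h := E_qExpansion_coeff_zero (k := 4) (by norm_num) ⟨2, rfl⟩
  rw [PowerSeries.coeff_zero_eq_constantCoeff] at h
  rw [h, one_pow]

/-- Every level one form of weight `12 M` is `Δ ^ M` times a polynomial of degree `≤ M` in
`E₄ ^ 3 / Δ`. -/
theorem exists_polynomial_of_weight_twelve_mul (M : ℕ) :
    ∀ (k : ℤ) (_ : k = 12 * M) (g : ModularForm 𝒮ℒ k),
      ∃ P : Polynomial ℂ, P.natDegree ≤ M ∧
        ∀ z : ℍ, g z = Δ z ^ M * P.eval (E₄ z ^ 3 / Δ z) := by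
  induction M with
  | zero =>
    intro k hk g
    simp only [Nat.cast_zero, mul_zero] at hk
    subst hk
    obtain ⟨c, hc⟩ := levelOne_weight_zero_const g
    refine ⟨Polynomial.C c, by simp, fun z => ?_⟩
    simp [hc]
  | succ M ih =>
    intro k hk g
    -- the comparison form `E₄ ^ (3 (M+1))` in weight `k`
    have hwt : ((3 * (M + 1) : ℕ) : ℤ) * 4 = k := by rw [hk]; push_cast; ring
    set e : ModularForm 𝒮ℒ k := ModularForm.mcast hwt (E₄.pow (3 * (M + 1))) with he
    have he0 : (qExpansion 1 e).coeff 0 = 1 := by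
      rw [he, ModularForm.qExpansion_mcast]
      exact invJ_qExpansion_E4_pow_coeff_zero _
    have hcusp : ModularForm.IsCuspForm (g - (qExpansion 1 g).coeff 0 • e) :=
      sub_smul_isCuspForm g e he0
    rw [isCuspForm_iff_coeffZero_eq_zero] at hcusp
    set c : ℂ := (qExpansion 1 g).coeff 0 with hc
    set h : ModularForm 𝒮ℒ k := g - c • e with hh
    set g' : ModularForm 𝒮ℒ (k - 12) := CuspForm.discriminantEquiv (toCuspForm h hcusp) with hg'
    have hk' : k - 12 = 12 * (M : ℤ) := by rw [hk]; push_cast; ring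
    obtain ⟨P', hP'deg, hP'⟩ := ih (k - 12) hk' g'
    refine ⟨Polynomial.C c * Polynomial.X ^ (M + 1) + P', ?_, fun z => ?_⟩
    · refine (Polynomial.natDegree_add_le _ _).trans (max_le ?_ (hP'deg.trans (Nat.le_succ M)))
      exact (Polynomial.natDegree_C_mul_le _ _).trans (Polynomial.natDegree_X_pow_le _)
    · have hΔ : Δ z ≠ 0 := discriminant_ne_zero z
      have h1 : Δ z * g' z = h z := by
        rw [hg']
        simp
      have h2 : h z = g z - c * E₄ z ^ (3 * (M + 1)) := by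
        have h5 : (E₄.pow (3 * (M + 1))) z = E₄ z ^ (3 * (M + 1)) := by
          rw [ModularForm.coe_pow]; rfl
        rw [hh, he]
        simp [ModularForm.mcast_apply, h5]
      have h3 := hP' z
      simp only [Polynomial.eval_add, Polynomial.eval_mul, Polynomial.eval_C, Polynomial.eval_pow,
        Polynomial.eval_X]
      have h4 : g z = c * E₄ z ^ (3 * (M + 1)) + Δ z * g' z := by rw [h1, h2]; ring
      rw [h4, h3]
      have h6 : E₄ z ^ (3 * (M + 1)) = Δ z ^ (M + 1) * (E₄ z ^ 3 / Δ z) ^ (M + 1) := by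
        rw [div_pow, mul_div_cancel₀ _ (pow_ne_zero _ hΔ), ← pow_mul]
      rw [h6]
      ring

/-- `Δ ^ M` is invariant of weight `12 M` under `SL(2, ℤ)`. -/
theorem discriminant_pow_slash (M : ℕ) (γ : SL(2, ℤ)) :
    (fun z : ℍ => Δ z ^ M) ∣[(12 * M : ℤ)] γ = fun z : ℍ => Δ z ^ M := by
  induction M with
  | zero =>
    simp only [pow_zero, Nat.cast_zero, mul_zero]
    exact is_invariant_one γ
  | succ M ih =>
    have h1 : (fun z : ℍ => Δ z ^ (M + 1)) = (fun z : ℍ => Δ z ^ M) * Δ := by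
      funext z; simp [pow_succ]
    have h2 : (12 * ((M + 1 : ℕ) : ℤ)) = 12 * (M : ℤ) + 12 := by push_cast; ring
    rw [h1, h2, mul_slash_SL2, ih]
    congr 1
    exact CuspForm.discriminant.slash_action_eq' _ ⟨γ, rfl⟩

/-- A holomorphic `SL(2, ℤ)`-invariant function on the upper half plane which is meromorphic at
the cusp (in the sense that `Δ ^ M * f` is bounded at `i∞`) is a polynomial of degree `≤ M`
in `E₄ ^ 3 / Δ`. -/
theorem exists_polynomial_of_invariant (f : ℍ → ℂ) (hol : MDiff f)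
    (hinv : ∀ γ : SL(2, ℤ), f ∣[(0 : ℤ)] γ = f) (M : ℕ)
    (hbdd : IsBoundedAtImInfty (fun z : ℍ => Δ z ^ M * f z)) :
    ∃ P : Polynomial ℂ, P.natDegree ≤ M ∧ ∀ z : ℍ, f z = P.eval (E₄ z ^ 3 / Δ z) := by
  have hslash : ∀ γ : SL(2, ℤ),
      (fun z : ℍ => Δ z ^ M * f z) ∣[(12 * M : ℤ)] γ = fun z : ℍ => Δ z ^ M * f z := by
    intro γ
    have h1 : (fun z : ℍ => Δ z ^ M * f z) = (fun z : ℍ => Δ z ^ M) * f := rfl
    have h2 : (12 * (M : ℤ)) = 12 * (M : ℤ) + 0 := by ring
    rw [h1, h2, mul_slash_SL2, discriminant_pow_slash, hinv γ]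
  let g : ModularForm 𝒮ℒ (12 * M) :=
    { toFun := fun z => Δ z ^ M * f z
      slash_action_eq' := by
        rintro A ⟨γ, rfl⟩
        exact hslash γ
      holo' := (CuspForm.discriminant.holo'.pow M).mul hol
      bdd_at_cusps' := by
        intro c hc
        rw [Subgroup.IsArithmetic.isCusp_iff_isCusp_SL2Z] at hc
        rw [OnePoint.isBoundedAt_iff_forall_SL2Z hc]
        intro γ _
        rw [hslash γ]
        exact hbdd }
  obtain ⟨P, hdeg, hP⟩ := exists_polynomial_of_weight_twelve_mul M (12 * M) rfl g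
  refine ⟨P, hdeg, fun z => ?_⟩
  have h := hP z
  have hΔ : Δ z ^ M ≠ 0 := pow_ne_zero _ (discriminant_ne_zero z)
  exact mul_left_cancel₀ hΔ h

/-- Variant with invariance stated pointwise. -/
theorem exists_polynomial_of_invariant' (f : ℍ → ℂ) (hol : MDiff f)
    (hinv : ∀ (γ : SL(2, ℤ)) (z : ℍ), f (γ • z) = f z) (M : ℕ)
    (hbdd : IsBoundedAtImInfty (fun z : ℍ => Δ z ^ M * f z)) :
    ∃ P : Polynomial ℂ, P.natDegree ≤ M ∧ ∀ z : ℍ, f z = P.eval (E₄ z ^ 3 / Δ z) := by
  refine exists_polynomial_of_invariant f hol (fun γ => ?_) M hbdd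
  funext z
  rw [SL_slash_apply, zpow_neg, zpow_zero, inv_one, mul_one]
  exact hinv γ z

end Fermat.Agent.S24.InvJ
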