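import Mathlib

set_option autoImplicit false

open UpperHalfPlane Complex
open scoped Manifold MatrixGroups ModularForm

namespace Fermat.Agent.S24

/-- The analytic `j`-function on the upper half-plane, `E₄³ / Δ`. -/
noncomputable def jFn (z : ℍ) : ℂ := ModularForm.E₄ z ^ 3 / ModularForm.discriminant z

theorem jFn_def (z : ℍ) : jFn z = ModularForm.E₄ z ^ 3 / ModularForm.discriminant z := rfl

theorem jFn_mul_discriminant (z : ℍ) :
    jFn z * ModularForm.discriminant z = ModularForm.E₄ z ^ 3 := by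
  rw [jFn, div_mul_cancel₀ _ (ModularForm.discriminant_ne_zero z)]

theorem jFn_mdiff : MDiff jFn := by
  have h4 : MDiff (ModularForm.E₄ : ℍ → ℂ) := ModularForm.E₄.holo'
  have hD : MDiff (ModularForm.discriminant : ℍ → ℂ) := CuspForm.discriminant.holo'
  exact (h4.pow 3).div hD ModularForm.discriminant_ne_zero

/-- `j` is invariant under `SL(2, ℤ)`. -/
theorem jFn_smul (g : SL(2, ℤ)) (z : ℍ) : jFn (g • z) = jFn z := by
  have hg : (g : GL (Fin 2) ℝ) ∈ 𝒮ℒ := ⟨g, rfl⟩
  have h4 := SlashInvariantForm.slash_action_eqn'' ModularForm.E₄ hg z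
  have hD := SlashInvariantForm.slash_action_eqn'' CuspForm.discriminant hg z
  have hd : denom (g : GL (Fin 2) ℝ) z ≠ 0 := denom_ne_zero _ z
  rw [jFn, jFn, ModularGroup.sl_moeb]
  rw [CuspForm.coe_discriminant] at hD
  rw [h4, hD]
  have hz : ModularForm.discriminant z ≠ 0 := ModularForm.discriminant_ne_zero z
  rw [mul_pow, ← zpow_natCast (denom (g : GL (Fin 2) ℝ) z ^ (4 : ℤ)) 3, ← zpow_mul]
  norm_num
  field_simp

end Fermat.Agent.S24
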