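import Mathlib
import Fermat.Agent.S24.JDef
import Fermat.Agent.S24.InvJ

/-!
helper32 (P-S24 Part III).  Growth at the cusp of `j ∘ α` for integer matrices `α` of positive
determinant.

* `ModGrowth f` : `Δ ^ M * f` is bounded at `i∞` for some `M` ("meromorphic at the cusp"),
  with closure under `+`, `*`, `-`, constants, powers, finite sums and products.
* `exists_SL2_mul_upper` : Hermite normal form `A = γ * !![a, b; 0, d]`.
* `isBoundedAtImInfty_discriminant_pow_mul_jFn_smul` : `Δ ^ M * j (g • τ)` is bounded at `i∞`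
  for `det g ≤ M` (`g` with integer entries, positive determinant).
* `modGrowth_jFn_smul` : the `ModGrowth` form.
* `exists_polynomial_jFn_of_modGrowth` : a holomorphic `SL(2, ℤ)`-invariant function with
  `ModGrowth` is a polynomial in `j`.
-/

set_option autoImplicit false

open UpperHalfPlane ModularForm Filter Asymptotics
open scoped MatrixGroups Manifold Real

namespace Fermat.Agent.S24

local notation "Δ" => ModularForm.discriminant

/-- `f` is "meromorphic at the cusp" : `Δ ^ M * f` is bounded at `i∞` for some `M`. -/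
def ModGrowth (f : ℍ → ℂ) : Prop :=
  ∃ M : ℕ, IsBoundedAtImInfty (fun z : ℍ => Δ z ^ M * f z)

theorem isBoundedAtImInfty_pow {f : ℍ → ℂ} (hf : IsBoundedAtImInfty f) (k : ℕ) :
    IsBoundedAtImInfty (fun z : ℍ => f z ^ k) := by
  induction k with
  | zero =>
    simp only [pow_zero]
    exact const_boundedAtFilter atImInfty (1 : ℂ)
  | succ k ih =>
    have := BoundedAtFilter.mul ih hf
    refine this.congr_left (fun z => ?_)
    simp [pow_succ]

theorem discriminant_isBoundedAtImInfty : IsBoundedAtImInfty (fun z : ℍ => Δ z) :=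
  ModularForm.discriminant_isZeroAtImInfty.isBoundedAtImInfty

theorem isBoundedAtImInfty_discriminant_pow_mul_mono {f : ℍ → ℂ} {M N : ℕ} (h : M ≤ N)
    (hf : IsBoundedAtImInfty (fun z : ℍ => Δ z ^ M * f z)) :
    IsBoundedAtImInfty (fun z : ℍ => Δ z ^ N * f z) := by
  obtain ⟨k, rfl⟩ := Nat.exists_eq_add_of_le h
  have h1 : IsBoundedAtImInfty (fun z : ℍ => Δ z ^ k) :=
    isBoundedAtImInfty_pow discriminant_isBoundedAtImInfty k
  have h2 := BoundedAtFilter.mul h1 hf
  refine h2.congr_left (fun z => ?_)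
  simp only [Pi.mul_apply]
  ring

theorem ModGrowth.of_isBoundedAtImInfty {f : ℍ → ℂ} (hf : IsBoundedAtImInfty f) : ModGrowth f :=
  ⟨0, by simpa using hf⟩

theorem modGrowth_const (c : ℂ) : ModGrowth (fun _ : ℍ => c) :=
  ModGrowth.of_isBoundedAtImInfty (const_boundedAtFilter atImInfty c)

theorem ModGrowth.add {f g : ℍ → ℂ} (hf : ModGrowth f) (hg : ModGrowth g) :
    ModGrowth (fun z => f z + g z) := by
  obtain ⟨M, hM⟩ := hf
  obtain ⟨N, hN⟩ := hg
  refine ⟨max M N, ?_⟩
  have h1 := isBoundedAtImInfty_discriminant_pow_mul_mono (le_max_left M N) hM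
  have h2 := isBoundedAtImInfty_discriminant_pow_mul_mono (le_max_right M N) hN
  refine (BoundedAtFilter.add h1 h2).congr_left (fun z => ?_)
  simp only [Pi.add_apply]
  ring

theorem ModGrowth.mul {f g : ℍ → ℂ} (hf : ModGrowth f) (hg : ModGrowth g) :
    ModGrowth (fun z => f z * g z) := by
  obtain ⟨M, hM⟩ := hf
  obtain ⟨N, hN⟩ := hg
  refine ⟨M + N, ?_⟩
  refine (BoundedAtFilter.mul hM hN).congr_left (fun z => ?_)
  simp only [Pi.mul_apply]
  ring

theorem ModGrowth.neg {f : ℍ → ℂ} (hf : ModGrowth f) : ModGrowth (fun z => - f z) := by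
  obtain ⟨M, hM⟩ := hf
  refine ⟨M, ?_⟩
  refine (BoundedAtFilter.neg hM).congr_left (fun z => ?_)
  simp

theorem ModGrowth.sub {f g : ℍ → ℂ} (hf : ModGrowth f) (hg : ModGrowth g) :
    ModGrowth (fun z => f z - g z) := by
  simpa [sub_eq_add_neg] using hf.add hg.neg

theorem ModGrowth.const_mul {f : ℍ → ℂ} (c : ℂ) (hf : ModGrowth f) :
    ModGrowth (fun z => c * f z) :=
  (modGrowth_const c).mul hf

theorem ModGrowth.pow {f : ℍ → ℂ} (hf : ModGrowth f) (k : ℕ) : ModGrowth (fun z => f z ^ k) := by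
  induction k with
  | zero => simpa using modGrowth_const 1
  | succ k ih => simpa [pow_succ] using ih.mul hf

theorem ModGrowth.sum {ι : Type*} (s : Finset ι) {f : ι → ℍ → ℂ}
    (h : ∀ i ∈ s, ModGrowth (f i)) : ModGrowth (fun z => ∑ i ∈ s, f i z) := by
  classical
  induction s using Finset.induction_on with
  | empty => simpa using modGrowth_const 0
  | insert a s ha ih =>
    simp only [Finset.sum_insert ha]
    exact (h a (Finset.mem_insert_self a s)).add
      (ih (fun i hi => h i (Finset.mem_insert_of_mem hi)))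

theorem ModGrowth.prod {ι : Type*} (s : Finset ι) {f : ι → ℍ → ℂ}
    (h : ∀ i ∈ s, ModGrowth (f i)) : ModGrowth (fun z => ∏ i ∈ s, f i z) := by
  classical
  induction s using Finset.induction_on with
  | empty => simpa using modGrowth_const 1
  | insert a s ha ih =>
    simp only [Finset.prod_insert ha]
    exact (h a (Finset.mem_insert_self a s)).mul
      (ih (fun i hi => h i (Finset.mem_insert_of_mem hi)))

/-- Hermite normal form for `2 × 2` integer matrices of positive determinant. -/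
theorem exists_SL2_mul_upper (A : Matrix (Fin 2) (Fin 2) ℤ) (hA : 0 < A.det) :
    ∃ (γ : SL(2, ℤ)) (a b d : ℤ), 0 < a ∧ 0 < d ∧ a * d = A.det ∧
      A = (γ : Matrix (Fin 2) (Fin 2) ℤ) * !![a, b; 0, d] := by
  set p := A 0 0 with hp
  set q := A 0 1 with hq
  set r := A 1 0 with hr
  set s := A 1 1 with hs
  have hdet : A.det = p * s - q * r := Matrix.det_fin_two A
  have hne : ¬ (p = 0 ∧ r = 0) := by
    rintro ⟨h1, h2⟩
    rw [hdet, h1, h2] at hA
    simp at hA
  set a : ℤ := (Int.gcd p r : ℤ) with ha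
  have ha_pos : 0 < a := by
    have : 0 < Int.gcd p r := Int.gcd_pos_iff.mpr (by tauto)
    rw [ha]
    exact_mod_cast this
  obtain ⟨p', hp'⟩ : a ∣ p := Int.gcd_dvd_left p r
  obtain ⟨r', hr'⟩ : a ∣ r := Int.gcd_dvd_right p r
  set x := Int.gcdA p r with hx
  set y := Int.gcdB p r with hy
  have hbez : a = p * x + r * y := Int.gcd_eq_gcd_ab p r
  have hbez' : p' * x + r' * y = 1 := by
    have h1 : a * (p' * x + r' * y) = a * 1 := by
      rw [mul_one]; conv_rhs => rw [hbez, hp', hr']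
      ring
    exact mul_left_cancel₀ ha_pos.ne' h1
  have hγdet : (!![p', -y; r', x] : Matrix (Fin 2) (Fin 2) ℤ).det = 1 := by
    rw [Matrix.det_fin_two_of]; linarith
  refine ⟨⟨!![p', -y; r', x], hγdet⟩, a, x * q + y * s, p' * s - r' * q, ha_pos, ?_, ?_, ?_⟩
  · have h1 : a * (p' * s - r' * q) = A.det := by rw [hdet, hp', hr']; ring
    have h2 : 0 < a * (p' * s - r' * q) := h1 ▸ hA
    exact (mul_pos_iff_of_pos_left ha_pos).mp h2
  · rw [hdet, hp', hr']; ring
  · ext i j
    fin_cases i <;> fin_cases j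
    · simp [Matrix.mul_apply, Fin.sum_univ_two]
      rw [← hp, hp']; ring
    · simp [Matrix.mul_apply, Fin.sum_univ_two]
      rw [← hq]
      linear_combination (-q) * hbez'
    · simp [Matrix.mul_apply, Fin.sum_univ_two]
      rw [← hr, hr']; ring
    · simp [Matrix.mul_apply, Fin.sum_univ_two]
      rw [← hs]
      linear_combination (-s) * hbez'

/-- `j = O(exp (2π Im τ))` at `i∞`. -/
theorem jFn_isBigO_exp : jFn =O[atImInfty] fun τ : ℍ => Real.exp (2 * π * τ.im) := by
  have h4 : (fun τ : ℍ => ModularForm.E₄ τ) =O[atImInfty] (fun _ : ℍ => (1 : ℝ)) :=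
    ModularFormClass.bdd_at_infty ModularForm.E₄
  have h43 : (fun τ : ℍ => ModularForm.E₄ τ ^ 3) =O[atImInfty] (fun _ : ℍ => (1 : ℝ)) := by
    simpa using h4.pow 3
  have hΔ : (fun τ : ℍ => (Δ τ)⁻¹) =O[atImInfty] fun τ : ℍ => (Real.exp (-2 * π * τ.im))⁻¹ := by
    refine IsBigO.inv_rev ModularForm.exp_isBigO_discriminant ?_
    exact Eventually.of_forall fun τ h => absurd h (Real.exp_pos _).ne'
  have := h43.mul hΔ
  refine (this.congr_left ?_).congr_right ?_
  · intro τ; simp [jFn, div_eq_mul_inv]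
  · intro τ
    rw [one_mul, ← Real.exp_neg]
    congr 1; ring

/-- `Δ ^ M = O(exp (-2π M Im τ))` at `i∞`. -/
theorem discriminant_pow_isBigO_exp (M : ℕ) :
    (fun τ : ℍ => Δ τ ^ M) =O[atImInfty] fun τ : ℍ => Real.exp (-(2 * π * M * τ.im)) := by
  have h := CuspFormClass.exp_decay_atImInfty (h := 1) CuspForm.discriminant one_pos
    one_mem_strictPeriods_SL
  have h' := h.pow M
  refine (h'.congr_left ?_).congr_right ?_
  · intro τ; simp [CuspForm.coe_discriminant]
  · intro τ
    rw [← Real.exp_nat_mul]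
    congr 1; ring

/-- imaginary part of `u • τ` for an upper triangular `u` of positive determinant -/
theorem im_smul_of_upper {u : GL (Fin 2) ℝ} (h10 : u 1 0 = 0) (hdet : 0 < u.det.val) (τ : ℍ) :
    (u • τ).im = u 0 0 / u 1 1 * τ.im := by
  have hd : u.det.val = u 0 0 * u 1 1 := by
    have := Matrix.det_fin_two (u : Matrix (Fin 2) (Fin 2) ℝ)
    simp only [h10, mul_zero, sub_zero] at this
    simpa using this
  have h11 : u 1 1 ≠ 0 := by
    intro h; rw [hd, h, mul_zero] at hdet; exact lt_irrefl _ hdet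
  rw [UpperHalfPlane.im_smul_eq_div_normSq, abs_of_pos hdet, hd]
  simp only [denom, h10, Complex.ofReal_zero, zero_mul, zero_add, Complex.normSq_ofReal]
  field_simp

/-- Growth of `j ∘ u` for an upper triangular real matrix `u` of positive determinant:
`Δ ^ M * j (u • τ)` is bounded at `i∞` as soon as `u₀₀ / u₁₁ ≤ M`. -/
theorem isBoundedAtImInfty_discriminant_pow_mul_jFn_smul_of_upper {u : GL (Fin 2) ℝ}
    (h10 : u 1 0 = 0) (hdet : 0 < u.det.val) (M : ℕ) (hM : u 0 0 / u 1 1 ≤ M) :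
    IsBoundedAtImInfty (fun τ : ℍ => Δ τ ^ M * jFn (u • τ)) := by
  have h1 : (fun τ : ℍ => jFn (u • τ)) =O[atImInfty]
      fun τ : ℍ => Real.exp (2 * π * (u • τ).im) :=
    jFn_isBigO_exp.comp_tendsto (tendsto_smul_atImInfty h10)
  have h2 := (discriminant_pow_isBigO_exp M).mul h1
  refine h2.trans ?_
  refine IsBigO.of_bound 1 (Eventually.of_forall fun τ => ?_)
  rw [← Real.exp_add, im_smul_of_upper h10 hdet]
  simp only [Pi.one_apply, norm_one, mul_one, Real.norm_eq_abs, abs_of_pos (Real.exp_pos _)]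
  rw [Real.exp_le_one_iff]
  have hτ : 0 < τ.im := τ.im_pos
  have : 2 * π * (u 0 0 / u 1 1 * τ.im) ≤ 2 * π * (M * τ.im) := by
    have := Real.pi_pos
    gcongr
  linarith

/-- A real `2 × 2` matrix with integer entries and positive determinant factors as
`γ * u` with `γ ∈ SL(2, ℤ)` and `u` upper triangular with positive integer diagonal. -/
theorem exists_SL2_mul_upper_GL (g : GL (Fin 2) ℝ) (A : Matrix (Fin 2) (Fin 2) ℤ)
    (hA : (g : Matrix (Fin 2) (Fin 2) ℝ) = A.map (Int.cast : ℤ → ℝ)) (hdet : 0 < g.det.val) :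
    ∃ (γ : SL(2, ℤ)) (u : GL (Fin 2) ℝ) (a b d : ℤ), 0 < a ∧ 0 < d ∧ a * d = A.det ∧
      (u : Matrix (Fin 2) (Fin 2) ℝ) = !![(a : ℝ), (b : ℝ); 0, (d : ℝ)] ∧
      g = (γ : GL (Fin 2) ℝ) * u := by
  have hdetA : (g.det.val : ℝ) = ((A.det : ℤ) : ℝ) := by
    rw [Matrix.GeneralLinearGroup.val_det_apply, hA]
    exact ((Int.castRingHom ℝ).map_det A).symm
  have hApos : 0 < A.det := by
    rw [hdetA] at hdet
    exact_mod_cast hdet
  obtain ⟨γ, a, b, d, ha, hd, had, hAeq⟩ := exists_SL2_mul_upper A hApos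
  have hudet : (!![(a : ℝ), (b : ℝ); 0, (d : ℝ)] : Matrix (Fin 2) (Fin 2) ℝ).det ≠ 0 := by
    rw [Matrix.det_fin_two_of]
    have h1 : (0 : ℝ) < a := by exact_mod_cast ha
    have h2 : (0 : ℝ) < d := by exact_mod_cast hd
    simp only [mul_zero, sub_zero]
    positivity
  refine ⟨γ, Matrix.GeneralLinearGroup.mkOfDetNeZero _ hudet, a, b, d, ha, hd, had, rfl, ?_⟩
  apply Units.ext
  rw [hA, hAeq]
  ext i j
  fin_cases i <;> fin_cases j <;>
    simp [Matrix.mul_apply, Fin.sum_univ_two, Matrix.GeneralLinearGroup.mkOfDetNeZero]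

/-- **Growth of `j ∘ α`.**  For a real matrix `g` with integer entries and positive determinant,
`Δ ^ M * j (g • τ)` is bounded at `i∞` as soon as `det g ≤ M`. -/
theorem isBoundedAtImInfty_discriminant_pow_mul_jFn_smul (g : GL (Fin 2) ℝ)
    (A : Matrix (Fin 2) (Fin 2) ℤ)
    (hA : (g : Matrix (Fin 2) (Fin 2) ℝ) = A.map (Int.cast : ℤ → ℝ)) (hdet : 0 < g.det.val)
    (M : ℕ) (hM : A.det ≤ M) :
    IsBoundedAtImInfty (fun τ : ℍ => Δ τ ^ M * jFn (g • τ)) := by
  obtain ⟨γ, u, a, b, d, ha, hd, had, hu, hg⟩ := exists_SL2_mul_upper_GL g A hA hdet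
  have h10 : u 1 0 = 0 := by
    have := congrFun (congrFun hu 1) 0
    simpa using this
  have h00 : u 0 0 = a := by
    have := congrFun (congrFun hu 0) 0
    simpa using this
  have h11 : u 1 1 = d := by
    have := congrFun (congrFun hu 1) 1
    simpa using this
  have hudet : 0 < u.det.val := by
    rw [Matrix.GeneralLinearGroup.val_det_apply, hu, Matrix.det_fin_two_of]
    have h1 : (0 : ℝ) < a := by exact_mod_cast ha
    have h2 : (0 : ℝ) < d := by exact_mod_cast hd
    simp only [mul_zero, sub_zero]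
    positivity
  have hle : u 0 0 / u 1 1 ≤ M := by
    rw [h00, h11]
    have h1 : (0 : ℝ) < a := by exact_mod_cast ha
    have h2 : (1 : ℝ) ≤ d := by exact_mod_cast hd
    have h3 : (a : ℝ) ≤ a * d := by nlinarith
    have h4 : ((a * d : ℤ) : ℝ) ≤ (M : ℝ) := by
      rw [had]; exact_mod_cast hM
    push_cast at h4
    calc (a : ℝ) / d ≤ a := div_le_self h1.le h2
      _ ≤ a * d := h3
      _ ≤ M := h4
  have key := isBoundedAtImInfty_discriminant_pow_mul_jFn_smul_of_upper h10 hudet M hle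
  refine key.congr_left (fun τ => ?_)
  rw [hg, mul_smul, ← ModularGroup.sl_moeb, jFn_smul]

/-- **Growth of `j ∘ α`**, `ModGrowth` form. -/
theorem modGrowth_jFn_smul (g : GL (Fin 2) ℝ) (hdet : 0 < g.det.val)
    (hint : ∃ A : Matrix (Fin 2) (Fin 2) ℤ,
      (g : Matrix (Fin 2) (Fin 2) ℝ) = A.map (Int.cast : ℤ → ℝ)) :
    ModGrowth (fun τ : ℍ => jFn (g • τ)) := by
  obtain ⟨A, hA⟩ := hint
  exact ⟨A.det.toNat,
    isBoundedAtImInfty_discriminant_pow_mul_jFn_smul g A hA hdet _ (Int.self_le_toNat _)⟩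

/-- `GL(2, ℝ)⁺` form of `modGrowth_jFn_smul`. -/
theorem modGrowth_jFn_smul_GLPos (g : GL(2, ℝ)⁺)
    (hint : ∃ A : Matrix (Fin 2) (Fin 2) ℤ,
      ((g : GL (Fin 2) ℝ) : Matrix (Fin 2) (Fin 2) ℝ) = A.map (Int.cast : ℤ → ℝ)) :
    ModGrowth (fun τ : ℍ => jFn (g • τ)) :=
  modGrowth_jFn_smul (g : GL (Fin 2) ℝ) g.2 hint

/-- `j` itself has `ModGrowth` (with `M = 1`). -/
theorem modGrowth_jFn : ModGrowth jFn := by
  refine ⟨1, ?_⟩
  have h4 : IsBoundedAtImInfty (fun τ : ℍ => ModularForm.E₄ τ) :=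
    ModularFormClass.bdd_at_infty ModularForm.E₄
  refine (isBoundedAtImInfty_pow h4 3).congr_left (fun τ => ?_)
  rw [pow_one, mul_comm, jFn_mul_discriminant]

/-- A holomorphic `SL(2, ℤ)`-invariant function on `ℍ` such that `Δ ^ M * f` is bounded at `i∞`
is a polynomial of degree `≤ M` in `j`. -/
theorem exists_polynomial_jFn_of_isBoundedAtImInfty (f : ℍ → ℂ) (hol : MDiff f)
    (hinv : ∀ (γ : SL(2, ℤ)) (z : ℍ), f (γ • z) = f z) (M : ℕ)
    (hbdd : IsBoundedAtImInfty (fun z : ℍ => Δ z ^ M * f z)) :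
    ∃ P : Polynomial ℂ, P.natDegree ≤ M ∧ ∀ z : ℍ, f z = P.eval (jFn z) :=
  InvJ.exists_polynomial_of_invariant' f hol hinv M hbdd

/-- A holomorphic `SL(2, ℤ)`-invariant function on `ℍ` with `ModGrowth` is a polynomial in `j`. -/
theorem exists_polynomial_jFn_of_modGrowth (f : ℍ → ℂ) (hol : MDiff f)
    (hinv : ∀ (γ : SL(2, ℤ)) (z : ℍ), f (γ • z) = f z) (hg : ModGrowth f) :
    ∃ P : Polynomial ℂ, ∀ z : ℍ, f z = P.eval (jFn z) := by
  obtain ⟨M, hM⟩ := hg
  obtain ⟨P, -, hP⟩ := exists_polynomial_jFn_of_isBoundedAtImInfty f hol hinv M hM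
  exact ⟨P, hP⟩

end Fermat.Agent.S24
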