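-- P-S24 Part V (combinatorics of SL(2,Z)/Gamma0(N)): basic facts about first columns mod N.
import Mathlib
import Fermat.Prelude.Def_ModularCurve_GenusNumerics

set_option autoImplicit false

open Matrix Matrix.SpecialLinearGroup CongruenceSubgroup
open scoped MatrixGroups

namespace Fermat.Agent.S24.Comb

variable (N : ℕ)

/-- The first column of `γ`, reduced modulo `N`. -/
def col (γ : SL(2, ℤ)) : ZMod N × ZMod N := (((γ 0 0 : ℤ) : ZMod N), ((γ 1 0 : ℤ) : ZMod N))

/-- The action of `SL(2,ℤ)` on pairs modulo `N` (as column vectors). -/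
def act (σ : SL(2, ℤ)) (v : ZMod N × ZMod N) : ZMod N × ZMod N :=
  (((σ 0 0 : ℤ) : ZMod N) * v.1 + ((σ 0 1 : ℤ) : ZMod N) * v.2,
   ((σ 1 0 : ℤ) : ZMod N) * v.1 + ((σ 1 1 : ℤ) : ZMod N) * v.2)

variable {N}

theorem act_one (v : ZMod N × ZMod N) : act N 1 v = v := by
  simp [act]

theorem act_mul (σ τ : SL(2, ℤ)) (v : ZMod N × ZMod N) :
    act N (σ * τ) v = act N σ (act N τ v) := by
  simp only [act, Matrix.SpecialLinearGroup.coe_mul, Matrix.mul_apply, Fin.sum_univ_two]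
  push_cast
  ext <;> simp only <;> ring

theorem col_mul (σ γ : SL(2, ℤ)) : col N (σ * γ) = act N σ (col N γ) := by
  simp only [col, act, Matrix.SpecialLinearGroup.coe_mul, Matrix.mul_apply, Fin.sum_univ_two]
  push_cast
  rfl

theorem col_one : col N 1 = (1, 0) := by
  simp [col]

theorem act_smul (σ : SL(2, ℤ)) (u : ZMod N) (v : ZMod N × ZMod N) :
    act N σ (u * v.1, u * v.2) = (u * (act N σ v).1, u * (act N σ v).2) := by
  simp only [act]
  ext <;> simp only <;> ring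

theorem det_cast (γ : SL(2, ℤ)) :
    ((γ 0 0 : ℤ) : ZMod N) * ((γ 1 1 : ℤ) : ZMod N) - ((γ 0 1 : ℤ) : ZMod N) * ((γ 1 0 : ℤ) : ZMod N)
      = 1 := by
  have h := γ.det_coe
  rw [Matrix.det_fin_two] at h
  have h2 := congrArg (Int.cast : ℤ → ZMod N) h
  push_cast at h2
  exact h2

theorem isCoprime_col (γ : SL(2, ℤ)) : IsCoprime (col N γ).1 (col N γ).2 := by
  refine ⟨((γ 1 1 : ℤ) : ZMod N), -((γ 0 1 : ℤ) : ZMod N), ?_⟩
  have := det_cast (N := N) γ
  simp only [col]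
  linear_combination this


/-- Key arithmetic lemma: a triple-coprime pair can be moved modulo `N` to a coprime pair. -/
theorem exists_coprime_add_mul {x c M : ℕ} (hc : c ≠ 0)
    (h : ∀ p : ℕ, p.Prime → p ∣ x → p ∣ c → p ∣ M → False) :
    ∃ k : ℕ, (x + k * M).Coprime c := by
  let ps : Finset ℕ := {p ∈ c.primeFactors | ¬p ∣ x}
  refine ⟨ps.prod id, ?_⟩
  apply Nat.coprime_of_dvd
  intro p pp hp hpc
  by_cases hpx : p ∣ x
  · have h1 := Nat.dvd_sub hp hpx
    rw [add_comm, Nat.add_sub_cancel] at h1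
    rcases pp.dvd_mul.mp h1 with h2 | h2
    · have ⟨q, hq, hq'⟩ := (pp.prime.dvd_finsetProd_iff id).mp h2
      rw [Finset.mem_filter, Nat.mem_primeFactors,
        ← (Nat.prime_dvd_prime_iff_eq pp hq.1.1).mp hq'] at hq
      exact hq.2 hpx
    · exact h p pp hpx hpc h2
  · have pps : p ∈ ps := Finset.mem_filter.mpr ⟨Nat.mem_primeFactors.mpr ⟨pp, hpc, hc⟩, hpx⟩
    have h1 := Nat.dvd_sub hp ((Finset.dvd_prod_of_mem id pps).mul_right M)
    rw [Nat.add_sub_cancel] at h1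
    exact hpx h1

/-- Lifting lemma: every unimodular pair mod `N` is the first column of some `γ ∈ SL(2,ℤ)`. -/
theorem exists_col_eq [NeZero N] {x y : ZMod N} (hxy : IsCoprime x y) :
    ∃ γ : SL(2, ℤ), col N γ = (x, y) := by
  obtain ⟨c, hc0, hcy⟩ : ∃ c : ℕ, c ≠ 0 ∧ (c : ZMod N) = y := by
    by_cases hy : y.val = 0
    · refine ⟨N, NeZero.ne N, ?_⟩
      rw [ZMod.natCast_self]
      exact ((ZMod.val_eq_zero y).mp hy).symm
    · exact ⟨y.val, hy, ZMod.natCast_zmod_val y⟩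
  have hprime : ∀ p : ℕ, p.Prime → p ∣ x.val → p ∣ c → p ∣ N → False := by
    intro p pp hpx hpc hpN
    obtain ⟨a, b, hab⟩ := hxy
    have hx0 : ZMod.castHom hpN (ZMod p) x = 0 := by
      rw [← ZMod.natCast_zmod_val x, map_natCast]
      exact (ZMod.natCast_eq_zero_iff _ _).mpr hpx
    have hy0 : ZMod.castHom hpN (ZMod p) y = 0 := by
      rw [← hcy, map_natCast]
      exact (ZMod.natCast_eq_zero_iff _ _).mpr hpc
    have h1 := congrArg (ZMod.castHom hpN (ZMod p)) hab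
    rw [map_add, map_mul, map_mul, hx0, hy0, map_one] at h1
    have : Fact p.Prime := ⟨pp⟩
    simp at h1
  obtain ⟨k, hk⟩ := exists_coprime_add_mul hc0 hprime
  have hcop : IsCoprime ((x.val + k * N : ℕ) : ℤ) (c : ℤ) := Nat.isCoprime_iff_coprime.mpr hk
  obtain ⟨u, v, huv⟩ := hcop
  refine ⟨⟨!![((x.val + k * N : ℕ) : ℤ), -v; (c : ℤ), u], ?_⟩, ?_⟩
  · rw [Matrix.det_fin_two_of]
    linarith
  · simp only [col]
    ext
    · simp
    · simpa using hcy

/-- The cross product of two pairs. -/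
def cross (v w : ZMod N × ZMod N) : ZMod N := v.1 * w.2 - v.2 * w.1

theorem inv_mul_mem_Gamma0_iff (γ γ' : SL(2, ℤ)) :
    γ⁻¹ * γ' ∈ Gamma0 N ↔ cross (col N γ) (col N γ') = 0 := by
  rw [Gamma0_mem]
  simp only [cross, col, Matrix.SpecialLinearGroup.coe_mul, Matrix.mul_apply, Fin.sum_univ_two,
    Matrix.SpecialLinearGroup.coe_inv, Matrix.adjugate_fin_two, Matrix.of_apply, Matrix.cons_val',
    Matrix.cons_val_zero, Matrix.cons_val_one, Matrix.empty_val', Matrix.cons_val_fin_one]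
  push_cast
  constructor
  · intro h; linear_combination h
  · intro h; linear_combination h

theorem coset_eq_iff (γ γ' : SL(2, ℤ)) :
    (γ : SL(2, ℤ) ⧸ Gamma0 N) = γ' ↔ cross (col N γ) (col N γ') = 0 := by
  rw [QuotientGroup.eq, inv_mul_mem_Gamma0_iff]

/-- Two unimodular pairs with vanishing cross product differ by a unit. -/
theorem exists_unit_of_cross_eq_zero {v w : ZMod N × ZMod N} (hv : IsCoprime v.1 v.2)
    (hw : IsCoprime w.1 w.2) (h : cross v w = 0) :
    ∃ u : (ZMod N)ˣ, w = ((u : ZMod N) * v.1, (u : ZMod N) * v.2) := by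
  obtain ⟨p, q, hpq⟩ := hv
  obtain ⟨p', q', hpq'⟩ := hw
  simp only [cross] at h
  have h1 : (p * w.1 + q * w.2) * v.1 = w.1 := by linear_combination q * h + w.1 * hpq
  have h2 : (p * w.1 + q * w.2) * v.2 = w.2 := by linear_combination -p * h + w.2 * hpq
  have h3 : (p' * v.1 + q' * v.2) * w.1 = v.1 := by linear_combination -q' * h + v.1 * hpq'
  have h4 : (p' * v.1 + q' * v.2) * w.2 = v.2 := by linear_combination p' * h + v.2 * hpq'
  have hu : (p * w.1 + q * w.2) * (p' * v.1 + q' * v.2) = 1 := by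
    linear_combination p * h3 + q * h4 + hpq
  refine ⟨⟨p * w.1 + q * w.2, p' * v.1 + q' * v.2, hu, by rw [mul_comm]; exact hu⟩, ?_⟩
  ext
  · exact h1.symm
  · exact h2.symm

theorem cross_smul_eq_zero (u : ZMod N) (v : ZMod N × ZMod N) :
    cross v (u * v.1, u * v.2) = 0 := by
  simp only [cross]; ring

theorem smul_coset (σ γ : SL(2, ℤ)) :
    σ • (γ : SL(2, ℤ) ⧸ Gamma0 N) = ((σ * γ : SL(2, ℤ)) : SL(2, ℤ) ⧸ Gamma0 N) := rfl

end Fermat.Agent.S24.Comb
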