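-- P-S24 Part V: fixed points of S and S*T on SL(2,Z)/Gamma0(N).
import Fermat.Agent.S24.CombBasic

set_option autoImplicit false

open Matrix Matrix.SpecialLinearGroup CongruenceSubgroup ModularGroup
open scoped MatrixGroups

namespace Fermat.Agent.S24.Comb

variable {N : ℕ}

theorem act_S (v : ZMod N × ZMod N) : act N S v = (-v.2, v.1) := by
  simp [act, S]

theorem act_ST (v : ZMod N × ZMod N) : act N (S * T) v = (-v.2, v.1 + v.2) := by
  rw [act_mul, act_S]
  simp [act, T]

theorem act_T (v : ZMod N × ZMod N) : act N T v = (v.1 + v.2, v.2) := by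
  simp [act, T]

theorem neg_one_smul_coset (q : SL(2, ℤ) ⧸ Gamma0 N) : (-1 : SL(2, ℤ)) • q = q := by
  induction q using QuotientGroup.induction_on with
  | H γ =>
    rw [smul_coset, eq_comm, coset_eq_iff, col_mul]
    simp [cross, act]
    ring

/-- The chosen lift of the point `(lam : 1)`. -/
noncomputable def liftRatio [NeZero N] (lam : ZMod N) : SL(2, ℤ) :=
  (exists_col_eq (N := N) (x := lam) (y := 1) isCoprime_one_right).choose

theorem col_liftRatio [NeZero N] (lam : ZMod N) : col N (liftRatio lam) = (lam, 1) :=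
  (exists_col_eq (N := N) (x := lam) (y := 1) isCoprime_one_right).choose_spec

theorem liftRatio_coset_injective [NeZero N] :
    Function.Injective (fun lam : ZMod N => (liftRatio lam : SL(2, ℤ) ⧸ Gamma0 N)) := by
  intro lam mu h
  simp only at h
  rw [coset_eq_iff, col_liftRatio, col_liftRatio] at h
  simp only [cross] at h
  linear_combination h

/-- `S`-fixed cosets correspond to roots of `x ^ 2 + 1`. -/
theorem card_fixedBy_S [NeZero N] :
    Nat.card (MulAction.fixedBy (SL(2, ℤ) ⧸ Gamma0 N) S) = ModularCurve.nuTwo N := by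
  unfold ModularCurve.nuTwo
  symm
  refine Nat.card_congr (Equiv.ofBijective
    (fun lam : {x : ZMod N // x ^ 2 + 1 = 0} =>
      (⟨(liftRatio lam.1 : SL(2, ℤ) ⧸ Gamma0 N), ?_⟩ :
        MulAction.fixedBy (SL(2, ℤ) ⧸ Gamma0 N) S)) ⟨?_, ?_⟩)
  · rw [MulAction.mem_fixedBy, smul_coset, eq_comm, coset_eq_iff, col_mul, col_liftRatio, act_S]
    simp only [cross]
    linear_combination lam.2
  · intro lam mu h
    have h1 := congrArg Subtype.val h
    exact Subtype.ext (liftRatio_coset_injective h1)
  · rintro ⟨q, hq⟩
    induction q using QuotientGroup.induction_on with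
    | H γ =>
      rw [MulAction.mem_fixedBy, smul_coset, eq_comm, coset_eq_iff, col_mul, act_S] at hq
      obtain ⟨p, r, hpr⟩ := isCoprime_col (N := N) γ
      set x := (col N γ).1 with hx
      set y := (col N γ).2 with hy
      simp only [cross] at hq
      have hq' : x ^ 2 + y ^ 2 = 0 := by linear_combination hq
      set w := -p ^ 2 * y + 2 * p * r * x + r ^ 2 * y with hw
      have hyw : y * w = 1 := by
        linear_combination (p * x + r * y + 1) * hpr - p ^ 2 * hq'
      refine ⟨⟨x * w, ?_⟩, ?_⟩
      · linear_combination w ^ 2 * hq' - (y * w + 1) * hyw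
      · apply Subtype.ext
        simp only
        rw [coset_eq_iff, col_liftRatio]
        simp only [cross]
        rw [← hx, ← hy]
        linear_combination x * hyw

/-- `S * T`-fixed cosets correspond to roots of `x ^ 2 + x + 1`. -/
theorem card_fixedBy_ST [NeZero N] :
    Nat.card (MulAction.fixedBy (SL(2, ℤ) ⧸ Gamma0 N) (S * T)) = ModularCurve.nuThree N := by
  unfold ModularCurve.nuThree
  symm
  refine Nat.card_congr (Equiv.ofBijective
    (fun lam : {x : ZMod N // x ^ 2 + x + 1 = 0} =>
      (⟨(liftRatio lam.1 : SL(2, ℤ) ⧸ Gamma0 N), ?_⟩ :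
        MulAction.fixedBy (SL(2, ℤ) ⧸ Gamma0 N) (S * T))) ⟨?_, ?_⟩)
  · rw [MulAction.mem_fixedBy, smul_coset, eq_comm, coset_eq_iff, col_mul, col_liftRatio, act_ST]
    simp only [cross]
    linear_combination lam.2
  · intro lam mu h
    have h1 := congrArg Subtype.val h
    exact Subtype.ext (liftRatio_coset_injective h1)
  · rintro ⟨q, hq⟩
    induction q using QuotientGroup.induction_on with
    | H γ =>
      rw [MulAction.mem_fixedBy, smul_coset, eq_comm, coset_eq_iff, col_mul, act_ST] at hq
      obtain ⟨p, r, hpr⟩ := isCoprime_col (N := N) γ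
      set x := (col N γ).1 with hx
      set y := (col N γ).2 with hy
      simp only [cross] at hq
      have hq' : x ^ 2 + x * y + y ^ 2 = 0 := by linear_combination hq
      set w := -p ^ 2 * x - p ^ 2 * y + 2 * p * r * x + r ^ 2 * y with hw
      have hyw : y * w = 1 := by
        linear_combination (p * x + r * y + 1) * hpr - p ^ 2 * hq'
      refine ⟨⟨x * w, ?_⟩, ?_⟩
      · linear_combination w ^ 2 * hq' - (x * w + y * w + 1) * hyw
      · apply Subtype.ext
        simp only
        rw [coset_eq_iff, col_liftRatio]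
        simp only [cross]
        rw [← hx, ← hy]
        linear_combination x * hyw

end Fermat.Agent.S24.Comb
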