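-- P-S24 Part V: the index of Gamma0(N) in SL(2,Z) equals the Dedekind psi function.
import Fermat.Agent.S24.CombFixed

set_option autoImplicit false

open Matrix Matrix.SpecialLinearGroup CongruenceSubgroup ModularGroup
open scoped MatrixGroups

namespace Fermat.Agent.S24.Comb

open ModularCurve

variable {N : ℕ}

/-- Unimodular pairs modulo `N`. -/
abbrev Vec (N : ℕ) : Type := {v : ZMod N × ZMod N // IsCoprime v.1 v.2}

instance (N : ℕ) [NeZero N] : Finite (Vec N) := by
  unfold Vec; infer_instance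

theorem cross_smul_smul (u u' : ZMod N) (v w : ZMod N × ZMod N) :
    cross (u * v.1, u * v.2) (u' * w.1, u' * w.2) = u * u' * cross v w := by
  simp only [cross]; ring

theorem card_vec_eq [NeZero N] :
    Nat.card (Vec N) = Nat.card (SL(2, ℤ) ⧸ Gamma0 N) * N.totient := by
  rw [← ZMod.card_units_eq_totient N, ← Nat.card_eq_fintype_card, ← Nat.card_prod]
  symm
  refine Nat.card_congr (Equiv.ofBijective
    (fun qu : (SL(2, ℤ) ⧸ Gamma0 N) × (ZMod N)ˣ =>
      (⟨((qu.2 : ZMod N) * (col N qu.1.out).1, (qu.2 : ZMod N) * (col N qu.1.out).2), ?_⟩ : Vec N))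
    ⟨?_, ?_⟩)
  · exact (isCoprime_mul_unit_left qu.2.isUnit _ _).mpr (isCoprime_col _)
  · rintro ⟨q, u⟩ ⟨q', u'⟩ h
    have h1 := congrArg Subtype.val h
    simp only at h1
    have hcross : cross (col N q.out) (col N q'.out) = 0 := by
      have h2 : cross ((u : ZMod N) * (col N q.out).1, (u : ZMod N) * (col N q.out).2)
          ((u' : ZMod N) * (col N q'.out).1, (u' : ZMod N) * (col N q'.out).2) = 0 := by
        rw [h1]; simp only [cross]; ring
      rw [cross_smul_smul] at h2
      have hu : IsUnit ((u : ZMod N) * (u' : ZMod N)) := (u * u').isUnit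
      exact (hu.mul_right_eq_zero).mp h2
    have hq : q = q' := by
      rw [← QuotientGroup.out_eq' q, ← QuotientGroup.out_eq' q', coset_eq_iff]
      exact hcross
    subst hq
    obtain ⟨a, b, hab⟩ := isCoprime_col (N := N) q.out
    have h3 := (Prod.ext_iff.mp h1)
    simp only at h3
    have hu : (u : ZMod N) = u' := by
      calc (u : ZMod N) = u * (a * (col N q.out).1 + b * (col N q.out).2) := by rw [hab, mul_one]
        _ = a * (u * (col N q.out).1) + b * (u * (col N q.out).2) := by ring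
        _ = a * (u' * (col N q.out).1) + b * (u' * (col N q.out).2) := by rw [h3.1, h3.2]
        _ = u' * (a * (col N q.out).1 + b * (col N q.out).2) := by ring
        _ = u' := by rw [hab, mul_one]
    exact Prod.ext rfl (Units.ext hu)
  · rintro ⟨v, hv⟩
    obtain ⟨γ', hγ'⟩ := exists_col_eq (N := N) (x := v.1) (y := v.2) hv
    have hc : cross (col N (γ' : SL(2, ℤ) ⧸ Gamma0 N).out) (col N γ') = 0 := by
      rw [← coset_eq_iff, QuotientGroup.out_eq']
    obtain ⟨u, hu⟩ := exists_unit_of_cross_eq_zero (isCoprime_col _) (isCoprime_col _) hc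
    refine ⟨((γ' : SL(2, ℤ) ⧸ Gamma0 N), u), ?_⟩
    apply Subtype.ext
    simp only
    rw [← hu, hγ']

theorem squarefree_dvd_of_dvd_mul_prime {d N p : ℕ} (hp : p.Prime) (hpN : p ∣ N) (hd : Squarefree d)
    (hdN : d ∣ N * p) : d ∣ N := by
  by_cases hpd : p ∣ d
  · obtain ⟨e, rfl⟩ := hpd
    have hpe : Nat.Coprime p e := by
      have := (Nat.squarefree_mul_iff.mp hd).1
      exact this
    have he : e ∣ N := by
      have h1 : p * e ∣ p * N := by rwa [mul_comm N p] at hdN
      exact Nat.dvd_of_mul_dvd_mul_left hp.pos h1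
    exact Nat.Coprime.mul_dvd_of_dvd_of_dvd hpe hpN he
  · have hcop : Nat.Coprime d p := (Nat.Prime.coprime_iff_not_dvd hp).mpr hpd |>.symm
    exact hcop.dvd_of_dvd_mul_right hdN

theorem dedekindPsi_mul_prime_of_dvd {N p : ℕ} (hN : N ≠ 0) (hp : p.Prime) (hpN : p ∣ N) :
    dedekindPsi (N * p) = p * dedekindPsi N := by
  unfold dedekindPsi
  have hset : (N * p).divisors.filter Squarefree = N.divisors.filter Squarefree := by
    ext d
    simp only [Finset.mem_filter, Nat.mem_divisors]
    constructor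
    · rintro ⟨⟨hd, _⟩, hsq⟩
      exact ⟨⟨squarefree_dvd_of_dvd_mul_prime hp hpN hsq hd, hN⟩, hsq⟩
    · rintro ⟨⟨hd, _⟩, hsq⟩
      exact ⟨⟨hd.mul_right p, mul_ne_zero hN hp.ne_zero⟩, hsq⟩
  rw [hset, Finset.mul_sum]
  refine Finset.sum_congr rfl fun d hd => ?_
  simp only [Finset.mem_filter, Nat.mem_divisors] at hd
  rw [mul_comm N p, Nat.mul_div_assoc p hd.1.1]

theorem dedekindPsi_mul_prime_of_not_dvd {N p : ℕ} (hN : N ≠ 0) (hp : p.Prime) (hpN : ¬ p ∣ N) :
    dedekindPsi (N * p) = (p + 1) * dedekindPsi N := by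
  unfold dedekindPsi
  have hcop : Nat.Coprime N p := (Nat.Prime.coprime_iff_not_dvd hp).mpr hpN |>.symm
  set A := N.divisors.filter Squarefree with hA
  have hAmem : ∀ d, d ∈ A ↔ d ∣ N ∧ Squarefree d := by
    intro d; simp [hA, hN]
  have hset : (N * p).divisors.filter Squarefree = A ∪ A.image (· * p) := by
    ext d
    simp only [Finset.mem_filter, Nat.mem_divisors, Finset.mem_union, Finset.mem_image, hAmem]
    constructor
    · rintro ⟨⟨hd, _⟩, hsq⟩
      by_cases hpd : p ∣ d
      · right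
        obtain ⟨e, rfl⟩ := hpd
        refine ⟨e, ⟨?_, ?_⟩, mul_comm _ _⟩
        · have h1 : p * e ∣ p * N := by rwa [mul_comm N p] at hd
          exact Nat.dvd_of_mul_dvd_mul_left hp.pos h1
        · exact hsq.of_mul_right
      · left
        have hcop' : Nat.Coprime d p := (Nat.Prime.coprime_iff_not_dvd hp).mpr hpd |>.symm
        exact ⟨hcop'.dvd_of_dvd_mul_right hd, hsq⟩
    · rintro (⟨hd, hsq⟩ | ⟨e, ⟨he, hsq⟩, rfl⟩)
      · exact ⟨⟨hd.mul_right p, mul_ne_zero hN hp.ne_zero⟩, hsq⟩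
      · refine ⟨⟨Nat.mul_dvd_mul_right he p, mul_ne_zero hN hp.ne_zero⟩, ?_⟩
        have hcop' : Nat.Coprime e p := Nat.Coprime.coprime_dvd_left he hcop
        exact (Nat.squarefree_mul_iff).mpr ⟨hcop', hsq, hp.squarefree⟩
  have hdisj : Disjoint A (A.image (· * p)) := by
    rw [Finset.disjoint_left]
    intro d hd hd'
    rw [Finset.mem_image] at hd'
    obtain ⟨e, _, rfl⟩ := hd'
    exact hpN (((hAmem _).mp hd).1 |> fun h => (Dvd.intro_left e rfl).trans h)
  rw [hset, Finset.sum_union hdisj, Finset.sum_image (fun a _ b _ h => Nat.eq_of_mul_eq_mul_right hp.pos h),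
    add_mul, one_mul, Finset.mul_sum]
  congr 1
  · refine Finset.sum_congr rfl fun d hd => ?_
    rw [mul_comm N p, Nat.mul_div_assoc p ((hAmem d).mp hd).1]
  · refine Finset.sum_congr rfl fun d hd => ?_
    exact Nat.mul_div_mul_right N d hp.pos

/-- All fibres of a surjective additive group hom have the same size. -/
theorem card_fiber_mul_card {A B : Type*} [AddCommGroup A] [AddCommGroup B] [Finite A]
    (f : A →+ B) (hf : Function.Surjective f) (b : B) :
    Nat.card {a // f a = b} * Nat.card B = Nat.card A := by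
  have : Finite B := Finite.of_surjective f hf
  have : Fintype B := Fintype.ofFinite B
  have hconst : ∀ b' : B, Nat.card {a // f a = b'} = Nat.card {a // f a = b} := by
    intro b'
    obtain ⟨a0, ha0⟩ := hf (b' - b)
    refine Nat.card_congr ⟨fun a => ⟨a.1 - a0, by rw [map_sub, a.2, ha0]; abel⟩,
      fun a => ⟨a.1 + a0, by rw [map_add, a.2, ha0]; abel⟩, fun a => ?_, fun a => ?_⟩
    · apply Subtype.ext; simp
    · apply Subtype.ext; simp
  rw [Nat.card_congr (Equiv.sigmaFiberEquiv f).symm, Nat.card_sigma]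
  simp only [hconst, Finset.sum_const, Finset.card_univ, smul_eq_mul, Nat.card_eq_fintype_card]
  ring

theorem card_fiber_castHom {N p : ℕ} [NeZero N] [NeZero p] (x : ZMod N) :
    Nat.card {t : ZMod (N * p) // ZMod.castHom (dvd_mul_right N p) (ZMod N) t = x} = p := by
  have h := card_fiber_mul_card (ZMod.castHom (dvd_mul_right N p) (ZMod N)).toAddMonoidHom
    (ZMod.castHom_surjective (dvd_mul_right N p)) x
  simp only [Nat.card_eq_fintype_card, ZMod.card] at h
  have hN : 0 < N := Nat.pos_of_ne_zero (NeZero.ne N)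
  rw [Nat.card_eq_fintype_card]
  have h' : Fintype.card {t : ZMod (N * p) // ZMod.castHom (dvd_mul_right N p) (ZMod N) t = x} * N
      = p * N := by
    rw [mul_comm p N]; exact h
  exact Nat.eq_of_mul_eq_mul_right hN h'

theorem sq_eq_zero_of_castHom_eq_zero {N p : ℕ} [NeZero N] [NeZero p] (hpN : p ∣ N)
    (e : ZMod (N * p)) (he : ZMod.castHom (dvd_mul_right N p) (ZMod N) e = 0) : e * e = 0 := by
  rw [← ZMod.natCast_zmod_val e, map_natCast, ZMod.natCast_eq_zero_iff] at he
  obtain ⟨k, hk⟩ := he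
  obtain ⟨m, hm⟩ := hpN
  rw [← ZMod.natCast_zmod_val e, hk, ← Nat.cast_mul, ZMod.natCast_eq_zero_iff]
  refine ⟨m * k * k, ?_⟩
  rw [hm]; ring

theorem isCoprime_iff_castHom {N p : ℕ} [NeZero N] [NeZero p] (hpN : p ∣ N)
    (x y : ZMod (N * p)) :
    IsCoprime x y ↔ IsCoprime (ZMod.castHom (dvd_mul_right N p) (ZMod N) x)
      (ZMod.castHom (dvd_mul_right N p) (ZMod N) y) := by
  constructor
  · intro h; exact h.map _
  · rintro ⟨a', b', hab⟩
    obtain ⟨a, rfl⟩ := ZMod.castHom_surjective (dvd_mul_right N p) a'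
    obtain ⟨b, rfl⟩ := ZMod.castHom_surjective (dvd_mul_right N p) b'
    set e := a * x + b * y - 1 with he
    have he0 : ZMod.castHom (dvd_mul_right N p) (ZMod N) e = 0 := by
      rw [he, map_sub, map_add, map_mul, map_mul, hab, map_one, sub_self]
    have hee := sq_eq_zero_of_castHom_eq_zero hpN e he0
    refine ⟨(1 - e) * a, (1 - e) * b, ?_⟩
    have : a * x + b * y = 1 + e := by rw [he]; ring
    calc (1 - e) * a * x + (1 - e) * b * y = (1 - e) * (a * x + b * y) := by ring
      _ = (1 - e) * (1 + e) := by rw [this]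
      _ = 1 - e * e := by ring
      _ = 1 := by rw [hee, sub_zero]

theorem card_vec_mul_prime_of_dvd {N p : ℕ} [NeZero N] (hp : p.Prime) (hpN : p ∣ N) :
    Nat.card (Vec (N * p)) = p ^ 2 * Nat.card (Vec N) := by
  have : NeZero p := ⟨hp.ne_zero⟩
  have : Fintype (Vec N) := Fintype.ofFinite _
  set r := ZMod.castHom (dvd_mul_right N p) (ZMod N) with hr
  let F : Vec (N * p) → Vec N := fun v => ⟨(r v.1.1, r v.1.2), v.2.map r⟩
  rw [Nat.card_congr (Equiv.sigmaFiberEquiv F).symm, Nat.card_sigma]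
  have hfib : ∀ w : Vec N, Nat.card {v : Vec (N * p) // F v = w} = p * p := by
    intro w
    have e : {v : Vec (N * p) // F v = w} ≃
        {t : ZMod (N * p) // r t = w.1.1} × {t : ZMod (N * p) // r t = w.1.2} := by
      refine ⟨fun v => (⟨v.1.1.1, ?_⟩, ⟨v.1.1.2, ?_⟩), fun ab =>
        ⟨⟨(ab.1.1, ab.2.1), ?_⟩, ?_⟩, fun v => ?_, fun ab => ?_⟩
      · exact congrArg (fun u : Vec N => u.1.1) v.2
      · exact congrArg (fun u : Vec N => u.1.2) v.2
      · rw [isCoprime_iff_castHom hpN]
        simp only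
        rw [ab.1.2, ab.2.2]
        exact w.2
      · apply Subtype.ext
        simp only [F]
        exact Prod.ext ab.1.2 ab.2.2
      · apply Subtype.ext; apply Subtype.ext; rfl
      · rfl
    rw [Nat.card_congr e, Nat.card_prod, hr, card_fiber_castHom, card_fiber_castHom]
  simp only [hfib, Finset.sum_const, Finset.card_univ, smul_eq_mul, Nat.card_eq_fintype_card]
  ring

theorem isCoprime_prod_iff {R S : Type*} [CommRing R] [CommRing S] (a b : R × S) :
    IsCoprime a b ↔ IsCoprime a.1 b.1 ∧ IsCoprime a.2 b.2 := by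
  constructor
  · rintro ⟨u, v, h⟩
    exact ⟨⟨u.1, v.1, congrArg Prod.fst h⟩, ⟨u.2, v.2, congrArg Prod.snd h⟩⟩
  · rintro ⟨⟨u1, v1, h1⟩, ⟨u2, v2, h2⟩⟩
    exact ⟨(u1, u2), (v1, v2), Prod.ext h1 h2⟩

theorem card_vec_prime {p : ℕ} (hp : p.Prime) : Nat.card (Vec p) = p ^ 2 - 1 := by
  have : Fact p.Prime := ⟨hp⟩
  have hiff : ∀ v : ZMod p × ZMod p, IsCoprime v.1 v.2 ↔ v ≠ 0 := by
    intro v
    constructor
    · rintro ⟨a, b, hab⟩ rfl
      simp at hab
    · intro hv
      by_cases h1 : v.1 = 0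
      · have h2 : v.2 ≠ 0 := fun h2 => hv (Prod.ext h1 h2)
        exact ⟨0, v.2⁻¹, by rw [zero_mul, zero_add, inv_mul_cancel₀ h2]⟩
      · exact ⟨v.1⁻¹, 0, by rw [zero_mul, add_zero, inv_mul_cancel₀ h1]⟩
  have e : Vec p ≃ {v : ZMod p × ZMod p // v ≠ 0} :=
    Equiv.subtypeEquivRight hiff
  rw [Nat.card_congr e, Nat.card_eq_fintype_card, Fintype.card_subtype_compl,
    Fintype.card_subtype_eq, Fintype.card_prod, ZMod.card]
  ring_nf

theorem card_vec_mul_prime_of_not_dvd {N p : ℕ} [NeZero N] (hp : p.Prime) (hpN : ¬ p ∣ N) :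
    Nat.card (Vec (N * p)) = (p ^ 2 - 1) * Nat.card (Vec N) := by
  have hcop : Nat.Coprime N p := (Nat.Prime.coprime_iff_not_dvd hp).mpr hpN |>.symm
  set e := ZMod.chineseRemainder hcop with he
  have hiff : ∀ x y : ZMod (N * p), IsCoprime x y ↔
      IsCoprime (e x).1 (e y).1 ∧ IsCoprime (e x).2 (e y).2 := by
    intro x y
    rw [← isCoprime_prod_iff]
    constructor
    · intro h; exact h.map e.toRingHom
    · intro h
      have := h.map e.symm.toRingHom
      simpa using this
  have E : Vec (N * p) ≃ Vec N × Vec p := by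
    refine ⟨fun v => (⟨((e v.1.1).1, (e v.1.2).1), ((hiff _ _).mp v.2).1⟩,
      ⟨((e v.1.1).2, (e v.1.2).2), ((hiff _ _).mp v.2).2⟩),
      fun ab => ⟨(e.symm (ab.1.1.1, ab.2.1.1), e.symm (ab.1.1.2, ab.2.1.2)), ?_⟩,
      fun v => ?_, fun ab => ?_⟩
    · rw [hiff]
      simp only [RingEquiv.apply_symm_apply]
      exact ⟨ab.1.2, ab.2.2⟩
    · apply Subtype.ext
      simp
    · simp
  rw [Nat.card_congr E, Nat.card_prod, card_vec_prime hp, mul_comm]

theorem card_vec_one : Nat.card (Vec 1) = 1 := by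
  have : Unique (Vec 1) := by
    refine ⟨⟨⟨(0, 0), ⟨0, 0, Subsingleton.elim _ _⟩⟩⟩, fun v => ?_⟩
    apply Subtype.ext
    exact Subsingleton.elim _ _
  exact Nat.card_unique

theorem card_vec_eq_totient_mul_psi (N : ℕ) (hN : N ≠ 0) :
    Nat.card (Vec N) = N.totient * dedekindPsi N := by
  induction N using Nat.strong_induction_on with
  | _ N ih =>
    by_cases h1 : N = 1
    · subst h1
      rw [card_vec_one, Nat.totient_one, dedekindPsi_one]
    · have hp : N.minFac.Prime := Nat.minFac_prime h1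
      set p := N.minFac with hpdef
      obtain ⟨M, hM⟩ : p ∣ N := Nat.minFac_dvd N
      have hM0 : M ≠ 0 := by rintro rfl; exact hN (by simpa using hM)
      have hMlt : M < N := by
        rw [hM]
        exact lt_mul_of_one_lt_left (Nat.pos_of_ne_zero hM0) hp.one_lt
      have ihM := ih M hMlt hM0
      have hNM : N = M * p := by rw [hM, mul_comm]
      have : NeZero M := ⟨hM0⟩
      rw [hNM]
      by_cases hpM : p ∣ M
      · rw [card_vec_mul_prime_of_dvd hp hpM, ihM, dedekindPsi_mul_prime_of_dvd hM0 hp hpM,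
          mul_comm M p, Nat.totient_mul_of_prime_of_dvd hp hpM]
        ring
      · rw [card_vec_mul_prime_of_not_dvd hp hpM, ihM, dedekindPsi_mul_prime_of_not_dvd hM0 hp hpM,
          mul_comm M p, Nat.totient_mul_of_prime_of_not_dvd hp hpM]
        obtain ⟨q, hq⟩ : ∃ q, p = q + 1 := ⟨p - 1, by have := hp.pos; omega⟩
        rw [hq]
        have : (q + 1) ^ 2 - 1 = (q + 1 - 1) * (q + 1 + 1) := by
          simp only [Nat.add_sub_cancel]
          have : (q + 1) ^ 2 = q * (q + 1 + 1) + 1 := by ring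
          rw [this, Nat.add_sub_cancel]
        rw [this]
        ring

/-- The index of `Gamma0 N` is the Dedekind psi function. -/
theorem card_quotient_Gamma0 (N : ℕ) [NeZero N] :
    Nat.card (SL(2, ℤ) ⧸ Gamma0 N) = dedekindPsi N := by
  have h1 := card_vec_eq (N := N)
  rw [card_vec_eq_totient_mul_psi N (NeZero.ne N), mul_comm] at h1
  exact (Nat.eq_of_mul_eq_mul_right (Nat.totient_pos.mpr (Nat.pos_of_ne_zero (NeZero.ne N))) h1).symm

theorem index_Gamma0 (N : ℕ) [NeZero N] : (Gamma0 N).index = dedekindPsi N := by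
  rw [Subgroup.index_eq_card, card_quotient_Gamma0]

end Fermat.Agent.S24.Comb
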