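import Mathlib
import Fermat.Prelude.Def_ModularCurve_LaurentCoeff

/-!
Linear disjointness of Laurent series over `K` and a field extension `C` of `K`:
descent of polynomial relations from `C` to `K`.
-/

set_option autoImplicit false

namespace Fermat.Agent.S24.Descent

open HahnSeries ModularCurve

variable {K C : Type*} [Field K] [Field C] [Algebra K C]

/-- desc-1: elementary linear disjointness. -/
theorem eq_zero_of_sum_C_mul_coeffMap_eq_zero {r : ℕ} (lam : Fin r → C)
    (hlam : LinearIndependent K lam) (s : Fin r → LaurentSeries K)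
    (h : ∑ k, HahnSeries.C (lam k) * coeffMap (algebraMap K C) (s k) = 0) :
    ∀ k, s k = 0 := by
  have key : ∀ n : ℤ, ∑ k, ((s k).coeff n) • lam k = 0 := by
    intro n
    have hn := congrArg (fun x : LaurentSeries C => x.coeff n) h
    simp only [HahnSeries.coeff_sum, HahnSeries.coeff_zero, C_mul_eq_smul, HahnSeries.coeff_smul,
      coeffMap_coeff, smul_eq_mul] at hn
    rw [← hn]
    refine Finset.sum_congr rfl fun k _ => ?_
    rw [Algebra.smul_def, mul_comm]
  intro k
  ext n
  have := Fintype.linearIndependent_iff.mp hlam (fun k => (s k).coeff n) (key n) k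
  simpa using this

/-- Apply a `K`-linear functional `C → K` to the coefficients of a polynomial. -/
noncomputable def mapFunctional (φ : C →ₗ[K] K) (p : Polynomial C) : Polynomial K :=
  ∑ n ∈ p.support, Polynomial.monomial n (φ (p.coeff n))

@[simp]
theorem coeff_mapFunctional (φ : C →ₗ[K] K) (p : Polynomial C) (n : ℕ) :
    (mapFunctional φ p).coeff n = φ (p.coeff n) := by
  classical
  simp only [mapFunctional, Polynomial.finsetSum_coeff, Polynomial.coeff_monomial]
  rw [Finset.sum_ite_eq' p.support n]
  split_ifs with hn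
  · rfl
  · rw [Polynomial.notMem_support_iff.mp hn, map_zero]

theorem natDegree_mapFunctional_le (φ : C →ₗ[K] K) (p : Polynomial C) :
    (mapFunctional φ p).natDegree ≤ p.natDegree := by
  rw [Polynomial.natDegree_le_iff_coeff_eq_zero]
  intro n hn
  rw [coeff_mapFunctional, Polynomial.coeff_eq_zero_of_natDegree_lt hn, map_zero]

theorem mapFunctional_ne_zero_of_apply_coeff_ne_zero (φ : C →ₗ[K] K) (p : Polynomial C) (n : ℕ)
    (h : φ (p.coeff n) ≠ 0) : mapFunctional φ p ≠ 0 := by
  intro h0
  apply h
  rw [← coeff_mapFunctional, h0, Polynomial.coeff_zero]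

/-- Functional form of the descent: a polynomial relation over `C` between base-changed Laurent
series stays a relation after applying any `K`-linear functional to the coefficients. -/
theorem sum_aeval_mapFunctional_mul_eq_zero {m : ℕ} (φ : C →ₗ[K] K) (t : LaurentSeries K)
    (f : Fin m → LaurentSeries K) (p : Fin m → Polynomial C)
    (h : ∑ i, Polynomial.aeval (coeffMap (algebraMap K C) t) (p i) *
      coeffMap (algebraMap K C) (f i) = 0) :
    ∑ i, Polynomial.aeval t (mapFunctional φ (p i)) * f i = 0 := by
  classical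
  -- a common degree bound
  set D : ℕ := (Finset.univ.sup fun i => (p i).natDegree) + 1 with hD
  have hdeg : ∀ i, (p i).natDegree < D := fun i =>
    Nat.lt_succ_of_le (Finset.le_sup (f := fun i => (p i).natDegree) (Finset.mem_univ i))
  have hdeg' : ∀ i, (mapFunctional φ (p i)).natDegree < D := fun i =>
    lt_of_le_of_lt (natDegree_mapFunctional_le φ (p i)) (hdeg i)
  ext n
  have hn := congrArg (fun x : LaurentSeries C => x.coeff n) h
  simp only [HahnSeries.coeff_sum, HahnSeries.coeff_zero] at hn ⊢
  -- expand both sides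
  have e1 : ∀ i, (Polynomial.aeval (coeffMap (algebraMap K C) t) (p i) *
      coeffMap (algebraMap K C) (f i)).coeff n =
      ∑ j ∈ Finset.range D, (p i).coeff j * algebraMap K C ((t ^ j * f i).coeff n) := by
    intro i
    rw [Polynomial.aeval_eq_sum_range' (hdeg i), Finset.sum_mul, HahnSeries.coeff_sum]
    refine Finset.sum_congr rfl fun j _ => ?_
    rw [Algebra.smul_def, algebraMap_laurentSeries_eq_single, mul_assoc,
      HahnSeries.coeff_single_zero_mul, ← map_pow, ← map_mul, coeffMap_coeff]
  have e2 : ∀ i, (Polynomial.aeval t (mapFunctional φ (p i)) * f i).coeff n =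
      ∑ j ∈ Finset.range D, φ ((p i).coeff j) * (t ^ j * f i).coeff n := by
    intro i
    rw [Polynomial.aeval_eq_sum_range' (hdeg' i), Finset.sum_mul, HahnSeries.coeff_sum]
    refine Finset.sum_congr rfl fun j _ => ?_
    rw [Algebra.smul_def, algebraMap_laurentSeries_eq_single, mul_assoc,
      HahnSeries.coeff_single_zero_mul, coeff_mapFunctional]
  simp only [e1] at hn
  simp only [e2]
  have := congrArg φ hn
  rw [map_zero, map_sum] at this
  rw [← this]
  refine Finset.sum_congr rfl fun i _ => ?_
  rw [map_sum]
  refine Finset.sum_congr rfl fun j _ => ?_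
  rw [mul_comm ((p i).coeff j), ← Algebra.smul_def, map_smul, smul_eq_mul, mul_comm]

/-- desc-2: a nontrivial polynomial relation over `C` descends to one over `K`. -/
theorem exists_relation_of_relation_baseChange {m : ℕ} (t : LaurentSeries K)
    (f : Fin m → LaurentSeries K) (p : Fin m → Polynomial C) (hp : ∃ i, p i ≠ 0)
    (h : ∑ i, Polynomial.aeval (coeffMap (algebraMap K C) t) (p i) *
      coeffMap (algebraMap K C) (f i) = 0) :
    ∃ p' : Fin m → Polynomial K, (∃ i, p' i ≠ 0) ∧
      (∀ i, (p' i).natDegree ≤ (p i).natDegree) ∧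
      ∑ i, Polynomial.aeval t (p' i) * f i = 0 := by
  obtain ⟨i, hi⟩ := hp
  obtain ⟨n, hn⟩ : ∃ n, (p i).coeff n ≠ 0 := by
    by_contra hcon
    exact hi (Polynomial.ext fun n => by
      rw [Polynomial.coeff_zero]
      exact not_not.mp fun hne => hcon ⟨n, hne⟩)
  obtain ⟨φ, hφ⟩ := Module.Projective.exists_dual_ne_zero K hn
  exact ⟨fun i => mapFunctional φ (p i),
    ⟨i, mapFunctional_ne_zero_of_apply_coeff_ne_zero φ (p i) n hφ⟩,
    fun i => natDegree_mapFunctional_le φ (p i),
    sum_aeval_mapFunctional_mul_eq_zero φ t f p h⟩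

end Fermat.Agent.S24.Descent
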