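import Mathlib
import Fermat.Prelude.Def_ModularCurve_X0
import Fermat.Agent.S24.JDef
import Fermat.Agent.S24.JQExp.EtaProd

/-!
helper76 (P-S24 Part II (a2)): the `q`-expansion of the analytic `j`-function `jFn = E₄³/Δ` is the
formal series `ModularCurve.jq = q⁻¹ * jNum` of the Prelude.

Main results (namespace `Fermat.Agent.S24.JQExp`):
* `qExpansion_E₄ : qExpansion 1 E₄ = eisenstein4.map (Int.castRingHom ℂ)`
* `qExpansion_discriminant : qExpansion 1 Δ = (X * dedekindEtaUnit).map (Int.castRingHom ℂ)`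
* `hasSum_jNum τ : HasSum (fun n => (jNum.coeff n : ℂ) * 𝕢 1 τ ^ n) (𝕢 1 τ * jFn τ)`
-/

set_option autoImplicit false

open UpperHalfPlane hiding I
open Complex Filter Function Topology ModularForm EisensteinSeries
open scoped Real Manifold MatrixGroups ArithmeticFunction.sigma

namespace Fermat.Agent.S24.JQExp

local notation "𝕢" => Periodic.qParam

local notation "Δ" => ModularForm.discriminant

theorem qExpansion_eq_taylorPS (f : ℍ → ℂ) : qExpansion 1 f = taylorPS (cuspFunction 1 f) := by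
  ext m
  rw [qExpansion_coeff, taylorPS_coeff]

/-- The `q`-expansion of `E₄` is the formal series `eisenstein4`. -/
theorem qExpansion_E₄ :
    qExpansion 1 E₄ = ModularCurve.eisenstein4.map (Int.castRingHom ℂ) := by
  ext m
  rw [E_qExpansion_coeff (by norm_num) ⟨2, rfl⟩ m, PowerSeries.coeff_map, ModularCurve.eisenstein4,
    PowerSeries.coeff_mk]
  have hb : bernoulli 4 = -1 / 30 := by decide +kernel
  split_ifs with h
  · simp
  · rw [hb, ArithmeticFunction.sigma_apply]
    push_cast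
    norm_num

/-- The cusp function of `E₄`, as a function on the disc. -/
noncomputable def E4fun : ℂ → ℂ := cuspFunction 1 E₄

theorem E4fun_differentiableOn : DifferentiableOn ℂ E4fun (Metric.ball (0 : ℂ) 1) := by
  intro q hq
  exact (ModularFormClass.differentiableAt_cuspFunction E₄ one_pos one_mem_strictPeriods_SL
    (by simpa using hq)).differentiableWithinAt

theorem E4fun_analyticAt_zero : AnalyticAt ℂ E4fun 0 :=
  ModularFormClass.analyticAt_cuspFunction_zero E₄ one_pos one_mem_strictPeriods_SL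

theorem E4fun_qParam (τ : ℍ) : E4fun (𝕢 1 τ) = E₄ τ :=
  SlashInvariantFormClass.eq_cuspFunction E₄ τ one_mem_strictPeriods_SL one_ne_zero

theorem taylorPS_E4fun : taylorPS E4fun = ModularCurve.eisenstein4.map (Int.castRingHom ℂ) := by
  rw [E4fun, ← qExpansion_eq_taylorPS, qExpansion_E₄]

/-- `Δ` in terms of the Euler function. -/
theorem discriminant_eq_qParam_mul_eulerFun (τ : ℍ) :
    Δ τ = 𝕢 1 τ * eulerFun (𝕢 1 τ) ^ 24 := by
  have hq : ‖𝕢 1 (τ : ℂ)‖ < 1 := Periodic.norm_qParam_lt_one one_pos τ.im_pos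
  rw [discriminant_eq_q_prod, eulerFun, ← (multipliable_one_sub_pow hq).tprod_pow 24]

theorem cuspFunction_discriminant_eqOn :
    Set.EqOn (cuspFunction 1 Δ) (fun q => q * eulerFun q ^ 24) (Metric.ball (0 : ℂ) 1) := by
  intro q hq
  have hq' : ‖q‖ < 1 := by simpa using hq
  rw [discriminant_cuspFunction_eqOn hq]
  simp only [eulerFun]
  rw [(multipliable_one_sub_pow hq').tprod_pow 24]

/-- The `q`-expansion of `Δ` is the formal series `q * ∏ (1 - q^n)^24`. -/
theorem qExpansion_discriminant :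
    qExpansion 1 Δ =
      (PowerSeries.X * ModularCurve.dedekindEtaUnit).map (Int.castRingHom ℂ) := by
  have h0 : cuspFunction 1 Δ =ᶠ[𝓝 0] fun q => q * eulerFun q ^ 24 :=
    cuspFunction_discriminant_eqOn.eventuallyEq_of_mem (Metric.ball_mem_nhds 0 one_pos)
  rw [qExpansion_eq_taylorPS, taylorPS_congr h0,
    taylorPS_fun_mul (F := fun q => q) (G := fun q => eulerFun q ^ 24) analyticAt_id
      (eulerFun_analyticAt_zero.fun_pow 24),
    taylorPS_X, taylorPS_pow eulerFun_analyticAt_zero, taylorPS_eulerFun,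
    ModularCurve.dedekindEtaUnit]
  simp

/-- The function `q ↦ E₄(q)³ / ∏ (1 - q^n)^24 = q * j` on the unit disc. -/
noncomputable def jNumFun (q : ℂ) : ℂ := E4fun q ^ 3 / eulerFun q ^ 24

theorem jNumFun_differentiableOn : DifferentiableOn ℂ jNumFun (Metric.ball (0 : ℂ) 1) := by
  refine (E4fun_differentiableOn.fun_pow 3).fun_div (eulerFun_differentiableOn.fun_pow 24) ?_
  intro q hq
  exact pow_ne_zero _ (eulerFun_ne_zero (by simpa using hq))

theorem jNumFun_analyticAt_zero : AnalyticAt ℂ jNumFun 0 :=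
  jNumFun_differentiableOn.analyticAt (Metric.ball_mem_nhds 0 one_pos)

theorem jNumFun_qParam (τ : ℍ) : jNumFun (𝕢 1 τ) = 𝕢 1 τ * jFn τ := by
  have hq : ‖𝕢 1 (τ : ℂ)‖ < 1 := Periodic.norm_qParam_lt_one one_pos τ.im_pos
  have hq0 : 𝕢 1 (τ : ℂ) ≠ 0 := Periodic.qParam_ne_zero _
  have he := eulerFun_ne_zero hq
  rw [jNumFun, E4fun_qParam, jFn, discriminant_eq_qParam_mul_eulerFun]
  field_simp

/-- The Taylor series of `q * j` is the formal series `jNum`. -/
theorem taylorPS_jNumFun : taylorPS jNumFun = ModularCurve.jNum.map (Int.castRingHom ℂ) := by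
  have h0 : (fun q => jNumFun q * eulerFun q ^ 24) =ᶠ[𝓝 0] fun q => E4fun q ^ 3 := by
    filter_upwards [Metric.ball_mem_nhds (0 : ℂ) one_pos] with q hq
    have he : eulerFun q ^ 24 ≠ 0 := pow_ne_zero _ (eulerFun_ne_zero (by simpa using hq))
    rw [jNumFun, div_mul_cancel₀ _ he]
  have h1 := taylorPS_congr h0
  rw [taylorPS_fun_mul jNumFun_analyticAt_zero (eulerFun_analyticAt_zero.fun_pow 24),
    taylorPS_pow eulerFun_analyticAt_zero, taylorPS_pow E4fun_analyticAt_zero, taylorPS_eulerFun,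
    taylorPS_E4fun] at h1
  have h2 : (ModularCurve.dedekindEtaUnit.map (Int.castRingHom ℂ)) *
      (ModularCurve.dedekindEtaUnitInv.map (Int.castRingHom ℂ)) = 1 := by
    rw [← map_mul, ModularCurve.dedekindEtaUnit_mul_inv, map_one]
  rw [ModularCurve.jNum, map_mul, map_pow, ← h1, ← map_pow, ← ModularCurve.dedekindEtaUnit,
    mul_assoc, h2, mul_one]

/-- **`q`-expansion of `j`.** For `τ` in the upper half plane and `q = exp (2πiτ)`,
`q * j(τ) = ∑ jNum_n q^n`, where `jNum` is the integral power series of the Prelude. -/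
theorem hasSum_jNum (τ : ℍ) :
    HasSum (fun n : ℕ => ((ModularCurve.jNum.coeff n : ℤ) : ℂ) * 𝕢 1 τ ^ n) (𝕢 1 τ * jFn τ) := by
  have hq : ‖𝕢 1 (τ : ℂ)‖ < 1 := Periodic.norm_qParam_lt_one one_pos τ.im_pos
  have h := hasSum_taylorPS jNumFun_differentiableOn hq
  rw [jNumFun_qParam, taylorPS_jNumFun] at h
  simpa using h

/-- Version with a general `q` in the punctured unit disc. -/
theorem hasSum_jNum_of_norm_lt {q : ℂ} (hq : ‖q‖ < 1) :
    HasSum (fun n : ℕ => ((ModularCurve.jNum.coeff n : ℤ) : ℂ) * q ^ n) (jNumFun q) := by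
  have h := hasSum_taylorPS jNumFun_differentiableOn hq
  rw [taylorPS_jNumFun] at h
  simpa using h

/-- The `q`-expansion of `Δ * j = E₄³`. -/
theorem qExpansion_discriminant_mul_jFn :
    qExpansion 1 (fun z => Δ z * jFn z) =
      (ModularCurve.eisenstein4 ^ 3).map (Int.castRingHom ℂ) := by
  have h : (fun z => Δ z * jFn z) = fun z => E₄ z ^ 3 := by
    funext z; rw [mul_comm, jFn_mul_discriminant]
  rw [h, qExpansion_eq_taylorPS]
  have hc : cuspFunction 1 (fun z => E₄ z ^ 3) =ᶠ[𝓝 0] fun q => E4fun q ^ 3 := by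
    have h3 : (fun z => E₄ z ^ 3) = ((E₄ : ℍ → ℂ) * E₄) * E₄ := by
      funext z; simp [pow_succ]
    have hcont : ContinuousAt (cuspFunction 1 E₄) 0 := E4fun_analyticAt_zero.continuousAt
    have hcont2 : ContinuousAt (cuspFunction 1 ((E₄ : ℍ → ℂ) * E₄)) 0 := by
      rw [cuspFunction_mul hcont hcont]; exact hcont.mul hcont
    rw [h3, cuspFunction_mul hcont2 hcont, cuspFunction_mul hcont hcont]
    exact .of_forall fun q => by simp [E4fun, pow_succ]
  rw [taylorPS_congr hc, taylorPS_pow E4fun_analyticAt_zero, taylorPS_E4fun, map_pow]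

end Fermat.Agent.S24.JQExp
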