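import Mathlib

/-!
helper77 (P-S24 Part III base).  The ring `HolFun` of holomorphic functions on the upper
half-plane, the action of `GL(2,ℝ)⁺` and `SL(2,ℤ)` on it, its fraction field `MerFun`, and the
order of vanishing at a point.
-/

set_option autoImplicit false

open UpperHalfPlane Complex Filter
open scoped Manifold MatrixGroups Topology

namespace Fermat.Agent.S24

/-- The ring of holomorphic functions on the upper half-plane, as a subalgebra of all functions. -/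
def HolFun : Subalgebra ℂ (ℍ → ℂ) where
  carrier := {f | MDiff f}
  mul_mem' hf hg := hf.mul hg
  one_mem' := mdifferentiable_const
  add_mem' hf hg := hf.add hg
  zero_mem' := mdifferentiable_const
  algebraMap_mem' _ := mdifferentiable_const

theorem mem_HolFun {f : ℍ → ℂ} : f ∈ HolFun ↔ MDiff f := Iff.rfl

namespace HolFun

theorem mdiff (f : HolFun) : MDiff (f : ℍ → ℂ) := f.2

/-- Build an element of `HolFun` from a holomorphic function. -/
def mk (f : ℍ → ℂ) (hf : MDiff f) : HolFun := ⟨f, hf⟩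

@[simp] theorem mk_apply (f : ℍ → ℂ) (hf : MDiff f) (τ : ℍ) : (mk f hf : ℍ → ℂ) τ = f τ := rfl

@[ext] theorem ext {f g : HolFun} (h : ∀ τ, (f : ℍ → ℂ) τ = (g : ℍ → ℂ) τ) : f = g :=
  Subtype.ext (funext h)

instance : NoZeroDivisors HolFun where
  eq_zero_or_eq_zero_of_mul_eq_zero {f g} h := by
    have h' : (f : ℍ → ℂ) * (g : ℍ → ℂ) = 0 := congrArg Subtype.val h
    rcases (UpperHalfPlane.mul_eq_zero_iff f.2 g.2).mp h' with h0 | h0
    · exact Or.inl (Subtype.ext h0)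
    · exact Or.inr (Subtype.ext h0)

instance : Nontrivial HolFun :=
  ⟨⟨0, 1, fun h => by
    have := congrFun (congrArg Subtype.val h) I
    simp at this⟩⟩

instance : IsDomain HolFun := NoZeroDivisors.to_isDomain _

@[simp] theorem coe_algebraMap (c : ℂ) (τ : ℍ) : (algebraMap ℂ HolFun c : ℍ → ℂ) τ = c := rfl

@[simp] theorem coe_zero_apply (τ : ℍ) : ((0 : HolFun) : ℍ → ℂ) τ = 0 := rfl
@[simp] theorem coe_one_apply (τ : ℍ) : ((1 : HolFun) : ℍ → ℂ) τ = 1 := rfl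
@[simp] theorem coe_add_apply (f g : HolFun) (τ : ℍ) :
    ((f + g : HolFun) : ℍ → ℂ) τ = (f : ℍ → ℂ) τ + (g : ℍ → ℂ) τ := rfl
@[simp] theorem coe_mul_apply (f g : HolFun) (τ : ℍ) :
    ((f * g : HolFun) : ℍ → ℂ) τ = (f : ℍ → ℂ) τ * (g : ℍ → ℂ) τ := rfl
@[simp] theorem coe_neg_apply (f : HolFun) (τ : ℍ) :
    ((-f : HolFun) : ℍ → ℂ) τ = -(f : ℍ → ℂ) τ := rfl
@[simp] theorem coe_sub_apply (f g : HolFun) (τ : ℍ) :
    ((f - g : HolFun) : ℍ → ℂ) τ = (f : ℍ → ℂ) τ - (g : ℍ → ℂ) τ := rfl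
@[simp] theorem coe_pow_apply (f : HolFun) (n : ℕ) (τ : ℍ) :
    ((f ^ n : HolFun) : ℍ → ℂ) τ = (f : ℍ → ℂ) τ ^ n := rfl

/-! ### The action of `GL(2,ℝ)⁺` -/

theorem mdiff_comp_smul (f : HolFun) (g : GL(2, ℝ)⁺) :
    MDiff (fun τ : ℍ => (f : ℍ → ℂ) (g • τ)) := by
  have hg : 0 < (g : GL (Fin 2) ℝ).det.val := g.2
  exact f.2.comp (mdifferentiable_smul hg)

/-- `GL(2,ℝ)⁺` acts on holomorphic functions by `(g • f) τ = f (g⁻¹ • τ)`. -/
noncomputable instance instSMulGLPos : SMul GL(2, ℝ)⁺ HolFun where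
  smul g f := ⟨fun τ => (f : ℍ → ℂ) (g⁻¹ • τ), mdiff_comp_smul f g⁻¹⟩

@[simp] theorem smul_apply (g : GL(2, ℝ)⁺) (f : HolFun) (τ : ℍ) :
    ((g • f : HolFun) : ℍ → ℂ) τ = (f : ℍ → ℂ) (g⁻¹ • τ) := rfl

noncomputable instance instMulSemiringActionGLPos : MulSemiringAction GL(2, ℝ)⁺ HolFun where
  one_smul f := by ext τ; simp
  mul_smul g h f := by ext τ; simp [mul_smul]
  smul_zero g := by ext τ; rfl
  smul_add g f₁ f₂ := by ext τ; rfl
  smul_one g := by ext τ; rfl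
  smul_mul g f₁ f₂ := by ext τ; rfl

theorem smul_algebraMap (g : GL(2, ℝ)⁺) (c : ℂ) :
    g • (algebraMap ℂ HolFun c) = algebraMap ℂ HolFun c := by
  ext τ; rfl

/-! ### The action of `SL(2,ℤ)` -/

/-- The embedding `SL(2,ℤ) → GL(2,ℝ)⁺`. -/
noncomputable def slToGLPos : SL(2, ℤ) →* GL(2, ℝ)⁺ :=
  Matrix.SpecialLinearGroup.toGLPos.comp (Matrix.SpecialLinearGroup.map (Int.castRingHom ℝ))

theorem slToGLPos_smul (γ : SL(2, ℤ)) (τ : ℍ) : slToGLPos γ • τ = γ • τ := rfl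

noncomputable instance instMulSemiringActionSL : MulSemiringAction SL(2, ℤ) HolFun :=
  MulSemiringAction.compHom HolFun slToGLPos

theorem sl_smul_def (γ : SL(2, ℤ)) (f : HolFun) : γ • f = slToGLPos γ • f := rfl

@[simp] theorem sl_smul_apply (γ : SL(2, ℤ)) (f : HolFun) (τ : ℍ) :
    ((γ • f : HolFun) : ℍ → ℂ) τ = (f : ℍ → ℂ) (γ⁻¹ • τ) := by
  rw [sl_smul_def, smul_apply, ← map_inv, slToGLPos_smul]

theorem sl_smul_algebraMap (γ : SL(2, ℤ)) (c : ℂ) :
    γ • (algebraMap ℂ HolFun c) = algebraMap ℂ HolFun c := by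
  ext τ; rfl

end HolFun

end Fermat.Agent.S24
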