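import Mathlib
import Fermat.Agent.S24.JDef
import Fermat.Agent.S24.HolFun
import Fermat.Prelude.Def_ModularCurve_LaurentCoeff
import Fermat.Prelude.Def_ModularCurve_X0
import Fermat.Prelude.Def_ModularCurve_X0ModL
import Fermat.Prelude.Thm_ModularCurve_coeffMap_qExpand

/-!
helper4 (P-S24 Part III, piece `QExp.lean`).  Laurent `q`-expansions of holomorphic, `1`-periodic
functions on the upper half-plane with moderate growth at `i∞`.

Main API (namespace `Fermat.Agent.S24.QExp`):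
* `IsPer h f` : `f (h +ᵥ z) = f z`; `isPer_iff` links it to `Periodic (f ∘ ofComplex) h`.
* `Nice f` : holomorphic, `1`-periodic, bounded at `i∞`; `Nice.qExpansion_mul/add/pow`,
  `Nice.hasSum`, `Nice.qExpansion_unique`, `nice_of_modularForm`, `nice_of_cuspForm`.
* `ModGrowth f := ∃ M, IsBoundedAtImInfty (fun z => Δ z ^ M * f z)` (same body as in `Growth.lean`),
  `modGrowth_iff : ModGrowth f ↔ ∃ M, QBdd M f` where `QBdd M f` says `q^M f` is bounded.
* `PerFun : Subalgebra ℂ HolFun`, `fn : PerFun → ℍ → ℂ`, `PerFun.mk`, `ofNice`.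
* `qLaurent : PerFun →ₐ[ℂ] LaurentSeries ℂ`, `qLaurent_injective`,
  `qLaurent_of_bdd` (bounded functions: the usual `qExpansion`),
  `qLaurent_eq_div` (`= qExpansion (Δ^M f) / (qExpansion Δ)^M`).
* `scale d φ hφ : PerFun → PerFun` (precomposition with any `φ` with `φ z = d z`), and
  `qLaurent_scale : qLaurent (scale d φ hφ f) = ModularCurve.qExpand ℂ d (qLaurent f)`.
* `jPer : PerFun` (the function `jFn`), `qLaurent_jPer`, `qLaurent_jPer_scale`:
  `qLaurent (z ↦ jFn (d z)) = coeffMap (algebraMap ℚ ℂ) (qExpand ℚ d jq)`, conditional on the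
  `q`-expansions of `E₄` and `Δ` (Part II).
-/

set_option autoImplicit false

open Complex Filter Function
open UpperHalfPlane hiding I
open scoped Manifold MatrixGroups Topology Real

namespace Fermat.Agent.S24.QExp

local notation "𝕢" => Periodic.qParam
local notation "Δ" => ModularForm.discriminant

/-! ### Periodicity -/

/-- `f` has period `h` (as a function on the upper half-plane). -/
def IsPer (h : ℝ) (f : ℍ → ℂ) : Prop := ∀ z : ℍ, f (h +ᵥ z) = f z

theorem IsPer.periodic_comp_ofComplex {h : ℝ} {f : ℍ → ℂ} (hf : IsPer h f) :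
    Periodic (f ∘ ofComplex) h := by
  intro w
  by_cases! hw : 0 < im w
  · have : 0 < im (w + h) := by simp [hw]
    simp only [comp_apply, ofComplex_apply_of_im_pos this, ofComplex_apply_of_im_pos hw]
    rw [← hf ⟨w, hw⟩]
    congr 1
    ext
    simp [add_comm]
  · have : im (w + h) ≤ 0 := by simpa using hw
    simp [ofComplex_apply_of_im_nonpos this, ofComplex_apply_of_im_nonpos hw]

theorem isPer_of_periodic_comp_ofComplex {h : ℝ} {f : ℍ → ℂ}
    (hf : Periodic (f ∘ ofComplex) h) : IsPer h f := by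
  intro z
  have := hf (z : ℂ)
  simp only [comp_apply, ofComplex_apply] at this
  rw [← this]
  congr 1
  have h2 : 0 < ((z : ℂ) + h).im := by simpa using z.im_pos
  rw [ofComplex_apply_of_im_pos h2]
  ext
  simp [add_comm]

theorem isPer_iff {h : ℝ} {f : ℍ → ℂ} : IsPer h f ↔ Periodic (f ∘ ofComplex) h :=
  ⟨IsPer.periodic_comp_ofComplex, isPer_of_periodic_comp_ofComplex⟩

theorem IsPer.add {h : ℝ} {f g : ℍ → ℂ} (hf : IsPer h f) (hg : IsPer h g) : IsPer h (f + g) :=
  fun z => by simp [hf z, hg z]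

theorem IsPer.mul {h : ℝ} {f g : ℍ → ℂ} (hf : IsPer h f) (hg : IsPer h g) : IsPer h (f * g) :=
  fun z => by simp [hf z, hg z]

theorem IsPer.neg {h : ℝ} {f : ℍ → ℂ} (hf : IsPer h f) : IsPer h (-f) :=
  fun z => by simp [hf z]

theorem IsPer.pow {h : ℝ} {f : ℍ → ℂ} (hf : IsPer h f) (n : ℕ) : IsPer h (f ^ n) :=
  fun z => by simp [hf z]

theorem isPer_const (h : ℝ) (c : ℂ) : IsPer h (fun _ => c) := fun _ => rfl

/-! ### The parameter `q` -/

/-- The parameter `q = exp(2πiz)` as a function on the upper half-plane. -/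
noncomputable def qH (z : ℍ) : ℂ := 𝕢 1 z

theorem qH_def (z : ℍ) : qH z = 𝕢 1 z := rfl

theorem qH_ne_zero (z : ℍ) : qH z ≠ 0 := Periodic.qParam_ne_zero _

theorem qH_mdiff : MDiff qH := by
  rw [UpperHalfPlane.mdifferentiable_iff]
  have : DifferentiableOn ℂ (𝕢 1) {z : ℂ | 0 < z.im} :=
    (Periodic.differentiable_qParam).differentiableOn
  refine this.congr fun z hz => ?_
  simp [qH, ofComplex_apply_of_im_pos hz]

theorem qH_tendsto : Tendsto qH atImInfty (𝓝 0) := qParam_tendsto_atImInfty zero_lt_one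

theorem qH_isPer : IsPer 1 qH := by
  intro z
  simp only [qH, coe_vadd]
  simp only [Periodic.qParam, ofReal_one, div_one]
  rw [show 2 * (π : ℂ) * I * (1 + (z : ℂ)) = 2 * π * I * z + 2 * π * I by ring]
  exact exp_periodic _

theorem qH_bdd : IsBoundedAtImInfty qH := qH_tendsto.isBigO_one ℝ


/-! ### Holomorphic periodic functions bounded at `i∞` -/

/-- Holomorphic, `1`-periodic and bounded at `i∞`. -/
structure Nice (f : ℍ → ℂ) : Prop where
  mdiff : MDiff f
  per : IsPer 1 f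
  bdd : IsBoundedAtImInfty f

theorem Nice.periodic {f : ℍ → ℂ} (hf : Nice f) : Periodic (f ∘ ofComplex) ((1 : ℝ) : ℂ) :=
  hf.per.periodic_comp_ofComplex

theorem Nice.analyticAt {f : ℍ → ℂ} (hf : Nice f) : AnalyticAt ℂ (cuspFunction 1 f) 0 :=
  analyticAt_cuspFunction_zero zero_lt_one hf.periodic hf.mdiff hf.bdd

theorem Nice.mul {f g : ℍ → ℂ} (hf : Nice f) (hg : Nice g) : Nice (f * g) :=
  ⟨hf.mdiff.mul hg.mdiff, hf.per.mul hg.per, hf.bdd.mul hg.bdd⟩

theorem Nice.add {f g : ℍ → ℂ} (hf : Nice f) (hg : Nice g) : Nice (f + g) :=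
  ⟨hf.mdiff.add hg.mdiff, hf.per.add hg.per, hf.bdd.add hg.bdd⟩

theorem Nice.pow {f : ℍ → ℂ} (hf : Nice f) (n : ℕ) : Nice (f ^ n) := by
  induction n with
  | zero =>
    simp only [pow_zero]
    exact ⟨mdifferentiable_const, fun _ => rfl, const_boundedAtFilter _ (1 : ℂ)⟩
  | succ n ih => rw [pow_succ]; exact ih.mul hf

theorem nice_const (c : ℂ) : Nice (fun _ => c) :=
  ⟨mdifferentiable_const, fun _ => rfl, const_boundedAtFilter _ c⟩

theorem nice_qH : Nice qH := ⟨qH_mdiff, qH_isPer, qH_bdd⟩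

theorem Nice.hasSum {f : ℍ → ℂ} (hf : Nice f) (τ : ℍ) :
    HasSum (fun m : ℕ ↦ (qExpansion 1 f).coeff m • qH τ ^ m) (f τ) :=
  hasSum_qExpansion zero_lt_one hf.periodic hf.mdiff hf.bdd τ

theorem Nice.qExpansion_eq_zero_iff {f : ℍ → ℂ} (hf : Nice f) : qExpansion 1 f = 0 ↔ f = 0 :=
  UpperHalfPlane.qExpansion_eq_zero_iff zero_lt_one hf.periodic hf.mdiff hf.bdd

theorem coeff_unique {f : ℍ → ℂ} {c : ℕ → ℂ} (hfanalytic : AnalyticAt ℂ (cuspFunction 1 f) 0)
    (hf : ∀ τ : ℍ, HasSum (fun m ↦ c m • 𝕢 1 τ ^ m) (f τ)) (m : ℕ) :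
    c m = (qExpansion 1 f).coeff m := by
  have h1 := (hasFPowerSeriesOnBall_cuspFunction zero_lt_one hfanalytic hf).hasFPowerSeriesAt
  have h2 := hfanalytic.hasFPowerSeriesAt
  have := congr_arg (FormalMultilinearSeries.coeff · m) (h1.eq_formalMultilinearSeries h2)
  simpa [qExpansion_coeff, FormalMultilinearSeries.coeff_ofScalars, div_eq_mul_inv, mul_comm]
    using this

theorem Nice.qExpansion_unique {f : ℍ → ℂ} (hf : Nice f) {c : ℕ → ℂ}
    (hc : ∀ τ : ℍ, HasSum (fun m ↦ c m • qH τ ^ m) (f τ)) : qExpansion 1 f = PowerSeries.mk c := by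
  ext m
  rw [PowerSeries.coeff_mk]
  exact (coeff_unique hf.analyticAt hc m).symm

theorem qExpansion_qH : qExpansion 1 qH = PowerSeries.X := by
  rw [nice_qH.qExpansion_unique (c := fun m => if m = 1 then 1 else 0)]
  · ext m
    simp [PowerSeries.coeff_X]
  · intro τ
    have := hasSum_single (f := fun m : ℕ ↦ (if m = 1 then (1:ℂ) else 0) • qH τ ^ m) 1
      (by intro m hm; simp [hm])
    simpa using this

theorem qExpansion_const (c : ℂ) : qExpansion 1 (fun _ : ℍ => c) = PowerSeries.C c := by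
  rw [(nice_const c).qExpansion_unique (c := fun m => if m = 0 then c else 0)]
  · ext m
    simp [PowerSeries.coeff_C]
  · intro τ
    have := hasSum_single (f := fun m : ℕ ↦ (if m = 0 then c else 0) • qH τ ^ m) 0
      (by intro m hm; simp [hm])
    simpa using this


theorem Nice.qExpansion_mul {f g : ℍ → ℂ} (hf : Nice f) (hg : Nice g) :
    qExpansion 1 (f * g) = qExpansion 1 f * qExpansion 1 g :=
  UpperHalfPlane.qExpansion_mul hf.analyticAt hg.analyticAt

theorem Nice.qExpansion_add {f g : ℍ → ℂ} (hf : Nice f) (hg : Nice g) :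
    qExpansion 1 (f + g) = qExpansion 1 f + qExpansion 1 g :=
  UpperHalfPlane.qExpansion_add hf.analyticAt hg.analyticAt

theorem Nice.qExpansion_pow {f : ℍ → ℂ} (hf : Nice f) (n : ℕ) :
    qExpansion 1 (f ^ n) = qExpansion 1 f ^ n := by
  induction n with
  | zero => simpa using qExpansion_one 1
  | succ n ih => rw [pow_succ, (hf.pow n).qExpansion_mul hf, ih, pow_succ]

/-! ### The factor `Δ / q` -/

/-- `Δ / q = ∏ (1 - qⁿ)^24`. -/
noncomputable def etaP (z : ℍ) : ℂ := ∏' n : ℕ, (1 - ModularForm.eta_q n z) ^ 24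

theorem discriminant_eq (z : ℍ) : Δ z = qH z * etaP z := ModularForm.discriminant_eq_q_prod z

theorem etaP_ne_zero (z : ℍ) : etaP z ≠ 0 := by
  have := ModularForm.discriminant_ne_zero z
  rw [discriminant_eq] at this
  exact right_ne_zero_of_mul this

theorem etaP_tendsto : Tendsto etaP atImInfty (𝓝 1) :=
  ModularForm.tendsto_atImInfty_tprod_one_sub_eta_q_pow

theorem etaP_bdd : IsBoundedAtImInfty etaP := etaP_tendsto.isBigO_one ℝ

theorem etaP_inv_bdd : IsBoundedAtImInfty (fun z => (etaP z)⁻¹) := by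
  have : Tendsto (fun z => (etaP z)⁻¹) atImInfty (𝓝 (1 : ℂ)⁻¹) :=
    etaP_tendsto.inv₀ one_ne_zero
  exact this.isBigO_one ℝ

/-! ### Growth conditions -/

/-- `q^M * f` is bounded at `i∞`. -/
def QBdd (M : ℕ) (f : ℍ → ℂ) : Prop := IsBoundedAtImInfty (fun z => qH z ^ M * f z)

/-- `Δ^M * f` is bounded at `i∞`. -/
def DBdd (M : ℕ) (f : ℍ → ℂ) : Prop := IsBoundedAtImInfty (fun z => Δ z ^ M * f z)

/-- Moderate growth at `i∞` (same body as `Fermat.Agent.S24.ModGrowth` of `Growth.lean`). -/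
def ModGrowth (f : ℍ → ℂ) : Prop := ∃ M : ℕ, IsBoundedAtImInfty (fun z => Δ z ^ M * f z)

theorem isBoundedAtImInfty_pow {g : ℍ → ℂ} (hg : IsBoundedAtImInfty g) (n : ℕ) :
    IsBoundedAtImInfty (fun z => g z ^ n) := by
  induction n with
  | zero =>
    simp only [pow_zero]
    exact const_boundedAtFilter atImInfty (1 : ℂ)
  | succ n ih =>
    have := ih.mul hg
    refine this.congr' ?_ (EventuallyEq.refl _ _)
    exact Eventually.of_forall fun z => by simp [pow_succ]

theorem dBdd_iff_qBdd {M : ℕ} {f : ℍ → ℂ} : DBdd M f ↔ QBdd M f := by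
  constructor
  · intro h
    have h2 := (isBoundedAtImInfty_pow etaP_inv_bdd M).mul h
    refine h2.congr' (Eventually.of_forall fun z => ?_) (EventuallyEq.refl _ _)
    simp only [Pi.mul_apply, discriminant_eq, mul_pow, inv_pow]
    have := pow_ne_zero M (etaP_ne_zero z)
    field_simp
  · intro h
    have h2 := (isBoundedAtImInfty_pow etaP_bdd M).mul h
    refine h2.congr' (Eventually.of_forall fun z => ?_) (EventuallyEq.refl _ _)
    simp only [Pi.mul_apply, discriminant_eq, mul_pow]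
    ring

theorem modGrowth_iff {f : ℍ → ℂ} : ModGrowth f ↔ ∃ M, QBdd M f :=
  exists_congr fun _ => dBdd_iff_qBdd

theorem QBdd.mono {M M' : ℕ} {f : ℍ → ℂ} (h : QBdd M f) (hM : M ≤ M') : QBdd M' f := by
  obtain ⟨k, rfl⟩ := Nat.exists_eq_add_of_le hM
  have h2 := (isBoundedAtImInfty_pow qH_bdd k).mul h
  refine h2.congr' (Eventually.of_forall fun z => ?_) (EventuallyEq.refl _ _)
  simp only [Pi.mul_apply, pow_add]
  ring

theorem QBdd.nice {M : ℕ} {f : ℍ → ℂ} (hf : MDiff f) (hp : IsPer 1 f) (h : QBdd M f) :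
    Nice (fun z => qH z ^ M * f z) :=
  ⟨(qH_mdiff.pow M).mul hf, (qH_isPer.pow M).mul hp, h⟩


/-! ### The Laurent `q`-expansion -/

/-- Auxiliary Laurent expansion with a chosen pole-order bound `M`. -/
noncomputable def qLaurentAux (M : ℕ) (f : ℍ → ℂ) : LaurentSeries ℂ :=
  HahnSeries.single (-(M : ℤ)) (1 : ℂ) *
    HahnSeries.ofPowerSeries ℤ ℂ (qExpansion 1 (fun z => qH z ^ M * f z))

theorem qLaurentAux_succ {M : ℕ} {f : ℍ → ℂ} (hf : MDiff f) (hp : IsPer 1 f) (h : QBdd M f) :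
    qLaurentAux (M + 1) f = qLaurentAux M f := by
  have hn := h.nice hf hp
  have e : (fun z => qH z ^ (M + 1) * f z) = qH * (fun z => qH z ^ M * f z) := by
    funext z; simp only [Pi.mul_apply, pow_succ]; ring
  rw [qLaurentAux, e, nice_qH.qExpansion_mul hn, qExpansion_qH, map_mul,
    HahnSeries.ofPowerSeries_X, ← mul_assoc, HahnSeries.single_mul_single, qLaurentAux]
  have e2 : (-((M + 1 : ℕ) : ℤ) + 1) = -(M : ℤ) := by push_cast; ring
  rw [e2, mul_one]

theorem qLaurentAux_add {M : ℕ} {f : ℍ → ℂ} (hf : MDiff f) (hp : IsPer 1 f) (h : QBdd M f)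
    (k : ℕ) : qLaurentAux (M + k) f = qLaurentAux M f := by
  induction k with
  | zero => rfl
  | succ k ih =>
    rw [← add_assoc, qLaurentAux_succ hf hp (h.mono (Nat.le_add_right M k)), ih]

theorem qLaurentAux_eq {M M' : ℕ} {f : ℍ → ℂ} (hf : MDiff f) (hp : IsPer 1 f) (h : QBdd M f)
    (h' : QBdd M' f) : qLaurentAux M f = qLaurentAux M' f := by
  rw [← qLaurentAux_add hf hp h M', ← qLaurentAux_add hf hp h' M, add_comm]

open Classical in
/-- The Laurent `q`-expansion of a function on the upper half-plane (junk value `0` unless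
`f` has moderate growth). -/
noncomputable def qLaurentFun (f : ℍ → ℂ) : LaurentSeries ℂ :=
  if h : ∃ M, QBdd M f then qLaurentAux (Nat.find h) f else 0

theorem qLaurentFun_eq {M : ℕ} {f : ℍ → ℂ} (hf : MDiff f) (hp : IsPer 1 f) (h : QBdd M f) :
    qLaurentFun f = qLaurentAux M f := by
  classical
  have hex : ∃ M, QBdd M f := ⟨M, h⟩
  rw [qLaurentFun, dif_pos hex]
  exact qLaurentAux_eq hf hp (Nat.find_spec hex) h

theorem qLaurentAux_mul {M N : ℕ} {f g : ℍ → ℂ} (hf : MDiff f) (hpf : IsPer 1 f)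
    (hM : QBdd M f) (hg : MDiff g) (hpg : IsPer 1 g) (hN : QBdd N g) :
    qLaurentAux (M + N) (f * g) = qLaurentAux M f * qLaurentAux N g := by
  have e : (fun z => qH z ^ (M + N) * (f * g) z) =
      (fun z => qH z ^ M * f z) * (fun z => qH z ^ N * g z) := by
    funext z; simp only [Pi.mul_apply, pow_add]; ring
  rw [qLaurentAux, e, (hM.nice hf hpf).qExpansion_mul (hN.nice hg hpg), map_mul, qLaurentAux,
    qLaurentAux]
  have : HahnSeries.single (-((M + N : ℕ) : ℤ)) (1 : ℂ) =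
      HahnSeries.single (-(M : ℤ)) (1 : ℂ) * HahnSeries.single (-(N : ℤ)) (1 : ℂ) := by
    rw [HahnSeries.single_mul_single, mul_one]
    have e2 : -((M + N : ℕ) : ℤ) = -(M : ℤ) + -(N : ℤ) := by push_cast; ring
    rw [e2]
  rw [this]
  ring

theorem QBdd.mul {M N : ℕ} {f g : ℍ → ℂ} (hM : QBdd M f) (hN : QBdd N g) :
    QBdd (M + N) (f * g) := by
  have := BoundedAtFilter.mul hM hN
  refine this.congr' (Eventually.of_forall fun z => ?_) (EventuallyEq.refl _ _)
  simp only [Pi.mul_apply, pow_add]; ring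

theorem QBdd.add {M : ℕ} {f g : ℍ → ℂ} (hM : QBdd M f) (hN : QBdd M g) :
    QBdd M (f + g) := by
  have := BoundedAtFilter.add hM hN
  refine this.congr' (Eventually.of_forall fun z => ?_) (EventuallyEq.refl _ _)
  simp only [Pi.add_apply]; ring

theorem qLaurentAux_add_fun {M : ℕ} {f g : ℍ → ℂ} (hf : MDiff f) (hpf : IsPer 1 f)
    (hM : QBdd M f) (hg : MDiff g) (hpg : IsPer 1 g) (hN : QBdd M g) :
    qLaurentAux M (f + g) = qLaurentAux M f + qLaurentAux M g := by
  have e : (fun z => qH z ^ M * (f + g) z) =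
      (fun z => qH z ^ M * f z) + (fun z => qH z ^ M * g z) := by
    funext z; simp only [Pi.add_apply]; ring
  rw [qLaurentAux, e, (hM.nice hf hpf).qExpansion_add (hN.nice hg hpg), map_add, qLaurentAux,
    qLaurentAux, mul_add]

theorem qLaurentAux_zero_eq {f : ℍ → ℂ} :
    qLaurentAux 0 f = HahnSeries.ofPowerSeries ℤ ℂ (qExpansion 1 f) := by
  have e : (fun z => qH z ^ 0 * f z) = f := by funext z; simp
  rw [qLaurentAux, e]
  simp

theorem qBdd_zero_iff {f : ℍ → ℂ} : QBdd 0 f ↔ IsBoundedAtImInfty f := by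
  have e : (fun z => qH z ^ 0 * f z) = f := by funext z; simp
  rw [QBdd, e]

/-- For bounded functions the Laurent expansion is the usual `q`-expansion. -/
theorem qLaurentFun_of_nice {f : ℍ → ℂ} (hf : Nice f) :
    qLaurentFun f = HahnSeries.ofPowerSeries ℤ ℂ (qExpansion 1 f) := by
  rw [qLaurentFun_eq hf.mdiff hf.per (qBdd_zero_iff.mpr hf.bdd), qLaurentAux_zero_eq]


/-! ### The algebra `PerFun` and the algebra homomorphism `qLaurent` -/

theorem modGrowth_const (c : ℂ) : ModGrowth (fun _ => c) :=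
  ⟨0, by simp only [pow_zero, one_mul]; exact const_boundedAtFilter atImInfty c⟩

theorem ModGrowth.mul {f g : ℍ → ℂ} (hf : ModGrowth f) (hg : ModGrowth g) : ModGrowth (f * g) := by
  rw [modGrowth_iff] at *
  obtain ⟨M, hM⟩ := hf
  obtain ⟨N, hN⟩ := hg
  exact ⟨M + N, hM.mul hN⟩

theorem ModGrowth.add {f g : ℍ → ℂ} (hf : ModGrowth f) (hg : ModGrowth g) : ModGrowth (f + g) := by
  rw [modGrowth_iff] at *
  obtain ⟨M, hM⟩ := hf
  obtain ⟨N, hN⟩ := hg
  exact ⟨M + N, (hM.mono (Nat.le_add_right M N)).add (hN.mono (Nat.le_add_left N M))⟩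

/-- The algebra of holomorphic, `1`-periodic functions on `ℍ` with moderate growth at `i∞`. -/
def PerFun : Subalgebra ℂ HolFun where
  carrier := {f | IsPer 1 (f : ℍ → ℂ) ∧ ModGrowth (f : ℍ → ℂ)}
  mul_mem' hf hg := ⟨hf.1.mul hg.1, hf.2.mul hg.2⟩
  add_mem' hf hg := ⟨hf.1.add hg.1, hf.2.add hg.2⟩
  algebraMap_mem' c := ⟨fun _ => rfl, modGrowth_const c⟩

theorem mem_PerFun {f : HolFun} :
    f ∈ PerFun ↔ IsPer 1 (f : ℍ → ℂ) ∧ ModGrowth (f : ℍ → ℂ) := Iff.rfl

/-- Build an element of `PerFun`. -/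
def PerFun.mk (f : ℍ → ℂ) (hf : MDiff f) (hp : IsPer 1 f) (hg : ModGrowth f) : PerFun :=
  ⟨⟨f, hf⟩, hp, hg⟩

/-- The underlying function of an element of `PerFun`. -/
def fn (f : PerFun) : ℍ → ℂ := ((f : HolFun) : ℍ → ℂ)

@[simp] theorem fn_mk (f : ℍ → ℂ) (hf : MDiff f) (hp : IsPer 1 f) (hg : ModGrowth f) :
    fn (PerFun.mk f hf hp hg) = f := rfl

theorem fn_injective : Function.Injective fn := fun _ _ h =>
  Subtype.ext (Subtype.ext h)

theorem fn_mdiff (f : PerFun) : MDiff (fn f) := f.1.2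
theorem fn_isPer (f : PerFun) : IsPer 1 (fn f) := f.2.1
theorem fn_modGrowth (f : PerFun) : ModGrowth (fn f) := f.2.2
theorem exists_qBdd (f : PerFun) : ∃ M, QBdd M (fn f) := modGrowth_iff.mp f.2.2

@[simp] theorem fn_mul (f g : PerFun) : fn (f * g) = fn f * fn g := rfl
@[simp] theorem fn_add (f g : PerFun) : fn (f + g) = fn f + fn g := rfl
@[simp] theorem fn_one : fn (1 : PerFun) = 1 := rfl
@[simp] theorem fn_zero : fn (0 : PerFun) = 0 := rfl
@[simp] theorem fn_pow (f : PerFun) (n : ℕ) : fn (f ^ n) = fn f ^ n := rfl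
@[simp] theorem fn_algebraMap (c : ℂ) : fn (algebraMap ℂ PerFun c) = fun _ => c := rfl

theorem qLaurentFun_const (c : ℂ) :
    qLaurentFun (fun _ : ℍ => c) = algebraMap ℂ (LaurentSeries ℂ) c := by
  rw [qLaurentFun_of_nice (nice_const c), qExpansion_const, HahnSeries.ofPowerSeries_C,
    ModularCurve.algebraMap_laurentSeries_eq_single]
  rfl

/-- The Laurent `q`-expansion as an algebra homomorphism. -/
noncomputable def qLaurent : PerFun →ₐ[ℂ] LaurentSeries ℂ where
  toFun f := qLaurentFun (fn f)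
  map_one' := by
    have := qLaurentFun_const 1
    rw [map_one] at this
    exact this
  map_zero' := by
    have := qLaurentFun_const 0
    rw [map_zero] at this
    exact this
  map_mul' f g := by
    obtain ⟨M, hM⟩ := exists_qBdd f
    obtain ⟨N, hN⟩ := exists_qBdd g
    rw [fn_mul, qLaurentFun_eq ((fn_mdiff f).mul (fn_mdiff g)) ((fn_isPer f).mul (fn_isPer g)) (hM.mul hN),
      qLaurentFun_eq (fn_mdiff f) (fn_isPer f) hM, qLaurentFun_eq (fn_mdiff g) (fn_isPer g) hN,
      qLaurentAux_mul (fn_mdiff f) (fn_isPer f) hM (fn_mdiff g) (fn_isPer g) hN]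
  map_add' f g := by
    obtain ⟨M, hM⟩ := exists_qBdd f
    obtain ⟨N, hN⟩ := exists_qBdd g
    have hM' := hM.mono (Nat.le_add_right M N)
    have hN' := hN.mono (Nat.le_add_left N M)
    rw [fn_add, qLaurentFun_eq ((fn_mdiff f).add (fn_mdiff g)) ((fn_isPer f).add (fn_isPer g)) (hM'.add hN'),
      qLaurentFun_eq (fn_mdiff f) (fn_isPer f) hM', qLaurentFun_eq (fn_mdiff g) (fn_isPer g) hN',
      qLaurentAux_add_fun (fn_mdiff f) (fn_isPer f) hM' (fn_mdiff g) (fn_isPer g) hN']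
  commutes' c := qLaurentFun_const c

theorem qLaurent_apply (f : PerFun) : qLaurent f = qLaurentFun (fn f) := rfl

theorem qLaurent_eq_aux (f : PerFun) {M : ℕ} (hM : QBdd M (fn f)) :
    qLaurent f = qLaurentAux M (fn f) := qLaurentFun_eq (fn_mdiff f) (fn_isPer f) hM

theorem qLaurent_of_bdd (f : PerFun) (hf : IsBoundedAtImInfty (fn f)) :
    qLaurent f = HahnSeries.ofPowerSeries ℤ ℂ (qExpansion 1 (fn f)) :=
  qLaurentFun_of_nice ⟨(fn_mdiff f), (fn_isPer f), hf⟩

theorem qLaurent_injective : Function.Injective qLaurent := by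
  rw [injective_iff_map_eq_zero]
  intro f hf
  obtain ⟨M, hM⟩ := exists_qBdd f
  rw [qLaurent_eq_aux f hM, qLaurentAux, mul_eq_zero] at hf
  rcases hf with hf | hf
  · exact absurd hf (by simp)
  · have hn := hM.nice (fn_mdiff f) (fn_isPer f)
    have h0 : qExpansion 1 (fun z => qH z ^ M * (fn f) z) = 0 :=
      HahnSeries.ofPowerSeries_injective (by rw [hf, map_zero])
    rw [hn.qExpansion_eq_zero_iff] at h0
    apply fn_injective
    funext z
    have := congrFun h0 z
    simp only [Pi.zero_apply, mul_eq_zero] at this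
    rcases this with h1 | h1
    · exact absurd h1 (pow_ne_zero M (qH_ne_zero z))
    · simpa using h1


/-! ### Level one modular forms, `Δ`, and the formula of the specification -/

open scoped ModularForm in
theorem nice_of_modularForm {k : ℤ} (f : ModularForm 𝒮ℒ k) : Nice (f : ℍ → ℂ) where
  mdiff := ModularFormClass.holo f
  per := isPer_of_periodic_comp_ofComplex
    (SlashInvariantFormClass.periodic_comp_ofComplex f one_mem_strictPeriods_SL)
  bdd := ModularFormClass.bdd_at_infty f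

open scoped ModularForm in
theorem nice_of_cuspForm {k : ℤ} (f : CuspForm 𝒮ℒ k) : Nice (f : ℍ → ℂ) where
  mdiff := ModularFormClass.holo f
  per := isPer_of_periodic_comp_ofComplex
    (SlashInvariantFormClass.periodic_comp_ofComplex f one_mem_strictPeriods_SL)
  bdd := ModularFormClass.bdd_at_infty f

theorem nice_discriminant : Nice Δ := nice_of_cuspForm CuspForm.discriminant

theorem Nice.modGrowth {f : ℍ → ℂ} (hf : Nice f) : ModGrowth f :=
  modGrowth_iff.mpr ⟨0, qBdd_zero_iff.mpr hf.bdd⟩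

/-- Bounded holomorphic periodic functions as elements of `PerFun`. -/
def ofNice (f : ℍ → ℂ) (hf : Nice f) : PerFun := PerFun.mk f hf.mdiff hf.per hf.modGrowth

@[simp] theorem fn_ofNice (f : ℍ → ℂ) (hf : Nice f) : fn (ofNice f hf) = f := rfl

theorem qLaurent_ofNice (f : ℍ → ℂ) (hf : Nice f) :
    qLaurent (ofNice f hf) = HahnSeries.ofPowerSeries ℤ ℂ (qExpansion 1 f) :=
  qLaurentFun_of_nice hf

/-- `Δ` as an element of `PerFun`. -/
noncomputable def deltaPer : PerFun := ofNice Δ nice_discriminant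

@[simp] theorem fn_deltaPer : fn deltaPer = Δ := rfl

theorem qLaurent_deltaPer :
    qLaurent deltaPer = HahnSeries.ofPowerSeries ℤ ℂ (qExpansion 1 Δ) :=
  qLaurent_ofNice _ _

theorem deltaPer_ne_zero : deltaPer ≠ 0 := by
  intro h
  have := congrFun (congrArg fn h) UpperHalfPlane.I
  exact ModularForm.discriminant_ne_zero _ this

theorem qLaurent_deltaPer_ne_zero : qLaurent deltaPer ≠ 0 := by
  intro h
  exact deltaPer_ne_zero (qLaurent_injective (by rw [h, map_zero]))

theorem ofPowerSeries_qExpansion_discriminant_ne_zero :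
    HahnSeries.ofPowerSeries ℤ ℂ (qExpansion 1 Δ) ≠ 0 := by
  rw [← qLaurent_deltaPer]; exact qLaurent_deltaPer_ne_zero

/-- **The formula of the specification**: if `Δ^M f` is bounded at `i∞`, then
`qLaurent f = qExpansion (Δ^M f) / (qExpansion Δ)^M`. -/
theorem qLaurent_eq_div (f : PerFun) {M : ℕ}
    (hM : IsBoundedAtImInfty (fun z => Δ z ^ M * fn f z)) :
    qLaurent f = HahnSeries.ofPowerSeries ℤ ℂ (qExpansion 1 (fun z => Δ z ^ M * fn f z)) /
      HahnSeries.ofPowerSeries ℤ ℂ (qExpansion 1 Δ) ^ M := by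
  have hn : Nice (fn (deltaPer ^ M * f)) := ⟨fn_mdiff _, fn_isPer _, hM⟩
  have h1 : qLaurent (deltaPer ^ M * f) =
      HahnSeries.ofPowerSeries ℤ ℂ (qExpansion 1 (fun z => Δ z ^ M * fn f z)) :=
    qLaurentFun_of_nice hn
  rw [map_mul, map_pow, qLaurent_deltaPer] at h1
  rw [← h1, mul_div_assoc, mul_comm, div_mul_cancel₀]
  exact pow_ne_zero M ofPowerSeries_qExpansion_discriminant_ne_zero


/-! ### Scaling `z ↦ d z` -/

section Scale

variable {d : ℕ} [NeZero d] {φ : ℍ → ℍ}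

/-- The standard map `z ↦ d z` on the upper half-plane. -/
noncomputable def mulNat (d : ℕ) [NeZero d] (z : ℍ) : ℍ :=
  ⟨(d : ℂ) * z, by
    have hd : (0 : ℝ) < d := by exact_mod_cast Nat.pos_of_ne_zero (NeZero.ne d)
    simpa using mul_pos hd z.im_pos⟩

@[simp] theorem coe_mulNat (d : ℕ) [NeZero d] (z : ℍ) : (mulNat d z : ℂ) = (d : ℂ) * z := rfl

omit [NeZero d] in
theorem im_scale (hφ : ∀ z, (φ z : ℂ) = (d : ℂ) * z) (z : ℍ) : (φ z).im = d * z.im := by
  have := congrArg Complex.im (hφ z)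
  simpa using this

omit [NeZero d] in
theorem qH_scale (hφ : ∀ z, (φ z : ℂ) = (d : ℂ) * z) (z : ℍ) : qH (φ z) = qH z ^ d := by
  simp only [qH, Periodic.qParam, hφ, ofReal_one, div_one]
  rw [← Complex.exp_nat_mul]
  congr 1
  ring

theorem tendsto_scale (hφ : ∀ z, (φ z : ℂ) = (d : ℂ) * z) : Tendsto φ atImInfty atImInfty := by
  rw [atImInfty, tendsto_comap_iff]
  have hd : (0 : ℝ) < d := by exact_mod_cast Nat.pos_of_ne_zero (NeZero.ne d)
  have : (UpperHalfPlane.im ∘ φ) = fun z => (d : ℝ) * z.im := funext (im_scale hφ)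
  rw [this]
  exact (tendsto_comap.const_mul_atTop hd)

theorem mdiff_scale (hφ : ∀ z, (φ z : ℂ) = (d : ℂ) * z) {f : ℍ → ℂ} (hf : MDiff f) :
    MDiff (f ∘ φ) := by
  rw [UpperHalfPlane.mdifferentiable_iff] at hf ⊢
  have hd : (0 : ℝ) < d := by exact_mod_cast Nat.pos_of_ne_zero (NeZero.ne d)
  have hmaps : Set.MapsTo (fun w : ℂ => (d : ℂ) * w) {z | 0 < z.im} {z | 0 < z.im} := by
    intro w hw
    simpa using mul_pos hd hw
  have h1 : DifferentiableOn ℂ ((f ∘ ofComplex) ∘ fun w : ℂ => (d : ℂ) * w) {z | 0 < z.im} :=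
    hf.comp (by fun_prop) hmaps
  refine h1.congr fun w hw => ?_
  have hw' : 0 < ((d : ℂ) * w).im := hmaps hw
  simp only [comp_apply]
  rw [ofComplex_apply_of_im_pos hw, ofComplex_apply_of_im_pos hw']
  congr 1
  ext
  simp [hφ]

theorem isPer_natCast {f : ℍ → ℂ} (hf : IsPer 1 f) (n : ℕ) : IsPer (n : ℝ) f := by
  induction n with
  | zero => intro z; congr 1; ext; simp
  | succ n ih =>
    intro z
    rw [← ih z, ← hf ((n : ℝ) +ᵥ z)]
    congr 1
    ext
    simp
    ring

omit [NeZero d] in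
theorem isPer_scale (hφ : ∀ z, (φ z : ℂ) = (d : ℂ) * z) {f : ℍ → ℂ} (hf : IsPer 1 f) :
    IsPer 1 (f ∘ φ) := by
  intro z
  simp only [comp_apply]
  rw [← isPer_natCast hf d (φ z)]
  congr 1
  ext
  simp [hφ]
  ring

theorem bdd_scale (hφ : ∀ z, (φ z : ℂ) = (d : ℂ) * z) {f : ℍ → ℂ} (hf : IsBoundedAtImInfty f) :
    IsBoundedAtImInfty (f ∘ φ) := by
  have := Asymptotics.IsBigO.comp_tendsto hf (tendsto_scale hφ)
  exact this

theorem Nice.scale (hφ : ∀ z, (φ z : ℂ) = (d : ℂ) * z) {f : ℍ → ℂ} (hf : Nice f) :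
    Nice (f ∘ φ) :=
  ⟨mdiff_scale hφ hf.mdiff, isPer_scale hφ hf.per, bdd_scale hφ hf.bdd⟩

/-- The power series `P(X^d)`. -/
noncomputable def psScale (d : ℕ) (P : PowerSeries ℂ) : PowerSeries ℂ :=
  PowerSeries.mk fun n => if d ∣ n then P.coeff (n / d) else 0

theorem Nice.qExpansion_scale (hφ : ∀ z, (φ z : ℂ) = (d : ℂ) * z) {f : ℍ → ℂ} (hf : Nice f) :
    qExpansion 1 (f ∘ φ) = psScale d (qExpansion 1 f) := by
  have hd : 0 < d := Nat.pos_of_ne_zero (NeZero.ne d)
  refine (hf.scale hφ).qExpansion_unique fun τ => ?_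
  have h1 := hf.hasSum (φ τ)
  have hinj : Function.Injective (fun m : ℕ => d * m) := fun a b h =>
    Nat.eq_of_mul_eq_mul_left hd h
  refine (hinj.hasSum_iff ?_).mp ?_
  · intro n hn
    have : ¬ d ∣ n := fun ⟨m, hm⟩ => hn ⟨m, hm.symm⟩
    simp [this]
  · convert h1 using 2 with m
    · simp only [comp_apply, dvd_mul_right, if_true, Nat.mul_div_cancel_left _ hd, qH_scale hφ,
        pow_mul]
    · rfl


theorem qExpand_ofPowerSeries (d : ℕ) [NeZero d] (P : PowerSeries ℂ) :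
    ModularCurve.qExpand ℂ d (HahnSeries.ofPowerSeries ℤ ℂ P) =
      HahnSeries.ofPowerSeries ℤ ℂ (psScale d P) := by
  have hd : 0 < d := Nat.pos_of_ne_zero (NeZero.ne d)
  have hdz : (0 : ℤ) < d := by exact_mod_cast hd
  ext k
  by_cases hk : (d : ℤ) ∣ k
  · obtain ⟨k', rfl⟩ := hk
    rw [ModularCurve.qExpand_coeff_mul]
    rcases le_or_gt 0 k' with hk' | hk'
    · lift k' to ℕ using hk'
      rw [HahnSeries.ofPowerSeries_apply_coeff,
        show (d : ℤ) * (k' : ℤ) = ((d * k' : ℕ) : ℤ) by push_cast; ring,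
        HahnSeries.ofPowerSeries_apply_coeff, psScale, PowerSeries.coeff_mk,
        if_pos (dvd_mul_right d k'), Nat.mul_div_cancel_left _ hd]
    · rw [ModularCurve.ofPowerSeries_coeff_of_neg _ hk',
        ModularCurve.ofPowerSeries_coeff_of_neg _ (mul_neg_of_pos_of_neg hdz hk')]
  · rw [ModularCurve.qExpand_coeff_of_not_dvd d _ hk]
    rcases le_or_gt 0 k with hk' | hk'
    · lift k to ℕ using hk'
      have : ¬ d ∣ k := fun h => hk (by exact_mod_cast h)
      rw [HahnSeries.ofPowerSeries_apply_coeff, psScale, PowerSeries.coeff_mk, if_neg this]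
    · rw [ModularCurve.ofPowerSeries_coeff_of_neg _ hk']

theorem QBdd.scale (hφ : ∀ z, (φ z : ℂ) = (d : ℂ) * z) {f : ℍ → ℂ} {M : ℕ} (hM : QBdd M f) :
    QBdd (d * M) (f ∘ φ) := by
  have := bdd_scale hφ hM
  refine this.congr' (Eventually.of_forall fun z => ?_) (EventuallyEq.refl _ _)
  simp only [comp_apply, qH_scale hφ, pow_mul]

theorem ModGrowth.scale (hφ : ∀ z, (φ z : ℂ) = (d : ℂ) * z) {f : ℍ → ℂ} (hf : ModGrowth f) :
    ModGrowth (f ∘ φ) := by
  rw [modGrowth_iff] at *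
  obtain ⟨M, hM⟩ := hf
  exact ⟨d * M, hM.scale hφ⟩

theorem qLaurentFun_scale (hφ : ∀ z, (φ z : ℂ) = (d : ℂ) * z) {f : ℍ → ℂ} (hf : MDiff f)
    (hp : IsPer 1 f) (hg : ModGrowth f) :
    qLaurentFun (f ∘ φ) = ModularCurve.qExpand ℂ d (qLaurentFun f) := by
  obtain ⟨M, hM⟩ := modGrowth_iff.mp hg
  have e2 : (-((d * M : ℕ) : ℤ)) = (d : ℤ) * (-(M : ℤ)) := by push_cast; ring
  have e3 : (fun z => qH z ^ (d * M) * (f ∘ φ) z) = (fun z => qH z ^ M * f z) ∘ φ := by
    funext z; simp only [comp_apply, qH_scale hφ, pow_mul]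
  rw [qLaurentFun_eq hf hp hM,
    qLaurentFun_eq (mdiff_scale hφ hf) (isPer_scale hφ hp) (hM.scale hφ), qLaurentAux, qLaurentAux,
    map_mul, ModularCurve.qExpand_single, qExpand_ofPowerSeries,
    ← (hM.nice hf hp).qExpansion_scale hφ, e2, e3]

/-- Precomposition with `z ↦ d z` on `PerFun`. -/
noncomputable def scale (d : ℕ) [NeZero d] (φ : ℍ → ℍ) (hφ : ∀ z, (φ z : ℂ) = (d : ℂ) * z)
    (f : PerFun) : PerFun :=
  PerFun.mk (fn f ∘ φ) (mdiff_scale hφ (fn_mdiff f)) (isPer_scale hφ (fn_isPer f))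
    ((fn_modGrowth f).scale hφ)

@[simp] theorem fn_scale (hφ : ∀ z, (φ z : ℂ) = (d : ℂ) * z) (f : PerFun) :
    fn (scale d φ hφ f) = fn f ∘ φ := rfl

theorem qLaurent_scale (hφ : ∀ z, (φ z : ℂ) = (d : ℂ) * z) (f : PerFun) :
    qLaurent (scale d φ hφ f) = ModularCurve.qExpand ℂ d (qLaurent f) :=
  qLaurentFun_scale hφ (fn_mdiff f) (fn_isPer f) (fn_modGrowth f)


end Scale

/-! ### The `j`-function -/

theorem jFn_isPer : IsPer 1 jFn := by
  intro z
  rw [← UpperHalfPlane.modular_T_smul, jFn_smul]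

theorem nice_E₄_cube : Nice (fun z => ModularForm.E₄ z ^ 3) :=
  (nice_of_modularForm ModularForm.E₄).pow 3

theorem discriminant_mul_jFn : (fun z => Δ z ^ 1 * jFn z) = fun z => ModularForm.E₄ z ^ 3 := by
  funext z
  rw [pow_one, mul_comm, jFn_mul_discriminant]

theorem jFn_dBdd : IsBoundedAtImInfty (fun z => Δ z ^ 1 * jFn z) := by
  rw [discriminant_mul_jFn]; exact nice_E₄_cube.bdd

theorem jFn_modGrowth : ModGrowth jFn := ⟨1, jFn_dBdd⟩

/-- The `j`-function as an element of `PerFun`. -/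
noncomputable def jPer : PerFun := PerFun.mk jFn jFn_mdiff jFn_isPer jFn_modGrowth

@[simp] theorem fn_jPer : fn jPer = jFn := rfl

theorem qLaurent_jPer_eq_div :
    qLaurent jPer = HahnSeries.ofPowerSeries ℤ ℂ (qExpansion 1 (ModularForm.E₄ : ℍ → ℂ)) ^ 3 /
      HahnSeries.ofPowerSeries ℤ ℂ (qExpansion 1 Δ) := by
  have h := qLaurent_eq_div jPer (M := 1) jFn_dBdd
  rw [fn_jPer, discriminant_mul_jFn, pow_one] at h
  rw [h, ← map_pow, ← (nice_of_modularForm ModularForm.E₄).qExpansion_pow 3]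
  rfl

open ModularCurve in
/-- Formal identity: `jq * (X * etaProd^24) = eisenstein4^3` after mapping to `ℂ`. -/
theorem coeffMap_jq_mul :
    coeffMap (algebraMap ℚ ℂ) jq *
      HahnSeries.ofPowerSeries ℤ ℂ ((PowerSeries.X * etaProd ^ 24).map (Int.castRingHom ℂ)) =
    HahnSeries.ofPowerSeries ℤ ℂ (eisenstein4.map (Int.castRingHom ℂ)) ^ 3 := by
  have hcomp : (algebraMap ℚ ℂ).comp (Int.castRingHom ℚ) = Int.castRingHom ℂ :=
    RingHom.ext_int _ _
  have h1 : coeffMap (algebraMap ℚ ℂ) jq = HahnSeries.single (-1 : ℤ) (1 : ℂ) *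
      HahnSeries.ofPowerSeries ℤ ℂ (jNum.map (Int.castRingHom ℂ)) := by
    rw [jq, map_mul, coeffMap_single, coeffMap_ofPowerSeries, jNumQ, map_one]
    congr 2
  have h2 : jNum * (PowerSeries.X * etaProd ^ 24) = PowerSeries.X * eisenstein4 ^ 3 := by
    have := dedekindEtaUnit_mul_inv
    rw [dedekindEtaUnit] at this
    rw [jNum]
    calc eisenstein4 ^ 3 * dedekindEtaUnitInv * (PowerSeries.X * etaProd ^ 24)
        = PowerSeries.X * eisenstein4 ^ 3 * (etaProd ^ 24 * dedekindEtaUnitInv) := by ring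
      _ = PowerSeries.X * eisenstein4 ^ 3 := by rw [this, mul_one]
  rw [h1, mul_assoc, ← map_mul, ← map_mul, h2, map_mul, map_mul, PowerSeries.map_X,
    HahnSeries.ofPowerSeries_X, ← mul_assoc, HahnSeries.single_mul_single, map_pow, map_pow]
  simp

open ModularCurve in
/-- The Laurent `q`-expansion of `j` is the Prelude's formal `jq`, given the `q`-expansions of
`E₄` and `Δ` (Part II of the project). -/
theorem qLaurent_jPer
    (hE : qExpansion 1 (ModularForm.E₄ : ℍ → ℂ) = eisenstein4.map (Int.castRingHom ℂ))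
    (hΔ : qExpansion 1 Δ = (PowerSeries.X * etaProd ^ 24).map (Int.castRingHom ℂ)) :
    qLaurent jPer = coeffMap (algebraMap ℚ ℂ) jq := by
  rw [qLaurent_jPer_eq_div, div_eq_iff ofPowerSeries_qExpansion_discriminant_ne_zero, hE, hΔ,
    coeffMap_jq_mul]

open ModularCurve in
/-- The Laurent `q`-expansion of `z ↦ j(d z)`. -/
theorem qLaurent_jPer_scale
    (hE : qExpansion 1 (ModularForm.E₄ : ℍ → ℂ) = eisenstein4.map (Int.castRingHom ℂ))
    (hΔ : qExpansion 1 Δ = (PowerSeries.X * etaProd ^ 24).map (Int.castRingHom ℂ))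
    (d : ℕ) [NeZero d] (φ : ℍ → ℍ) (hφ : ∀ z, (φ z : ℂ) = (d : ℂ) * z) :
    qLaurent (scale d φ hφ jPer) = coeffMap (algebraMap ℚ ℂ) (qExpand ℚ d jq) := by
  rw [qLaurent_scale, qLaurent_jPer hE hΔ, coeffMap_qExpand]

end Fermat.Agent.S24.QExp
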