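/-
S24, Part III: common algebraic setup for the level `N` function field
`F = ModularCurve.modularFunctionFieldBar N` over `K = AlgebraicClosure ℚ`:
the embedding `iota : K →+* ℂ`, the generators `gen d` (`d ∣ N`) and `jF`.
-/
import Fermat.Prelude.Def_ModularCurve_ArithmeticGalois
import Mathlib

set_option autoImplicit false

noncomputable section

open ModularCurve

namespace Fermat.Agent.S24.Setup

/-- The field of constants. -/
abbrev Kbar : Type := AlgebraicClosure ℚ

/-- A fixed embedding of `Kbar` into `ℂ`. -/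
def iotaAlg : Kbar →ₐ[ℚ] ℂ :=
  haveI : Algebra.IsAlgebraic ℚ Kbar := AlgebraicClosure.isAlgebraic ℚ
  IsAlgClosed.lift

/-- A fixed embedding of `Kbar` into `ℂ`, as a ring homomorphism. -/
def iota : Kbar →+* ℂ := (iotaAlg : Kbar →+* ℂ)

theorem iota_injective : Function.Injective iota := iota.injective

theorem iota_comp_algebraMap : iota.comp (algebraMap ℚ Kbar) = algebraMap ℚ ℂ :=
  RingHom.ext fun c => iotaAlg.commutes c

/-- The `q`-expansion of `j(d z)` with coefficients in `Kbar`. -/
def jK (d : ℕ) [NeZero d] : LaurentSeries Kbar := coeffEmb Kbar (qExpand ℚ d jq)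

theorem coeffMap_iota_jK (d : ℕ) [NeZero d] :
    coeffMap iota (jK d) = coeffMap (algebraMap ℚ ℂ) (qExpand ℚ d jq) := by
  rw [jK, coeffEmb, coeffMap_coeffMap]
  exact coeffMap_congr iota_comp_algebraMap _

variable (N : ℕ)

/-- The function field of `X₀(N)` over `Kbar`, as a type. -/
abbrev FF : Type := ↥(modularFunctionFieldBar N)

theorem jK_mem {d : ℕ} [NeZero d] (hd : d ∣ N) : jK d ∈ modularFunctionFieldBar N :=
  coeffEmb_mem_laurentBaseChange Kbar (jqd_mem_full N hd)

/-- The generator `j(d z)` of the function field, `d ∣ N`. -/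
def gen {d : ℕ} [NeZero d] (hd : d ∣ N) : FF N := ⟨jK d, jK_mem N hd⟩

@[simp] theorem coe_gen {d : ℕ} [NeZero d] (hd : d ∣ N) :
    ((gen N hd : FF N) : LaurentSeries Kbar) = jK d := rfl

/-- The function `j` in the function field. -/
def jF : FF N := gen N (one_dvd N)

@[simp] theorem coe_jF : ((jF N : FF N) : LaurentSeries Kbar) = jK 1 := rfl

/-- The set of generators of the function field inside `LaurentSeries Kbar`. -/
def genSet : Set (LaurentSeries Kbar) :=
  {x | ∃ (d : ℕ) (_ : NeZero d), d ∣ N ∧ x = jK d}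

/-- The set of generators of the function field, as elements of the field. -/
def genSetF : Set (FF N) :=
  {x | ∃ (d : ℕ) (_ : NeZero d) (hd : d ∣ N), x = gen N hd}

theorem gen_mem_genSetF {d : ℕ} [NeZero d] (hd : d ∣ N) : gen N hd ∈ genSetF N :=
  ⟨d, ‹_›, hd, rfl⟩

theorem jF_mem_genSetF : jF N ∈ genSetF N := gen_mem_genSetF N (one_dvd N)

/-- The field embedding `F → LaurentSeries ℂ` obtained by applying `iota` to coefficients. -/
def phi : FF N →+* LaurentSeries ℂ :=
  (coeffMap iota).comp (modularFunctionFieldBar N).val.toRingHom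

@[simp] theorem phi_apply (x : FF N) : phi N x = coeffMap iota (x : LaurentSeries Kbar) := rfl

theorem phi_gen {d : ℕ} [NeZero d] (hd : d ∣ N) :
    phi N (gen N hd) = coeffMap (algebraMap ℚ ℂ) (qExpand ℚ d jq) := by
  rw [phi_apply, coe_gen, coeffMap_iota_jK]

theorem phi_algebraMap (c : Kbar) :
    phi N (algebraMap Kbar (FF N) c) = algebraMap ℂ (LaurentSeries ℂ) (iota c) := by
  rw [phi_apply]
  show coeffMap iota (algebraMap Kbar (LaurentSeries Kbar) c) = _
  rw [algebraMap_laurentSeries_eq_single, algebraMap_laurentSeries_eq_single, coeffMap_single]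

end Fermat.Agent.S24.Setup
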