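import Fermat.Agent.S24.JDef
import Fermat.Agent.S24.HolFun
import Fermat.Agent.S24.InvJ

/-!
helper77 (P-S24 Part III).  Symmetric functions of the `SL(2,ℤ)`-conjugates of a holomorphic
function fixed by a finite index subgroup are polynomials in `j`, provided all conjugates have
moderate growth at `i∞`.  Consequently such a function is a root of a monic polynomial of degree
the index, with coefficients polynomials in `j`.
-/

set_option autoImplicit false

open UpperHalfPlane Complex Filter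
open scoped Manifold MatrixGroups Topology

namespace Fermat.Agent.S24

/-- `j` as an element of `HolFun`. -/
noncomputable def jHol : HolFun := HolFun.mk jFn jFn_mdiff

@[simp] theorem jHol_apply (τ : ℍ) : (jHol : ℍ → ℂ) τ = jFn τ := rfl

theorem sl_smul_jHol (γ : SL(2, ℤ)) : γ • jHol = jHol := by
  ext τ
  rw [HolFun.sl_smul_apply, jHol_apply, jHol_apply]
  exact jFn_smul γ⁻¹ τ

namespace SymmFn

local notation "Δ" => ModularForm.discriminant

/-- Moderate growth at `i∞` (spelled out; equal to `ModGrowth` of `Growth.lean`). -/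
def MG (f : ℍ → ℂ) : Prop := ∃ M : ℕ, IsBoundedAtImInfty (fun z : ℍ => Δ z ^ M * f z)

theorem isBoundedAtImInfty_discriminant_pow (k : ℕ) :
    IsBoundedAtImInfty (fun z : ℍ => Δ z ^ k) := by
  have h1 : IsBoundedAtImInfty (Δ : ℍ → ℂ) :=
    (ModularForm.discriminant_isZeroAtImInfty).boundedAtFilter
  induction k with
  | zero =>
    have h : (fun z : ℍ => Δ z ^ 0) = Function.const ℍ (1 : ℂ) := by funext z; simp
    rw [h]
    exact const_boundedAtFilter atImInfty (1 : ℂ)
  | succ k ih =>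
    have h : (fun z : ℍ => Δ z ^ (k + 1)) = (fun z : ℍ => Δ z ^ k) * Δ := by
      funext z; simp [pow_succ]
    rw [h]
    exact ih.mul h1

theorem MG.const (c : ℂ) : MG (fun _ => c) := by
  refine ⟨0, ?_⟩
  have h : (fun z : ℍ => Δ z ^ 0 * c) = Function.const ℍ c := by funext z; simp
  rw [h]
  exact const_boundedAtFilter atImInfty c

theorem MG.mul {f g : ℍ → ℂ} (hf : MG f) (hg : MG g) : MG (fun z => f z * g z) := by
  obtain ⟨M₁, h₁⟩ := hf
  obtain ⟨M₂, h₂⟩ := hg
  refine ⟨M₁ + M₂, ?_⟩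
  have h : (fun z : ℍ => Δ z ^ (M₁ + M₂) * (f z * g z))
      = (fun z : ℍ => Δ z ^ M₁ * f z) * (fun z : ℍ => Δ z ^ M₂ * g z) := by
    funext z; simp only [Pi.mul_apply, pow_add]; ring
  rw [h]
  exact h₁.mul h₂

theorem MG.add {f g : ℍ → ℂ} (hf : MG f) (hg : MG g) : MG (fun z => f z + g z) := by
  obtain ⟨M₁, h₁⟩ := hf
  obtain ⟨M₂, h₂⟩ := hg
  refine ⟨M₁ + M₂, ?_⟩
  have ha := (isBoundedAtImInfty_discriminant_pow M₂).mul h₁
  have hb := (isBoundedAtImInfty_discriminant_pow M₁).mul h₂
  have h : (fun z : ℍ => Δ z ^ (M₁ + M₂) * (f z + g z))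
      = (fun z : ℍ => Δ z ^ M₂) * (fun z : ℍ => Δ z ^ M₁ * f z)
        + (fun z : ℍ => Δ z ^ M₁) * (fun z : ℍ => Δ z ^ M₂ * g z) := by
    funext z; simp only [Pi.mul_apply, Pi.add_apply, pow_add]; ring
  rw [h]
  exact ha.add hb

/-- The subalgebra of holomorphic functions all of whose `SL(2,ℤ)`-translates have moderate
growth at `i∞`. -/
def growthAlg : Subalgebra ℂ HolFun where
  carrier := {f | ∀ γ : SL(2, ℤ), MG ((γ • f : HolFun) : ℍ → ℂ)}
  mul_mem' {f g} hf hg γ := by
    have := (hf γ).mul (hg γ)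
    rw [smul_mul']
    exact this
  one_mem' γ := by
    rw [smul_one]
    exact MG.const 1
  add_mem' {f g} hf hg γ := by
    have := (hf γ).add (hg γ)
    rw [smul_add]
    exact this
  zero_mem' γ := by
    rw [smul_zero]
    exact MG.const 0
  algebraMap_mem' c γ := by
    rw [HolFun.sl_smul_algebraMap]
    exact MG.const c

theorem mem_growthAlg {f : HolFun} :
    f ∈ growthAlg ↔ ∀ γ : SL(2, ℤ), MG ((γ • f : HolFun) : ℍ → ℂ) := Iff.rfl

theorem smul_mem_growthAlg {f : HolFun} (hf : f ∈ growthAlg) (γ : SL(2, ℤ)) :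
    γ • f ∈ growthAlg := fun γ' => by
  rw [← mul_smul]
  exact hf (γ' * γ)

/-- An invariant element of `growthAlg` is a polynomial in `j`. -/
theorem exists_polynomial_of_invariant {f : HolFun} (hf : f ∈ growthAlg)
    (hinv : ∀ γ : SL(2, ℤ), γ • f = f) :
    ∃ P : Polynomial ℂ, f = Polynomial.aeval jHol P := by
  obtain ⟨M, hM⟩ : MG (f : ℍ → ℂ) := by
    have := hf 1
    rwa [one_smul] at this
  have hinv' : ∀ (γ : SL(2, ℤ)) (z : ℍ), (f : ℍ → ℂ) (γ • z) = (f : ℍ → ℂ) z := by
    intro γ z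
    have h := congrArg (fun g : HolFun => (g : ℍ → ℂ) z) (hinv γ⁻¹)
    simpa using h
  obtain ⟨P, -, hP⟩ := InvJ.exists_polynomial_of_invariant' (f : ℍ → ℂ) f.2 hinv' M hM
  refine ⟨P, ?_⟩
  ext z
  rw [hP z]
  have : ∀ Q : Polynomial ℂ, ((Polynomial.aeval jHol Q : HolFun) : ℍ → ℂ) z
      = Q.eval (jFn z) := by
    intro Q
    induction Q using Polynomial.induction_on' with
    | add p q hp hq => simp [hp, hq]
    | monomial n a =>
      simp [Polynomial.aeval_monomial, jHol_apply]
  rw [this]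
  rfl

/-! ### Conjugates under a finite index subgroup -/

section Conj

variable (Γ : Subgroup SL(2, ℤ)) (θ : HolFun) (hθ : ∀ γ ∈ Γ, γ • θ = θ)

/-- The conjugates `g • θ`, indexed by the left cosets `g Γ`. -/
noncomputable def conj (hθ : ∀ γ ∈ Γ, γ • θ = θ) (b : SL(2, ℤ) ⧸ Γ) : HolFun :=
  Quotient.liftOn' b (fun g => g • θ) (fun a c hac => by
    have h : a⁻¹ * c ∈ Γ := QuotientGroup.leftRel_apply.mp hac
    have h2 := hθ _ h
    show a • θ = c • θ
    calc a • θ = a • ((a⁻¹ * c) • θ) := by rw [h2]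
      _ = c • θ := by rw [← mul_smul, mul_inv_cancel_left])

@[simp] theorem conj_mk (g : SL(2, ℤ)) : conj Γ θ hθ (QuotientGroup.mk g) = g • θ := rfl

theorem smul_conj (γ : SL(2, ℤ)) (b : SL(2, ℤ) ⧸ Γ) :
    γ • conj Γ θ hθ b = conj Γ θ hθ (γ • b) := by
  induction b using QuotientGroup.induction_on with
  | H g =>
    rw [conj_mk, ← mul_smul]
    rfl

theorem conj_mem_growthAlg (hg : θ ∈ growthAlg) (b : SL(2, ℤ) ⧸ Γ) :
    conj Γ θ hθ b ∈ growthAlg := by
  induction b using QuotientGroup.induction_on with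
  | H g => exact smul_mem_growthAlg hg g

variable [Γ.FiniteIndex]

noncomputable instance : Fintype (SL(2, ℤ) ⧸ Γ) := Fintype.ofFinite _

/-- The characteristic polynomial `∏ (X - g • θ)` over the cosets. -/
noncomputable def prodPoly : Polynomial HolFun :=
  ∏ b : SL(2, ℤ) ⧸ Γ, (Polynomial.X - Polynomial.C (conj Γ θ hθ b))

theorem prodPoly_monic : (prodPoly Γ θ hθ).Monic :=
  Polynomial.monic_prod_of_monic _ _ fun _ _ => Polynomial.monic_X_sub_C _

theorem prodPoly_natDegree : (prodPoly Γ θ hθ).natDegree = Γ.index := by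
  rw [prodPoly, Polynomial.natDegree_prod_of_monic _ _ fun b _ => Polynomial.monic_X_sub_C _]
  simp [Subgroup.index, Nat.card_eq_fintype_card]

theorem prodPoly_eval_self : (prodPoly Γ θ hθ).eval θ = 0 := by
  rw [prodPoly, Polynomial.eval_prod]
  refine Finset.prod_eq_zero (Finset.mem_univ (QuotientGroup.mk (1 : SL(2, ℤ)))) ?_
  simp

theorem prodPoly_map_smul (γ : SL(2, ℤ)) :
    (prodPoly Γ θ hθ).map (MulSemiringAction.toRingHom SL(2, ℤ) HolFun γ) = prodPoly Γ θ hθ := by
  rw [prodPoly, Polynomial.map_prod]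
  have h : ∀ b : SL(2, ℤ) ⧸ Γ,
      (Polynomial.X - Polynomial.C (conj Γ θ hθ b)).map
          (MulSemiringAction.toRingHom SL(2, ℤ) HolFun γ)
        = Polynomial.X - Polynomial.C (conj Γ θ hθ (γ • b)) := by
    intro b
    rw [Polynomial.map_sub, Polynomial.map_X, Polynomial.map_C]
    congr 2
    exact smul_conj Γ θ hθ γ b
  simp_rw [h]
  exact Equiv.prod_comp (MulAction.toPerm γ : (SL(2, ℤ) ⧸ Γ) ≃ (SL(2, ℤ) ⧸ Γ))
    (fun b => Polynomial.X - Polynomial.C (conj Γ θ hθ b))

theorem smul_coeff_prodPoly (γ : SL(2, ℤ)) (i : ℕ) :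
    γ • (prodPoly Γ θ hθ).coeff i = (prodPoly Γ θ hθ).coeff i := by
  have h := congrArg (fun P => Polynomial.coeff P i) (prodPoly_map_smul Γ θ hθ γ)
  simpa [Polynomial.coeff_map] using h

theorem coeff_prod_mem_subring {R : Type*} [CommRing R] (S : Subring R) {ι : Type*}
    (s : Finset ι) (f : ι → Polynomial R) (h : ∀ b ∈ s, ∀ i, (f b).coeff i ∈ S) :
    ∀ i, (∏ b ∈ s, f b).coeff i ∈ S := by
  classical
  induction s using Finset.induction_on with
  | empty =>
    intro i
    rw [Finset.prod_empty, Polynomial.coeff_one]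
    split_ifs
    · exact S.one_mem
    · exact S.zero_mem
  | insert a s ha ih =>
    intro i
    rw [Finset.prod_insert ha, Polynomial.coeff_mul]
    refine S.sum_mem fun x _ => S.mul_mem (h a (Finset.mem_insert_self _ _) _) ?_
    exact ih (fun b hb => h b (Finset.mem_insert_of_mem hb)) _

theorem coeff_prodPoly_mem_growthAlg (hg : θ ∈ growthAlg) (i : ℕ) :
    (prodPoly Γ θ hθ).coeff i ∈ growthAlg := by
  have := coeff_prod_mem_subring growthAlg.toSubring Finset.univ
    (fun b : SL(2, ℤ) ⧸ Γ => Polynomial.X - Polynomial.C (conj Γ θ hθ b)) (fun b _ k => by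
      rw [Polynomial.coeff_sub, Polynomial.coeff_X, Polynomial.coeff_C]
      refine Subring.sub_mem _ ?_ ?_
      · split_ifs
        · exact Subring.one_mem _
        · exact Subring.zero_mem _
      · split_ifs
        · exact conj_mem_growthAlg Γ θ hθ hg b
        · exact Subring.zero_mem _) i
  exact this

/-- If `θ` is fixed by the finite index subgroup `Γ` and all its translates have moderate growth,
then `θ` is a root of a monic polynomial of degree `Γ.index` whose coefficients are polynomials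
in `j`. -/
theorem exists_relation (hθ : ∀ γ ∈ Γ, γ • θ = θ) (hg : θ ∈ growthAlg) :
    ∃ p : ℕ → Polynomial ℂ, Polynomial.aeval jHol (p Γ.index) = 1 ∧
      ∑ i ∈ Finset.range (Γ.index + 1), Polynomial.aeval jHol (p i) * θ ^ i = 0 := by
  have hex : ∀ i : ℕ, ∃ P : Polynomial ℂ, (prodPoly Γ θ hθ).coeff i = Polynomial.aeval jHol P :=
    fun i => exists_polynomial_of_invariant (coeff_prodPoly_mem_growthAlg Γ θ hθ hg i)
      (fun γ => smul_coeff_prodPoly Γ θ hθ γ i)
  choose P hP using hex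
  refine ⟨fun i => if i = Γ.index then 1 else P i, by simp, ?_⟩
  have hroot := prodPoly_eval_self Γ θ hθ
  rw [Polynomial.eval_eq_sum_range, prodPoly_natDegree] at hroot
  rw [← hroot]
  refine Finset.sum_congr rfl fun i _ => ?_
  beta_reduce
  split_ifs with hi
  · have h1 : (prodPoly Γ θ hθ).coeff i = 1 := by
      have := (prodPoly_monic Γ θ hθ).coeff_natDegree
      rwa [prodPoly_natDegree, ← hi] at this
    rw [h1, map_one]
  · rw [hP i]

end Conj

end SymmFn

end Fermat.Agent.S24
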