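import Fermat.Agent.S24.Setup

/-!
# `j` is transcendental over the constants (S24, part III, package D3)

A Laurent series with a nonzero coefficient in negative degree is transcendental over the field
of constants (the ring of power series is integrally closed and contains the constants). Hence
`Setup.jF N`, whose `q`-expansion starts with `q⁻¹`, is transcendental over `Kbar`.
-/

set_option autoImplicit false

noncomputable section

open ModularCurve WithZero

namespace Fermat.Agent.S24.TransJ

/-- an element integral over a ring mapping into a valuation subring lies in it. -/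
theorem mem_valuationSubring_of_isIntegral {R F : Type*} [CommRing R] [Field F] [Algebra R F]
    (V : ValuationSubring F) (h : ∀ r : R, algebraMap R F r ∈ V) {b : F} (hb : IsIntegral R b) :
    b ∈ V := by
  obtain ⟨p, hp, hroot⟩ := hb
  let f : R →+* V := (algebraMap R F).codRestrict V h
  have hcomp : (algebraMap V F).comp f = algebraMap R F := by
    ext r; rfl
  have hint : IsIntegral V b :=
    ⟨p.map f, hp.map f, by rw [Polynomial.eval₂_map, hcomp]; exact hroot⟩
  obtain ⟨y, hy⟩ := IsIntegrallyClosed.isIntegral_iff.mp hint
  rw [← hy]
  exact y.2

/-- A Laurent series with a nonzero coefficient in negative degree is transcendental over the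
constants. -/
theorem transcendental_of_coeff_ne_zero {L : Type*} [Field L] (t : LaurentSeries L) {n : ℤ}
    (hn : n < 0) (ht : t.coeff n ≠ 0) : Transcendental L t := by
  intro halg
  have hint : IsIntegral L t := halg.isIntegral
  let V : ValuationSubring (LaurentSeries L) :=
    (Valued.v : Valuation (LaurentSeries L) ℤᵐ⁰).valuationSubring
  have hmemV : ∀ f : LaurentSeries L, f ∈ V ↔ ∀ m : ℤ, m < 0 → f.coeff m = 0 := by
    intro f
    have h0 := LaurentSeries.valuation_le_iff_coeff_lt_eq_zero L (D := 0) (f := f)
    rw [neg_zero, exp_zero] at h0
    rw [Valuation.mem_valuationSubring_iff]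
    exact h0
  have hconst : ∀ c : L, algebraMap L (LaurentSeries L) c ∈ V := by
    intro c
    rw [hmemV]
    intro m hm
    rw [algebraMap_laurentSeries_eq_single, HahnSeries.coeff_single_of_ne hm.ne]
  have hmem := mem_valuationSubring_of_isIntegral V hconst hint
  rw [hmemV] at hmem
  exact ht (hmem n hn)

open Setup

theorem transcendental_jK_one : Transcendental Kbar (jK 1) := by
  refine transcendental_of_coeff_ne_zero _ (n := -1) (by norm_num) ?_
  rw [jK, coeffEmb_coeff, qExpand_one_apply, coeff_jq_neg_one, map_one]
  exact one_ne_zero

/-- `j` is transcendental over the constant field. -/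
theorem transcendental_jF (N : ℕ) : Transcendental Kbar (jF N) := by
  have h := transcendental_jK_one
  rw [← coe_jF N] at h
  exact (transcendental_algebraMap_iff
    (algebraMap (FF N) (LaurentSeries Kbar)).injective).mp h

end Fermat.Agent.S24.TransJ
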