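import Mathlib
import Fermat.Agent.S24.SymmFn
import Fermat.Agent.S24.QExp
import Fermat.Agent.S24.Descent
import Fermat.Agent.S24.Setup
import Fermat.Agent.S24.TransJ
import Fermat.Agent.S24.JQExp

/-!
helper76 (P-S24 Part III, package [A2]): the abstract degree bound.

If `θ : HolFun` is fixed by `Γ₀(N)`, has moderate growth together with all its conjugates, is
`1`-periodic, and its Laurent `q`-expansion is (the image under `iota` of) an element `a` of the
function field `FF N`, then `a` is a root of a nonzero polynomial of degree at most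
`[SL(2,ℤ) : Γ₀(N)]` over `Kbar(j)`.
-/

set_option autoImplicit false

noncomputable section

open UpperHalfPlane ModularCurve CongruenceSubgroup IntermediateField
open scoped MatrixGroups

namespace Fermat.Agent.S24.HDeg

open Setup

/-- `jPer` and `jHol` are the same holomorphic function. -/
theorem coe_jPer : ((QExp.jPer : QExp.PerFun) : HolFun) = jHol := rfl

/-- The Laurent expansion of `j`, in terms of `jK 1` (unconditional). -/
theorem qLaurent_jPer_eq : QExp.qLaurent QExp.jPer = coeffMap iota (jK 1) := by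
  have hE := JQExp.qExpansion_E₄
  have hΔ : qExpansion 1 ModularForm.discriminant =
      (PowerSeries.X * etaProd ^ 24).map (Int.castRingHom ℂ) := by
    rw [JQExp.qExpansion_discriminant, dedekindEtaUnit]
  rw [QExp.qLaurent_jPer hE hΔ, coeffMap_iota_jK, qExpand_one_apply]

/-- The relation of `SymmFn.exists_relation`, transported to Laurent series over `ℂ`. -/
theorem exists_relation_laurent (Γ : Subgroup SL(2, ℤ)) [Γ.FiniteIndex] (θ : HolFun)
    (hfix : ∀ γ ∈ Γ, γ • θ = θ) (hgr : θ ∈ SymmFn.growthAlg) (hper : θ ∈ QExp.PerFun) :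
    ∃ p : ℕ → Polynomial ℂ, p Γ.index ≠ 0 ∧
      ∑ i ∈ Finset.range (Γ.index + 1),
        Polynomial.aeval (coeffMap iota (jK 1)) (p i) * QExp.qLaurent ⟨θ, hper⟩ ^ i = 0 := by
  obtain ⟨p, hp1, hp⟩ := SymmFn.exists_relation Γ θ hfix hgr
  refine ⟨p, ?_, ?_⟩
  · intro h0
    rw [h0, map_zero] at hp1
    exact zero_ne_one hp1
  · -- the relation holds in `PerFun`
    have hP : ∑ i ∈ Finset.range (Γ.index + 1),
        Polynomial.aeval QExp.jPer (p i) * (⟨θ, hper⟩ : QExp.PerFun) ^ i = 0 := by
      apply Subtype.ext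
      have hval : ∀ q : Polynomial ℂ,
          ((Polynomial.aeval QExp.jPer q : QExp.PerFun) : HolFun) = Polynomial.aeval jHol q := by
        intro q
        have := Polynomial.aeval_algHom_apply (QExp.PerFun.val) QExp.jPer q
        exact this.symm
      have : ((∑ i ∈ Finset.range (Γ.index + 1),
          Polynomial.aeval QExp.jPer (p i) * (⟨θ, hper⟩ : QExp.PerFun) ^ i : QExp.PerFun) : HolFun)
          = ∑ i ∈ Finset.range (Γ.index + 1), Polynomial.aeval jHol (p i) * θ ^ i := by
        rw [← QExp.PerFun.val_apply, map_sum]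
        refine Finset.sum_congr rfl fun i _ => ?_
        rw [map_mul, map_pow, QExp.PerFun.val_apply, QExp.PerFun.val_apply, hval]
      rw [this, hp]
      rfl
    have := congrArg QExp.qLaurent hP
    rw [map_sum, map_zero] at this
    rw [← this]
    refine Finset.sum_congr rfl fun i _ => ?_
    rw [map_mul, map_pow, ← Polynomial.aeval_algHom_apply, qLaurent_jPer_eq]


/-- The descent step: a relation over `ℂ` between `iota`-base-changed Laurent series gives a
relation over `Kbar`. -/
theorem descent_step (n : ℕ) (a : LaurentSeries Kbar) (p : ℕ → Polynomial ℂ) (hpn : p n ≠ 0)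
    (hrel : ∑ i ∈ Finset.range (n + 1),
      Polynomial.aeval (coeffMap iota (jK 1)) (p i) * coeffMap iota a ^ i = 0) :
    ∃ p' : Fin (n + 1) → Polynomial Kbar, (∃ i, p' i ≠ 0) ∧
      ∑ i : Fin (n + 1), Polynomial.aeval (jK 1) (p' i) * a ^ (i : ℕ) = 0 := by
  letI : Algebra Kbar ℂ := iota.toAlgebra
  have hrel' : ∑ i : Fin (n + 1),
      Polynomial.aeval (coeffMap (algebraMap Kbar ℂ) (jK 1)) (p i) *
        coeffMap (algebraMap Kbar ℂ) (a ^ (i : ℕ)) = 0 := by
    rw [← hrel, Finset.sum_range]
    refine Finset.sum_congr rfl fun i _ => ?_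
    rw [map_pow]
    rfl
  obtain ⟨p', hne, -, hsum⟩ := Descent.exists_relation_of_relation_baseChange (jK 1)
    (fun i : Fin (n + 1) => a ^ (i : ℕ)) (fun i => p i) ⟨Fin.last n, hpn⟩ hrel'
  exact ⟨p', hne, hsum⟩

set_option synthInstance.maxHeartbeats 400000 in
set_option maxHeartbeats 1600000 in
/-- **The abstract degree bound.** -/
theorem exists_poly (N : ℕ) [NeZero N] (θ : HolFun) (hfix : ∀ γ ∈ Gamma0 N, γ • θ = θ)
    (hgr : θ ∈ SymmFn.growthAlg) (hper : θ ∈ QExp.PerFun) (a : FF N)
    (hq : QExp.qLaurent ⟨θ, hper⟩ = coeffMap iota (a : LaurentSeries Kbar)) :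
    ∃ p : Polynomial Kbar⟮jF N⟯, p ≠ 0 ∧ p.natDegree ≤ (Gamma0 N).index ∧
      Polynomial.aeval a p = 0 := by
  classical
  set n := (Gamma0 N).index with hn
  obtain ⟨p, hpn, hrel⟩ := exists_relation_laurent (Gamma0 N) θ hfix hgr hper
  rw [hq] at hrel
  obtain ⟨p', ⟨i0, hi0⟩, hsum⟩ := descent_step n (a : LaurentSeries Kbar) p hpn hrel
  -- the generator of `Kbar(j)`
  set g : Kbar⟮jF N⟯ := IntermediateField.AdjoinSimple.gen Kbar (jF N) with hg
  have hgcoe : ((g : Kbar⟮jF N⟯) : FF N) = jF N :=
    IntermediateField.AdjoinSimple.coe_gen Kbar (jF N)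
  have hgtr : Transcendental Kbar g := by
    have h := TransJ.transcendental_jF N
    rw [← hgcoe] at h
    exact (transcendental_algebraMap_iff
      (algebraMap Kbar⟮jF N⟯ (FF N)).injective).mp h
  let P : Polynomial Kbar⟮jF N⟯ :=
    ∑ i : Fin (n + 1), Polynomial.C (Polynomial.aeval g (p' i)) * Polynomial.X ^ (i : ℕ)
  have hcoeff : ∀ i : Fin (n + 1), P.coeff (i : ℕ) = Polynomial.aeval g (p' i) := by
    intro i
    simp only [P, Polynomial.finsetSum_coeff, Polynomial.coeff_C_mul, Polynomial.coeff_X_pow]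
    rw [Finset.sum_eq_single i]
    · simp
    · intro b _ hb
      have : (i : ℕ) ≠ (b : ℕ) := fun h => hb (Fin.ext h.symm)
      simp [this]
    · intro h; exact absurd (Finset.mem_univ i) h
  refine ⟨P, ?_, ?_, ?_⟩
  · intro hP0
    have h1 := hcoeff i0
    rw [hP0, Polynomial.coeff_zero] at h1
    exact hi0 ((transcendental_iff.mp hgtr) (p' i0) h1.symm)
  · refine Polynomial.natDegree_sum_le_of_forall_le _ _ fun i _ => ?_
    refine (Polynomial.natDegree_C_mul_X_pow_le _ _).trans ?_
    exact Nat.lt_succ_iff.mp i.2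
  · -- evaluate in `FF N` and push to Laurent series
    have hinj : Function.Injective (algebraMap (FF N) (LaurentSeries Kbar)) :=
      (algebraMap (FF N) (LaurentSeries Kbar)).injective
    apply hinj
    rw [map_zero, ← hsum]
    simp only [P, map_sum, Polynomial.aeval_C, map_mul, map_pow, Polynomial.aeval_X]
    refine Finset.sum_congr rfl fun i _ => ?_
    congr 1
    -- `aeval g (p' i)` maps to `aeval (jK 1) (p' i)`
    rw [← IsScalarTower.algebraMap_apply, ← Polynomial.aeval_algebraMap_apply]
    congr 1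

end Fermat.Agent.S24.HDeg
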