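/-
helper19: local order lemmas for P-S24 Part IV (orders at elliptic fixed points).
-/
import Mathlib.Analysis.Meromorphic.Order
import Mathlib.Analysis.Calculus.Deriv.Mul
import Mathlib.Analysis.Complex.Basic
import Mathlib.Analysis.Complex.UpperHalfPlane.Manifold
import Mathlib.NumberTheory.ModularForms.Basic
import Mathlib.RingTheory.RootsOfUnity.PrimitiveRoots

set_option autoImplicit false

namespace Fermat.Agent.S24.LocalOrder

open Filter Topology

/-- If `φ` is analytic at `z₀`, fixes `z₀` and has derivative `ζ ≠ 0` there, then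
`φ z - z₀ = (z - z₀) * ψ z` near `z₀` with `ψ` analytic and `ψ z₀ = ζ`. -/
theorem exists_eq_sub_mul_of_fixed {φ : ℂ → ℂ} {z₀ ζ : ℂ} (hφ : AnalyticAt ℂ φ z₀)
    (hfix : φ z₀ = z₀) (hd : deriv φ z₀ = ζ) (hζ : ζ ≠ 0) :
    ∃ ψ : ℂ → ℂ, AnalyticAt ℂ ψ z₀ ∧ ψ z₀ = ζ ∧ ∀ᶠ z in 𝓝 z₀, φ z - z₀ = (z - z₀) * ψ z := by
  have ho : analyticOrderAt (φ · - φ z₀) z₀ = 1 :=
    hφ.analyticOrderAt_sub_eq_one_of_deriv_ne_zero (hd ▸ hζ)
  have han : AnalyticAt ℂ (φ · - φ z₀) z₀ := by fun_prop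
  obtain ⟨ψ, hψ, hψ0, hev⟩ := (han.analyticOrderAt_eq_natCast (n := 1)).mp (by simpa using ho)
  refine ⟨ψ, hψ, ?_, ?_⟩
  · -- derivative of both sides at z₀
    have h1 : HasDerivAt (fun z => φ z - φ z₀) ζ z₀ := by
      have := hφ.differentiableAt.hasDerivAt
      rw [hd] at this
      exact this.sub_const _
    have h2 : HasDerivAt (fun z => (z - z₀) ^ 1 • ψ z) (ψ z₀) z₀ := by
      have hψd := hψ.differentiableAt.hasDerivAt
      have hid : HasDerivAt (fun z : ℂ => z - z₀) 1 z₀ := (hasDerivAt_id z₀).sub_const z₀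
      have := hid.fun_mul hψd
      simp only [sub_self, zero_mul, add_zero, one_mul] at this
      simpa [pow_one, smul_eq_mul] using this
    have h3 : HasDerivAt (fun z => (z - z₀) ^ 1 • ψ z) ζ z₀ := h1.congr_of_eventuallyEq
      (hev.mono fun z hz => hz.symm)
    exact h2.unique h3
  · filter_upwards [hev] with z hz
    rw [hfix] at hz
    simpa [pow_one, smul_eq_mul] using hz

/-- **Rotation lemma.** If `g` is meromorphic at `z₀` of finite order `k` and invariant under an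
analytic map `φ` fixing `z₀` with derivative `ζ ≠ 0` there, then `ζ ^ k = 1`. -/
theorem zpow_eq_one_of_comp_eq {g φ : ℂ → ℂ} {z₀ ζ : ℂ} {k : ℤ} (hg : MeromorphicAt g z₀)
    (hk : meromorphicOrderAt g z₀ = k) (hφ : AnalyticAt ℂ φ z₀) (hfix : φ z₀ = z₀)
    (hd : deriv φ z₀ = ζ) (hζ : ζ ≠ 0) (hinv : ∀ᶠ z in 𝓝[≠] z₀, g (φ z) = g z) :
    ζ ^ k = 1 := by
  obtain ⟨G, hG, hG0, hGev⟩ := (meromorphicOrderAt_eq_int_iff hg).mp hk
  obtain ⟨ψ, hψ, hψ0, hψev⟩ := exists_eq_sub_mul_of_fixed hφ hfix hd hζ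
  have hnc : ¬ EventuallyConst φ (𝓝 z₀) := by
    rw [eventuallyConst_iff_analyticOrderAt_sub_eq_top,
      hφ.analyticOrderAt_sub_eq_one_of_deriv_ne_zero (hd ▸ hζ)]
    simp
  have hmap : Tendsto φ (𝓝[≠] z₀) (𝓝[≠] z₀) := by
    have := hφ.map_nhdsNE hnc
    rwa [hfix] at this
  -- the key identity on a punctured neighbourhood
  have key : ∀ᶠ z in 𝓝[≠] z₀, ψ z ^ k * G (φ z) = G z := by
    have h1 : ∀ᶠ z in 𝓝[≠] z₀, g (φ z) = (φ z - z₀) ^ k • G (φ z) := hmap.eventually hGev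
    have h2 : ∀ᶠ z in 𝓝[≠] z₀, φ z - z₀ = (z - z₀) * ψ z :=
      eventually_nhdsWithin_of_eventually_nhds hψev
    have h3 : ∀ᶠ z in 𝓝[≠] z₀, z ≠ z₀ := eventually_mem_nhdsWithin
    filter_upwards [h1, h2, h3, hGev, hinv] with z e1 e2 e3 e4 e5
    rw [e2, mul_zpow, smul_eq_mul] at e1
    rw [e4, smul_eq_mul] at e5
    have hz : (z - z₀) ^ k ≠ 0 := zpow_ne_zero _ (sub_ne_zero.mpr e3)
    have : (z - z₀) ^ k * (ψ z ^ k * G (φ z)) = (z - z₀) ^ k * G z := by
      rw [← e5, e1]; ring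
    exact mul_left_cancel₀ hz this
  -- pass to the limit
  have hcont1 : Tendsto (fun z => ψ z ^ k * G (φ z)) (𝓝[≠] z₀) (𝓝 (ζ ^ k * G z₀)) := by
    have hψc : ContinuousAt (fun z => ψ z ^ k) z₀ :=
      hψ.continuousAt.zpow₀ k (Or.inl (hψ0 ▸ hζ))
    have hGφ : ContinuousAt (fun z => G (φ z)) z₀ := by
      have : ContinuousAt G (φ z₀) := by rw [hfix]; exact hG.continuousAt
      exact this.comp hφ.continuousAt
    have h := (hψc.fun_mul hGφ).tendsto
    have e : ψ z₀ ^ k * G (φ z₀) = ζ ^ k * G z₀ := by rw [hψ0, hfix]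
    rw [e] at h
    exact h.mono_left nhdsWithin_le_nhds
  have hcont2 : Tendsto G (𝓝[≠] z₀) (𝓝 (G z₀)) := hG.continuousAt.tendsto.mono_left nhdsWithin_le_nhds
  have hlim : ζ ^ k * G z₀ = G z₀ := tendsto_nhds_unique (hcont1.congr' key) hcont2
  have : (ζ ^ k - 1) * G z₀ = 0 := by rw [sub_mul, hlim, one_mul, sub_self]
  rcases mul_eq_zero.mp this with h | h
  · exact sub_eq_zero.mp h
  · exact absurd h hG0



/-- Corollary of the rotation lemma for a primitive root of unity. -/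
theorem dvd_of_comp_eq_of_isPrimitiveRoot {g φ : ℂ → ℂ} {z₀ ζ : ℂ} {k : ℤ} {e : ℕ}
    (hg : MeromorphicAt g z₀) (hk : meromorphicOrderAt g z₀ = k) (hφ : AnalyticAt ℂ φ z₀)
    (hfix : φ z₀ = z₀) (hd : deriv φ z₀ = ζ) (hζ : IsPrimitiveRoot ζ e) (he : e ≠ 0)
    (hinv : ∀ᶠ z in 𝓝[≠] z₀, g (φ z) = g z) : (e : ℤ) ∣ k := by
  have hζ0 : ζ ≠ 0 := hζ.ne_zero he
  exact (hζ.zpow_eq_one_iff_dvd k).mp (zpow_eq_one_of_comp_eq hg hk hφ hfix hd hζ0 hinv)

open UpperHalfPlane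

open scoped MatrixGroups

theorem det_coe_SL2Z (γ : SL(2, ℤ)) : ((γ : GL (Fin 2) ℝ).val).det = 1 := by
  have := (Matrix.SpecialLinearGroup.map (Int.castRingHom ℝ) γ).det_coe
  simpa using this

/-- **Rotation lemma on the upper half plane.** If `f : ℍ → ℂ` is invariant under `γ ∈ SL(2,ℤ)`,
`γ` fixes `τ`, and `f` is meromorphic of finite order `k` at `τ`, then
`((c τ + d) ^ 2) ^ k = 1`. -/
theorem denom_sq_zpow_eq_one {f : ℍ → ℂ} (γ : SL(2, ℤ)) (τ : ℍ) (hfix : γ • τ = τ)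
    (hinv : ∀ z : ℍ, f (γ • z) = f z) {k : ℤ}
    (hmer : MeromorphicAt (fun z : ℂ => f (ofComplex z)) τ)
    (hk : meromorphicOrderAt (fun z : ℂ => f (ofComplex z)) τ = k) :
    (denom γ τ ^ 2) ^ k = 1 := by
  have hdet : 0 < ((γ : GL (Fin 2) ℝ).val).det := by rw [det_coe_SL2Z]; exact one_pos
  set φ : ℂ → ℂ := fun z => ↑((γ : GL (Fin 2) ℝ) • ofComplex z) with hφdef
  have hφ : AnalyticAt ℂ φ τ := τ.analyticAt_smul hdet
  have hφfix : φ τ = τ := by
    simp only [hφdef, ofComplex_apply]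
    exact congrArg UpperHalfPlane.coe hfix
  have hden : denom γ τ ≠ 0 := denom_ne_zero _ τ
  have hd : deriv φ τ = (denom γ τ ^ 2)⁻¹ := by
    rw [hφdef, τ.deriv_smul hdet, det_coe_SL2Z]
    simp
  have hζ : (denom γ τ ^ 2)⁻¹ ≠ 0 := inv_ne_zero (pow_ne_zero _ hden)
  have hinv' : ∀ᶠ z in 𝓝[≠] (τ : ℂ), (fun z : ℂ => f (ofComplex z)) (φ z)
      = (fun z : ℂ => f (ofComplex z)) z := by
    refine Eventually.of_forall fun z => ?_
    simp only [hφdef, ofComplex_apply]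
    exact hinv _
  have := zpow_eq_one_of_comp_eq hmer hk hφ hφfix hd hζ hinv'
  rw [inv_zpow, inv_eq_one] at this
  exact this


/-- For `γ ∈ SL(2,ℤ)` fixing `τ`, the automorphy factor `w = c τ + d` is an eigenvalue of `γ`:
`w ^ 2 = (a + d) w - 1`. -/
theorem denom_sq_of_fixed (γ : SL(2, ℤ)) (τ : ℍ) (hfix : γ • τ = τ) :
    denom γ τ ^ 2 = ((γ 0 0 + γ 1 1 : ℤ) : ℂ) * denom γ τ - 1 := by
  have h1 := congrArg UpperHalfPlane.coe hfix
  rw [coe_specialLinearGroup_apply] at h1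
  have hden : denom γ τ ≠ 0 := denom_ne_zero _ τ
  rw [ModularGroup.denom_apply] at hden ⊢
  have hdet : ((γ 0 0 : ℤ) : ℂ) * (γ 1 1 : ℤ) - (γ 0 1 : ℤ) * (γ 1 0 : ℤ) = 1 := by
    have := γ.det_coe
    rw [Matrix.det_fin_two] at this
    exact_mod_cast this
  simp only [algebraMap_int_eq, Int.coe_castRingHom, Complex.ofReal_intCast] at h1
  rw [div_eq_iff hden] at h1
  push_cast
  linear_combination (-(γ 1 0 : ℂ)) * h1 - hdet

theorem isPrimitiveRoot_three_of_sq_add_add_one {ζ : ℂ} (h : ζ ^ 2 + ζ + 1 = 0) :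
    IsPrimitiveRoot ζ 3 := by
  have h3 : ζ ^ 3 = 1 := by linear_combination (ζ - 1) * h
  refine IsPrimitiveRoot.mk_of_lt ζ (by norm_num) h3 ?_
  intro l hl0 hl3 hl
  interval_cases l
  · rw [pow_one] at hl
    rw [hl] at h
    norm_num at h
  · have : ζ = -2 := by linear_combination h - hl
    rw [this] at hl
    norm_num at hl

theorem isPrimitiveRoot_neg_one_two : IsPrimitiveRoot (-1 : ℂ) 2 := by
  refine IsPrimitiveRoot.mk_of_lt _ (by norm_num) (by norm_num) ?_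
  intro l hl0 hl2 hl
  interval_cases l
  norm_num at hl

/-- **Elliptic points of order 2.** If `γ ∈ SL(2,ℤ)` has trace `0` and fixes `τ`, every
`γ`-invariant function meromorphic of finite order `k` at `τ` has even order. -/
theorem two_dvd_order_of_trace_zero {f : ℍ → ℂ} (γ : SL(2, ℤ)) (τ : ℍ) (hfix : γ • τ = τ)
    (htr : γ 0 0 + γ 1 1 = 0) (hinv : ∀ z : ℍ, f (γ • z) = f z) {k : ℤ}
    (hmer : MeromorphicAt (fun z : ℂ => f (ofComplex z)) τ)
    (hk : meromorphicOrderAt (fun z : ℂ => f (ofComplex z)) τ = k) : (2 : ℤ) ∣ k := by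
  have h1 := denom_sq_zpow_eq_one γ τ hfix hinv hmer hk
  have h2 := denom_sq_of_fixed γ τ hfix
  rw [htr] at h2
  have h3 : denom γ τ ^ 2 = -1 := by rw [h2]; simp
  rw [h3] at h1
  exact_mod_cast (isPrimitiveRoot_neg_one_two.zpow_eq_one_iff_dvd k).mp h1

/-- **Elliptic points of order 3.** If `γ ∈ SL(2,ℤ)` has trace `1` or `-1` and fixes `τ`, every
`γ`-invariant function meromorphic of finite order `k` at `τ` has order divisible by `3`. -/
theorem three_dvd_order_of_trace_one {f : ℍ → ℂ} (γ : SL(2, ℤ)) (τ : ℍ) (hfix : γ • τ = τ)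
    (htr : γ 0 0 + γ 1 1 = 1 ∨ γ 0 0 + γ 1 1 = -1) (hinv : ∀ z : ℍ, f (γ • z) = f z) {k : ℤ}
    (hmer : MeromorphicAt (fun z : ℂ => f (ofComplex z)) τ)
    (hk : meromorphicOrderAt (fun z : ℂ => f (ofComplex z)) τ = k) : (3 : ℤ) ∣ k := by
  have h1 := denom_sq_zpow_eq_one γ τ hfix hinv hmer hk
  have h2 := denom_sq_of_fixed γ τ hfix
  have hprim : IsPrimitiveRoot (denom γ τ ^ 2) 3 := by
    apply isPrimitiveRoot_three_of_sq_add_add_one
    rcases htr with h | h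
    · rw [h] at h2
      push_cast at h2
      linear_combination (denom γ τ ^ 2 + denom γ τ + 1) * h2
    · rw [h] at h2
      push_cast at h2
      linear_combination (denom γ τ ^ 2 - denom γ τ + 1) * h2
  exact_mod_cast (hprim.zpow_eq_one_iff_dvd k).mp h1

/-- The case of `S` at `i`. -/
theorem two_dvd_order_of_S_invariant {f : ℍ → ℂ} (τ : ℍ) (hfix : ModularGroup.S • τ = τ)
    (hinv : ∀ z : ℍ, f (ModularGroup.S • z) = f z) {k : ℤ}
    (hmer : MeromorphicAt (fun z : ℂ => f (ofComplex z)) τ)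
    (hk : meromorphicOrderAt (fun z : ℂ => f (ofComplex z)) τ = k) : (2 : ℤ) ∣ k :=
  two_dvd_order_of_trace_zero ModularGroup.S τ hfix (by simp [ModularGroup.S]) hinv hmer hk

/-- The case of `S * T` (at `ρ`). -/
theorem three_dvd_order_of_ST_invariant {f : ℍ → ℂ} (τ : ℍ)
    (hfix : (ModularGroup.S * ModularGroup.T) • τ = τ)
    (hinv : ∀ z : ℍ, f ((ModularGroup.S * ModularGroup.T) • z) = f z) {k : ℤ}
    (hmer : MeromorphicAt (fun z : ℂ => f (ofComplex z)) τ)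
    (hk : meromorphicOrderAt (fun z : ℂ => f (ofComplex z)) τ = k) : (3 : ℤ) ∣ k :=
  three_dvd_order_of_trace_one (ModularGroup.S * ModularGroup.T) τ hfix
    (by
      left
      rw [Matrix.SpecialLinearGroup.coe_mul]
      simp [ModularGroup.S, ModularGroup.T, Matrix.mul_apply, Fin.sum_univ_two]) hinv hmer hk

end Fermat.Agent.S24.LocalOrder
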