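import Fermat.Agent.S24.Ord
import Fermat.Agent.S24.LocalOrder
import Fermat.Agent.S24.SymmFn
import Fermat.Agent.S24.JFun.Order
import Fermat.Agent.S24.JFun.Elliptic

/-!
helper44 (P-S24 Part III/IV, piece [F]).  Bridge between the algebraic order `MerFun.ordMer` on
`MerFun = Frac HolFun` and Mathlib's `meromorphicOrderAt`; divisibility of orders at elliptic
fixed points for invariant elements of `MerFun`; the order of `j - j(τ)`.
-/

set_option autoImplicit false

open UpperHalfPlane Complex Filter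
open scoped Manifold MatrixGroups Topology

namespace Fermat.Agent.S24.Bridge

open Fermat.Agent.S24 MerFun

/-- The analytic order of a nonzero holomorphic function, as a natural number. -/
theorem analyticOrderAt_eq_nat (τ : ℍ) {a : HolFun} (ha : a ≠ 0) :
    analyticOrderAt ((a : ℍ → ℂ) ∘ ofComplex) τ = ((HolFun.ordAt τ).nat a : ℕ∞) := by
  rw [← HolFun.ordAt_apply, (HolFun.ordAt τ).coe_nat ha]

theorem meromorphicOrderAt_holFun (τ : ℍ) {a : HolFun} (ha : a ≠ 0) :
    meromorphicOrderAt ((a : ℍ → ℂ) ∘ ofComplex) τ = (((HolFun.ordAt τ).nat a : ℤ) : WithTop ℤ) := by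
  rw [(HolFun.analyticAt_comp_ofComplex a τ).meromorphicOrderAt_eq, analyticOrderAt_eq_nat τ ha]
  rfl

theorem meromorphicAt_holFun (τ : ℍ) (a : HolFun) :
    MeromorphicAt ((a : ℍ → ℂ) ∘ ofComplex) τ :=
  (HolFun.analyticAt_comp_ofComplex a τ).meromorphicAt

/-- The quotient function of two holomorphic functions. -/
noncomputable def quotFun (a e : HolFun) : ℂ → ℂ :=
  fun z => (a : ℍ → ℂ) (ofComplex z) / (e : ℍ → ℂ) (ofComplex z)

theorem quotFun_eq (a e : HolFun) :
    quotFun a e = ((a : ℍ → ℂ) ∘ ofComplex) * ((e : ℍ → ℂ) ∘ ofComplex)⁻¹ := by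
  funext z
  simp [quotFun, div_eq_mul_inv]

theorem meromorphicAt_quotFun (τ : ℍ) (a e : HolFun) : MeromorphicAt (quotFun a e) τ := by
  rw [quotFun_eq]
  exact (meromorphicAt_holFun τ a).mul (meromorphicAt_holFun τ e).inv

/-- **(B1)** The algebraic order of a quotient of holomorphic functions is the meromorphic order
of the quotient function. -/
theorem ordMer_div_eq_meromorphicOrderAt (τ : ℍ) {a e : HolFun} (ha : a ≠ 0) (he : e ≠ 0) :
    ((ordMer τ (algebraMap HolFun MerFun a / algebraMap HolFun MerFun e) : ℤ) : WithTop ℤ) =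
      meromorphicOrderAt (fun z : ℂ => (a : ℍ → ℂ) (ofComplex z) / (e : ℍ → ℂ) (ofComplex z)) τ := by
  rw [ordMer_div_holFun τ ha he]
  show _ = meromorphicOrderAt (quotFun a e) τ
  rw [quotFun_eq, meromorphicOrderAt_mul (meromorphicAt_holFun τ a) (meromorphicAt_holFun τ e).inv,
    meromorphicOrderAt_inv, meromorphicOrderAt_holFun τ ha, meromorphicOrderAt_holFun τ he]
  rfl

/-- A nonzero holomorphic function on `ℍ` has isolated zeros. -/
theorem eventually_ne_zero (τ : ℍ) {e : HolFun} (he : e ≠ 0) :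
    ∀ᶠ z in 𝓝[≠] (τ : ℂ), (e : ℍ → ℂ) (ofComplex z) ≠ 0 := by
  rcases (HolFun.analyticAt_comp_ofComplex e τ).eventually_eq_zero_or_eventually_ne_zero with h | h
  · exfalso
    have : HolFun.ordAt τ e = ⊤ := by
      rw [HolFun.ordAt_apply, analyticOrderAt_eq_top]
      exact h
    exact he (((HolFun.ordAt τ).eq_top_iff e).mp this)
  · exact h

theorem smul_ne_zero_of_ne_zero (γ : SL(2, ℤ)) {a : HolFun} (ha : a ≠ 0) : γ • a ≠ 0 := by
  intro h0
  exact ha (by simpa using congrArg (γ⁻¹ • ·) h0)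

/-- **Rotation lemma for `MerFun`.** If `h ≠ 0` is invariant under `γ ∈ SL(2,ℤ)` fixing `τ`, then
`((c τ + d)^2) ^ (ordMer τ h) = 1`. -/
theorem denom_sq_zpow_ordMer_eq_one (h : MerFun) (hh : h ≠ 0) (γ : SL(2, ℤ)) (τ : ℍ)
    (hfix : γ • τ = τ) (hinv : γ • h = h) : (denom γ τ ^ 2) ^ (ordMer τ h) = 1 := by
  obtain ⟨a, e, he, rfl⟩ := OrdFn.exists_div (R := HolFun) MerFun h
  have ha : a ≠ 0 := by rintro rfl; simp at hh
  -- invariance under `γ⁻¹`
  have hinv' : γ⁻¹ • (algebraMap HolFun MerFun a / algebraMap HolFun MerFun e) =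
      algebraMap HolFun MerFun a / algebraMap HolFun MerFun e := by
    conv_lhs => rw [← hinv]
    rw [inv_smul_smul]
  rw [smul_div₀', sl_smul_algebraMap, sl_smul_algebraMap] at hinv'
  have ha' : γ⁻¹ • a ≠ 0 := smul_ne_zero_of_ne_zero γ⁻¹ ha
  have he' : γ⁻¹ • e ≠ 0 := smul_ne_zero_of_ne_zero γ⁻¹ he
  have hinj := IsFractionRing.injective HolFun MerFun
  have hem : algebraMap HolFun MerFun e ≠ 0 := fun h0 => he (hinj (by rw [h0, map_zero]))
  have hem' : algebraMap HolFun MerFun (γ⁻¹ • e) ≠ 0 :=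
    fun h0 => he' (hinj (by rw [h0, map_zero]))
  have hrel : (γ⁻¹ • a) * e = a * (γ⁻¹ • e) := by
    apply hinj
    rw [map_mul, map_mul]
    rw [div_eq_div_iff hem' hem] at hinv'
    exact hinv'
  have hrelpt : ∀ w : ℍ, (a : ℍ → ℂ) (γ • w) * (e : ℍ → ℂ) w =
      (a : ℍ → ℂ) w * (e : ℍ → ℂ) (γ • w) := by
    intro w
    have := congrArg (fun f : HolFun => (f : ℍ → ℂ) w) hrel
    simpa [HolFun.sl_smul_apply] using this
  -- the analytic side
  have hdet : 0 < ((γ : GL (Fin 2) ℝ).val).det := by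
    rw [LocalOrder.det_coe_SL2Z]; exact one_pos
  set φ : ℂ → ℂ := fun z => ↑((γ : GL (Fin 2) ℝ) • ofComplex z) with hφdef
  have hφ : AnalyticAt ℂ φ τ := τ.analyticAt_smul hdet
  have hφfix : φ τ = τ := by
    simp only [hφdef, ofComplex_apply]
    exact congrArg UpperHalfPlane.coe hfix
  have hden : denom γ τ ≠ 0 := denom_ne_zero _ τ
  have hd : deriv φ τ = (denom γ τ ^ 2)⁻¹ := by
    rw [hφdef, τ.deriv_smul hdet, LocalOrder.det_coe_SL2Z]
    simp
  have hζ : (denom γ τ ^ 2)⁻¹ ≠ 0 := inv_ne_zero (pow_ne_zero _ hden)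
  have hk := (ordMer_div_eq_meromorphicOrderAt τ ha he).symm
  have hev1 := eventually_ne_zero τ he
  have hev2 : ∀ᶠ z in 𝓝[≠] (τ : ℂ), (e : ℍ → ℂ) (γ • ofComplex z) ≠ 0 := by
    have := eventually_ne_zero τ he'
    filter_upwards [this] with z hz
    simpa [HolFun.sl_smul_apply] using hz
  have hev3 : ∀ᶠ z in 𝓝[≠] (τ : ℂ), 0 < z.im :=
    eventually_nhdsWithin_of_eventually_nhds
      (isOpen_upperHalfPlaneSet.mem_nhds τ.im_pos)
  have hinvev : ∀ᶠ z in 𝓝[≠] (τ : ℂ),
      (fun z : ℂ => (a : ℍ → ℂ) (ofComplex z) / (e : ℍ → ℂ) (ofComplex z)) (φ z) =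
      (fun z : ℂ => (a : ℍ → ℂ) (ofComplex z) / (e : ℍ → ℂ) (ofComplex z)) z := by
    filter_upwards [hev1, hev2, hev3] with z h1 h2 h3
    have hφz : ofComplex (φ z) = γ • ofComplex z := by
      simp only [hφdef, ofComplex_apply]
      rfl
    simp only [hφz]
    rw [div_eq_div_iff h2 h1]
    exact hrelpt (ofComplex z)
  have := LocalOrder.zpow_eq_one_of_comp_eq (meromorphicAt_quotFun τ a e) hk hφ hφfix hd hζ hinvev
  rw [inv_zpow, inv_eq_one] at this
  exact this

/-- **(B2)** Elliptic points of order 2: an element of `MerFun` invariant under `γ ∈ SL(2,ℤ)` of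
trace `0` has even order at every fixed point of `γ`. -/
theorem two_dvd_ordMer (h : MerFun) (γ : SL(2, ℤ)) (τ : ℍ) (hfix : γ • τ = τ)
    (htr : γ 0 0 + γ 1 1 = 0) (hinv : γ • h = h) : (2 : ℤ) ∣ ordMer τ h := by
  rcases eq_or_ne h 0 with rfl | hh
  · simp [ordMer_zero]
  have h1 := denom_sq_zpow_ordMer_eq_one h hh γ τ hfix hinv
  have h2 := LocalOrder.denom_sq_of_fixed γ τ hfix
  rw [htr] at h2
  have h3 : denom γ τ ^ 2 = -1 := by rw [h2]; simp
  rw [h3] at h1
  exact_mod_cast (LocalOrder.isPrimitiveRoot_neg_one_two.zpow_eq_one_iff_dvd _).mp h1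

/-- **(B3)** Elliptic points of order 3: an element of `MerFun` invariant under `γ ∈ SL(2,ℤ)` of
trace `±1` has order divisible by `3` at every fixed point of `γ`. -/
theorem three_dvd_ordMer (h : MerFun) (γ : SL(2, ℤ)) (τ : ℍ) (hfix : γ • τ = τ)
    (htr : γ 0 0 + γ 1 1 = 1 ∨ γ 0 0 + γ 1 1 = -1) (hinv : γ • h = h) :
    (3 : ℤ) ∣ ordMer τ h := by
  rcases eq_or_ne h 0 with rfl | hh
  · simp [ordMer_zero]
  have h1 := denom_sq_zpow_ordMer_eq_one h hh γ τ hfix hinv
  have h2 := LocalOrder.denom_sq_of_fixed γ τ hfix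
  have hprim : IsPrimitiveRoot (denom γ τ ^ 2) 3 := by
    apply LocalOrder.isPrimitiveRoot_three_of_sq_add_add_one
    rcases htr with h | h
    · rw [h] at h2
      push_cast at h2
      linear_combination (denom γ τ ^ 2 + denom γ τ + 1) * h2
    · rw [h] at h2
      push_cast at h2
      linear_combination (denom γ τ ^ 2 - denom γ τ + 1) * h2
  exact_mod_cast (hprim.zpow_eq_one_iff_dvd _).mp h1

/-- The case of `S`. -/
theorem two_dvd_ordMer_of_S (h : MerFun) (τ : ℍ) (hfix : ModularGroup.S • τ = τ)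
    (hinv : ModularGroup.S • h = h) : (2 : ℤ) ∣ ordMer τ h :=
  two_dvd_ordMer h ModularGroup.S τ hfix (by simp [ModularGroup.S]) hinv

/-- The case of `S * T`. -/
theorem three_dvd_ordMer_of_ST (h : MerFun) (τ : ℍ)
    (hfix : (ModularGroup.S * ModularGroup.T) • τ = τ)
    (hinv : (ModularGroup.S * ModularGroup.T) • h = h) : (3 : ℤ) ∣ ordMer τ h :=
  three_dvd_ordMer h (ModularGroup.S * ModularGroup.T) τ hfix
    (by
      left
      rw [Matrix.SpecialLinearGroup.coe_mul]
      simp [ModularGroup.S, ModularGroup.T, Matrix.mul_apply, Fin.sum_univ_two]) hinv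

/-- `j - j(τ)` as a holomorphic function. -/
theorem jHol_sub_const_apply (τ w : ℍ) :
    ((jHol - algebraMap ℂ HolFun (jFn τ) : HolFun) : ℍ → ℂ) w = jFn w - jFn τ := by
  simp

theorem jHol_sub_const_ne_zero (τ : ℍ) : jHol - algebraMap ℂ HolFun (jFn τ) ≠ 0 := by
  intro h0
  have h1 : HolFun.ordAt τ (jHol - algebraMap ℂ HolFun (jFn τ)) = ⊤ := by
    rw [h0]; exact (HolFun.ordAt τ).map_zero
  rw [HolFun.ordAt_apply] at h1
  have h2 : ((jHol - algebraMap ℂ HolFun (jFn τ) : HolFun) : ℍ → ℂ) =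
      fun w : ℍ => jFn w - jFn τ := by
    funext w; exact jHol_sub_const_apply τ w
  rw [h2, JFun.analyticOrderAt_jFn_sub] at h1
  split_ifs at h1 <;> simp at h1

/-- **(B4)** The order of `j - j(τ)` at `τ` is `3`, `2`, `1` according as `j(τ) = 0`, `1728`,
otherwise. -/
theorem ordMer_jHol_sub_const (τ : ℍ) :
    ordMer τ (algebraMap HolFun MerFun (jHol - algebraMap ℂ HolFun (jFn τ))) =
      if jFn τ = 0 then 3 else if jFn τ = 1728 then 2 else 1 := by
  rw [ordMer_algebraMap τ (jHol_sub_const_ne_zero τ)]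
  have h2 : ((jHol - algebraMap ℂ HolFun (jFn τ) : HolFun) : ℍ → ℂ) =
      fun w : ℍ => jFn w - jFn τ := by
    funext w; exact jHol_sub_const_apply τ w
  have h3 : HolFun.ordAt τ (jHol - algebraMap ℂ HolFun (jFn τ)) =
      if jFn τ = 0 then 3 else if jFn τ = 1728 then 2 else 1 := by
    rw [HolFun.ordAt_apply, h2, JFun.analyticOrderAt_jFn_sub]
  unfold OrdFn.nat
  rw [h3]
  split_ifs <;> rfl

/-- (B4), written with a difference in `MerFun`. -/
theorem ordMer_jHol_sub_const' (τ : ℍ) :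
    ordMer τ (algebraMap HolFun MerFun jHol -
        algebraMap HolFun MerFun (algebraMap ℂ HolFun (jFn τ))) =
      if jFn τ = 0 then 3 else if jFn τ = 1728 then 2 else 1 := by
  rw [← map_sub]
  exact ordMer_jHol_sub_const τ

/-- `j - c` has order `0` at `τ` when `c ≠ j(τ)`. -/
theorem ordMer_jHol_sub_const_of_ne (τ : ℍ) {c : ℂ} (hc : jFn τ ≠ c) :
    ordMer τ (algebraMap HolFun MerFun (jHol - algebraMap ℂ HolFun c)) = 0 := by
  have hval : ((jHol - algebraMap ℂ HolFun c : HolFun) : ℍ → ℂ) τ ≠ 0 := by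
    simp only [HolFun.coe_sub_apply, jHol_apply, HolFun.coe_algebraMap]
    exact sub_ne_zero.mpr hc
  have hne : jHol - algebraMap ℂ HolFun c ≠ 0 := by
    intro h0
    rw [h0] at hval
    exact hval rfl
  rw [ordMer_algebraMap τ hne]
  have : HolFun.ordAt τ (jHol - algebraMap ℂ HolFun c) = 0 :=
    (HolFun.ordAt_eq_zero_iff τ _).mpr hval
  simp [OrdFn.nat, this]

/-- The order of `j - 1728` at `i` is `2`. -/
theorem ordMer_I_jHol_sub_1728 :
    ordMer UpperHalfPlane.I (algebraMap HolFun MerFun (jHol - algebraMap ℂ HolFun 1728)) = 2 := by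
  have h := ordMer_jHol_sub_const UpperHalfPlane.I
  rw [JFun.jFn_I] at h
  rw [h]
  norm_num

/-- The order of `j` at `ρ` is `3`. -/
theorem ordMer_rho_jHol :
    ordMer JFun.rho (algebraMap HolFun MerFun jHol) = 3 := by
  have h := ordMer_jHol_sub_const JFun.rho
  rw [JFun.jFn_rho] at h
  simpa using h

end Fermat.Agent.S24.Bridge
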