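-- P-S24 Part V: orbit counts of S and S*T on SL(2,Z)/Gamma0(N).
import Fermat.Agent.S24.CombIndex

set_option autoImplicit false

open Matrix Matrix.SpecialLinearGroup CongruenceSubgroup ModularGroup MulAction
open scoped MatrixGroups

namespace Fermat.Agent.S24.Comb

open ModularCurve

variable {N : ℕ}

section General

open Subgroup Function

/-- Orbit counting for an element acting with prime order `l`:
`l * #orbits = #X + (l - 1) * #fixed points`. -/
theorem prime_mul_card_orbits {G X : Type*} [Group G] [MulAction G X] [Finite X] (g : G) {l : ℕ}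
    (hl : l.Prime) (h : ∀ x : X, g ^ l • x = x) :
    l * Nat.card (orbitRel.Quotient (zpowers g) X) = Nat.card X + (l - 1) * Nat.card (fixedBy X g) := by
  classical
  have : Fintype X := Fintype.ofFinite X
  let Ω := orbitRel.Quotient (zpowers g) X
  have : Finite Ω := Quotient.finite _
  have : Fintype Ω := Fintype.ofFinite Ω
  -- size of the orbit of `x`
  have hper : ∀ x : X, minimalPeriod (g • ·) x = 1 ∨ minimalPeriod (g • ·) x = l := by
    intro x
    have hp : IsPeriodicPt (g • ·) l x := by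
      rw [IsPeriodicPt, IsFixedPt, smul_iterate]; exact h x
    exact (Nat.dvd_prime hl).mp hp.minimalPeriod_dvd
  have hcardorb : ∀ x : X, Nat.card (orbit (zpowers g) x) = minimalPeriod (g • ·) x := by
    intro x
    rw [Nat.card_congr (orbitZPowersEquiv g x), Nat.card_zmod]
  let f : Ω → ℕ := fun ω => Nat.card ω.orbit
  have hf : ∀ x : X, f (Quotient.mk'' x) = minimalPeriod (g • ·) x := by
    intro x
    simp only [f]
    rw [orbitRel.Quotient.orbit_mk]
    exact hcardorb x
  have hf1l : ∀ ω : Ω, f ω = 1 ∨ f ω = l := by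
    intro ω
    induction ω using Quotient.inductionOn' with
    | h x => rw [hf]; exact hper x
  have hsum : Nat.card X = ∑ ω : Ω, f ω := by
    rw [Nat.card_congr (selfEquivSigmaOrbits' (zpowers g) X), Nat.card_sigma]
  -- fixed points correspond to orbits of size one
  have hA : Nat.card (fixedBy X g) = Fintype.card {ω : Ω // f ω = 1} := by
    rw [← Nat.card_eq_fintype_card]
    refine Nat.card_congr (Equiv.ofBijective
      (fun x : fixedBy X g => (⟨Quotient.mk'' x.1, ?_⟩ : {ω : Ω // f ω = 1})) ⟨?_, ?_⟩)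
    · rw [hf, minimalPeriod_eq_one_iff_isFixedPt]
      exact x.2
    · rintro ⟨x, hx⟩ ⟨y, hy⟩ hxy
      have h1 : (Quotient.mk'' x : Ω) = Quotient.mk'' y := congrArg Subtype.val hxy
      rw [Quotient.eq''] at h1
      change x ∈ orbit (zpowers g) y at h1
      obtain ⟨⟨a, ha⟩, rfl⟩ := h1
      obtain ⟨k, rfl⟩ := mem_zpowers_iff.mp ha
      apply Subtype.ext
      have hy' : g • y = y := hy
      change (g ^ k) • y = y
      exact zpow_smul_eq_iff_minimalPeriod_dvd.mpr (by
        rw [minimalPeriod_eq_one_iff_isFixedPt.mpr hy']; exact one_dvd _)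
    · rintro ⟨ω, hω⟩
      induction ω using Quotient.inductionOn' with
      | h x =>
        rw [hf, minimalPeriod_eq_one_iff_isFixedPt] at hω
        exact ⟨⟨x, hω⟩, rfl⟩
  have hl1 : 1 ≤ l := hl.one_lt.le
  calc l * Nat.card Ω = ∑ ω : Ω, l := by
        rw [Finset.sum_const, Finset.card_univ, smul_eq_mul, Nat.card_eq_fintype_card, mul_comm]
    _ = ∑ ω : Ω, (f ω + if f ω = 1 then (l - 1) else 0) := by
        refine Finset.sum_congr rfl fun ω _ => ?_
        rcases hf1l ω with h1 | h1
        · rw [h1, if_pos rfl]; omega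
        · by_cases h2 : f ω = 1
          · rw [h2, if_pos rfl]; omega
          · rw [if_neg h2, h1, add_zero]
    _ = Nat.card X + (l - 1) * Nat.card (fixedBy X g) := by
        rw [Finset.sum_add_distrib, ← hsum, hA, ← Finset.sum_filter, Finset.sum_const, smul_eq_mul,
          Fintype.card_subtype, mul_comm]

end General

theorem S_sq : S ^ 2 = (-1 : SL(2, ℤ)) := by
  apply Subtype.ext
  simp only [Matrix.SpecialLinearGroup.coe_pow, coe_S,
    Matrix.SpecialLinearGroup.coe_neg, Matrix.SpecialLinearGroup.coe_one]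
  norm_num [pow_succ, Matrix.mul_fin_two, Matrix.one_fin_two]
  ext i j
  fin_cases i <;> fin_cases j <;> simp

theorem ST_cube : (S * T) ^ 3 = (-1 : SL(2, ℤ)) := by
  apply Subtype.ext
  simp only [Matrix.SpecialLinearGroup.coe_pow, Matrix.SpecialLinearGroup.coe_mul, coe_S, coe_T,
    Matrix.SpecialLinearGroup.coe_neg, Matrix.SpecialLinearGroup.coe_one]
  norm_num [pow_succ, Matrix.mul_fin_two, Matrix.one_fin_two]
  ext i j
  fin_cases i <;> fin_cases j <;> simp

theorem S_smul_S_smul (q : SL(2, ℤ) ⧸ Gamma0 N) : S • S • q = q := by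
  rw [← mul_smul, ← pow_two, S_sq, neg_one_smul_coset]

theorem ST_smul_ST_smul_ST_smul (q : SL(2, ℤ) ⧸ Gamma0 N) :
    (S * T) • (S * T) • (S * T) • q = q := by
  rw [← mul_smul, ← mul_smul, ← pow_two, ← pow_succ, ST_cube, neg_one_smul_coset]

instance finite_quotient_Gamma0 (N : ℕ) [NeZero N] : Finite (SL(2, ℤ) ⧸ Gamma0 N) := by
  apply Nat.finite_of_card_ne_zero
  rw [card_quotient_Gamma0]
  intro h
  have h1 := card_vec_eq_totient_mul_psi N (NeZero.ne N)
  rw [h, mul_zero] at h1
  have : Nonempty (Vec N) := ⟨⟨(1, 0), isCoprime_one_left⟩⟩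
  exact (Nat.card_pos (α := Vec N)).ne' h1

theorem two_mul_card_orbits_S (N : ℕ) [NeZero N] :
    2 * Nat.card (orbitRel.Quotient (Subgroup.zpowers S) (SL(2, ℤ) ⧸ Gamma0 N)) =
      dedekindPsi N + nuTwo N := by
  have h := prime_mul_card_orbits (X := SL(2, ℤ) ⧸ Gamma0 N) S Nat.prime_two
    (fun q => by rw [S_sq, neg_one_smul_coset])
  refine Eq.trans h ?_
  rw [card_quotient_Gamma0, card_fixedBy_S]
  simp

theorem three_mul_card_orbits_ST (N : ℕ) [NeZero N] :
    3 * Nat.card (orbitRel.Quotient (Subgroup.zpowers (S * T)) (SL(2, ℤ) ⧸ Gamma0 N)) =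
      dedekindPsi N + 2 * nuThree N := by
  have h := prime_mul_card_orbits (X := SL(2, ℤ) ⧸ Gamma0 N) (S * T) Nat.prime_three
    (fun q => by rw [ST_cube, neg_one_smul_coset])
  refine Eq.trans h ?_
  rw [card_quotient_Gamma0, card_fixedBy_ST]

end Fermat.Agent.S24.Comb
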