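import Fermat.Agent.S24.AddVal
import Mathlib.RingTheory.Norm.Basic
import Mathlib.FieldTheory.IntermediateField.Adjoin.Defs
import Mathlib.GroupTheory.Perm.Cycle.Basic
import Mathlib.Dynamics.PeriodicPts.Defs

set_option autoImplicit false

namespace Fermat.Agent.S24

open AlgebraicCurve IntermediateField

variable {K F : Type*} [Field K] [Field F] [Algebra K F]

/-- The places of `F` at which `y` has a zero. -/
abbrev ZeroPlace (K : Type*) {F : Type*} [Field K] [Field F] [Algebra K F] (y : F) : Type _ :=
  {v : Place K F // 0 < v.ord y}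

/-- The facts about the places over the zero of `y` that the place counting theorem consumes. -/
structure ZeroPlacesData (K : Type*) {F : Type*} [Field K] [Field F] [Algebra K F] (y : F) :
    Prop where
  finite : Finite (ZeroPlace K y)
  ord_norm : ∀ (v' : Place K F), 0 < v'.ord y → ∀ f : F, f ≠ 0 →
    v'.ord (algebraMap K⟮y⟯ F (Algebra.norm K⟮y⟯ f)) =
      v'.ord y * ∑ᶠ v : ZeroPlace K y, v.1.ord f
  approx : ∀ v : Place K F, 0 < v.ord y → ∃ f : F, f ≠ 0 ∧ v.ord f = 1 ∧
    ∀ v' : Place K F, 0 < v'.ord y → v' ≠ v → v'.ord f = 0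

section PlaceCount

open Finset

/-- Iterating a permutation that preserves a function preserves it. -/
theorem iterate_preserves {X Z : Type*} (g : Equiv.Perm X) (β : X → Z) (h : ∀ b, β (g b) = β b)
    (k : ℕ) (b : X) : β ((g : X → X)^[k] b) = β b := by
  induction k generalizing b with
  | zero => rfl
  | succ k ih => rw [Function.iterate_succ_apply, ih, h]

theorem zpow_preserves {X Z : Type*} (g : Equiv.Perm X) (β : X → Z)
    (h : ∀ b, β (g b) = β b) (i : ℤ) : ∀ b, β ((g ^ i) b) = β b := by
  have hinv : ∀ b, β (g⁻¹ b) = β b := fun b => by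
    have := h (g⁻¹ b)
    simpa using this.symm
  induction i using Int.induction_on with
  | zero => intro b; simp
  | succ i ih =>
    intro b
    rw [zpow_add_one, Equiv.Perm.mul_apply, ih, h]
  | pred i ih =>
    intro b
    rw [zpow_sub_one, Equiv.Perm.mul_apply, ih, hinv]

theorem sameCycle_preserves {X Z : Type*} (g : Equiv.Perm X) (β : X → Z)
    (h : ∀ b, β (g b) = β b) {b b' : X} (hbb : g.SameCycle b b') : β b = β b' := by
  obtain ⟨i, rfl⟩ := hbb
  exact (zpow_preserves g β h i b).symm

/-- **Place counting theorem.** Let `y ∈ F` be nonzero with `[F : K(y)]` finite and let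
`w b`, `b ∈ X`, be integer valued valuations of `F` trivial on `K`, all with `w b y = m > 0`,
which are compatible with the norm to `K(y)`, invariant under a permutation `g` of `X`, and
divisible by `m / (orbit size)`. Then the places of `F` over the zero of `y` correspond to the
orbits of `g`, with ramification index the orbit size. -/
theorem placeCount (y : F) (hy : y ≠ 0) [FiniteDimensional K⟮y⟯ F]
    (P : ZeroPlacesData K y)
    {X : Type*} [Fintype X] (g : Equiv.Perm X) (m : ℕ) (hm : 0 < m)
    (w : X → F → ℤ) (hw : ∀ b, IsAddVal K (w b))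
    (ha : ∀ b, w b y = m)
    (b0 : X)
    (hN : ∀ f : F, f ≠ 0 → ∑ b, w b f = w b0 (algebraMap K⟮y⟯ F (Algebra.norm K⟮y⟯ f)))
    (hc : ∀ b f, w (g b) f = w b f)
    (hper : ∀ b, Function.minimalPeriod g b ∣ m)
    (hd : ∀ b f, f ≠ 0 → ((m / Function.minimalPeriod g b : ℕ) : ℤ) ∣ w b f) :
    ∃ β : X → ZeroPlace K y, Function.Surjective β ∧
      (∀ b b', β b = β b' ↔ g.SameCycle b b') ∧
      (∀ b, (β b).1.ord y = Function.minimalPeriod g b) ∧
      ((Fintype.card X : ℤ) = ∑ᶠ z : ZeroPlace K y, z.1.ord y) := by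
  classical
  have := P.finite
  have : Fintype (ZeroPlace K y) := Fintype.ofFinite _
  have hmz : (0 : ℤ) < m := by exact_mod_cast hm
  -- Step 1: each `w b` comes from a place `v b`
  have h1 : ∀ b, ∃ (v : Place K F) (c : ℕ), 0 < c ∧ ∀ f, f ≠ 0 → w b f = c * v.ord f := fun b =>
    (hw b).exists_place ⟨y, hy, by rw [ha b]; exact hmz.ne'⟩
  choose v c hc0 hvc using h1
  have hce : ∀ b, (c b : ℤ) * (v b).ord y = m := fun b => by rw [← hvc b y hy, ha b]
  have hcz : ∀ b, (0 : ℤ) < c b := fun b => by exact_mod_cast hc0 b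
  have hvy : ∀ b, 0 < (v b).ord y := by
    intro b
    by_contra hneg
    have : (c b : ℤ) * (v b).ord y ≤ 0 :=
      mul_nonpos_of_nonneg_of_nonpos (hcz b).le (not_lt.mp hneg)
    have := hce b
    omega
  let β : X → ZeroPlace K y := fun b => ⟨v b, hvy b⟩
  have hβ : ∀ b, (β b).1 = v b := fun b => rfl
  -- Step 2: the key identity
  have hkey : ∀ f : F, f ≠ 0 →
      ∑ z : ZeroPlace K y, (∑ b : {b // β b = z}, (c b : ℤ)) * z.1.ord f =
        m * ∑ z : ZeroPlace K y, z.1.ord f := by
    intro f hf
    have hnorm0 : algebraMap K⟮y⟯ F (Algebra.norm K⟮y⟯ f) ≠ 0 := by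
      rw [Ne, map_eq_zero_iff _ (algebraMap K⟮y⟯ F).injective, Algebra.norm_eq_zero_iff]
      exact hf
    have h2 := hN f hf
    rw [hvc b0 _ hnorm0, P.ord_norm (v b0) (hvy b0) f hf, finsum_eq_sum_of_fintype,
      ← mul_assoc, hce b0] at h2
    rw [← h2]
    have h3 : ∀ b, w b f = (c b : ℤ) * (β b).1.ord f := fun b => hvc b f hf
    simp_rw [h3]
    rw [← Fintype.sum_fiberwise β (fun b => (c b : ℤ) * (β b).1.ord f)]
    refine Finset.sum_congr rfl fun z _ => ?_
    rw [Finset.sum_mul]
    refine Finset.sum_congr rfl fun b _ => ?_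
    rw [b.2]
  -- Step 3: the sum of the `c b` over each fibre is `m`
  have hfib : ∀ z : ZeroPlace K y, ∑ b : {b // β b = z}, (c b : ℤ) = m := by
    intro z
    obtain ⟨f, hf0, hf1, hf2⟩ := P.approx z.1 z.2
    have h := hkey f hf0
    have hord : ∀ z' : ZeroPlace K y, z'.1.ord f = if z' = z then 1 else 0 := by
      intro z'
      split_ifs with hz
      · rw [hz, hf1]
      · exact hf2 z'.1 z'.2 (fun h => hz (Subtype.ext h))
    simp_rw [hord] at h
    simpa using h
  -- Step 4: fibres have `ord y` elements
  have hcfib : ∀ z : ZeroPlace K y, ∀ b : {b // β b = z}, (c b : ℤ) * z.1.ord y = m := by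
    intro z b
    have := hce b
    rwa [← hβ, b.2] at this
  have hcard : ∀ z : ZeroPlace K y, (Fintype.card {b // β b = z} : ℤ) = z.1.ord y := by
    intro z
    have h := hfib z
    have h2 : (∑ b : {b // β b = z}, (c b : ℤ)) * z.1.ord y =
        (Fintype.card {b // β b = z} : ℤ) * m := by
      rw [Finset.sum_mul, Finset.sum_congr rfl (fun b _ => hcfib z b)]
      simp
    rw [h] at h2
    have h3 : (m : ℤ) * z.1.ord y = m * (Fintype.card {b // β b = z} : ℤ) := by
      rw [h2, mul_comm]
    exact (mul_left_cancel₀ hmz.ne' h3).symm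
  have hsurj : Function.Surjective β := by
    intro z
    have h := hcard z
    have hpos : 0 < Fintype.card {b // β b = z} := by
      have := z.2
      omega
    obtain ⟨b⟩ := Fintype.card_pos_iff.mp hpos
    exact ⟨b.1, b.2⟩
  -- Step 5: `β` is `g`-invariant
  have hginv : ∀ b, β (g b) = β b := by
    intro b
    apply Subtype.ext
    show v (g b) = v b
    refine place_eq_of_ord_proportional (hc0 (g b)) (hc0 b) fun f hf => ?_
    rw [← hvc (g b) f hf, ← hvc b f hf, hc]
  -- Step 6: `ord y` divides the period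
  have hdvd : ∀ b, (β b).1.ord y ∣ (Function.minimalPeriod g b : ℤ) := by
    intro b
    obtain ⟨f, hf0, hf1, -⟩ := P.approx (β b).1 (β b).2
    have h := hd b f hf0
    rw [hvc b f hf0, ← hβ, hf1, mul_one] at h
    obtain ⟨m', hm'⟩ := hper b
    have hp0 : 0 < Function.minimalPeriod g b := by
      rcases Nat.eq_zero_or_pos (Function.minimalPeriod g b) with h0 | h0
      · rw [h0, zero_mul] at hm'; omega
      · exact h0
    have hm'0 : 0 < m' := by
      rcases Nat.eq_zero_or_pos m' with h0 | h0
      · rw [h0, mul_zero] at hm'; omega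
      · exact h0
    have hdiv : m / Function.minimalPeriod g b = m' := by
      rw [hm', Nat.mul_div_cancel_left _ hp0]
    rw [hdiv] at h
    obtain ⟨k, hk⟩ := h
    have h4 := hce b
    rw [hk, hm'] at h4
    push_cast at h4
    refine ⟨k, ?_⟩
    have hm'z : (m' : ℤ) ≠ 0 := by exact_mod_cast hm'0.ne'
    have h5 : (m' : ℤ) * ((β b).1.ord y * k) = m' * (Function.minimalPeriod g b : ℤ) := by
      rw [hβ]
      linarith
    exact (mul_left_cancel₀ hm'z h5).symm
  -- Step 7: the orbit of `b` fills the fibre
  have hperiod : ∀ b, (β b).1.ord y = Function.minimalPeriod g b ∧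
      ∀ b', β b' = β b → g.SameCycle b b' := by
    intro b
    have hp0' : 0 < Function.minimalPeriod g b := by
      obtain ⟨m', hm'⟩ := hper b
      rcases Nat.eq_zero_or_pos (Function.minimalPeriod g b) with h0 | h0
      · rw [h0, zero_mul] at hm'; omega
      · exact h0
    set p := Function.minimalPeriod g b with hp
    have hp0 : 0 < p := hp0'
    -- injection of `range p` into the fibre
    let S : Finset {b' // β b' = β b} :=
      (Finset.range p).attach.image fun k =>
        ⟨(g : X → X)^[k.1] b, iterate_preserves g β hginv k.1 b⟩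
    have hScard : S.card = p := by
      rw [Finset.card_image_of_injective, Finset.card_attach, Finset.card_range]
      intro k k' hkk
      have h1 : (g : X → X)^[k.1] b = (g : X → X)^[k'.1] b := congrArg Subtype.val hkk
      have hk := Finset.mem_range.mp k.2
      have hk' := Finset.mem_range.mp k'.2
      exact Subtype.ext (Function.iterate_injOn_Iio_minimalPeriod (Set.mem_Iio.mpr hk)
        (Set.mem_Iio.mpr hk') h1)
    have hle : p ≤ Fintype.card {b' // β b' = β b} := by
      rw [← hScard]
      exact Finset.card_le_univ S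
    have hcardb := hcard (β b)
    have hdv := hdvd b
    have hordpos := (β b).2
    have hple : ((β b).1.ord y) ≤ p := Int.le_of_dvd (by exact_mod_cast hp0) hdv
    have heq : (β b).1.ord y = p := by
      have : (p : ℤ) ≤ (β b).1.ord y := by rw [← hcardb]; exact_mod_cast hle
      omega
    refine ⟨heq, fun b' hb' => ?_⟩
    have hSuniv : S = Finset.univ := by
      apply Finset.eq_univ_of_card
      rw [hScard]
      have : (Fintype.card {b' // β b' = β b} : ℤ) = p := by rw [hcardb, heq]
      exact_mod_cast this.symm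
    have hmem : (⟨b', hb'⟩ : {b' // β b' = β b}) ∈ S := by rw [hSuniv]; exact Finset.mem_univ _
    obtain ⟨k, -, hk⟩ := Finset.mem_image.mp hmem
    have hk' : (g : X → X)^[k.1] b = b' := congrArg Subtype.val hk
    refine ⟨(k.1 : ℤ), ?_⟩
    rw [zpow_natCast, Equiv.Perm.coe_pow]
    exact hk'
  refine ⟨β, hsurj, fun b b' => ⟨fun h => (hperiod b).2 b' h.symm, fun h => ?_⟩,
    fun b => (hperiod b).1, ?_⟩
  · exact sameCycle_preserves g β hginv h
  · rw [finsum_eq_sum_of_fintype]
    simp_rw [← hcard]
    have h := Fintype.sum_fiberwise β (fun _ => (1 : ℤ))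
    simp only [Finset.sum_const, Finset.card_univ, nsmul_eq_mul, mul_one] at h
    exact h.symm

end PlaceCount

end Fermat.Agent.S24
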