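import Mathlib

/-!
# Ree / Scott inequality for three permutations with product one

For a finite set `X` with `n` elements and permutations `a b c` of `X` with `a * b * c = 1`
generating a transitive group, `(n - o a) + (n - o b) + (n - o c) ≥ 2 (n - 1)` where `o g` is
the number of orbits of `g`; moreover the left side is even.
-/

set_option autoImplicit false

namespace Fermat.Agent.S24

open Module

variable {X : Type*}

/-- number of orbits of a permutation -/
noncomputable def orbCount (g : Equiv.Perm X) : ℕ :=
  Nat.card (MulAction.orbitRel.Quotient (Subgroup.zpowers g) X)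

/-- the permutation action on functions, `(permLin g f) x = f (g.symm x)` -/
def permLin (g : Equiv.Perm X) : (X → ℚ) →ₗ[ℚ] (X → ℚ) :=
  LinearMap.funLeft ℚ ℚ g.symm

@[simp] lemma permLin_apply (g : Equiv.Perm X) (f : X → ℚ) (x : X) :
    permLin g f x = f (g.symm x) := rfl

lemma permLin_mul (g h : Equiv.Perm X) : permLin (g * h) = permLin g ∘ₗ permLin h :=
  LinearMap.ext fun f => funext fun x => by
    simp [Equiv.Perm.mul_def]

lemma permLin_one : permLin (1 : Equiv.Perm X) = LinearMap.id :=
  LinearMap.ext fun f => funext fun x => by simp [Equiv.Perm.one_def]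

lemma permLin_single [DecidableEq X] (g : Equiv.Perm X) (x : X) :
    permLin g (Pi.single x (1 : ℚ)) = Pi.single (g x) 1 := by
  funext y
  simp only [permLin_apply, Pi.single_apply]
  by_cases h : y = g x
  · subst h; simp
  · have : g.symm y ≠ x := fun h' => h (by rw [← h']; simp)
    simp [h, this]

end Fermat.Agent.S24

namespace Fermat.Agent.S24

open Module

variable {X : Type*}

/-- `1 - permLin g` -/
def oneSub (g : Equiv.Perm X) : (X → ℚ) →ₗ[ℚ] (X → ℚ) := LinearMap.id - permLin g

lemma oneSub_apply (g : Equiv.Perm X) (f : X → ℚ) (x : X) :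
    oneSub g f x = f x - f (g.symm x) := rfl

lemma mem_ker_oneSub_iff (g : Equiv.Perm X) (f : X → ℚ) :
    f ∈ LinearMap.ker (oneSub g) ↔ ∀ x, f (g x) = f x := by
  rw [LinearMap.mem_ker]
  constructor
  · intro h x
    have := congrFun h (g x)
    simp only [oneSub_apply, Equiv.symm_apply_apply, Pi.zero_apply] at this
    linarith
  · intro h
    funext x
    simp only [oneSub_apply, Pi.zero_apply]
    have := h (g.symm x)
    simp only [Equiv.apply_symm_apply] at this
    linarith

lemma apply_zpow_eq_of_mem_ker (g : Equiv.Perm X) (f : X → ℚ)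
    (hf : ∀ x, f (g x) = f x) (k : ℤ) (x : X) : f ((g ^ k) x) = f x := by
  induction k using Int.induction_on generalizing x with
  | zero => simp
  | succ n ih =>
    rw [zpow_add_one, Equiv.Perm.mul_apply, ih, hf]
  | pred n ih =>
    rw [zpow_sub_one, Equiv.Perm.mul_apply, ih]
    have := hf (g⁻¹ x)
    rw [← Equiv.Perm.mul_apply, mul_inv_cancel, Equiv.Perm.one_apply] at this
    exact this.symm

/-- The fixed space of `g` on functions is the space of functions on the orbit space. -/
noncomputable def kerOneSubEquiv (g : Equiv.Perm X) :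
    (MulAction.orbitRel.Quotient (Subgroup.zpowers g) X → ℚ) ≃ₗ[ℚ] LinearMap.ker (oneSub g) where
  toFun φ := ⟨fun x => φ (Quotient.mk'' x), by
    rw [mem_ker_oneSub_iff]
    intro x
    congr 1
    apply Quotient.sound'
    rw [MulAction.orbitRel_apply]
    exact ⟨⟨g, Subgroup.mem_zpowers g⟩, rfl⟩⟩
  map_add' φ ψ := rfl
  map_smul' c φ := rfl
  invFun f := fun q => Quotient.liftOn' q f.1 (by
    intro x y hxy
    rw [MulAction.orbitRel_apply] at hxy
    obtain ⟨⟨h, hh⟩, rfl⟩ := hxy
    obtain ⟨k, rfl⟩ := Subgroup.mem_zpowers_iff.mp hh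
    have hf := (mem_ker_oneSub_iff g f.1).mp f.2
    exact apply_zpow_eq_of_mem_ker g f.1 hf k y)
  left_inv φ := by
    funext q
    induction q using Quotient.inductionOn' with
    | h x => rfl
  right_inv f := rfl

variable [Fintype X]

lemma finrank_ker_oneSub (g : Equiv.Perm X) :
    finrank ℚ (LinearMap.ker (oneSub g)) = orbCount g := by
  classical
  let _ : Fintype (MulAction.orbitRel.Quotient (Subgroup.zpowers g) X) :=
    Quotient.fintype _
  rw [← (kerOneSubEquiv g).finrank_eq, Module.finrank_fintype_fun_eq_card, orbCount,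
    Nat.card_eq_fintype_card]

lemma finrank_range_oneSub (g : Equiv.Perm X) :
    finrank ℚ (LinearMap.range (oneSub g)) + orbCount g = Fintype.card X := by
  rw [← finrank_ker_oneSub, LinearMap.finrank_range_add_finrank_ker,
    Module.finrank_fintype_fun_eq_card]

lemma orbCount_le_card (g : Equiv.Perm X) : orbCount g ≤ Fintype.card X := by
  have := finrank_range_oneSub g
  omega

end Fermat.Agent.S24

namespace Fermat.Agent.S24

open Module

variable {X : Type*}

lemma oneSub_single [DecidableEq X] (g : Equiv.Perm X) (x : X) :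
    oneSub g (Pi.single x (1 : ℚ)) = Pi.single x 1 - Pi.single (g x) 1 := by
  rw [oneSub, LinearMap.sub_apply, LinearMap.id_apply, permLin_single]

lemma single_sub_single_mem [DecidableEq X] (s : Set (Equiv.Perm X))
    (W : Submodule ℚ (X → ℚ)) (hW : ∀ σ ∈ s, LinearMap.range (oneSub σ) ≤ W)
    {g : Equiv.Perm X} (hg : g ∈ Subgroup.closure s) :
    ∀ x : X, (Pi.single x (1 : ℚ) - Pi.single (g x) 1 : X → ℚ) ∈ W := by
  induction hg using Subgroup.closure_induction with
  | mem σ hσ =>
    intro x
    apply hW σ hσ
    exact ⟨Pi.single x 1, oneSub_single σ x⟩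
  | one => intro x; simp
  | mul g h _ _ ihg ihh =>
    intro x
    have h1 := ihg (h x)
    have h2 := ihh x
    have : (Pi.single x (1 : ℚ) - Pi.single ((g * h) x) 1 : X → ℚ) =
        (Pi.single (h x) 1 - Pi.single (g (h x)) 1) + (Pi.single x 1 - Pi.single (h x) 1) := by
      rw [Equiv.Perm.mul_apply]; abel
    rw [this]
    exact W.add_mem h1 h2
  | inv g _ ih =>
    intro x
    have h1 := ih (g⁻¹ x)
    rw [← Equiv.Perm.mul_apply, mul_inv_cancel, Equiv.Perm.one_apply] at h1
    have : (Pi.single x (1 : ℚ) - Pi.single (g⁻¹ x) 1 : X → ℚ) =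
        - (Pi.single (g⁻¹ x) 1 - Pi.single x 1) := by abel
    rw [this]
    exact W.neg_mem h1

lemma finrank_span_singleton_le_one {V : Type*} [AddCommGroup V] [Module ℚ V] (v : V) :
    finrank ℚ (Submodule.span ℚ {v}) ≤ 1 := by
  have h := finrank_span_finset_le_card (R := ℚ) ({v} : Finset V)
  rw [Set.finrank, Finset.coe_singleton, Finset.card_singleton] at h
  exact h

variable [Fintype X]

/-- A submodule containing all `e_x - e_y` has codimension at most one. -/
lemma card_le_finrank_add_one [DecidableEq X] (W : Submodule ℚ (X → ℚ))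
    (hW : ∀ x y : X, (Pi.single x (1 : ℚ) - Pi.single y 1 : X → ℚ) ∈ W) :
    Fintype.card X ≤ finrank ℚ W + 1 := by
  rcases isEmpty_or_nonempty X with hX | ⟨⟨x0⟩⟩
  · simp
  have hspan : (⊤ : Submodule ℚ ((X → ℚ) ⧸ W)) ≤
      Submodule.span ℚ {W.mkQ (Pi.single x0 (1 : ℚ))} := by
    intro q _
    obtain ⟨f, rfl⟩ := W.mkQ_surjective q
    have hf : f = ∑ x, f x • (Pi.single x (1 : ℚ) : X → ℚ) := by
      funext y
      simp [Finset.sum_apply, Pi.single_apply]
    rw [hf, map_sum]
    refine Submodule.sum_mem _ fun x _ => ?_
    rw [map_smul]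
    refine Submodule.smul_mem _ _ ?_
    have : W.mkQ (Pi.single x (1 : ℚ)) = W.mkQ (Pi.single x0 (1 : ℚ)) := by
      rw [← sub_eq_zero, ← map_sub, Submodule.mkQ_apply, Submodule.Quotient.mk_eq_zero]
      exact hW x x0
    rw [this]
    exact Submodule.mem_span_singleton_self _
  have h1 : finrank ℚ ((X → ℚ) ⧸ W) ≤ 1 := by
    have h2 := Submodule.finrank_mono hspan
    rw [finrank_top] at h2
    exact h2.trans (finrank_span_singleton_le_one _)
  have h3 := Submodule.finrank_quotient_add_finrank W
  rw [Module.finrank_fintype_fun_eq_card] at h3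
  omega

omit [Fintype X] in
/-- A function invariant under a transitive set of permutations is constant; so the common
kernel has dimension at most one. -/
lemma finrank_le_one_of_invariant (s : Set (Equiv.Perm X))
    (htrans : ∀ x y : X, ∃ g ∈ Subgroup.closure s, g x = y)
    (K : Submodule ℚ (X → ℚ)) (hK : ∀ f ∈ K, ∀ σ ∈ s, ∀ x, f (σ x) = f x) :
    finrank ℚ K ≤ 1 := by
  have hinv : ∀ f ∈ K, ∀ g ∈ Subgroup.closure s, ∀ x, f (g x) = f x := by
    intro f hf g hg
    induction hg using Subgroup.closure_induction with
    | mem σ hσ => exact hK f hf σ hσ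
    | one => intro x; rfl
    | mul g h _ _ ihg ihh => intro x; rw [Equiv.Perm.mul_apply, ihg, ihh]
    | inv g _ ih =>
      intro x
      have := ih (g⁻¹ x)
      rw [← Equiv.Perm.mul_apply, mul_inv_cancel, Equiv.Perm.one_apply] at this
      exact this.symm
  have hle : K ≤ Submodule.span ℚ {(fun _ => (1 : ℚ) : X → ℚ)} := by
    intro f hf
    rcases isEmpty_or_nonempty X with hX | ⟨⟨x0⟩⟩
    · have : f = 0 := funext fun x => (hX.false x).elim
      rw [this]; exact Submodule.zero_mem _
    rw [Submodule.mem_span_singleton]
    refine ⟨f x0, ?_⟩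
    funext y
    obtain ⟨g, hg, rfl⟩ := htrans x0 y
    simp [hinv f hf g hg x0]
  exact (Submodule.finrank_mono hle).trans (finrank_span_singleton_le_one _)

end Fermat.Agent.S24

namespace Fermat.Agent.S24

open Module

variable {X : Type*} [Fintype X]

/-- **Ree's theorem / Scott's lemma for three permutations.** If `a * b * c = 1` and `a, b, c`
generate a transitive group on the finite set `X`, then
`orb a + orb b + orb c ≤ |X| + 2`. -/
theorem orbCount_add_le (a b c : Equiv.Perm X) (habc : a * b * c = 1)
    (htrans : ∀ x y : X, ∃ g ∈ Subgroup.closure ({a, b, c} : Set (Equiv.Perm X)), g x = y) :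
    orbCount a + orbCount b + orbCount c ≤ Fintype.card X + 2 := by
  classical
  set s : Set (Equiv.Perm X) := {a, b, c} with hs
  -- the three ranges
  set Wa := LinearMap.range (oneSub a) with hWa
  set Wb := LinearMap.range (oneSub b) with hWb
  set Wc := LinearMap.range (oneSub c) with hWc
  -- beta
  let β : (X → ℚ) →ₗ[ℚ] (Wa × Wb × Wc) :=
    (oneSub a).rangeRestrict.prod ((oneSub b).rangeRestrict.prod (oneSub c).rangeRestrict)
  -- delta
  let δ : (Wa × Wb × Wc) →ₗ[ℚ] (X → ℚ) :=
    Wa.subtype.coprod ((permLin a ∘ₗ Wb.subtype).coprod (permLin a ∘ₗ permLin b ∘ₗ Wc.subtype))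
  have hδβ : ∀ v, δ (β v) = 0 := by
    intro v
    have h1 : δ (β v) = oneSub a v + (permLin a (oneSub b v) + permLin a (permLin b (oneSub c v))) := by
      simp [δ, β, LinearMap.coprod_apply]
    rw [h1]
    have h2 : permLin a (permLin b (permLin c v)) = v := by
      have := permLin_mul (a * b) c
      rw [permLin_mul a b, habc, permLin_one] at this
      have h3 := LinearMap.congr_fun this v
      simp only [LinearMap.id_apply, LinearMap.comp_apply] at h3
      exact h3.symm
    simp only [oneSub, LinearMap.sub_apply, LinearMap.id_apply, map_sub, h2]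
    abel
  have hle : LinearMap.range β ≤ LinearMap.ker δ := by
    rintro _ ⟨v, rfl⟩
    exact hδβ v
  -- dimension of the domain of delta
  have hdim : finrank ℚ (Wa × Wb × Wc) + (orbCount a + orbCount b + orbCount c)
      = 3 * Fintype.card X := by
    rw [Module.finrank_prod, Module.finrank_prod]
    have ha : finrank ℚ Wa + orbCount a = Fintype.card X := finrank_range_oneSub a
    have hb : finrank ℚ Wb + orbCount b = Fintype.card X := finrank_range_oneSub b
    have hc : finrank ℚ Wc + orbCount c = Fintype.card X := finrank_range_oneSub c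
    omega
  -- kernel of beta has dimension at most one
  have hkerβ : finrank ℚ (LinearMap.ker β) ≤ 1 := by
    apply finrank_le_one_of_invariant s htrans
    intro f hf σ hσ
    have hf' : β f = 0 := hf
    have hfa : oneSub a f = 0 := by
      have := congrArg (fun p => (p.1 : X → ℚ)) hf'
      simpa [β] using this
    have hfb : oneSub b f = 0 := by
      have := congrArg (fun p => (p.2.1 : X → ℚ)) hf'
      simpa [β] using this
    have hfc : oneSub c f = 0 := by
      have := congrArg (fun p => (p.2.2 : X → ℚ)) hf'
      simpa [β] using this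
    rcases hσ with rfl | rfl | rfl
    · exact (mem_ker_oneSub_iff _ f).mp hfa
    · exact (mem_ker_oneSub_iff _ f).mp hfb
    · exact (mem_ker_oneSub_iff _ f).mp hfc
  have hrangeβ : Fintype.card X ≤ finrank ℚ (LinearMap.range β) + 1 := by
    have := LinearMap.finrank_range_add_finrank_ker β
    rw [Module.finrank_fintype_fun_eq_card] at this
    omega
  -- range of delta contains the three ranges
  have hWa_le : Wa ≤ LinearMap.range δ := by
    intro x hx
    refine ⟨(⟨x, hx⟩, 0, 0), ?_⟩
    simp [δ, LinearMap.coprod_apply]
  have hWb_le : Wb ≤ LinearMap.range δ := by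
    intro y hy
    have h1 : permLin a y ∈ LinearMap.range δ := by
      refine ⟨(0, ⟨y, hy⟩, 0), ?_⟩
      simp [δ, LinearMap.coprod_apply]
    have h2 : oneSub a y ∈ LinearMap.range δ := hWa_le ⟨y, rfl⟩
    have : y = oneSub a y + permLin a y := by
      simp [oneSub]
    rw [this]
    exact Submodule.add_mem _ h2 h1
  have hWc_le : Wc ≤ LinearMap.range δ := by
    intro z hz
    have h1 : permLin a (permLin b z) ∈ LinearMap.range δ := by
      refine ⟨(0, 0, ⟨z, hz⟩), ?_⟩
      simp [δ, LinearMap.coprod_apply]
    have h2 : oneSub a z ∈ LinearMap.range δ := hWa_le ⟨z, rfl⟩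
    have h3 : permLin a (oneSub b z) ∈ LinearMap.range δ := by
      refine ⟨(0, ⟨oneSub b z, ⟨z, rfl⟩⟩, 0), ?_⟩
      simp [δ, LinearMap.coprod_apply]
    have : z = oneSub a z + permLin a (oneSub b z) + permLin a (permLin b z) := by
      simp [oneSub]
    rw [this]
    exact Submodule.add_mem _ (Submodule.add_mem _ h2 h3) h1
  have hrangeδ : Fintype.card X ≤ finrank ℚ (LinearMap.range δ) + 1 := by
    apply card_le_finrank_add_one
    intro x y
    obtain ⟨g, hg, rfl⟩ := htrans x y
    refine single_sub_single_mem s (LinearMap.range δ) ?_ hg x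
    intro σ hσ
    rcases hσ with rfl | rfl | rfl
    · exact hWa_le
    · exact hWb_le
    · exact hWc_le
  have h4 := LinearMap.finrank_range_add_finrank_ker δ
  have h5 := Submodule.finrank_mono hle
  omega

end Fermat.Agent.S24

namespace Fermat.Agent.S24

open Equiv.Perm

variable {X : Type*} [Fintype X] [DecidableEq X]

omit [Fintype X] [DecidableEq X] in
lemma orbitRel_zpowers_iff (g : Equiv.Perm X) (x y : X) :
    MulAction.orbitRel (Subgroup.zpowers g) X x y ↔ g.SameCycle y x := by
  rw [MulAction.orbitRel_apply, MulAction.mem_orbit_iff]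
  constructor
  · rintro ⟨⟨h, hh⟩, rfl⟩
    obtain ⟨k, rfl⟩ := Subgroup.mem_zpowers_iff.mp hh
    exact ⟨k, rfl⟩
  · rintro ⟨k, hk⟩
    exact ⟨⟨g ^ k, Subgroup.zpow_mem_zpowers g k⟩, hk⟩

/-- classifying map on points -/
noncomputable def orbClass (g : Equiv.Perm X) (x : X) :
    Function.fixedPoints g ⊕ {c // c ∈ g.cycleFactorsFinset} :=
  if h : g x = x then Sum.inl ⟨x, h⟩
  else Sum.inr ⟨g.cycleOf x, cycleOf_mem_cycleFactorsFinset_iff.mpr (mem_support.mpr h)⟩

lemma orbClass_eq_iff (g : Equiv.Perm X) (x y : X) :
    orbClass g x = orbClass g y ↔ g.SameCycle x y := by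
  unfold orbClass
  by_cases hx : g x = x <;> by_cases hy : g y = y
  · simp only [hx, hy, dif_pos, Sum.inl.injEq]
    constructor
    · intro h
      have : x = y := congrArg Subtype.val h
      subst this; exact SameCycle.refl _ _
    · intro h; exact Subtype.ext (h.eq_of_left hx)
  · simp only [hx, hy, dif_pos, dif_neg, not_false_eq_true, reduceCtorEq, false_iff]
    intro h
    exact hy (h.apply_eq_self_iff.mp hx)
  · simp only [hx, hy, dif_pos, dif_neg, not_false_eq_true, reduceCtorEq, false_iff]
    intro h
    exact hx (h.apply_eq_self_iff.mpr hy)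
  · simp only [hx, hy, dif_neg, not_false_eq_true, Sum.inr.injEq, Subtype.mk.injEq]
    exact (sameCycle_iff_cycleOf_eq_of_mem_support (mem_support.mpr hx) (mem_support.mpr hy)).symm

lemma orbClass_surjective (g : Equiv.Perm X) : Function.Surjective (orbClass g) := by
  rintro (⟨x, hx⟩ | ⟨c, hc⟩)
  · refine ⟨x, ?_⟩
    have : g x = x := hx
    simp [orbClass, this]
  · have hcyc := (mem_cycleFactorsFinset_iff.mp hc).1
    obtain ⟨a, ha⟩ := hcyc.nonempty_support
    have hca : c = g.cycleOf a := cycle_is_cycleOf ha hc
    have hsupp : a ∈ g.support := by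
      rw [← cycleOf_mem_cycleFactorsFinset_iff, ← hca]; exact hc
    refine ⟨a, ?_⟩
    have : ¬ g a = a := mem_support.mp hsupp
    simp only [orbClass, this, dif_neg, not_false_eq_true, Sum.inr.injEq, Subtype.mk.injEq]
    exact hca.symm

theorem orbCount_add_sum_cycleType (g : Equiv.Perm X) :
    orbCount g + g.cycleType.sum = Fintype.card X + Multiset.card g.cycleType := by
  classical
  let _ : Fintype (MulAction.orbitRel.Quotient (Subgroup.zpowers g) X) := Quotient.fintype _
  -- the induced bijection on the quotient
  let F : MulAction.orbitRel.Quotient (Subgroup.zpowers g) X →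
      Function.fixedPoints g ⊕ {c // c ∈ g.cycleFactorsFinset} :=
    fun q => Quotient.liftOn' q (orbClass g) (by
      intro x y hxy
      have := (orbitRel_zpowers_iff g x y).mp hxy
      exact (orbClass_eq_iff g x y).mpr this.symm)
  have hF : Function.Bijective F := by
    constructor
    · intro q q' h
      induction q using Quotient.inductionOn' with | h x => ?_
      induction q' using Quotient.inductionOn' with | h y => ?_
      apply Quotient.sound'
      have h' : orbClass g x = orbClass g y := h
      exact (orbitRel_zpowers_iff g x y).mpr ((orbClass_eq_iff g x y).mp h').symm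
    · intro z
      obtain ⟨x, rfl⟩ := orbClass_surjective g z
      exact ⟨Quotient.mk'' x, rfl⟩
  have hcard := Fintype.card_of_bijective hF
  rw [Fintype.card_sum, card_fixedPoints, Fintype.card_coe] at hcard
  rw [orbCount, Nat.card_eq_fintype_card, hcard]
  have h1 := sum_cycleType_le g
  have h2 : Multiset.card g.cycleType = g.cycleFactorsFinset.card := by
    rw [cycleType_def, Multiset.card_map]; rfl
  omega

theorem even_card_add_orbCount_iff (g : Equiv.Perm X) :
    Even (Fintype.card X + orbCount g) ↔ Equiv.Perm.sign g = 1 := by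
  rw [sign_of_cycleType]
  have h := orbCount_add_sum_cycleType g
  have hpar : Even (Fintype.card X + orbCount g) ↔
      Even (g.cycleType.sum + Multiset.card g.cycleType) := by
    have : Fintype.card X + orbCount g + 2 * g.cycleType.sum =
        2 * Fintype.card X + (g.cycleType.sum + Multiset.card g.cycleType) := by omega
    constructor
    · intro he
      have h3 : Even (2 * Fintype.card X + (g.cycleType.sum + Multiset.card g.cycleType)) := by
        rw [← this]; exact he.add (even_two_mul _)
      exact (Nat.even_add.mp h3).mp (even_two_mul _)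
    · intro he
      have h3 : Even (Fintype.card X + orbCount g + 2 * g.cycleType.sum) := by
        rw [this]; exact (even_two_mul _).add he
      exact (Nat.even_add.mp h3).mpr (even_two_mul _)
  rw [hpar]
  constructor
  · intro he; exact he.neg_one_pow
  · intro h1
    by_contra hodd
    rw [Nat.not_even_iff_odd] at hodd
    rw [hodd.neg_one_pow] at h1
    exact absurd h1 (by decide)



/-- Parity: for `a * b * c = 1` the number `3 |X| + orb a + orb b + orb c` is even. -/
theorem even_orbCount_sum (a b c : Equiv.Perm X) (habc : a * b * c = 1) :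
    Even (3 * Fintype.card X + (orbCount a + orbCount b + orbCount c)) := by
  have hs : Equiv.Perm.sign a * Equiv.Perm.sign b * Equiv.Perm.sign c = 1 := by
    rw [← map_mul, ← map_mul, habc, map_one]
  have ha := even_card_add_orbCount_iff a
  have hb := even_card_add_orbCount_iff b
  have hc := even_card_add_orbCount_iff c
  have e : 3 * Fintype.card X + (orbCount a + orbCount b + orbCount c) =
      (Fintype.card X + orbCount a) + (Fintype.card X + orbCount b) +
        (Fintype.card X + orbCount c) := by ring
  rw [e]
  rcases Int.units_eq_one_or (Equiv.Perm.sign a) with h1 | h1 <;>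
  rcases Int.units_eq_one_or (Equiv.Perm.sign b) with h2 | h2 <;>
  rcases Int.units_eq_one_or (Equiv.Perm.sign c) with h3 | h3 <;>
  simp only [h1, h2, h3] at hs ha hb hc <;>
  first
  | exact absurd hs (by decide)
  | (simp only [Nat.even_add, ha, hb, hc]; try decide)

end Fermat.Agent.S24
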