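import Fermat.Agent.S24.RiemannHurwitz
import Fermat.Agent.S24.PlaceCount
import Fermat.Agent.S24.Scott

/-!
# S24, Part VI (abstract form): from place-counting inputs to the genus

`PCInput K x y g` packages the hypotheses of the place counting theorem `placeCount`
(PlaceCount.lean) for the zeros of `y` (`y = x - a` or `y = x⁻¹`), with the norm taken over the
FIXED rational subfield `K⟮x⟯`.  `card_zeros_eq_orbCount` turns it into
`Nat.card (Zeros K y) = orbCount g`, and `genus_eq_of_pcInputs` feeds everything into the
Riemann-Hurwitz bookkeeping `RH.genus_eq`.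
-/

set_option autoImplicit false
set_option linter.unusedSectionVars false

noncomputable section

open AlgebraicCurve IntermediateField

namespace Fermat.Agent.S24.Final

variable {K F : Type*} [Field K] [Field F] [Algebra K F]

/-- The norm to an intermediate field, as an element of the top field, only depends on the
underlying subfield. -/
theorem algebraMap_norm_congr {E E' : IntermediateField K F} (h : E = E') (f : F) :
    algebraMap E F (Algebra.norm E f) = algebraMap E' F (Algebra.norm E' f) := by
  subst h
  rfl

theorem finiteDimensional_congr {E E' : IntermediateField K F} (h : E = E')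
    (hE : FiniteDimensional E F) : FiniteDimensional E' F := by
  subst h
  exact hE

/-- Hypotheses of the place counting theorem for the zeros of `y`, the norm being taken over
`K⟮x⟯` (in the applications `K⟮y⟯ = K⟮x⟯`). -/
def PCInput (K : Type*) {F : Type*} [Field K] [Field F] [Algebra K F] (x y : F)
    {X : Type*} [Fintype X] (g : Equiv.Perm X) : Prop :=
  ∃ (m : ℕ) (w : X → F → ℤ) (b0 : X), 0 < m ∧ (∀ b, IsAddVal K (w b)) ∧ (∀ b, w b y = m) ∧
    (∀ f : F, f ≠ 0 → ∑ b, w b f = w b0 (algebraMap K⟮x⟯ F (Algebra.norm K⟮x⟯ f))) ∧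
    (∀ b f, w (g b) f = w b f) ∧ (∀ b, Function.minimalPeriod g b ∣ m) ∧
    (∀ b f, f ≠ 0 → ((m / Function.minimalPeriod g b : ℕ) : ℤ) ∣ w b f)

/-- A surjection whose fibres are the cycles of `g` counts the orbits of `g`. -/
theorem card_eq_orbCount_of_sameCycle {X Z : Type*} (g : Equiv.Perm X) (β : X → Z)
    (hs : Function.Surjective β) (hβ : ∀ b b', β b = β b' ↔ g.SameCycle b b') :
    Nat.card Z = orbCount g := by
  unfold orbCount
  symm
  refine Nat.card_congr (Equiv.ofBijective
    (Quotient.lift β (fun a b hab => ?_)) ⟨?_, ?_⟩)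
  · have h : MulAction.orbitRel (Subgroup.zpowers g) X a b := hab
    rw [orbitRel_zpowers_iff] at h
    exact ((hβ b a).mpr h).symm
  · intro q q'
    refine Quotient.inductionOn₂ q q' (fun a b hab => ?_)
    apply Quotient.sound
    show MulAction.orbitRel (Subgroup.zpowers g) X a b
    rw [orbitRel_zpowers_iff]
    exact (hβ b a).mp (Eq.symm hab)
  · intro z
    obtain ⟨b, rfl⟩ := hs z
    exact ⟨Quotient.mk _ b, rfl⟩

/-- The place counting theorem in counting form. -/
theorem card_zeros_eq_orbCount (x y : F) (hy : y ≠ 0) (hxy : K⟮y⟯ = K⟮x⟯)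
    [hfin : FiniteDimensional K⟮x⟯ F]
    (P : ∀ [FiniteDimensional K⟮y⟯ F], ZeroPlacesData K y)
    {X : Type*} [Fintype X] (g : Equiv.Perm X) (h : PCInput K x y g) :
    Nat.card (RH.Zeros K y) = orbCount g := by
  have : FiniteDimensional K⟮y⟯ F := finiteDimensional_congr hxy.symm hfin
  obtain ⟨m, w, b0, hm, hw, ha, hN, hc, hper, hd⟩ := h
  obtain ⟨β, hs, hβ, -, -⟩ := placeCount (K := K) y hy P g m hm w hw ha b0
    (fun f hf => by rw [hN f hf, algebraMap_norm_congr hxy.symm f]) hc hper hd
  exact card_eq_orbCount_of_sameCycle g β hs hβ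

theorem orbCount_one {X : Type*} [Fintype X] : orbCount (1 : Equiv.Perm X) = Fintype.card X := by
  rw [← Nat.card_eq_fintype_card]
  exact (card_eq_orbCount_of_sameCycle (1 : Equiv.Perm X) id Function.surjective_id
    (fun b b' => by
      constructor
      · intro h
        have h' : b = b' := h
        subst h'
        exact Equiv.Perm.SameCycle.refl _ _
      · rintro ⟨k, hk⟩
        simpa using hk)).symm

variable [IsAlgClosed K] [CharZero K]

/-- **Abstract final assembly.**  Given the general function-field facts `FFData`, the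
`ZeroPlacesData` of all the fibres, a finite set `X` with `|X| = [F : K(x)]`, and for every
point of `P¹(K)` a permutation of `X` satisfying the place counting hypotheses (trivial
permutation outside the finite set `S`), the genus is determined by the orbit counts. -/
theorem genus_eq_of_pcInputs (x : F) (h : RH.FFData K x)
    (hZ : ∀ (y : F), Transcendental K y → ∀ [FiniteDimensional K⟮y⟯ F], ZeroPlacesData K y)
    {X : Type*} [Fintype X]
    (hX : Fintype.card X = Module.finrank K⟮x⟯ F)
    (S : Finset K) (gOf : K → Equiv.Perm X) (hgOf : ∀ a, a ∉ S → gOf a = 1)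
    (gInf : Equiv.Perm X)
    (hfin : ∀ a : K, PCInput K x (x - algebraMap K F a) (gOf a))
    (hinf : PCInput K x x⁻¹ gInf)
    [HasCanonicalDivisor (K := K) (F := F)]
    (g : ℕ)
    (hg : (2 * g : ℤ) - 2 = -((Module.finrank K⟮x⟯ F : ℤ) + orbCount gInf)
      + ∑ a ∈ S, ((Module.finrank K⟮x⟯ F : ℤ) - orbCount (gOf a))) :
    AlgebraicCurve.genus K F = g := by
  have := h.finite
  have hx := h.transcendental
  have hcard : ∀ a : K, Nat.card (RH.Zeros K (x - algebraMap K F a)) = orbCount (gOf a) := by
    intro a
    have hta := RH.transcendental_sub_const hx a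
    refine card_zeros_eq_orbCount x _ ?_ (RH.adjoin_sub_const x a) (hZ _ hta) _ (hfin a)
    intro h0
    exact hta (h0 ▸ isAlgebraic_zero)
  have hcardinf : Nat.card (RH.Zeros K x⁻¹) = orbCount gInf := by
    have hta := RH.transcendental_inv hx
    refine card_zeros_eq_orbCount x _ ?_ (RH.adjoin_inv x) (hZ _ hta) _ hinf
    intro h0
    exact hta (h0 ▸ isAlgebraic_zero)
  have hR : RH.RamData K x S (fun a => orbCount (gOf a)) (orbCount gInf) :=
    { card_zero := fun a _ => hcard a
      card_unram := fun a ha => by rw [hcard a, hgOf a ha, orbCount_one, hX]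
      card_inf := hcardinf }
  exact RH.genus_eq h hR g hg

end Fermat.Agent.S24.Final
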