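import Fermat.Agent.S24.Conj
import Fermat.Agent.S24.Bridge
import Fermat.Agent.S24.FinalAbs
import Fermat.Agent.S24.CombOrbits
import Fermat.Agent.S24.JFun.Surj

/-!
# S24, Part IV (finite points): the place counting inputs over `a ∈ K`

From an analytic realisation `D : Conj.EmbData N` of the function field and the norm formula
`hnorm` we produce the inputs `Final.PCInput` of the place counting theorem for the zeros of
`j - a`: with the permutation `S * T` over `a = 0` (`m = 3`), `S` over `a = 1728` (`m = 2`) and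
the trivial permutation over the other `a` (`m = 1`).
-/

set_option autoImplicit false
set_option linter.unusedSectionVars false

noncomputable section

open UpperHalfPlane ModularCurve CongruenceSubgroup IntermediateField ModularGroup
open scoped MatrixGroups

namespace Fermat.Agent.S24.AssembleFin

open Setup Conj Final

variable {N : ℕ} [NeZero N] (D : Conj.EmbData N)

/-- The value of the valuations `wFin` on `j - a`. -/
theorem wFin_jF_sub_const (τ : ℍ) (a : Kbar) (hτ : jFn τ = iota a) (b : SL(2, ℤ) ⧸ Gamma0 N) :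
    wFin D τ b (jF N - algebraMap Kbar (FF N) a) =
      MerFun.ordMer τ (algebraMap HolFun MerFun (jHol - algebraMap ℂ HolFun (jFn τ))) := by
  rw [wFin, map_sub, sigma_jF, sigma_const, Conj.const, ← map_sub, hτ]

/-- The general form: a point `τ` over `a`, fixed by `γ`, with `m = ord_τ (j - j(τ))` equal to
`1` or a prime, `γ ^ m` acting trivially on the cosets, and `m ∣ ord_τ h` for `γ`-invariant `h`. -/
theorem pcInput_of_fixed [FiniteDimensional Kbar⟮jF N⟯ (FF N)]
    (hnorm : ∀ (b0 : SL(2, ℤ) ⧸ Gamma0 N) (f : FF N),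
        sigma D b0 (algebraMap Kbar⟮jF N⟯ (FF N) (Algebra.norm Kbar⟮jF N⟯ f))
          = ∏ b, sigma D b f)
    (a : Kbar) (τ : ℍ) (hτ : jFn τ = iota a) (γ : SL(2, ℤ)) (hγ : γ • τ = τ)
    (m : ℕ) (hm : 0 < m) (hmp : m = 1 ∨ m.Prime)
    (hord : MerFun.ordMer τ (algebraMap HolFun MerFun (jHol - algebraMap ℂ HolFun (jFn τ))) = m)
    (hper : ∀ b : SL(2, ℤ) ⧸ Gamma0 N, γ ^ m • b = b)
    (hdiv : ∀ h : MerFun, γ • h = h → (m : ℤ) ∣ MerFun.ordMer τ h) :
    PCInput Kbar (jF N) (jF N - algebraMap Kbar (FF N) a)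
      (MulAction.toPerm γ : Equiv.Perm (SL(2, ℤ) ⧸ Gamma0 N)) := by
  have hperpt : ∀ b : SL(2, ℤ) ⧸ Gamma0 N,
      Function.minimalPeriod (MulAction.toPerm γ : Equiv.Perm (SL(2, ℤ) ⧸ Gamma0 N)) b ∣ m := by
    intro b
    apply Function.IsPeriodicPt.minimalPeriod_dvd
    show ((MulAction.toPerm γ : Equiv.Perm (SL(2, ℤ) ⧸ Gamma0 N)) : _ → _)^[m] b = b
    have h1 : ((MulAction.toPerm γ : Equiv.Perm (SL(2, ℤ) ⧸ Gamma0 N)) : _ → _)^[m] b
        = γ ^ m • b := by
      have : ((MulAction.toPerm γ : Equiv.Perm (SL(2, ℤ) ⧸ Gamma0 N)) : _ → _)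
          = fun x => γ • x := rfl
      rw [this, smul_iterate]
    rw [h1, hper b]
  refine ⟨m, fun b f => wFin D τ b f, QuotientGroup.mk 1, hm, fun b => isAddVal_wFin D τ b,
    fun b => ?_, fun f hf => sum_wFin D hnorm τ _ f hf, fun b f => ?_, hperpt, fun b f hf => ?_⟩
  · show wFin D τ b (jF N - algebraMap Kbar (FF N) a) = m
    rw [wFin_jF_sub_const D τ a hτ b, hord]
  · exact wFin_smul D τ γ hγ b f
  · show ((m / Function.minimalPeriod
        (MulAction.toPerm γ : Equiv.Perm (SL(2, ℤ) ⧸ Gamma0 N)) b : ℕ) : ℤ) ∣ wFin D τ b f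
    have hdvd := hperpt b
    have hcases : Function.minimalPeriod
        (MulAction.toPerm γ : Equiv.Perm (SL(2, ℤ) ⧸ Gamma0 N)) b = 1 ∨
        Function.minimalPeriod
          (MulAction.toPerm γ : Equiv.Perm (SL(2, ℤ) ⧸ Gamma0 N)) b = m := by
      rcases hmp with h1 | hp
      · left
        rw [h1] at hdvd
        exact Nat.dvd_one.mp hdvd
      · exact (Nat.dvd_prime hp).mp hdvd
    rcases hcases with h1 | h1
    · rw [h1, Nat.div_one]
      have hfix : γ • b = b := by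
        have := Function.minimalPeriod_eq_one_iff_isFixedPt.mp h1
        exact this
      apply hdiv
      rw [smul_sigma, hfix]
    · rw [h1, Nat.div_self hm]
      simp

variable [FiniteDimensional Kbar⟮jF N⟯ (FF N)]
  (hnorm : ∀ (b0 : SL(2, ℤ) ⧸ Gamma0 N) (f : FF N),
      sigma D b0 (algebraMap Kbar⟮jF N⟯ (FF N) (Algebra.norm Kbar⟮jF N⟯ f))
        = ∏ b, sigma D b f)

include hnorm

/-- Over `a = 0`: the permutation `S * T`, `m = 3`. -/
theorem pcInput_zero :
    PCInput Kbar (jF N) (jF N - algebraMap Kbar (FF N) 0)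
      (MulAction.toPerm (S * T) : Equiv.Perm (SL(2, ℤ) ⧸ Gamma0 N)) := by
  refine pcInput_of_fixed D hnorm 0 JFun.rho (by rw [JFun.jFn_rho, map_zero]) (S * T)
    JFun.ST_smul_rho 3 (by norm_num) (Or.inr Nat.prime_three) ?_ ?_ ?_
  · rw [Bridge.ordMer_jHol_sub_const, if_pos JFun.jFn_rho]
    rfl
  · intro b
    rw [Comb.ST_cube, Comb.neg_one_smul_coset]
  · intro h hh
    exact Bridge.three_dvd_ordMer_of_ST h JFun.rho JFun.ST_smul_rho hh

/-- Over `a = 1728`: the permutation `S`, `m = 2`. -/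
theorem pcInput_1728 :
    PCInput Kbar (jF N) (jF N - algebraMap Kbar (FF N) 1728)
      (MulAction.toPerm S : Equiv.Perm (SL(2, ℤ) ⧸ Gamma0 N)) := by
  have h1728 : (1728 : ℂ) ≠ 0 := by norm_num
  refine pcInput_of_fixed D hnorm 1728 UpperHalfPlane.I (by rw [JFun.jFn_I, map_ofNat]) S
    JFun.S_smul_I 2 (by norm_num) (Or.inr Nat.prime_two) ?_ ?_ ?_
  · rw [Bridge.ordMer_jHol_sub_const, JFun.jFn_I, if_neg h1728, if_pos rfl]
    rfl
  · intro b
    rw [Comb.S_sq, Comb.neg_one_smul_coset]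
  · intro h hh
    exact Bridge.two_dvd_ordMer_of_S h UpperHalfPlane.I JFun.S_smul_I hh

/-- Over `a ≠ 0, 1728`: the trivial permutation, `m = 1`. -/
theorem pcInput_generic (a : Kbar) (ha0 : a ≠ 0) (ha1 : a ≠ 1728) :
    PCInput Kbar (jF N) (jF N - algebraMap Kbar (FF N) a)
      (1 : Equiv.Perm (SL(2, ℤ) ⧸ Gamma0 N)) := by
  obtain ⟨τ, hτ⟩ := JFun.jFn_surjective (iota a)
  have h0 : jFn τ ≠ 0 := by
    rw [hτ]
    exact (map_ne_zero_iff _ iota_injective).mpr ha0
  have h1 : jFn τ ≠ 1728 := by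
    rw [hτ]
    intro h
    apply ha1
    apply iota_injective
    rw [h, map_ofNat]
  have key := pcInput_of_fixed D hnorm a τ hτ 1 (one_smul _ τ) 1 one_pos (Or.inl rfl)
    (by rw [Bridge.ordMer_jHol_sub_const, if_neg h0, if_neg h1]; rfl)
    (fun b => by rw [pow_one, one_smul]) (fun h _ => one_dvd _)
  have hone : (MulAction.toPerm (1 : SL(2, ℤ)) : Equiv.Perm (SL(2, ℤ) ⧸ Gamma0 N)) = 1 :=
    map_one (MulAction.toPermHom SL(2, ℤ) (SL(2, ℤ) ⧸ Gamma0 N))
  rwa [hone] at key

end Fermat.Agent.S24.AssembleFin
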