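import Fermat.Prelude.Def_AlgebraicCurve_DivisorClassGroup

set_option autoImplicit false

namespace Fermat.Agent.S24

open AlgebraicCurve

/-- An integer valued additive valuation on the nonzero elements of `F`, trivial on the
constants `K`. The value at `0` is irrelevant. -/
structure IsAddVal (K : Type*) {F : Type*} [Field K] [Field F] [Algebra K F] (w : F → ℤ) :
    Prop where
  map_mul : ∀ f g : F, f ≠ 0 → g ≠ 0 → w (f * g) = w f + w g
  map_add : ∀ f g : F, f ≠ 0 → g ≠ 0 → f + g ≠ 0 → min (w f) (w g) ≤ w (f + g)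
  map_const : ∀ c : K, c ≠ 0 → w (algebraMap K F c) = 0

namespace IsAddVal

variable {K F : Type*} [Field K] [Field F] [Algebra K F] {w : F → ℤ}

theorem map_one (hw : IsAddVal K w) : w 1 = 0 := by
  have h := hw.map_mul 1 1 one_ne_zero one_ne_zero
  rw [mul_one] at h
  omega

theorem map_neg_one (hw : IsAddVal K w) : w (-1) = 0 := by
  have h := hw.map_mul (-1) (-1) (neg_ne_zero.mpr one_ne_zero) (neg_ne_zero.mpr one_ne_zero)
  rw [neg_mul_neg, mul_one, hw.map_one] at h
  omega

theorem map_neg (hw : IsAddVal K w) {f : F} (hf : f ≠ 0) : w (-f) = w f := by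
  have h := hw.map_mul (-1) f (neg_ne_zero.mpr one_ne_zero) hf
  rw [neg_one_mul, hw.map_neg_one, zero_add] at h
  exact h

theorem map_inv (hw : IsAddVal K w) {f : F} (hf : f ≠ 0) : w f⁻¹ = -w f := by
  have h := hw.map_mul f f⁻¹ hf (inv_ne_zero hf)
  rw [mul_inv_cancel₀ hf, hw.map_one] at h
  omega

theorem map_div (hw : IsAddVal K w) {f g : F} (hf : f ≠ 0) (hg : g ≠ 0) :
    w (f / g) = w f - w g := by
  rw [div_eq_mul_inv, hw.map_mul f g⁻¹ hf (inv_ne_zero hg), hw.map_inv hg]
  ring

theorem map_pow (hw : IsAddVal K w) {f : F} (hf : f ≠ 0) (n : ℕ) : w (f ^ n) = n * w f := by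
  induction n with
  | zero => simp [hw.map_one]
  | succ n ih =>
    rw [pow_succ, hw.map_mul _ _ (pow_ne_zero n hf) hf, ih]
    push_cast
    ring

theorem map_zpow (hw : IsAddVal K w) {f : F} (hf : f ≠ 0) (n : ℤ) : w (f ^ n) = n * w f := by
  cases n with
  | ofNat n =>
    simp only [Int.ofNat_eq_natCast, zpow_natCast]
    exact hw.map_pow hf n
  | negSucc n =>
    rw [zpow_negSucc, hw.map_inv (pow_ne_zero _ hf), hw.map_pow hf]
    rw [Int.negSucc_eq]
    push_cast
    ring

theorem map_sub (hw : IsAddVal K w) {f g : F} (hf : f ≠ 0) (hg : g ≠ 0) (hfg : f - g ≠ 0) :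
    min (w f) (w g) ≤ w (f - g) := by
  have h := hw.map_add f (-g) hf (neg_ne_zero.mpr hg) (by rwa [← sub_eq_add_neg])
  rwa [hw.map_neg hg, ← sub_eq_add_neg] at h

/-- If `w f < w g` then `w (f + g) = w f`. -/
theorem map_add_of_lt (hw : IsAddVal K w) {f g : F} (hf : f ≠ 0) (hg : g ≠ 0)
    (h : w f < w g) : w (f + g) = w f := by
  have hfg : f + g ≠ 0 := by
    intro h0
    have : f = -g := eq_neg_of_add_eq_zero_left h0
    rw [this, hw.map_neg hg] at h
    exact lt_irrefl _ h
  have h1 := hw.map_add f g hf hg hfg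
  have h2 := hw.map_sub hfg hg (by rwa [add_sub_cancel_right])
  rw [add_sub_cancel_right] at h2
  rw [min_eq_left h.le] at h1
  rcases le_total (w (f + g)) (w g) with h3 | h3
  · rw [min_eq_left h3] at h2
    omega
  · rw [min_eq_right h3] at h2
    omega


/-- The valuation subring attached to an additive valuation. -/
def valSubring (hw : IsAddVal K w) : ValuationSubring F where
  carrier := {f | f = 0 ∨ 0 ≤ w f}
  mul_mem' := by
    rintro a b (rfl | ha) (rfl | hb)
    · left; simp
    · left; simp
    · left; simp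
    · by_cases ha0 : a = 0
      · left; simp [ha0]
      by_cases hb0 : b = 0
      · left; simp [hb0]
      right
      rw [hw.map_mul a b ha0 hb0]
      omega
  one_mem' := Or.inr (by rw [hw.map_one])
  add_mem' := by
    rintro a b (rfl | ha) (rfl | hb)
    · left; simp
    · right; simpa using hb
    · right; simpa using ha
    · by_cases ha0 : a = 0
      · right; simpa [ha0] using hb
      by_cases hb0 : b = 0
      · right; simpa [hb0] using ha
      by_cases hab : a + b = 0
      · left; exact hab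
      right
      have := hw.map_add a b ha0 hb0 hab
      exact le_trans (le_min ha hb) this
  zero_mem' := Or.inl rfl
  neg_mem' := by
    rintro a (rfl | ha)
    · left; simp
    · by_cases ha0 : a = 0
      · left; simp [ha0]
      right
      rwa [hw.map_neg ha0]
  mem_or_inv_mem' := by
    intro a
    by_cases ha0 : a = 0
    · left; left; exact ha0
    rcases le_total 0 (w a) with h | h
    · left; right; exact h
    · right; right
      rw [hw.map_inv ha0]
      omega

theorem mem_valSubring (hw : IsAddVal K w) {f : F} :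
    f ∈ hw.valSubring ↔ f = 0 ∨ 0 ≤ w f := Iff.rfl

theorem mem_valSubring_of_ne_zero (hw : IsAddVal K w) {f : F} (hf : f ≠ 0) :
    f ∈ hw.valSubring ↔ 0 ≤ w f := by
  rw [mem_valSubring]
  exact ⟨fun h => h.resolve_left hf, Or.inr⟩


theorem algebraMap_mem_valSubring (hw : IsAddVal K w) (c : K) :
    algebraMap K F c ∈ hw.valSubring := by
  by_cases hc : c = 0
  · left; simp [hc]
  · right; rw [hw.map_const c hc]

/-- A unit of the valuation subring from an element of value `0`. -/
def unitOfMapEqZero (hw : IsAddVal K w) {u : F} (hu : u ≠ 0) (h : w u = 0) : (hw.valSubring)ˣ where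
  val := ⟨u, Or.inr h.ge⟩
  inv := ⟨u⁻¹, Or.inr (by rw [hw.map_inv hu, h]; simp)⟩
  val_inv := by ext; simp [mul_inv_cancel₀ hu]
  inv_val := by ext; simp [inv_mul_cancel₀ hu]

@[simp]
theorem coe_unitOfMapEqZero (hw : IsAddVal K w) {u : F} (hu : u ≠ 0) (h : w u = 0) :
    (((hw.unitOfMapEqZero hu h : (hw.valSubring)ˣ) : hw.valSubring) : F) = u := rfl

theorem map_eq_zero_of_isUnit (hw : IsAddVal K w) {a : hw.valSubring} (ha : IsUnit a) :
    w (a : F) = 0 := by
  obtain ⟨b, hb⟩ := isUnit_iff_exists_inv.mp ha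
  have hb' : (a : F) * (b : F) = 1 := by
    have := congrArg (Subtype.val) hb
    simpa using this
  have ha0 : (a : F) ≠ 0 := left_ne_zero_of_mul_eq_one hb'
  have hb0 : (b : F) ≠ 0 := right_ne_zero_of_mul_eq_one hb'
  have h1 := hw.map_mul _ _ ha0 hb0
  rw [hb', hw.map_one] at h1
  have h2 := (hw.mem_valSubring_of_ne_zero ha0).mp a.2
  have h3 := (hw.mem_valSubring_of_ne_zero hb0).mp b.2
  omega

/-- Main structure theorem: a nontrivial integer valued valuation trivial on `K` is a positive
multiple of the order function of a place. -/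
theorem exists_place (hw : IsAddVal K w) (hnt : ∃ f, f ≠ 0 ∧ w f ≠ 0) :
    ∃ (v : Place K F) (c : ℕ), 0 < c ∧ ∀ f, f ≠ 0 → w f = c * v.ord f := by
  classical
  -- positive values exist
  have hpos : ∃ n : ℕ, 0 < n ∧ ∃ f, f ≠ 0 ∧ w f = n := by
    obtain ⟨f, hf, hwf⟩ := hnt
    rcases lt_or_gt_of_ne hwf with h | h
    · refine ⟨(w f⁻¹).toNat, ?_, f⁻¹, inv_ne_zero hf, ?_⟩
      · rw [hw.map_inv hf]; omega
      · rw [hw.map_inv hf]; omega
    · refine ⟨(w f).toNat, ?_, f, hf, ?_⟩ <;> omega
  set c := Nat.find hpos with hc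
  obtain ⟨hc0, π, hπ0, hπ⟩ := Nat.find_spec hpos
  rw [← hc] at hc0 hπ
  have hmin : ∀ n : ℕ, 0 < n → (∃ f, f ≠ 0 ∧ w f = n) → c ≤ n := fun n hn h =>
    Nat.find_min' hpos ⟨hn, h⟩
  -- all values are multiples of c
  have hdvd : ∀ f, f ≠ 0 → (c : ℤ) ∣ w f := by
    intro f hf
    have hcpos : (0 : ℤ) < c := by exact_mod_cast hc0
    set q := w f / c with hq
    set r := w f % c with hr
    have hr0 : 0 ≤ r := Int.emod_nonneg _ hcpos.ne'
    have hrc : r < c := Int.emod_lt_of_pos _ hcpos
    have hqr : c * q + r = w f := Int.mul_ediv_add_emod (w f) c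
    have hg0 : f * π ^ (-q) ≠ 0 := mul_ne_zero hf (zpow_ne_zero _ hπ0)
    have hwg : w (f * π ^ (-q)) = r := by
      rw [hw.map_mul _ _ hf (zpow_ne_zero _ hπ0), hw.map_zpow hπ0, hπ]
      linarith
    by_contra hnd
    have hrne : r ≠ 0 := by
      intro h0
      apply hnd
      exact Int.dvd_of_emod_eq_zero h0
    have hrpos : 0 < r := lt_of_le_of_ne hr0 (Ne.symm hrne)
    have := hmin r.toNat (by omega) ⟨_, hg0, by rw [hwg]; omega⟩
    omega
  -- the valuation subring is a PID
  have hpid : IsPrincipalIdealRing hw.valSubring := by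
    refine ⟨fun I => ?_⟩
    by_cases hI : I = ⊥
    · rw [hI]; exact bot_isPrincipal
    obtain ⟨a1, ha1I, ha10⟩ := Submodule.exists_mem_ne_zero_of_ne_bot hI
    have hT : ∃ n : ℕ, ∃ a ∈ I, a ≠ 0 ∧ w (a : F) = n := by
      have ha1F : (a1 : F) ≠ 0 := by simpa using ha10
      have := (hw.mem_valSubring_of_ne_zero ha1F).mp a1.2
      exact ⟨(w (a1 : F)).toNat, a1, ha1I, ha10, by omega⟩
    obtain ⟨a0, ha0I, ha00, hwa0⟩ := Nat.find_spec hT
    have ha0F : (a0 : F) ≠ 0 := by simpa using ha00
    refine ⟨a0, le_antisymm ?_ ?_⟩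
    · intro a haI
      by_cases ha0' : a = 0
      · rw [ha0']; exact Submodule.zero_mem _
      have haF : (a : F) ≠ 0 := by simpa using ha0'
      have hwa : 0 ≤ w (a : F) := (hw.mem_valSubring_of_ne_zero haF).mp a.2
      have hle : Nat.find hT ≤ (w (a : F)).toNat :=
        Nat.find_min' hT ⟨a, haI, ha0', by omega⟩
      have hb : (a : F) / (a0 : F) ∈ hw.valSubring := by
        right
        rw [hw.map_div haF ha0F]
        omega
      refine Ideal.mem_span_singleton'.mpr ⟨⟨_, hb⟩, ?_⟩
      ext
      simp [div_mul_cancel₀ _ ha0F]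
    · rw [Submodule.span_singleton_le_iff_mem]
      exact ha0I
  have hne_top : hw.valSubring ≠ ⊤ := by
    intro htop
    have hmem : π⁻¹ ∈ hw.valSubring := htop ▸ ValuationSubring.mem_top _
    have := (hw.mem_valSubring_of_ne_zero (inv_ne_zero hπ0)).mp hmem
    rw [hw.map_inv hπ0, hπ] at this
    omega
  let v : Place K F := ⟨hw.valSubring, hw.algebraMap_mem_valSubring, hne_top, hpid⟩
  have hπmem : π ∈ hw.valSubring := Or.inr (by rw [hπ]; omega)
  -- π is irreducible
  have hirr : Irreducible (⟨π, hπmem⟩ : v.toValuationSubring) := by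
    rw [irreducible_iff]
    constructor
    · intro hu
      have := hw.map_eq_zero_of_isUnit hu
      simp only at this
      omega
    · intro a b hab
      have hab' : π = (a : F) * (b : F) := by
        have := congrArg Subtype.val hab
        simpa using this
      have ha0 : (a : F) ≠ 0 := by
        rintro h; rw [h, zero_mul] at hab'; exact hπ0 hab'
      have hb0 : (b : F) ≠ 0 := by
        rintro h; rw [h, mul_zero] at hab'; exact hπ0 hab'
      have h1 := hw.map_mul _ _ ha0 hb0
      rw [← hab', hπ] at h1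
      have h2 : 0 ≤ w (a : F) := (hw.mem_valSubring_of_ne_zero ha0).mp a.2
      have h3 : 0 ≤ w (b : F) := (hw.mem_valSubring_of_ne_zero hb0).mp b.2
      obtain ⟨ka, hka⟩ := hdvd _ ha0
      obtain ⟨kb, hkb⟩ := hdvd _ hb0
      have hcpos : (0 : ℤ) < c := by exact_mod_cast hc0
      have hka0 : 0 ≤ ka := by
        by_contra hneg
        have : (c : ℤ) * ka < 0 := mul_neg_of_pos_of_neg hcpos (not_le.mp hneg)
        omega
      have hkb0 : 0 ≤ kb := by
        by_contra hneg
        have : (c : ℤ) * kb < 0 := mul_neg_of_pos_of_neg hcpos (not_le.mp hneg)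
        omega
      have hsum : ka + kb = 1 := by
        have : (c : ℤ) * (ka + kb) = c * 1 := by rw [mul_add, ← hka, ← hkb, mul_one]; omega
        exact mul_left_cancel₀ hcpos.ne' this
      have hcases : ka = 0 ∨ kb = 0 := by omega
      rcases hcases with h | h
      · left
        have hwa : w (a : F) = 0 := by rw [hka, h, mul_zero]
        exact ⟨hw.unitOfMapEqZero ha0 hwa, by ext; rfl⟩
      · right
        have hwb : w (b : F) = 0 := by rw [hkb, h, mul_zero]
        exact ⟨hw.unitOfMapEqZero hb0 hwb, by ext; rfl⟩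
  refine ⟨v, c, hc0, fun f hf => ?_⟩
  obtain ⟨k, hk⟩ := hdvd f hf
  have hu0 : f * π ^ (-k) ≠ 0 := mul_ne_zero hf (zpow_ne_zero _ hπ0)
  have hwu : w (f * π ^ (-k)) = 0 := by
    rw [hw.map_mul _ _ hf (zpow_ne_zero _ hπ0), hw.map_zpow hπ0, hπ, hk]
    ring
  have hford : v.ord f = k := by
    have key : f = (((hw.unitOfMapEqZero hu0 hwu : (hw.valSubring)ˣ) : hw.valSubring) : F) *
        (((⟨π, hπmem⟩ : v.toValuationSubring) : F) ^ k) := by
      rw [coe_unitOfMapEqZero]
      simp only
      rw [mul_assoc, ← zpow_add₀ hπ0]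
      simp
    have h2 := v.ord_unit_smul_zpow (hw.unitOfMapEqZero hu0 hwu) hirr k
    rw [← key] at h2
    exact h2
  rw [hford, hk]

end IsAddVal

/-- The order function of a place is an additive valuation. -/
theorem isAddVal_ord {K F : Type*} [Field K] [Field F] [Algebra K F] (v : Place K F) :
    IsAddVal K v.ord where
  map_mul f g hf hg := v.ord_mul hf hg
  map_add f g hf hg hfg := by
    have h1 := v.adicValuation.map_add f g
    have hf' := v.adicValuation_ne_zero hf
    have hg' := v.adicValuation_ne_zero hg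
    have hfg' := v.adicValuation_ne_zero hfg
    simp only [Place.ord]
    rcases le_total (v.adicValuation f) (v.adicValuation g) with h | h
    · rw [max_eq_right h] at h1
      have := (WithZero.log_le_log hfg' hg').mpr h1
      have h2 := min_le_right (-WithZero.log (v.adicValuation f)) (-WithZero.log (v.adicValuation g))
      omega
    · rw [max_eq_left h] at h1
      have := (WithZero.log_le_log hfg' hf').mpr h1
      have h2 := min_le_left (-WithZero.log (v.adicValuation f)) (-WithZero.log (v.adicValuation g))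
      omega
  map_const c hc := by
    have hu : IsUnit (algebraMap K v.toValuationSubring c) :=
      (IsUnit.mk0 c hc).map (algebraMap K v.toValuationSubring)
    have := v.ord_coe_unit hu.unit
    rwa [IsUnit.unit_spec, Place.coe_algebraMap] at this

section PlaceLemmas

variable {K F : Type*} [Field K] [Field F] [Algebra K F]

theorem place_mem_iff_ord_nonneg (v : Place K F) {f : F} (hf : f ≠ 0) :
    f ∈ v.toValuationSubring ↔ 0 ≤ v.ord f := by
  obtain ⟨π, hπ⟩ := IsDiscreteValuationRing.exists_irreducible v.toValuationSubring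
  constructor
  · intro hmem
    have hne : (⟨f, hmem⟩ : v.toValuationSubring) ≠ 0 := by
      intro h
      exact hf (congrArg Subtype.val h)
    obtain ⟨n, u, hu⟩ := IsDiscreteValuationRing.eq_unit_mul_pow_irreducible hne hπ
    have hfeq : f = ((u : v.toValuationSubring) : F) * ((π : F) ^ (n : ℤ)) := by
      have := congrArg Subtype.val hu
      simpa using this
    rw [hfeq, v.ord_unit_smul_zpow u hπ]
    exact Int.natCast_nonneg n
  · intro h
    obtain ⟨u, hu⟩ := v.exists_unit_mul_zpow hf hπ
    rw [hu]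
    obtain ⟨n, hn⟩ := Int.eq_ofNat_of_zero_le h
    rw [hn, zpow_natCast]
    exact mul_mem (u : v.toValuationSubring).2 (pow_mem π.2 n)

/-- Two places whose order functions are positively proportional coincide. -/
theorem place_eq_of_ord_proportional {v v' : Place K F} {c c' : ℕ} (hc : 0 < c) (hc' : 0 < c')
    (h : ∀ f, f ≠ 0 → (c : ℤ) * v.ord f = c' * v'.ord f) : v = v' := by
  apply Place.ext
  ext f
  by_cases hf : f = 0
  · simp [hf]
  rw [place_mem_iff_ord_nonneg v hf, place_mem_iff_ord_nonneg v' hf]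
  have := h f hf
  have hcz : (0 : ℤ) < c := by exact_mod_cast hc
  have hcz' : (0 : ℤ) < c' := by exact_mod_cast hc'
  constructor
  · intro h0
    have h1 : 0 ≤ (c : ℤ) * v.ord f := mul_nonneg hcz.le h0
    rw [this] at h1
    by_contra hneg
    have : (c' : ℤ) * v'.ord f < 0 := mul_neg_of_pos_of_neg hcz' (not_le.mp hneg)
    omega
  · intro h0
    have h1 : 0 ≤ (c' : ℤ) * v'.ord f := mul_nonneg hcz'.le h0
    rw [← this] at h1
    by_contra hneg
    have : (c : ℤ) * v.ord f < 0 := mul_neg_of_pos_of_neg hcz (not_le.mp hneg)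
    omega

end PlaceLemmas

end Fermat.Agent.S24
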