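import Mathlib
import Fermat.Prelude.Thm_UpperHalfPlane_qExpansion_coeff_nat_mul
import Fermat.Agent.S24.JDef
import Fermat.Agent.S24.Growth

/-!
helper6 (P-S24 Part III/IV, piece `CuspOrd`).  The order at the cusp `i∞` of a holomorphic
`N`-periodic function of moderate growth on the upper half plane, measured in the local
parameter `q_N = exp (2 π i z / N)`.

Main definitions (namespace `Fermat.Agent.S24.CuspOrd`):
* `IsPer h f`      : `f (h +ᵥ z) = f z` for all `z`.
* `IsCuspFn N f`   : `f` is holomorphic, `N`-periodic and `ModGrowth f`.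
* `ordInf N f : ℤ` : (order of the `q_N`-expansion of `Δ ^ M * f`) `- N * M`, independent of `M`.

Main results: `ordInf_mul`, `min_ordInf_le_ordInf_add`, `ordInf_const`, `ordInf_vadd_int`
(invariance under `z ↦ z + n`), `ordInf_nat_mul`, `ordInf_eq_div_mul`, `dvd_ordInf`
(a `k`-periodic function, `k ∣ N`, has `q_N`-order divisible by `N / k`), `ordInf_jFn`
(`= -N`), and the closure properties `IsCuspFn.mul/add/neg/sub/pow/vadd_int/of_dvd`.
-/

set_option autoImplicit false

open UpperHalfPlane Complex Filter Function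
open scoped Manifold MatrixGroups

namespace Fermat.Agent.S24.CuspOrd

/-- `f` has (real) period `h`, phrased with the translation action of `ℝ` on `ℍ`. -/
def IsPer (h : ℝ) (f : ℍ → ℂ) : Prop := ∀ z : ℍ, f (h +ᵥ z) = f z

theorem IsPer.periodic {h : ℝ} {f : ℍ → ℂ} (hf : IsPer h f) :
    Periodic (f ∘ ofComplex) (h : ℂ) := by
  intro w
  by_cases hw : 0 < im w
  · have hw' : 0 < im (w + h) := by simp [hw]
    simp only [comp_apply, ofComplex_apply_of_im_pos hw', ofComplex_apply_of_im_pos hw]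
    rw [← hf ⟨w, hw⟩]
    congr 1
    ext
    simp [add_comm]
  · have hw0 : im w ≤ 0 := not_lt.mp hw
    have hw' : im (w + h) ≤ 0 := by simpa using hw0
    simp [ofComplex_apply_of_im_nonpos hw', ofComplex_apply_of_im_nonpos hw0]

theorem isPer_of_periodic {h : ℝ} {f : ℍ → ℂ} (hf : Periodic (f ∘ ofComplex) (h : ℂ)) :
    IsPer h f := by
  intro z
  have := hf (z : ℂ)
  simp only [comp_apply, ofComplex_apply] at this
  rw [← this]
  congr 1
  have : ((z : ℂ) + h) = ((h +ᵥ z : ℍ) : ℂ) := by simp [add_comm]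
  rw [this, ofComplex_apply]

theorem IsPer.nat_mul {h : ℝ} {f : ℍ → ℂ} (hf : IsPer h f) (n : ℕ) : IsPer (n * h) f := by
  induction n with
  | zero => intro z; simp
  | succ n ih =>
    intro z
    have : ((n + 1 : ℕ) : ℝ) * h = h + n * h := by push_cast; ring
    rw [this, add_vadd, hf, ih]

theorem IsPer.mul {h : ℝ} {f g : ℍ → ℂ} (hf : IsPer h f) (hg : IsPer h g) : IsPer h (f * g) :=
  fun z => by simp [hf z, hg z]

theorem IsPer.add {h : ℝ} {f g : ℍ → ℂ} (hf : IsPer h f) (hg : IsPer h g) : IsPer h (f + g) :=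
  fun z => by simp [hf z, hg z]

theorem IsPer.pow {h : ℝ} {f : ℍ → ℂ} (hf : IsPer h f) (n : ℕ) : IsPer h (f ^ n) :=
  fun z => by simp [hf z]

theorem isPer_const (h : ℝ) (c : ℂ) : IsPer h (fun _ => c) := fun _ => rfl

/-- `Δ` is `1`-periodic. -/
theorem isPer_discriminant : IsPer 1 ModularForm.discriminant := fun z =>
  SlashInvariantForm.vAdd_apply_of_mem_strictPeriods CuspForm.discriminant z
    one_mem_strictPeriods_SL

theorem isPer_discriminant_nat (N : ℕ) : IsPer N ModularForm.discriminant := by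
  simpa using isPer_discriminant.nat_mul N

theorem mdiff_discriminant : MDiff (ModularForm.discriminant : ℍ → ℂ) :=
  CuspForm.discriminant.holo'

theorem isBounded_discriminant : IsBoundedAtImInfty (ModularForm.discriminant : ℍ → ℂ) :=
  ModularForm.discriminant_isZeroAtImInfty.boundedAtFilter

theorem isBounded_discriminant_pow (M : ℕ) :
    IsBoundedAtImInfty ((ModularForm.discriminant : ℍ → ℂ) ^ M) := by
  induction M with
  | zero => rw [pow_zero]; exact const_boundedAtFilter atImInfty (1 : ℂ)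
  | succ M ih => rw [pow_succ]; exact ih.mul isBounded_discriminant

open PowerSeries in
/-- The order of a power series as a natural number (`0` for the zero series). -/
noncomputable def nord (φ : PowerSeries ℂ) : ℕ := φ.order.toNat

theorem coe_nord {φ : PowerSeries ℂ} (h : φ ≠ 0) : (nord φ : ℕ∞) = φ.order :=
  PowerSeries.coe_toNat_order h

theorem nord_eq_iff {φ : PowerSeries ℂ} {n : ℕ} (h : φ ≠ 0) :
    nord φ = n ↔ PowerSeries.coeff n φ ≠ 0 ∧ ∀ i < n, PowerSeries.coeff i φ = 0 := by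
  rw [← PowerSeries.order_eq_nat, ← coe_nord h]
  exact Nat.cast_inj.symm

theorem nord_mul {φ ψ : PowerSeries ℂ} (hφ : φ ≠ 0) (hψ : ψ ≠ 0) :
    nord (φ * ψ) = nord φ + nord ψ := by
  have h := PowerSeries.order_mul φ ψ
  rw [← coe_nord hφ, ← coe_nord hψ, ← coe_nord (mul_ne_zero hφ hψ)] at h
  exact_mod_cast h

theorem min_nord_le_nord_add {φ ψ : PowerSeries ℂ} (h : φ + ψ ≠ 0) :
    min (nord φ) (nord ψ) ≤ nord (φ + ψ) := by
  by_cases hφ : φ = 0
  · subst hφ; simp
  by_cases hψ : ψ = 0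
  · subst hψ; simp
  have h' := PowerSeries.min_order_le_order_add φ ψ
  rw [← coe_nord hφ, ← coe_nord hψ, ← coe_nord h, min_le_iff, Nat.cast_le, Nat.cast_le] at h'
  exact min_le_iff.2 h'

theorem nord_eq_of_coeff {φ ψ : PowerSeries ℂ}
    (h : ∀ n, PowerSeries.coeff n φ = 0 ↔ PowerSeries.coeff n ψ = 0) : nord φ = nord ψ := by
  by_cases hφ : φ = 0
  · have hψ : ψ = 0 := by
      ext n; rw [map_zero]; exact (h n).1 (by simp [hφ])
    rw [hφ, hψ]
  have hψ : ψ ≠ 0 := by
    intro hψ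
    apply hφ
    ext n; rw [map_zero]; exact (h n).2 (by simp [hψ])
  rw [nord_eq_iff hφ]
  have := (nord_eq_iff (n := nord ψ) hψ).1 rfl
  exact ⟨fun h0 => this.1 ((h _).1 h0), fun i hi => (h i).2 (this.2 i hi)⟩


/-! ### The `q_N`-expansion of `Δ ^ M * f` -/

/-- `Δ ^ M * f` is bounded at `i∞`. -/
def BddBy (M : ℕ) (f : ℍ → ℂ) : Prop :=
  IsBoundedAtImInfty ((ModularForm.discriminant : ℍ → ℂ) ^ M * f)

theorem modGrowth_iff_exists_bddBy {f : ℍ → ℂ} : ModGrowth f ↔ ∃ M, BddBy M f := Iff.rfl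

theorem bddBy_iff {M : ℕ} {f : ℍ → ℂ} :
    BddBy M f ↔ IsBoundedAtImInfty (fun z => ModularForm.discriminant z ^ M * f z) := Iff.rfl

theorem BddBy.mono {M M' : ℕ} {f : ℍ → ℂ} (h : BddBy M f) (hMM' : M ≤ M') : BddBy M' f := by
  obtain ⟨k, rfl⟩ := Nat.exists_eq_add_of_le hMM'
  have : (ModularForm.discriminant : ℍ → ℂ) ^ (M + k) * f =
      (ModularForm.discriminant : ℍ → ℂ) ^ k * ((ModularForm.discriminant : ℍ → ℂ) ^ M * f) := by
    rw [pow_add]; ring
  rw [BddBy, this]
  exact (isBounded_discriminant_pow k).mul h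

/-- The `q_N`-expansion of `Δ ^ M * f`. -/
noncomputable def qSeries (N M : ℕ) (f : ℍ → ℂ) : PowerSeries ℂ :=
  qExpansion (N : ℝ) ((ModularForm.discriminant : ℍ → ℂ) ^ M * f)

section basic

variable {N : ℕ} {M : ℕ} {f : ℍ → ℂ}

theorem mdiff_pow_mul (hf : MDiff f) (M : ℕ) :
    MDiff ((ModularForm.discriminant : ℍ → ℂ) ^ M * f) :=
  (mdiff_discriminant.pow M).mul hf

theorem isPer_pow_mul (hper : IsPer N f) (M : ℕ) :
    IsPer N ((ModularForm.discriminant : ℍ → ℂ) ^ M * f) :=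
  ((isPer_discriminant_nat N).pow M).mul hper

theorem analyticAt_cusp (hN : 0 < N) (hf : MDiff f) (hper : IsPer N f) (hM : BddBy M f) :
    AnalyticAt ℂ (cuspFunction (N : ℝ) ((ModularForm.discriminant : ℍ → ℂ) ^ M * f)) 0 :=
  analyticAt_cuspFunction_zero (by exact_mod_cast hN) (isPer_pow_mul hper M).periodic
    (mdiff_pow_mul hf M) hM

theorem analyticAt_cusp_discriminant (hN : 0 < N) :
    AnalyticAt ℂ (cuspFunction (N : ℝ) (ModularForm.discriminant : ℍ → ℂ)) 0 :=
  analyticAt_cuspFunction_zero (by exact_mod_cast hN) (isPer_discriminant_nat N).periodic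
    mdiff_discriminant isBounded_discriminant

theorem qSeries_eq_zero_iff (hN : 0 < N) (hf : MDiff f) (hper : IsPer N f) (hM : BddBy M f) :
    qSeries N M f = 0 ↔ f = 0 := by
  rw [qSeries, qExpansion_eq_zero_iff (by exact_mod_cast hN) (isPer_pow_mul hper M).periodic
    (mdiff_pow_mul hf M) hM]
  constructor
  · intro h
    funext z
    have := congrFun h z
    simpa [ModularForm.discriminant_ne_zero z] using this
  · rintro rfl; simp

theorem qSeries_succ (hN : 0 < N) (hf : MDiff f) (hper : IsPer N f) (hM : BddBy M f) :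
    qSeries N (M + 1) f = qExpansion (N : ℝ) (ModularForm.discriminant : ℍ → ℂ) * qSeries N M f := by
  have : (ModularForm.discriminant : ℍ → ℂ) ^ (M + 1) * f =
      (ModularForm.discriminant : ℍ → ℂ) * ((ModularForm.discriminant : ℍ → ℂ) ^ M * f) := by
    rw [pow_succ]; ring
  rw [qSeries, this, qExpansion_mul (analyticAt_cusp_discriminant hN) (analyticAt_cusp hN hf hper hM)]
  rfl

end basic


/-! ### The order of `Δ` at level `N` -/

theorem qExpansion_one_discriminant_coeff_zero :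
    (qExpansion 1 (ModularForm.discriminant : ℍ → ℂ)).coeff 0 = 0 := by
  have h := analyticAt_cusp_discriminant (N := 1) one_pos
  have hp := (isPer_discriminant_nat 1).periodic
  simp only [Nat.cast_one] at h hp
  rw [qExpansion_coeff_zero one_pos h hp]
  exact ModularForm.discriminant_isZeroAtImInfty.valueAtInfty_eq_zero

theorem qExpansion_discriminant_coeff {N : ℕ} (hN : 0 < N) (n : ℕ) :
    (qExpansion (N : ℝ) (ModularForm.discriminant : ℍ → ℂ)).coeff n =
      if N ∣ n then (qExpansion 1 (ModularForm.discriminant : ℍ → ℂ)).coeff (n / N) else 0 := by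
  have h := UpperHalfPlane.qExpansion_coeff_nat_mul (h := 1) one_pos
    (F := (ModularForm.discriminant : ℍ → ℂ)) (by simpa using (isPer_discriminant_nat 1).periodic)
    mdiff_discriminant isBounded_discriminant hN n
  rwa [mul_one] at h

theorem qExpansion_discriminant_ne_zero {N : ℕ} (hN : 0 < N) :
    qExpansion (N : ℝ) (ModularForm.discriminant : ℍ → ℂ) ≠ 0 := by
  intro h
  have := qExpansion_discriminant_coeff hN N
  rw [h, if_pos dvd_rfl, Nat.div_self hN, ModularForm.discriminant_qExpansion_coeff_one] at this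
  simp at this

theorem nord_qExpansion_discriminant {N : ℕ} (hN : 0 < N) :
    nord (qExpansion (N : ℝ) (ModularForm.discriminant : ℍ → ℂ)) = N := by
  rw [nord_eq_iff (qExpansion_discriminant_ne_zero hN)]
  constructor
  · rw [qExpansion_discriminant_coeff hN N, if_pos dvd_rfl, Nat.div_self hN,
      ModularForm.discriminant_qExpansion_coeff_one]
    exact one_ne_zero
  · intro i hi
    rw [qExpansion_discriminant_coeff hN i]
    split_ifs with hd
    · obtain rfl : i = 0 := Nat.eq_zero_of_dvd_of_lt hd hi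
      rw [Nat.zero_div]
      exact qExpansion_one_discriminant_coeff_zero
    · rfl


/-! ### The order at `i∞` -/

/-- The candidate order at `i∞` computed with the exponent `M`. -/
noncomputable def ordAux (N M : ℕ) (f : ℍ → ℂ) : ℤ := (nord (qSeries N M f) : ℤ) - (N : ℤ) * M

section ordAux

variable {N : ℕ} {M : ℕ} {f : ℍ → ℂ}

theorem ordAux_succ (hN : 0 < N) (hf : MDiff f) (hper : IsPer N f) (hM : BddBy M f)
    (hf0 : f ≠ 0) : ordAux N (M + 1) f = ordAux N M f := by
  have h0 : qSeries N M f ≠ 0 := fun h => hf0 ((qSeries_eq_zero_iff hN hf hper hM).1 h)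
  rw [ordAux, ordAux, qSeries_succ hN hf hper hM,
    nord_mul (qExpansion_discriminant_ne_zero hN) h0, nord_qExpansion_discriminant hN]
  push_cast
  ring

theorem ordAux_add (hN : 0 < N) (hf : MDiff f) (hper : IsPer N f) (hM : BddBy M f)
    (hf0 : f ≠ 0) (k : ℕ) : ordAux N (M + k) f = ordAux N M f := by
  induction k with
  | zero => rfl
  | succ k ih =>
    rw [← add_assoc, ordAux_succ hN hf hper (hM.mono (Nat.le_add_right M k)) hf0, ih]

theorem ordAux_eq_of_bddBy {M' : ℕ} (hN : 0 < N) (hf : MDiff f) (hper : IsPer N f)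
    (hM : BddBy M f) (hM' : BddBy M' f) (hf0 : f ≠ 0) : ordAux N M f = ordAux N M' f := by
  rcases le_total M M' with h | h
  · obtain ⟨k, rfl⟩ := Nat.exists_eq_add_of_le h
    exact (ordAux_add hN hf hper hM hf0 k).symm
  · obtain ⟨k, rfl⟩ := Nat.exists_eq_add_of_le h
    exact ordAux_add hN hf hper hM' hf0 k

end ordAux

open Classical in
/-- The order at `i∞` of an `N`-periodic holomorphic function of moderate growth, measured in
the local parameter `q_N = exp (2 π i z / N)`.  (Junk value `0` without moderate growth or for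
the zero function.) -/
noncomputable def ordInf (N : ℕ) (f : ℍ → ℂ) : ℤ :=
  if h : ∃ M, BddBy M f then ordAux N (Nat.find h) f else 0

theorem ordInf_eq {N M : ℕ} {f : ℍ → ℂ} (hN : 0 < N) (hf : MDiff f) (hper : IsPer N f)
    (hM : BddBy M f) (hf0 : f ≠ 0) : ordInf N f = ordAux N M f := by
  classical
  have h : ∃ M, BddBy M f := ⟨M, hM⟩
  rw [ordInf, dif_pos h]
  exact ordAux_eq_of_bddBy hN hf hper (Nat.find_spec h) hM hf0

theorem bddBy_zero (M : ℕ) : BddBy M (0 : ℍ → ℂ) := by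
  rw [BddBy, mul_zero]
  exact const_boundedAtFilter atImInfty (0 : ℂ)

theorem ordInf_zero (N : ℕ) : ordInf N 0 = 0 := by
  classical
  have h : ∃ M, BddBy M (0 : ℍ → ℂ) := ⟨0, bddBy_zero 0⟩
  have h0 : Nat.find h = 0 := by
    rw [Nat.find_eq_zero]
    exact bddBy_zero 0
  rw [ordInf, dif_pos h, h0, ordAux, qSeries]
  simp [qExpansion_zero, nord]


/-! ### Holomorphic `N`-periodic functions of moderate growth -/

/-- `f` is holomorphic on `ℍ`, has period `N`, and has moderate growth at `i∞`. -/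
structure IsCuspFn (N : ℕ) (f : ℍ → ℂ) : Prop where
  mdiff : MDiff f
  isPer : IsPer N f
  growth : ModGrowth f

theorem BddBy.mul {M M' : ℕ} {f g : ℍ → ℂ} (hf : BddBy M f) (hg : BddBy M' g) :
    BddBy (M + M') (f * g) := by
  have : (ModularForm.discriminant : ℍ → ℂ) ^ (M + M') * (f * g) =
      ((ModularForm.discriminant : ℍ → ℂ) ^ M * f) *
        ((ModularForm.discriminant : ℍ → ℂ) ^ M' * g) := by
    rw [pow_add]; ring
  rw [BddBy, this]
  exact BoundedAtFilter.mul hf hg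

theorem BddBy.add {M : ℕ} {f g : ℍ → ℂ} (hf : BddBy M f) (hg : BddBy M g) :
    BddBy M (f + g) := by
  rw [BddBy, mul_add]
  exact BoundedAtFilter.add hf hg

theorem bddBy_const (c : ℂ) : BddBy 0 (fun _ : ℍ => c) := by
  rw [BddBy, pow_zero, one_mul]
  exact const_boundedAtFilter atImInfty c

section algebra

variable {N : ℕ} {f g : ℍ → ℂ}

theorem IsCuspFn.exists_bddBy (hf : IsCuspFn N f) : ∃ M, BddBy M f := hf.growth

theorem IsCuspFn.mul (hf : IsCuspFn N f) (hg : IsCuspFn N g) : IsCuspFn N (f * g) := by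
  obtain ⟨M, hM⟩ := hf.exists_bddBy
  obtain ⟨M', hM'⟩ := hg.exists_bddBy
  exact ⟨hf.mdiff.mul hg.mdiff, hf.isPer.mul hg.isPer, ⟨M + M', hM.mul hM'⟩⟩

theorem IsCuspFn.add (hf : IsCuspFn N f) (hg : IsCuspFn N g) : IsCuspFn N (f + g) := by
  obtain ⟨M, hM⟩ := hf.exists_bddBy
  obtain ⟨M', hM'⟩ := hg.exists_bddBy
  exact ⟨hf.mdiff.add hg.mdiff, hf.isPer.add hg.isPer,
    ⟨max M M', (hM.mono (le_max_left _ _)).add (hM'.mono (le_max_right _ _))⟩⟩

theorem isCuspFn_const (N : ℕ) (c : ℂ) : IsCuspFn N (fun _ => c) :=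
  ⟨mdifferentiable_const, isPer_const _ c, ⟨0, bddBy_const c⟩⟩

theorem isCuspFn_zero (N : ℕ) : IsCuspFn N 0 := isCuspFn_const N 0

theorem isCuspFn_one (N : ℕ) : IsCuspFn N 1 := isCuspFn_const N 1

theorem IsCuspFn.neg (hf : IsCuspFn N f) : IsCuspFn N (-f) := by
  have : -f = (fun _ => (-1 : ℂ)) * f := by funext z; simp
  rw [this]
  exact (isCuspFn_const N (-1)).mul hf

theorem IsCuspFn.sub (hf : IsCuspFn N f) (hg : IsCuspFn N g) : IsCuspFn N (f - g) := by
  rw [sub_eq_add_neg]; exact hf.add hg.neg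

theorem IsCuspFn.pow (hf : IsCuspFn N f) (n : ℕ) : IsCuspFn N (f ^ n) := by
  induction n with
  | zero => rw [pow_zero]; exact isCuspFn_one N
  | succ n ih => rw [pow_succ]; exact ih.mul hf

theorem IsCuspFn.ordInf_eq {M : ℕ} (hN : 0 < N) (hf : IsCuspFn N f) (hM : BddBy M f)
    (hf0 : f ≠ 0) : ordInf N f = ordAux N M f :=
  CuspOrd.ordInf_eq hN hf.mdiff hf.isPer hM hf0

theorem qSeries_mul {M M' : ℕ} (hN : 0 < N) (hf : IsCuspFn N f) (hg : IsCuspFn N g)
    (hM : BddBy M f) (hM' : BddBy M' g) :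
    qSeries N (M + M') (f * g) = qSeries N M f * qSeries N M' g := by
  have : (ModularForm.discriminant : ℍ → ℂ) ^ (M + M') * (f * g) =
      ((ModularForm.discriminant : ℍ → ℂ) ^ M * f) *
        ((ModularForm.discriminant : ℍ → ℂ) ^ M' * g) := by
    rw [pow_add]; ring
  rw [qSeries, this, qExpansion_mul (analyticAt_cusp hN hf.mdiff hf.isPer hM)
    (analyticAt_cusp hN hg.mdiff hg.isPer hM')]
  rfl

theorem qSeries_add {M : ℕ} (hN : 0 < N) (hf : IsCuspFn N f) (hg : IsCuspFn N g)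
    (hM : BddBy M f) (hM' : BddBy M g) :
    qSeries N M (f + g) = qSeries N M f + qSeries N M g := by
  rw [qSeries, mul_add, qExpansion_add (analyticAt_cusp hN hf.mdiff hf.isPer hM)
    (analyticAt_cusp hN hg.mdiff hg.isPer hM')]
  rfl

/-- Additivity of the order at `i∞`. -/
theorem ordInf_mul (hN : 0 < N) (hf : IsCuspFn N f) (hg : IsCuspFn N g) (hf0 : f ≠ 0)
    (hg0 : g ≠ 0) : ordInf N (f * g) = ordInf N f + ordInf N g := by
  obtain ⟨M, hM⟩ := hf.exists_bddBy
  obtain ⟨M', hM'⟩ := hg.exists_bddBy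
  have hfg0 : f * g ≠ 0 := by
    intro h
    rcases (UpperHalfPlane.mul_eq_zero_iff hf.mdiff hg.mdiff).1 h with h | h
    exacts [hf0 h, hg0 h]
  rw [(hf.mul hg).ordInf_eq hN (hM.mul hM') hfg0, hf.ordInf_eq hN hM hf0,
    hg.ordInf_eq hN hM' hg0, ordAux, ordAux, ordAux, qSeries_mul hN hf hg hM hM',
    nord_mul (fun h => hf0 ((qSeries_eq_zero_iff hN hf.mdiff hf.isPer hM).1 h))
      (fun h => hg0 ((qSeries_eq_zero_iff hN hg.mdiff hg.isPer hM').1 h))]
  push_cast
  ring

/-- The ultrametric inequality for the order at `i∞`. -/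
theorem min_ordInf_le_ordInf_add (hN : 0 < N) (hf : IsCuspFn N f) (hg : IsCuspFn N g)
    (hfg : f + g ≠ 0) : min (ordInf N f) (ordInf N g) ≤ ordInf N (f + g) := by
  by_cases hf0 : f = 0
  · subst hf0; rw [zero_add]; exact min_le_right _ _
  by_cases hg0 : g = 0
  · subst hg0; rw [add_zero]; exact min_le_left _ _
  obtain ⟨M₁, hM₁⟩ := hf.exists_bddBy
  obtain ⟨M₂, hM₂⟩ := hg.exists_bddBy
  have hM := hM₁.mono (le_max_left M₁ M₂)
  have hM' := hM₂.mono (le_max_right M₁ M₂)
  rw [(hf.add hg).ordInf_eq hN (hM.add hM') hfg, hf.ordInf_eq hN hM hf0,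
    hg.ordInf_eq hN hM' hg0, ordAux, ordAux, ordAux, qSeries_add hN hf hg hM hM',
    min_sub_sub_right]
  have h0 : qSeries N (max M₁ M₂) f + qSeries N (max M₁ M₂) g ≠ 0 := by
    rw [← qSeries_add hN hf hg hM hM']
    exact fun h => hfg ((qSeries_eq_zero_iff hN (hf.add hg).mdiff (hf.add hg).isPer
      (hM.add hM')).1 h)
  have := min_nord_le_nord_add h0
  have h2 : ((min (nord (qSeries N (max M₁ M₂) f)) (nord (qSeries N (max M₁ M₂) g)) : ℕ) : ℤ) ≤
      (nord (qSeries N (max M₁ M₂) f + qSeries N (max M₁ M₂) g) : ℤ) := by exact_mod_cast this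
  rw [Nat.cast_min] at h2
  linarith

/-- Nonzero constants have order `0` at `i∞`. -/
theorem ordInf_const (hN : 0 < N) {c : ℂ} (hc : c ≠ 0) : ordInf N (fun _ => c) = 0 := by
  have hc0 : (fun _ : ℍ => c) ≠ 0 := fun h => hc (congrFun h UpperHalfPlane.I)
  rw [(isCuspFn_const N c).ordInf_eq hN (bddBy_const c) hc0, ordAux]
  have hq : qSeries N 0 (fun _ : ℍ => c) = PowerSeries.C c := by
    have : (ModularForm.discriminant : ℍ → ℂ) ^ 0 * (fun _ : ℍ => c) = c • (1 : ℍ → ℂ) := by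
      funext z; simp
    have h1 : AnalyticAt ℂ (cuspFunction (N : ℝ) (1 : ℍ → ℂ)) 0 := by
      have := analyticAt_cusp (M := 0) hN (isCuspFn_one N).mdiff (isCuspFn_one N).isPer
        (bddBy_const 1)
      simpa using this
    rw [qSeries, this, qExpansion_smul h1, qExpansion_one]
    ext n
    simp [PowerSeries.coeff_C, PowerSeries.coeff_one]
  have hn : nord (qSeries N 0 (fun _ : ℍ => c)) = 0 := by
    have hne : qSeries N 0 (fun _ : ℍ => c) ≠ 0 := by
      rw [hq]; simpa using hc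
    rw [nord_eq_iff hne, hq]
    simpa using hc
  rw [hn]; simp

theorem ordInf_one (hN : 0 < N) : ordInf N 1 = 0 := ordInf_const hN one_ne_zero

end algebra


theorem IsPer.neg {h : ℝ} {f : ℍ → ℂ} (hf : IsPer h f) : IsPer (-h) f := by
  intro z
  have := hf (-h +ᵥ z)
  rw [← add_vadd, add_neg_cancel, zero_vadd] at this
  exact this.symm

theorem IsPer.int_mul {h : ℝ} {f : ℍ → ℂ} (hf : IsPer h f) (n : ℤ) : IsPer (n * h) f := by
  rcases Int.eq_nat_or_neg n with ⟨m, rfl | rfl⟩
  · simpa using hf.nat_mul m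
  · have := (hf.nat_mul m).neg
    simpa using this

theorem isPer_discriminant_int (n : ℤ) : IsPer n ModularForm.discriminant := by
  simpa using isPer_discriminant.int_mul n

/-- Translation by a real number preserves holomorphy. -/
theorem mdiff_vadd {f : ℍ → ℂ} (hf : MDiff f) (t : ℝ) : MDiff (fun z : ℍ => f (t +ᵥ z)) := by
  rw [UpperHalfPlane.mdifferentiable_iff] at hf ⊢
  have hmaps : Set.MapsTo (fun w : ℂ => w + t) {z : ℂ | 0 < z.im} {z : ℂ | 0 < z.im} := by
    intro w hw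
    simpa using hw
  have h1 : DifferentiableOn ℂ ((f ∘ ofComplex) ∘ (fun w : ℂ => w + t)) {z : ℂ | 0 < z.im} :=
    hf.comp (by fun_prop) hmaps
  refine h1.congr ?_
  intro w hw
  have hw' : 0 < (w + t).im := hmaps hw
  simp only [comp_apply, ofComplex_apply_of_im_pos hw', ofComplex_apply_of_im_pos hw]
  congr 1
  ext
  simp [add_comm]

theorem isBounded_vadd {F : ℍ → ℂ} (hF : IsBoundedAtImInfty F) (t : ℝ) :
    IsBoundedAtImInfty (fun z : ℍ => F (t +ᵥ z)) := by
  rw [UpperHalfPlane.isBoundedAtImInfty_iff] at hF ⊢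
  obtain ⟨M, A, h⟩ := hF
  exact ⟨M, A, fun z hz => h (t +ᵥ z) (by simpa using hz)⟩

theorem IsPer.vadd {h : ℝ} {f : ℍ → ℂ} (hf : IsPer h f) (t : ℝ) :
    IsPer h (fun z : ℍ => f (t +ᵥ z)) := by
  intro z
  show f (t +ᵥ (h +ᵥ z)) = f (t +ᵥ z)
  rw [← add_vadd, add_comm, add_vadd, hf]

theorem qParam_vadd (h t : ℝ) (τ : ℍ) : Function.Periodic.qParam h ((t +ᵥ τ : ℍ) : ℂ) =
      Function.Periodic.qParam h (t : ℂ) * Function.Periodic.qParam h (τ : ℂ) := by
  simp only [Function.Periodic.qParam, coe_vadd, ← Complex.exp_add]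
  congr 1
  ring


/-- Uniqueness of `q`-expansion coefficients, for plain functions. -/
theorem qExpansion_coeff_unique' {h : ℝ} {f : ℍ → ℂ} {c : ℕ → ℂ} (hh : 0 < h)
    (hfanalytic : AnalyticAt ℂ (cuspFunction h f) 0)
    (hf : ∀ τ : ℍ, HasSum (fun m ↦ c m • Function.Periodic.qParam h (τ : ℂ) ^ m) (f τ)) (m : ℕ) :
    c m = (qExpansion h f).coeff m := by
  have h1 := (hasFPowerSeriesOnBall_cuspFunction hh hfanalytic hf).hasFPowerSeriesAt
  have h2 := hfanalytic.hasFPowerSeriesAt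
  have h3 := congr_arg (FormalMultilinearSeries.coeff · m) (h1.eq_formalMultilinearSeries h2)
  simp only [FormalMultilinearSeries.coeff_ofScalars] at h3
  rw [h3, qExpansion_coeff, div_eq_mul_inv, mul_comm]

/-- The `q`-expansion of a translate: the coefficients get multiplied by powers of
`exp (2 π i t / h)`. -/
theorem qExpansion_vadd_coeff {h : ℝ} (hh : 0 < h) {G : ℍ → ℂ} (hG : MDiff G) (hper : IsPer h G)
    (hbdd : IsBoundedAtImInfty G) (t : ℝ) (m : ℕ) :
    (qExpansion h (fun z : ℍ => G (t +ᵥ z))).coeff m =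
      Function.Periodic.qParam h (t : ℂ) ^ m * (qExpansion h G).coeff m := by
  have han : AnalyticAt ℂ (cuspFunction h (fun z : ℍ => G (t +ᵥ z))) 0 :=
    analyticAt_cuspFunction_zero hh (hper.vadd t).periodic (mdiff_vadd hG t) (isBounded_vadd hbdd t)
  have key : ∀ τ : ℍ, HasSum (fun k : ℕ => (Function.Periodic.qParam h (t : ℂ) ^ k *
      (qExpansion h G).coeff k) • Function.Periodic.qParam h (τ : ℂ) ^ k) (G (t +ᵥ τ)) := by
    intro τ
    have hs := hasSum_qExpansion hh hper.periodic hG hbdd (t +ᵥ τ)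
    rw [qParam_vadd] at hs
    have hfun : (fun k : ℕ => (Function.Periodic.qParam h (t : ℂ) ^ k *
      (qExpansion h G).coeff k) • Function.Periodic.qParam h (τ : ℂ) ^ k) =
      fun k : ℕ => (qExpansion h G).coeff k • (Function.Periodic.qParam h (t : ℂ) *
        Function.Periodic.qParam h (τ : ℂ)) ^ k := by
      funext k
      rw [mul_pow, smul_eq_mul, smul_eq_mul]
      ring
    rw [hfun]
    exact hs
  exact (qExpansion_coeff_unique' (f := fun z : ℍ => G (t +ᵥ z)) hh han key m).symm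


theorem qParam_ne_zero' (h : ℝ) (z : ℂ) : Function.Periodic.qParam h z ≠ 0 :=
  Complex.exp_ne_zero _

section translate

variable {N : ℕ} {f : ℍ → ℂ}

theorem pow_mul_vadd_int (M : ℕ) (n : ℤ) (f : ℍ → ℂ) :
    (ModularForm.discriminant : ℍ → ℂ) ^ M * (fun z : ℍ => f ((n : ℝ) +ᵥ z)) =
      fun z : ℍ => ((ModularForm.discriminant : ℍ → ℂ) ^ M * f) ((n : ℝ) +ᵥ z) := by
  funext z
  simp only [Pi.mul_apply, Pi.pow_apply]
  rw [isPer_discriminant_int n z]

theorem BddBy.vadd_int {M : ℕ} (hM : BddBy M f) (n : ℤ) :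
    BddBy M (fun z : ℍ => f ((n : ℝ) +ᵥ z)) := by
  rw [BddBy, pow_mul_vadd_int]
  exact isBounded_vadd hM _

theorem IsCuspFn.vadd_int (hf : IsCuspFn N f) (n : ℤ) :
    IsCuspFn N (fun z : ℍ => f ((n : ℝ) +ᵥ z)) := by
  obtain ⟨M, hM⟩ := hf.exists_bddBy
  exact ⟨mdiff_vadd hf.mdiff _, hf.isPer.vadd _, ⟨M, hM.vadd_int n⟩⟩

/-- The order at `i∞` is invariant under integer translations. -/
theorem ordInf_vadd_int (hN : 0 < N) (hf : IsCuspFn N f) (n : ℤ) :
    ordInf N (fun z : ℍ => f ((n : ℝ) +ᵥ z)) = ordInf N f := by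
  by_cases hf0 : f = 0
  · subst hf0; rfl
  have hf0' : (fun z : ℍ => f ((n : ℝ) +ᵥ z)) ≠ 0 := by
    intro h
    apply hf0
    funext z
    have := congrFun h ((-(n : ℝ)) +ᵥ z)
    simpa [← add_vadd] using this
  obtain ⟨M, hM⟩ := hf.exists_bddBy
  rw [(hf.vadd_int n).ordInf_eq hN (hM.vadd_int n) hf0', hf.ordInf_eq hN hM hf0, ordAux, ordAux]
  congr 2
  apply nord_eq_of_coeff
  intro m
  have hNr : (0 : ℝ) < N := by exact_mod_cast hN
  rw [qSeries, qSeries, pow_mul_vadd_int,
    qExpansion_vadd_coeff hNr (mdiff_pow_mul hf.mdiff M) (isPer_pow_mul hf.isPer M) hM]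
  simp [qParam_ne_zero']

/-- The order at `i∞` is invariant under `z ↦ z + 1`. -/
theorem ordInf_vadd_one (hN : 0 < N) (hf : IsCuspFn N f) :
    ordInf N (fun z : ℍ => f ((1 : ℝ) +ᵥ z)) = ordInf N f := by
  simpa using ordInf_vadd_int hN hf 1

end translate


/-! ### Changing the level -/

theorem nord_of_coeff_dvd {φ ψ : PowerSeries ℂ} {m : ℕ} (hm : 0 < m) (hφ : φ ≠ 0)
    (h : ∀ n, PowerSeries.coeff n ψ = if m ∣ n then PowerSeries.coeff (n / m) φ else 0) :
    nord ψ = m * nord φ := by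
  obtain ⟨h1, h2⟩ := (nord_eq_iff (n := nord φ) hφ).1 rfl
  have h3 : PowerSeries.coeff (m * nord φ) ψ ≠ 0 := by
    rw [h, if_pos (dvd_mul_right _ _), Nat.mul_div_cancel_left _ hm]
    exact h1
  have hψ : ψ ≠ 0 := by
    intro h0; rw [h0] at h3; simp at h3
  rw [nord_eq_iff hψ]
  refine ⟨h3, fun i hi => ?_⟩
  rw [h]
  split_ifs with hd
  · obtain ⟨j, rfl⟩ := hd
    rw [Nat.mul_div_cancel_left _ hm]
    exact h2 j (lt_of_mul_lt_mul_left hi (Nat.zero_le m))
  · rfl

section level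

variable {k m : ℕ} {f : ℍ → ℂ}

theorem IsCuspFn.nat_mul (hf : IsCuspFn k f) (m : ℕ) : IsCuspFn (m * k) f :=
  ⟨hf.mdiff, by simpa using hf.isPer.nat_mul m, hf.growth⟩

theorem IsCuspFn.of_dvd {N : ℕ} (hf : IsCuspFn k f) (hkN : k ∣ N) : IsCuspFn N f := by
  obtain ⟨m, rfl⟩ := hkN
  rw [mul_comm]; exact hf.nat_mul m

/-- Passing from the parameter `q_k` to `q_{m k}` multiplies the order at `i∞` by `m`. -/
theorem ordInf_nat_mul (hk : 0 < k) (hm : 0 < m) (hf : IsCuspFn k f) :
    ordInf (m * k) f = m * ordInf k f := by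
  by_cases hf0 : f = 0
  · subst hf0; simp [ordInf_zero]
  obtain ⟨M, hM⟩ := hf.exists_bddBy
  have hmk : 0 < m * k := Nat.mul_pos hm hk
  rw [(hf.nat_mul m).ordInf_eq hmk hM hf0, hf.ordInf_eq hk hM hf0, ordAux, ordAux]
  have hφ : qSeries k M f ≠ 0 := fun h => hf0 ((qSeries_eq_zero_iff hk hf.mdiff hf.isPer hM).1 h)
  have hkr : (0 : ℝ) < k := by exact_mod_cast hk
  have key : nord (qSeries (m * k) M f) = m * nord (qSeries k M f) := by
    refine nord_of_coeff_dvd hm hφ (fun n => ?_)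
    rw [qSeries, qSeries, Nat.cast_mul]
    exact UpperHalfPlane.qExpansion_coeff_nat_mul hkr (isPer_pow_mul hf.isPer M).periodic
      (mdiff_pow_mul hf.mdiff M) hM hm n
  rw [key]
  push_cast
  ring

/-- If `f` has period `k ∣ N`, its order at `i∞` in the parameter `q_N` is divisible by
`N / k`. -/
theorem ordInf_eq_div_mul {N : ℕ} (hN : 0 < N) (hkN : k ∣ N) (hf : IsCuspFn k f) :
    ordInf N f = ((N / k : ℕ) : ℤ) * ordInf k f := by
  have hk : 0 < k := Nat.pos_of_dvd_of_pos hkN hN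
  have hm : 0 < N / k := Nat.div_pos (Nat.le_of_dvd hN hkN) hk
  have := ordInf_nat_mul hk hm hf
  rwa [Nat.div_mul_cancel hkN] at this

theorem dvd_ordInf {N : ℕ} (hN : 0 < N) (hkN : k ∣ N) (hf : IsCuspFn N f)
    (hper : IsPer k f) : ((N / k : ℕ) : ℤ) ∣ ordInf N f := by
  have hf' : IsCuspFn k f := ⟨hf.mdiff, hper, hf.growth⟩
  exact ⟨ordInf k f, ordInf_eq_div_mul hN hkN hf'⟩

end level

/-! ### The `j`-function -/

theorem isPer_jFn : IsPer 1 jFn := by
  intro z
  rw [← UpperHalfPlane.modular_T_smul, jFn_smul]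

theorem discriminant_pow_one_mul_jFn :
    (ModularForm.discriminant : ℍ → ℂ) ^ 1 * jFn = ⇑(ModularForm.E₄.pow 3) := by
  funext z
  simp only [Pi.mul_apply, Pi.pow_apply, pow_one, ModularForm.coe_pow]
  rw [mul_comm, jFn_mul_discriminant]

theorem bddBy_jFn : BddBy 1 jFn := by
  rw [BddBy, discriminant_pow_one_mul_jFn]
  exact ModularFormClass.bdd_at_infty (ModularForm.E₄.pow 3)

theorem isCuspFn_jFn (N : ℕ) : IsCuspFn N jFn :=
  ⟨jFn_mdiff, by simpa using isPer_jFn.nat_mul N, ⟨1, bddBy_jFn⟩⟩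

theorem qExpansion_one_E4_pow_coeff_zero :
    (qExpansion 1 (ModularForm.E₄.pow 3)).coeff 0 = 1 := by
  rw [ModularForm.qExpansion_pow one_pos one_mem_strictPeriods_SL]
  simp only [PowerSeries.coeff_zero_eq_constantCoeff, map_pow]
  have h := EisensteinSeries.E_qExpansion_coeff_zero (k := 4) (by norm_num) ⟨2, rfl⟩
  rw [PowerSeries.coeff_zero_eq_constantCoeff] at h
  rw [h, one_pow]

theorem qSeries_jFn_coeff_zero {N : ℕ} (hN : 0 < N) : (qSeries N 1 jFn).coeff 0 = 1 := by
  rw [qSeries, discriminant_pow_one_mul_jFn]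
  have h := UpperHalfPlane.qExpansion_coeff_nat_mul (h := 1) one_pos
    (F := ⇑(ModularForm.E₄.pow 3))
    (SlashInvariantFormClass.periodic_comp_ofComplex _ one_mem_strictPeriods_SL)
    (ModularFormClass.holo _) (ModularFormClass.bdd_at_infty _) hN 0
  rw [mul_one, if_pos (dvd_zero _), Nat.zero_div, qExpansion_one_E4_pow_coeff_zero] at h
  exact h

theorem jFn_ne_zero : jFn ≠ 0 := by
  intro h
  have := qSeries_jFn_coeff_zero (N := 1) one_pos
  rw [(qSeries_eq_zero_iff one_pos jFn_mdiff (isCuspFn_jFn 1).isPer bddBy_jFn).2 h] at this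
  simp at this

/-- `j` has a pole of order `N` at `i∞` in the parameter `q_N`. -/
theorem ordInf_jFn {N : ℕ} (hN : 0 < N) : ordInf N jFn = -(N : ℤ) := by
  rw [(isCuspFn_jFn N).ordInf_eq hN bddBy_jFn jFn_ne_zero, ordAux]
  have hne : qSeries N 1 jFn ≠ 0 := by
    intro h
    have := qSeries_jFn_coeff_zero hN
    rw [h] at this
    simp at this
  have : nord (qSeries N 1 jFn) = 0 := by
    rw [nord_eq_iff hne]
    refine ⟨?_, fun i hi => absurd hi (Nat.not_lt_zero i)⟩
    rw [qSeries_jFn_coeff_zero hN]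
    exact one_ne_zero
  rw [this]
  simp

end Fermat.Agent.S24.CuspOrd
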