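import Fermat.Agent.S24.Ord
import Fermat.Agent.S24.CuspOrd
import Fermat.Agent.S24.AddVal
import Fermat.Agent.S24.SymmFn

/-!
helper6 (P-S24 Part III/IV, piece `CuspOrd`, packaged version on `MerFun`).

* `cuspFnAlg N : Subalgebra ℂ HolFun` : holomorphic `N`-periodic functions of moderate growth.
* `IsCuspMer N h` / `cuspMerField N : Subfield MerFun` : quotients of elements of `cuspFnAlg N`.
* `ordInfMer N : MerFun → ℤ` : the order at `i∞` in the parameter `q_N`
  (`ordInfMer_div`, `ordInfMer_mul`, `ordInfMer_inv`, `ordInfMer_add_ge`, `ordInfMer_const`, ...).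
* `ordInfMer_T_zpow_smul` : invariance under powers of `T`.
* `dvd_ordInfMer` : if `T ^ k • x = x`, `k ∣ N`, then `N / k ∣ ordInfMer N x`.
* `ordInfMer_jHol`, `ordInfMer_jHol_inv` : `j` has order `-N`, `1 / j` has order `N`.
* `isAddVal_ordInfMer_comp` : composing with a field embedding into `cuspMerField N` gives an
  `IsAddVal` in the sense of `AddVal.lean` (the shape consumed by `placeCount`).
-/

set_option autoImplicit false

open UpperHalfPlane Complex Filter Function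
open scoped Manifold MatrixGroups

namespace Fermat.Agent.S24.CuspOrd

/-! ### The subalgebra of cusp functions inside `HolFun` -/

/-- The subalgebra of `HolFun` of `N`-periodic holomorphic functions of moderate growth. -/
def cuspFnAlg (N : ℕ) : Subalgebra ℂ HolFun where
  carrier := {f | IsCuspFn N (f : ℍ → ℂ)}
  mul_mem' hf hg := hf.mul hg
  one_mem' := isCuspFn_one N
  add_mem' hf hg := hf.add hg
  zero_mem' := isCuspFn_zero N
  algebraMap_mem' c := isCuspFn_const N c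

theorem mem_cuspFnAlg {N : ℕ} {f : HolFun} : f ∈ cuspFnAlg N ↔ IsCuspFn N (f : ℍ → ℂ) := Iff.rfl

theorem holFun_ne_zero_iff {f : HolFun} : f ≠ 0 ↔ (f : ℍ → ℂ) ≠ 0 := by
  constructor
  · intro h h0; exact h (Subtype.ext h0)
  · intro h h0; exact h (congrArg Subtype.val h0)

/-- `h` is a quotient of two `N`-periodic holomorphic functions of moderate growth. -/
def IsCuspMer (N : ℕ) (h : MerFun) : Prop :=
  ∃ a b : HolFun, a ∈ cuspFnAlg N ∧ b ∈ cuspFnAlg N ∧ b ≠ 0 ∧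
    h = algebraMap HolFun MerFun a / algebraMap HolFun MerFun b

theorem algebraMap_injective : Function.Injective (algebraMap HolFun MerFun) :=
  IsFractionRing.injective HolFun MerFun

theorem algebraMap_ne_zero {a : HolFun} (ha : a ≠ 0) : algebraMap HolFun MerFun a ≠ 0 :=
  fun h => ha (algebraMap_injective (by rw [h, map_zero]))

/-- Well-definedness of the order of a quotient. -/
theorem ordInf_sub_eq_of_mul_eq {N : ℕ} (hN : 0 < N) {a b c d : HolFun} (ha : a ∈ cuspFnAlg N)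
    (hb : b ∈ cuspFnAlg N) (hc : c ∈ cuspFnAlg N) (hd : d ∈ cuspFnAlg N) (ha0 : a ≠ 0) (hb0 : b ≠ 0)
    (hc0 : c ≠ 0) (hd0 : d ≠ 0) (h : a * d = c * b) :
    ordInf N (a : ℍ → ℂ) - ordInf N (b : ℍ → ℂ) = ordInf N (c : ℍ → ℂ) - ordInf N (d : ℍ → ℂ) := by
  have h1 := ordInf_mul hN ha hd (holFun_ne_zero_iff.1 ha0) (holFun_ne_zero_iff.1 hd0)
  have h2 := ordInf_mul hN hc hb (holFun_ne_zero_iff.1 hc0) (holFun_ne_zero_iff.1 hb0)
  have h3 : (a : ℍ → ℂ) * (d : ℍ → ℂ) = (c : ℍ → ℂ) * (b : ℍ → ℂ) := congrArg Subtype.val h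
  rw [h3] at h1
  linarith

/-- `n` is the order at `i∞` of `h`, computed from some presentation of `h` as a quotient of
nonzero cusp functions. -/
def IsOrdInfMer (N : ℕ) (h : MerFun) (n : ℤ) : Prop :=
  ∃ a b : HolFun, a ∈ cuspFnAlg N ∧ b ∈ cuspFnAlg N ∧ a ≠ 0 ∧ b ≠ 0 ∧
    h = algebraMap HolFun MerFun a / algebraMap HolFun MerFun b ∧
    n = ordInf N (a : ℍ → ℂ) - ordInf N (b : ℍ → ℂ)

theorem IsOrdInfMer.unique {N : ℕ} (hN : 0 < N) {h : MerFun} {n n' : ℤ}
    (hn : IsOrdInfMer N h n) (hn' : IsOrdInfMer N h n') : n = n' := by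
  obtain ⟨a, b, ha, hb, ha0, hb0, heq, rfl⟩ := hn
  obtain ⟨c, d, hc, hd, hc0, hd0, heq', rfl⟩ := hn'
  apply ordInf_sub_eq_of_mul_eq hN ha hb hc hd ha0 hb0 hc0 hd0
  apply algebraMap_injective
  rw [map_mul, map_mul]
  have hb' := algebraMap_ne_zero hb0
  have hd' := algebraMap_ne_zero hd0
  rw [heq] at heq'
  field_simp at heq'
  rw [heq']; ring

open Classical in
/-- The order at `i∞` (in the parameter `q_N`) of a quotient of cusp functions.  Junk value `0`
at `0` and outside `IsCuspMer N`. -/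
noncomputable def ordInfMer (N : ℕ) (h : MerFun) : ℤ :=
  if hh : ∃ n, IsOrdInfMer N h n then hh.choose else 0

theorem IsOrdInfMer.eq {N : ℕ} (hN : 0 < N) {h : MerFun} {n : ℤ} (hn : IsOrdInfMer N h n) :
    ordInfMer N h = n := by
  classical
  have hh : ∃ n, IsOrdInfMer N h n := ⟨n, hn⟩
  rw [ordInfMer, dif_pos hh]
  exact hh.choose_spec.unique hN hn

theorem not_isOrdInfMer_zero (N : ℕ) (n : ℤ) : ¬ IsOrdInfMer N 0 n := by
  rintro ⟨a, b, ha, hb, ha0, hb0, heq, -⟩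
  exact div_ne_zero (algebraMap_ne_zero ha0) (algebraMap_ne_zero hb0) heq.symm

theorem ordInfMer_zero (N : ℕ) : ordInfMer N 0 = 0 := by
  classical
  rw [ordInfMer, dif_neg]
  rintro ⟨n, hn⟩
  exact not_isOrdInfMer_zero N n hn

theorem ordInfMer_div {N : ℕ} (hN : 0 < N) {a b : HolFun} (ha : a ∈ cuspFnAlg N)
    (hb : b ∈ cuspFnAlg N) (ha0 : a ≠ 0) (hb0 : b ≠ 0) :
    ordInfMer N (algebraMap HolFun MerFun a / algebraMap HolFun MerFun b) =
      ordInf N (a : ℍ → ℂ) - ordInf N (b : ℍ → ℂ) :=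
  IsOrdInfMer.eq hN ⟨a, b, ha, hb, ha0, hb0, rfl, rfl⟩

theorem IsCuspMer.isOrdInfMer {N : ℕ} {h : MerFun} (hh : IsCuspMer N h) (h0 : h ≠ 0) :
    ∃ n, IsOrdInfMer N h n := by
  obtain ⟨a, b, ha, hb, hb0, rfl⟩ := hh
  have ha0 : a ≠ 0 := by rintro rfl; simp at h0
  exact ⟨_, a, b, ha, hb, ha0, hb0, rfl, rfl⟩

/-- Every nonzero element of `IsCuspMer N` is a quotient of nonzero cusp functions. -/
theorem IsCuspMer.exists_div {N : ℕ} {h : MerFun} (hh : IsCuspMer N h) (h0 : h ≠ 0) :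
    ∃ a b : HolFun, a ∈ cuspFnAlg N ∧ b ∈ cuspFnAlg N ∧ a ≠ 0 ∧ b ≠ 0 ∧
      h = algebraMap HolFun MerFun a / algebraMap HolFun MerFun b := by
  obtain ⟨a, b, ha, hb, hb0, rfl⟩ := hh
  have ha0 : a ≠ 0 := by rintro rfl; simp at h0
  exact ⟨a, b, ha, hb, ha0, hb0, rfl⟩


/-! ### Closure properties of `IsCuspMer` -/

section closure

variable {N : ℕ} {x y : MerFun}

theorem isCuspMer_algebraMap {a : HolFun} (ha : a ∈ cuspFnAlg N) :
    IsCuspMer N (algebraMap HolFun MerFun a) :=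
  ⟨a, 1, ha, (cuspFnAlg N).one_mem, one_ne_zero, by simp⟩

theorem isCuspMer_zero (N : ℕ) : IsCuspMer N 0 := by
  simpa using isCuspMer_algebraMap (cuspFnAlg N).zero_mem

theorem isCuspMer_one (N : ℕ) : IsCuspMer N 1 := by
  simpa using isCuspMer_algebraMap (cuspFnAlg N).one_mem

theorem isCuspMer_const (N : ℕ) (c : ℂ) :
    IsCuspMer N (algebraMap HolFun MerFun (algebraMap ℂ HolFun c)) :=
  isCuspMer_algebraMap ((cuspFnAlg N).algebraMap_mem c)

theorem IsCuspMer.mul (hx : IsCuspMer N x) (hy : IsCuspMer N y) : IsCuspMer N (x * y) := by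
  obtain ⟨a, b, ha, hb, hb0, rfl⟩ := hx
  obtain ⟨c, d, hc, hd, hd0, rfl⟩ := hy
  refine ⟨a * c, b * d, (cuspFnAlg N).mul_mem ha hc, (cuspFnAlg N).mul_mem hb hd,
    mul_ne_zero hb0 hd0, ?_⟩
  rw [map_mul, map_mul, div_mul_div_comm]

theorem IsCuspMer.add (hx : IsCuspMer N x) (hy : IsCuspMer N y) : IsCuspMer N (x + y) := by
  obtain ⟨a, b, ha, hb, hb0, rfl⟩ := hx
  obtain ⟨c, d, hc, hd, hd0, rfl⟩ := hy
  refine ⟨a * d + b * c, b * d,
    (cuspFnAlg N).add_mem ((cuspFnAlg N).mul_mem ha hd) ((cuspFnAlg N).mul_mem hb hc),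
    (cuspFnAlg N).mul_mem hb hd, mul_ne_zero hb0 hd0, ?_⟩
  rw [map_add, map_mul, map_mul, map_mul,
    div_add_div _ _ (algebraMap_ne_zero hb0) (algebraMap_ne_zero hd0)]

theorem IsCuspMer.neg (hx : IsCuspMer N x) : IsCuspMer N (-x) := by
  obtain ⟨a, b, ha, hb, hb0, rfl⟩ := hx
  exact ⟨-a, b, (cuspFnAlg N).neg_mem ha, hb, hb0, by rw [map_neg, neg_div]⟩

theorem IsCuspMer.sub (hx : IsCuspMer N x) (hy : IsCuspMer N y) : IsCuspMer N (x - y) := by
  rw [sub_eq_add_neg]; exact hx.add hy.neg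

theorem IsCuspMer.inv (hx : IsCuspMer N x) : IsCuspMer N x⁻¹ := by
  rcases eq_or_ne x 0 with rfl | h0
  · simpa using isCuspMer_zero N
  obtain ⟨a, b, ha, hb, ha0, hb0, rfl⟩ := hx.exists_div h0
  exact ⟨b, a, hb, ha, ha0, by rw [inv_div]⟩

theorem IsCuspMer.div (hx : IsCuspMer N x) (hy : IsCuspMer N y) : IsCuspMer N (x / y) := by
  rw [div_eq_mul_inv]; exact hx.mul hy.inv

theorem IsCuspMer.pow (hx : IsCuspMer N x) (n : ℕ) : IsCuspMer N (x ^ n) := by
  induction n with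
  | zero => rw [pow_zero]; exact isCuspMer_one N
  | succ n ih => rw [pow_succ]; exact ih.mul hx

/-- The subfield of `MerFun` of quotients of `N`-periodic holomorphic functions of moderate
growth. -/
def cuspMerField (N : ℕ) : Subfield MerFun where
  carrier := {h | IsCuspMer N h}
  mul_mem' hx hy := hx.mul hy
  one_mem' := isCuspMer_one N
  add_mem' hx hy := hx.add hy
  zero_mem' := isCuspMer_zero N
  neg_mem' hx := hx.neg
  inv_mem' _ hx := hx.inv

theorem mem_cuspMerField {h : MerFun} : h ∈ cuspMerField N ↔ IsCuspMer N h := Iff.rfl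

end closure

/-! ### Valuation properties of `ordInfMer` -/

section valuation

variable {N : ℕ} {x y : MerFun}

theorem ordInfMer_algebraMap (hN : 0 < N) {a : HolFun} (ha : a ∈ cuspFnAlg N) (ha0 : a ≠ 0) :
    ordInfMer N (algebraMap HolFun MerFun a) = ordInf N (a : ℍ → ℂ) := by
  have h := ordInfMer_div hN ha (cuspFnAlg N).one_mem ha0 one_ne_zero
  rw [map_one, div_one] at h
  rw [h]
  have : ((1 : HolFun) : ℍ → ℂ) = 1 := rfl
  rw [this, ordInf_one hN, sub_zero]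

theorem ordInfMer_one (hN : 0 < N) : ordInfMer N 1 = 0 := by
  have h := ordInfMer_algebraMap hN (cuspFnAlg N).one_mem one_ne_zero
  rw [map_one] at h
  rw [h]
  exact ordInf_one hN

/-- Nonzero constants have order `0` at `i∞`. -/
theorem ordInfMer_const (hN : 0 < N) (c : ℂ) :
    ordInfMer N (algebraMap HolFun MerFun (algebraMap ℂ HolFun c)) = 0 := by
  rcases eq_or_ne c 0 with rfl | hc
  · simp [ordInfMer_zero]
  have hne : algebraMap ℂ HolFun c ≠ 0 := by
    intro h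
    have := congrFun (congrArg Subtype.val h) UpperHalfPlane.I
    exact hc this
  rw [ordInfMer_algebraMap hN ((cuspFnAlg N).algebraMap_mem c) hne]
  exact ordInf_const hN hc

theorem ordInfMer_mul (hN : 0 < N) (hx : IsCuspMer N x) (hy : IsCuspMer N y) (hx0 : x ≠ 0)
    (hy0 : y ≠ 0) : ordInfMer N (x * y) = ordInfMer N x + ordInfMer N y := by
  obtain ⟨a, b, ha, hb, ha0, hb0, rfl⟩ := hx.exists_div hx0
  obtain ⟨c, d, hc, hd, hc0, hd0, rfl⟩ := hy.exists_div hy0
  rw [div_mul_div_comm, ← map_mul, ← map_mul,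
    ordInfMer_div hN ((cuspFnAlg N).mul_mem ha hc) ((cuspFnAlg N).mul_mem hb hd)
      (mul_ne_zero ha0 hc0) (mul_ne_zero hb0 hd0),
    ordInfMer_div hN ha hb ha0 hb0, ordInfMer_div hN hc hd hc0 hd0]
  have h1 := ordInf_mul hN ha hc (holFun_ne_zero_iff.1 ha0) (holFun_ne_zero_iff.1 hc0)
  have h2 := ordInf_mul hN hb hd (holFun_ne_zero_iff.1 hb0) (holFun_ne_zero_iff.1 hd0)
  have e1 : ((a * c : HolFun) : ℍ → ℂ) = (a : ℍ → ℂ) * (c : ℍ → ℂ) := rfl
  have e2 : ((b * d : HolFun) : ℍ → ℂ) = (b : ℍ → ℂ) * (d : ℍ → ℂ) := rfl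
  rw [e1, e2, h1, h2]
  ring

theorem ordInfMer_inv (hN : 0 < N) (hx : IsCuspMer N x) : ordInfMer N x⁻¹ = -ordInfMer N x := by
  rcases eq_or_ne x 0 with rfl | hx0
  · simp [ordInfMer_zero]
  obtain ⟨a, b, ha, hb, ha0, hb0, rfl⟩ := hx.exists_div hx0
  rw [inv_div, ordInfMer_div hN hb ha hb0 ha0, ordInfMer_div hN ha hb ha0 hb0]
  ring

theorem ordInfMer_div' (hN : 0 < N) (hx : IsCuspMer N x) (hy : IsCuspMer N y) (hx0 : x ≠ 0)
    (hy0 : y ≠ 0) : ordInfMer N (x / y) = ordInfMer N x - ordInfMer N y := by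
  rw [div_eq_mul_inv, ordInfMer_mul hN hx hy.inv hx0 (inv_ne_zero hy0), ordInfMer_inv hN hy]
  ring

theorem ordInfMer_neg (hN : 0 < N) (hx : IsCuspMer N x) : ordInfMer N (-x) = ordInfMer N x := by
  rcases eq_or_ne x 0 with rfl | hx0
  · simp
  have hm1 : IsCuspMer N (-1 : MerFun) := (isCuspMer_one N).neg
  have h1 : ordInfMer N (-1 : MerFun) = 0 := by
    have h := ordInfMer_mul hN hm1 hm1 (neg_ne_zero.2 one_ne_zero) (neg_ne_zero.2 one_ne_zero)
    rw [neg_mul_neg, one_mul, ordInfMer_one hN] at h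
    omega
  have : -x = (-1) * x := by ring
  rw [this, ordInfMer_mul hN hm1 hx (neg_ne_zero.2 one_ne_zero) hx0, h1, zero_add]

theorem ordInfMer_pow (hN : 0 < N) (hx : IsCuspMer N x) (n : ℕ) :
    ordInfMer N (x ^ n) = n * ordInfMer N x := by
  rcases eq_or_ne x 0 with rfl | hx0
  · rcases Nat.eq_zero_or_pos n with rfl | hn
    · simp [ordInfMer_one hN]
    · simp [zero_pow hn.ne', ordInfMer_zero]
  induction n with
  | zero => simp [ordInfMer_one hN]
  | succ n ih =>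
    rw [pow_succ, ordInfMer_mul hN (hx.pow n) hx (pow_ne_zero n hx0) hx0, ih]
    push_cast; ring

/-- The ultrametric inequality. -/
theorem ordInfMer_add_ge (hN : 0 < N) (hx : IsCuspMer N x) (hy : IsCuspMer N y) (hx0 : x ≠ 0)
    (hy0 : y ≠ 0) (hxy : x + y ≠ 0) :
    min (ordInfMer N x) (ordInfMer N y) ≤ ordInfMer N (x + y) := by
  obtain ⟨a, b, ha, hb, ha0, hb0, rfl⟩ := hx.exists_div hx0
  obtain ⟨c, d, hc, hd, hc0, hd0, rfl⟩ := hy.exists_div hy0
  have hb' := algebraMap_ne_zero hb0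
  have hd' := algebraMap_ne_zero hd0
  have hsum : algebraMap HolFun MerFun a / algebraMap HolFun MerFun b +
      algebraMap HolFun MerFun c / algebraMap HolFun MerFun d =
      algebraMap HolFun MerFun (a * d + b * c) / algebraMap HolFun MerFun (b * d) := by
    rw [map_add, map_mul, map_mul, map_mul, div_add_div _ _ hb' hd']
  have hnum0 : a * d + b * c ≠ 0 := by
    intro h0
    rw [hsum, h0, map_zero, zero_div] at hxy
    exact hxy rfl
  have had := (cuspFnAlg N).mul_mem ha hd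
  have hbc := (cuspFnAlg N).mul_mem hb hc
  have hbd := (cuspFnAlg N).mul_mem hb hd
  rw [hsum, ordInfMer_div hN ((cuspFnAlg N).add_mem had hbc) hbd hnum0 (mul_ne_zero hb0 hd0),
    ordInfMer_div hN ha hb ha0 hb0, ordInfMer_div hN hc hd hc0 hd0]
  have h1 := ordInf_mul hN ha hd (holFun_ne_zero_iff.1 ha0) (holFun_ne_zero_iff.1 hd0)
  have h2 := ordInf_mul hN hb hc (holFun_ne_zero_iff.1 hb0) (holFun_ne_zero_iff.1 hc0)
  have h3 := ordInf_mul hN hb hd (holFun_ne_zero_iff.1 hb0) (holFun_ne_zero_iff.1 hd0)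
  have h4 := min_ordInf_le_ordInf_add hN had hbc (holFun_ne_zero_iff.1 hnum0)
  have e1 : ((a * d : HolFun) : ℍ → ℂ) = (a : ℍ → ℂ) * (d : ℍ → ℂ) := rfl
  have e2 : ((b * c : HolFun) : ℍ → ℂ) = (b : ℍ → ℂ) * (c : ℍ → ℂ) := rfl
  have e3 : ((b * d : HolFun) : ℍ → ℂ) = (b : ℍ → ℂ) * (d : ℍ → ℂ) := rfl
  have e4 : ((a * d + b * c : HolFun) : ℍ → ℂ) =
      (a : ℍ → ℂ) * (d : ℍ → ℂ) + (b : ℍ → ℂ) * (c : ℍ → ℂ) := rfl
  rw [e1, e2] at h4
  rw [e3, e4, h3]
  rw [h1, h2] at h4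
  rcases min_le_iff.1 h4 with h5 | h5
  · exact min_le_iff.2 (Or.inl (by linarith))
  · exact min_le_iff.2 (Or.inr (by linarith))

end valuation


/-! ### The action of `T` -/

section Taction

variable {N : ℕ}

theorem T_zpow_smul_coe (n : ℤ) (f : HolFun) :
    ((ModularGroup.T ^ n • f : HolFun) : ℍ → ℂ) =
      fun z : ℍ => (f : ℍ → ℂ) (((-n : ℤ) : ℝ) +ᵥ z) := by
  funext z
  rw [HolFun.sl_smul_apply, ← zpow_neg, UpperHalfPlane.modular_T_zpow_smul]

theorem T_zpow_smul_mem_cuspFnAlg {a : HolFun} (ha : a ∈ cuspFnAlg N) (n : ℤ) :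
    ModularGroup.T ^ n • a ∈ cuspFnAlg N := by
  rw [mem_cuspFnAlg, T_zpow_smul_coe]
  exact IsCuspFn.vadd_int ha (-n)

theorem ordInf_T_zpow_smul (hN : 0 < N) {a : HolFun} (ha : a ∈ cuspFnAlg N) (n : ℤ) :
    ordInf N ((ModularGroup.T ^ n • a : HolFun) : ℍ → ℂ) = ordInf N (a : ℍ → ℂ) := by
  rw [T_zpow_smul_coe]
  exact ordInf_vadd_int hN ha (-n)

theorem sl_smul_ne_zero (γ : SL(2, ℤ)) {a : HolFun} (ha : a ≠ 0) : γ • a ≠ 0 := by
  intro h0
  exact ha (by simpa using congrArg (γ⁻¹ • ·) h0)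

theorem IsCuspMer.T_zpow_smul {x : MerFun} (hx : IsCuspMer N x) (n : ℤ) :
    IsCuspMer N (ModularGroup.T ^ n • x) := by
  obtain ⟨a, b, ha, hb, hb0, rfl⟩ := hx
  refine ⟨ModularGroup.T ^ n • a, ModularGroup.T ^ n • b, T_zpow_smul_mem_cuspFnAlg ha n,
    T_zpow_smul_mem_cuspFnAlg hb n, sl_smul_ne_zero _ hb0, ?_⟩
  rw [smul_div₀', MerFun.sl_smul_algebraMap, MerFun.sl_smul_algebraMap]

/-- The order at `i∞` is invariant under the action of powers of `T`. -/
theorem ordInfMer_T_zpow_smul (hN : 0 < N) {x : MerFun} (hx : IsCuspMer N x) (n : ℤ) :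
    ordInfMer N (ModularGroup.T ^ n • x) = ordInfMer N x := by
  rcases eq_or_ne x 0 with rfl | hx0
  · simp
  obtain ⟨a, b, ha, hb, ha0, hb0, rfl⟩ := hx.exists_div hx0
  rw [smul_div₀', MerFun.sl_smul_algebraMap, MerFun.sl_smul_algebraMap,
    ordInfMer_div hN (T_zpow_smul_mem_cuspFnAlg ha n) (T_zpow_smul_mem_cuspFnAlg hb n)
      (sl_smul_ne_zero _ ha0) (sl_smul_ne_zero _ hb0),
    ordInfMer_div hN ha hb ha0 hb0, ordInf_T_zpow_smul hN ha, ordInf_T_zpow_smul hN hb]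

theorem IsCuspMer.T_smul {x : MerFun} (hx : IsCuspMer N x) : IsCuspMer N (ModularGroup.T • x) := by
  simpa using hx.T_zpow_smul 1

theorem ordInfMer_T_smul (hN : 0 < N) {x : MerFun} (hx : IsCuspMer N x) :
    ordInfMer N (ModularGroup.T • x) = ordInfMer N x := by
  simpa using ordInfMer_T_zpow_smul hN hx 1

theorem ordInfMer_T_inv_smul (hN : 0 < N) {x : MerFun} (hx : IsCuspMer N x) :
    ordInfMer N (ModularGroup.T⁻¹ • x) = ordInfMer N x := by
  simpa using ordInfMer_T_zpow_smul hN hx (-1)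

/-- `T ^ k • a = a` iff `a` has period `k`. -/
theorem T_pow_smul_eq_iff (k : ℕ) (a : HolFun) :
    ModularGroup.T ^ k • a = a ↔ IsPer k (a : ℍ → ℂ) := by
  have hcoe : ((ModularGroup.T ^ k • a : HolFun) : ℍ → ℂ) =
      fun z : ℍ => (a : ℍ → ℂ) ((-(k : ℝ)) +ᵥ z) := by
    have := T_zpow_smul_coe (k : ℤ) a
    rw [zpow_natCast] at this
    rw [this]
    funext z
    simp
  constructor
  · intro h
    have h1 : IsPer (-(k : ℝ)) (a : ℍ → ℂ) := by
      intro z
      have := congrFun (hcoe.symm.trans (congrArg Subtype.val h)) z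
      exact this
    simpa using h1.neg
  · intro h
    apply Subtype.ext
    rw [hcoe]
    funext z
    exact h.neg z

theorem T_pow_smul_of_mem_cuspFnAlg {a : HolFun} (ha : a ∈ cuspFnAlg N) :
    ModularGroup.T ^ N • a = a :=
  (T_pow_smul_eq_iff N a).2 ha.isPer

end Taction


/-! ### Divisibility of the order for functions of smaller period -/

section divisibility

variable {N : ℕ}

theorem dvd_ordInfMer_of_div (hN : 0 < N) {k : ℕ} (hk : k ∣ N) {a b : HolFun}
    (ha : a ∈ cuspFnAlg N) (hb : b ∈ cuspFnAlg N) (ha0 : a ≠ 0) (hb0 : b ≠ 0)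
    (hak : IsPer k (a : ℍ → ℂ)) (hbk : IsPer k (b : ℍ → ℂ)) :
    ((N / k : ℕ) : ℤ) ∣ ordInfMer N (algebraMap HolFun MerFun a / algebraMap HolFun MerFun b) := by
  rw [ordInfMer_div hN ha hb ha0 hb0]
  exact dvd_sub (dvd_ordInf hN hk ha hak) (dvd_ordInf hN hk hb hbk)

/-- If `x` is a quotient of `N`-periodic cusp functions and is invariant under `T ^ k` with
`k ∣ N`, then its order at `i∞` in the parameter `q_N` is divisible by `N / k`. -/
theorem dvd_ordInfMer (hN : 0 < N) {k : ℕ} (hk : k ∣ N) {x : MerFun} (hx : IsCuspMer N x)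
    (hinv : ModularGroup.T ^ k • x = x) : ((N / k : ℕ) : ℤ) ∣ ordInfMer N x := by
  rcases eq_or_ne x 0 with rfl | hx0
  · rw [ordInfMer_zero]; exact dvd_zero _
  obtain ⟨a, b, ha, hb, ha0, hb0, rfl⟩ := hx.exists_div hx0
  have hkpos : 0 < k := Nat.pos_of_dvd_of_pos hk hN
  obtain ⟨m, rfl⟩ := hk
  have hm : 0 < m := by
    rcases Nat.eq_zero_or_pos m with rfl | h'
    · simp at hN
    · exact h'
  set σ : SL(2, ℤ) := ModularGroup.T ^ k with hσ
  set P : ℕ → HolFun := fun i => σ ^ i • b with hP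
  have hP0 : P 0 = b := by simp [hP]
  have hPm : P m = b := by
    simp only [hP, hσ, ← pow_mul]
    exact T_pow_smul_of_mem_cuspFnAlg hb
  have hPmem : ∀ i, P i ∈ cuspFnAlg (k * m) := by
    intro i
    simp only [hP, hσ, ← pow_mul]
    have := T_zpow_smul_mem_cuspFnAlg hb ((k * i : ℕ) : ℤ)
    rwa [zpow_natCast] at this
  have hPne : ∀ i, P i ≠ 0 := fun i => sl_smul_ne_zero _ hb0
  have hσP : ∀ i, σ • P i = P (i + 1) := by
    intro i
    simp only [hP]
    rw [← mul_smul, ← pow_succ']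
  -- the norm-like product
  set Q : HolFun := ∏ i ∈ Finset.range m, P i with hQ
  have hQσ : σ • Q = Q := by
    have h1 : σ • Q = ∏ i ∈ Finset.range m, P (i + 1) := by
      rw [hQ, Finset.smul_prod']
      exact Finset.prod_congr rfl (fun i _ => hσP i)
    have h2 : (∏ i ∈ Finset.range m, P (i + 1)) * P 0 = Q * P m := by
      rw [← Finset.prod_range_succ', Finset.prod_range_succ]
    rw [hP0, hPm] at h2
    rw [h1]
    exact mul_right_cancel₀ hb0 h2
  obtain ⟨m', rfl⟩ : ∃ m', m = m' + 1 := ⟨m - 1, by omega⟩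
  set c : HolFun := ∏ i ∈ Finset.range m', P (i + 1) with hc
  have hQc : Q = c * b := by
    rw [hQ, Finset.prod_range_succ', hP0]
  have hcmem : c ∈ cuspFnAlg (k * (m' + 1)) := Subalgebra.prod_mem _ (fun i _ => hPmem (i + 1))
  have hc0 : c ≠ 0 := Finset.prod_ne_zero_iff.2 (fun i _ => hPne (i + 1))
  have hQmem : Q ∈ cuspFnAlg (k * (m' + 1)) := by
    rw [hQc]; exact (cuspFnAlg _).mul_mem hcmem hb
  have hQ0 : Q ≠ 0 := by rw [hQc]; exact mul_ne_zero hc0 hb0
  have hxeq : algebraMap HolFun MerFun a / algebraMap HolFun MerFun b =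
      algebraMap HolFun MerFun (c * a) / algebraMap HolFun MerFun Q := by
    rw [hQc, map_mul, map_mul, mul_div_mul_left _ _ (algebraMap_ne_zero hc0)]
  have hcamem : c * a ∈ cuspFnAlg (k * (m' + 1)) := (cuspFnAlg _).mul_mem hcmem ha
  have hca0 : c * a ≠ 0 := mul_ne_zero hc0 ha0
  have hcaσ : σ • (c * a) = c * a := by
    apply algebraMap_injective
    have h3 : algebraMap HolFun MerFun (c * a) =
        (algebraMap HolFun MerFun a / algebraMap HolFun MerFun b) * algebraMap HolFun MerFun Q := by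
      rw [hxeq, div_mul_cancel₀ _ (algebraMap_ne_zero hQ0)]
    rw [← MerFun.sl_smul_algebraMap, h3, smul_mul', hinv, MerFun.sl_smul_algebraMap, hQσ]
  rw [hxeq]
  exact dvd_ordInfMer_of_div hN (Dvd.intro _ rfl) hcamem hQmem hca0 hQ0
    ((T_pow_smul_eq_iff k _).1 hcaσ) ((T_pow_smul_eq_iff k _).1 hQσ)

end divisibility

/-! ### The `j`-function -/

theorem jHol_mem_cuspFnAlg (N : ℕ) : jHol ∈ cuspFnAlg N := isCuspFn_jFn N

theorem jHol_ne_zero : jHol ≠ 0 := holFun_ne_zero_iff.2 jFn_ne_zero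

theorem ordInfMer_jHol {N : ℕ} (hN : 0 < N) :
    ordInfMer N (algebraMap HolFun MerFun jHol) = -(N : ℤ) := by
  rw [ordInfMer_algebraMap hN (jHol_mem_cuspFnAlg N) jHol_ne_zero]
  exact ordInf_jFn hN

theorem ordInfMer_jHol_inv {N : ℕ} (hN : 0 < N) :
    ordInfMer N (algebraMap HolFun MerFun jHol)⁻¹ = (N : ℤ) := by
  rw [ordInfMer_inv hN (isCuspMer_algebraMap (jHol_mem_cuspFnAlg N)), ordInfMer_jHol hN, neg_neg]

/-! ### Packaging as `IsAddVal` -/

/-- Composing `ordInfMer N` with a ring homomorphism from a field `F` into `MerFun` with values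
in quotients of cusp functions, sending the constants `K` to constant functions, gives an
integer valued valuation on `F` trivial on `K`. -/
theorem isAddVal_ordInfMer_comp {N : ℕ} (hN : 0 < N) {K F : Type*} [Field K] [Field F]
    [Algebra K F] (φ : F →+* MerFun) (ι : K → ℂ) (hφ : ∀ f : F, IsCuspMer N (φ f))
    (hconst : ∀ c : K, φ (algebraMap K F c) = algebraMap HolFun MerFun (algebraMap ℂ HolFun (ι c))) :
    IsAddVal K (fun f : F => ordInfMer N (φ f)) where
  map_mul f g hf hg := by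
    show ordInfMer N (φ (f * g)) = _
    rw [map_mul]
    exact ordInfMer_mul hN (hφ f) (hφ g) ((map_ne_zero φ).2 hf) ((map_ne_zero φ).2 hg)
  map_add f g hf hg hfg := by
    show _ ≤ ordInfMer N (φ (f + g))
    rw [map_add]
    refine ordInfMer_add_ge hN (hφ f) (hφ g) ((map_ne_zero φ).2 hf) ((map_ne_zero φ).2 hg) ?_
    rw [← map_add]
    exact (map_ne_zero φ).2 hfg
  map_const c _ := by
    show ordInfMer N (φ (algebraMap K F c)) = 0
    rw [hconst]
    exact ordInfMer_const hN _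

end Fermat.Agent.S24.CuspOrd
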