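import Mathlib
import Fermat.Agent.S24.JDef
import Fermat.Agent.S24.JFun.SerreMF

/-!
helper46. The stabilizer of `z ↦ jFn (N z)` inside `SL(2, ℤ)` is `Γ₀(N)`.

* `tendsto_jFn_mul_qParam`  : `jFn z * q(z) → 1` at `i∞`.
* `jFn_scale_smul_of_mem_Gamma0` : invariance of `z ↦ jFn (N z)` under `Γ₀(N)`.
* `mem_Gamma0_of_jFn_scale_eq`  : conversely invariance under `γ` forces `γ ∈ Γ₀(N)`.

The map `z ↦ N z` on the upper half plane is represented by an arbitrary
`m : ℍ → ℍ` with `∀ z, (m z : ℂ) = N * z`.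
-/

set_option autoImplicit false

open UpperHalfPlane hiding I
open Complex Filter Function Topology ModularForm EisensteinSeries
open scoped Real Manifold MatrixGroups

namespace Fermat.Agent.S24.Stabilizer

local notation "𝕢" => Periodic.qParam
local notation "Δ" => ModularForm.discriminant

theorem E₄_tendsto_one : Tendsto (E₄ : ℍ → ℂ) atImInfty (𝓝 1) := by
  have h := Fermat.Agent.S24.JFun.levelOne_tendsto_atImInfty E₄
  rwa [E_qExpansion_coeff_zero _ ⟨2, rfl⟩] at h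

theorem qParam_ne_zero (z : ℍ) : 𝕢 1 (z : ℂ) ≠ 0 := by
  simp [Periodic.qParam]

theorem norm_qParam (z : ℍ) : ‖𝕢 1 (z : ℂ)‖ = Real.exp (-2 * π * z.im) := by
  simp [Periodic.qParam, Complex.norm_exp]

/-- `jFn z * q(z) → 1` as `im z → ∞`. -/
theorem tendsto_jFn_mul_qParam :
    Tendsto (fun z : ℍ => jFn z * 𝕢 1 (z : ℂ)) atImInfty (𝓝 1) := by
  have h1 : Tendsto (fun z : ℍ => E₄ z ^ 3 / ∏' (n : ℕ), (1 - eta_q n z) ^ 24) atImInfty
      (𝓝 (1 ^ 3 / 1)) :=
    (E₄_tendsto_one.pow 3).div tendsto_atImInfty_tprod_one_sub_eta_q_pow one_ne_zero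
  simp only [one_pow, div_one] at h1
  refine h1.congr fun z => ?_
  rw [jFn_def, discriminant_eq_q_prod]
  have hq := qParam_ne_zero z
  by_cases hP : (∏' (n : ℕ), (1 - eta_q n z) ^ 24) = 0
  · simp [hP]
  · field_simp

/-- `‖jFn z‖ * exp (-2 π im z) → 1` as `im z → ∞`. -/
theorem tendsto_norm_jFn_mul_exp :
    Tendsto (fun z : ℍ => ‖jFn z‖ * Real.exp (-2 * π * z.im)) atImInfty (𝓝 1) := by
  have h := tendsto_jFn_mul_qParam.norm
  simp only [norm_mul, norm_one, norm_qParam] at h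
  exact h

theorem tendsto_atImInfty_of_im_eq {r : ℝ} (hr : 0 < r) (f : ℍ → ℍ)
    (hf : ∀ z, (f z).im = r * z.im) : Tendsto f atImInfty atImInfty := by
  rw [atImInfty, tendsto_comap_iff]
  have : (UpperHalfPlane.im ∘ f) = fun z : ℍ => r * z.im := funext hf
  rw [this]
  exact (tendsto_comap (f := UpperHalfPlane.im) (x := atTop)).const_mul_atTop hr

/-- Growth comparison: if `jFn ∘ f = jFn ∘ g` where `f`, `g` scale imaginary parts by `r`, `s`,
then `r = s`. -/
theorem eq_of_jFn_comp_eq {r s : ℝ} (hr : 0 < r) (hs : 0 < s) (f g : ℍ → ℍ)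
    (hf : ∀ z, (f z).im = r * z.im) (hg : ∀ z, (g z).im = s * z.im)
    (h : ∀ z, jFn (f z) = jFn (g z)) : r = s := by
  have hF := tendsto_norm_jFn_mul_exp.comp (tendsto_atImInfty_of_im_eq hr f hf)
  have hG := tendsto_norm_jFn_mul_exp.comp (tendsto_atImInfty_of_im_eq hs g hg)
  -- the ratio tends to `1`
  have hR : Tendsto (fun z : ℍ => Real.exp (2 * π * (s - r) * z.im)) atImInfty (𝓝 1) := by
    have hdiv := hF.div hG one_ne_zero
    simp only [div_one] at hdiv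
    have hev : ∀ᶠ z : ℍ in atImInfty, ‖jFn (g z)‖ * Real.exp (-2 * π * (g z).im) ≠ 0 := by
      have := hG.eventually (isOpen_ne.mem_nhds (one_ne_zero (α := ℝ)))
      exact this
    refine hdiv.congr' ?_
    filter_upwards [hev] with z hz
    simp only [Pi.div_apply, Function.comp_apply]
    have hne : ‖jFn (g z)‖ ≠ 0 := fun h0 => hz (by rw [h0, zero_mul])
    rw [h z, hf z, hg z, mul_div_mul_left _ _ hne, ← Real.exp_sub]
    congr 1
    ring
  have him : Tendsto (fun z : ℍ => z.im) atImInfty atTop := tendsto_comap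
  by_contra hne
  rcases lt_or_gt_of_ne hne with hlt | hgt
  · -- `s - r > 0`: the exponential tends to infinity
    have hpos : 0 < 2 * π * (s - r) := by
      have := Real.pi_pos
      have : 0 < s - r := sub_pos.mpr hlt
      positivity
    have hT : Tendsto (fun z : ℍ => Real.exp (2 * π * (s - r) * z.im)) atImInfty atTop :=
      Real.tendsto_exp_atTop.comp (him.const_mul_atTop hpos)
    exact not_tendsto_nhds_of_tendsto_atTop hT 1 hR
  · -- `s - r < 0`: the exponential tends to zero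
    have hneg : 2 * π * (s - r) < 0 := by
      have := Real.pi_pos
      have : s - r < 0 := sub_neg.mpr hgt
      nlinarith
    have hT : Tendsto (fun z : ℍ => Real.exp (2 * π * (s - r) * z.im)) atImInfty (𝓝 0) :=
      Real.tendsto_exp_atBot.comp (him.const_mul_atTop_of_neg hneg)
    exact zero_ne_one (tendsto_nhds_unique hT hR)

/-- Möbius action of `SL(2, ℤ)` on `ℍ` in coordinates. -/
theorem coe_sl_smul (g : SL(2, ℤ)) (z : ℍ) :
    ((g • z : ℍ) : ℂ) =
      ((g 0 0 : ℂ) * z + (g 0 1 : ℂ)) / ((g 1 0 : ℂ) * z + (g 1 1 : ℂ)) := by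
  have := UpperHalfPlane.coe_specialLinearGroup_apply g z
  simpa using this

theorem sl_denom_ne_zero (g : SL(2, ℤ)) (z : ℍ) :
    (g 1 0 : ℂ) * z + (g 1 1 : ℂ) ≠ 0 := by
  have := UpperHalfPlane.denom_ne_zero (g : GL (Fin 2) ℝ) z
  simpa [UpperHalfPlane.denom] using this

/-- The point `(a z + b) / d` of the upper half plane, for real `a, d > 0`. -/
noncomputable def affineMap (a b d : ℝ) (ha : 0 < a) (hd : 0 < d) (z : ℍ) : ℍ :=
  ⟨((a : ℂ) * z + b) / d, by
    have him : ((((a : ℂ) * z + b) / d : ℂ)).im = a * z.im / d := by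
      rw [Complex.div_ofReal_im]
      simp
    rw [him]
    have := z.im_pos
    positivity⟩

theorem coe_affineMap (a b d : ℝ) (ha : 0 < a) (hd : 0 < d) (z : ℍ) :
    ((affineMap a b d ha hd z : ℍ) : ℂ) = ((a : ℂ) * z + b) / d := rfl

theorem im_affineMap (a b d : ℝ) (ha : 0 < a) (hd : 0 < d) (z : ℍ) :
    (affineMap a b d ha hd z).im = a / d * z.im := by
  have him : ((((a : ℂ) * z + b) / d : ℂ)).im = a * z.im / d := by
    rw [Complex.div_ofReal_im]
    simp
  change ((((a : ℂ) * z + b) / d : ℂ)).im = a / d * z.im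
  rw [him]
  ring

theorem im_of_coe_eq_mul {N : ℕ} (m : ℍ → ℍ) (hm : ∀ z : ℍ, (m z : ℂ) = (N : ℂ) * z) (z : ℍ) :
    (m z).im = (N : ℝ) * z.im := by
  have h1 : (m z).im = ((m z : ℍ) : ℂ).im := rfl
  rw [h1, hm z]
  simp

/-- If `γ ∈ Γ₀(N)` then `z ↦ jFn (N z)` is invariant under `γ`. -/
theorem jFn_scale_smul_of_mem_Gamma0 {N : ℕ} (m : ℍ → ℍ)
    (hm : ∀ z : ℍ, (m z : ℂ) = (N : ℂ) * z) {γ : SL(2, ℤ)}
    (hγ : γ ∈ CongruenceSubgroup.Gamma0 N) (z : ℍ) : jFn (m (γ • z)) = jFn (m z) := by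
  rw [CongruenceSubgroup.Gamma0_mem, ZMod.intCast_zmod_eq_zero_iff_dvd] at hγ
  obtain ⟨c', hc'⟩ := hγ
  have hdet : γ 0 0 * γ 1 1 - γ 0 1 * γ 1 0 = 1 := by
    have := γ.det_coe
    rwa [Matrix.det_fin_two] at this
  let g : SL(2, ℤ) := ⟨!![γ 0 0, (N : ℤ) * γ 0 1; c', γ 1 1], by
    rw [Matrix.det_fin_two_of]
    rw [hc'] at hdet
    linear_combination hdet⟩
  have hg00 : g 0 0 = γ 0 0 := rfl
  have hg01 : g 0 1 = (N : ℤ) * γ 0 1 := rfl
  have hg10 : g 1 0 = c' := rfl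
  have hg11 : g 1 1 = γ 1 1 := rfl
  have key : m (γ • z) = g • m z := by
    apply UpperHalfPlane.ext
    rw [hm, coe_sl_smul, coe_sl_smul, hm, hg00, hg01, hg10, hg11]
    have hcC : (γ 1 0 : ℂ) = (N : ℂ) * (c' : ℂ) := by exact_mod_cast hc'
    have hD := sl_denom_ne_zero γ z
    have hden : ((c' : ℤ) : ℂ) * ((N : ℂ) * z) + (γ 1 1 : ℂ) = (γ 1 0 : ℂ) * z + (γ 1 1 : ℂ) := by
      rw [hcC]; ring
    rw [hden]
    push_cast
    field_simp
  rw [key, jFn_smul]

/-- If `z ↦ jFn (N z)` is invariant under `γ ∈ SL(2, ℤ)` then `γ ∈ Γ₀(N)`. -/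
theorem mem_Gamma0_of_jFn_scale_eq {N : ℕ} (hN : 0 < N) (m : ℍ → ℍ)
    (hm : ∀ z : ℍ, (m z : ℂ) = (N : ℂ) * z) (γ : SL(2, ℤ))
    (h : ∀ z : ℍ, jFn (m (γ • z)) = jFn (m z)) : γ ∈ CongruenceSubgroup.Gamma0 N := by
  have hdet : γ 0 0 * γ 1 1 - γ 0 1 * γ 1 0 = 1 := by
    have := γ.det_coe
    rwa [Matrix.det_fin_two] at this
  -- `e = gcd (N, c)`
  have hgpos : 0 < Int.gcd (N : ℤ) (γ 1 0) :=
    Int.gcd_pos_of_ne_zero_left _ (by exact_mod_cast hN.ne')
  obtain ⟨n', c', hcop, hNn', hcc'⟩ := Int.exists_gcd_one hgpos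
  set e : ℤ := (Int.gcd (N : ℤ) (γ 1 0) : ℤ) with he
  have hepos : 0 < e := by rw [he]; exact_mod_cast hgpos
  have hn'pos : 0 < n' := by
    have hNpos : (0 : ℤ) < n' * e := by rw [← hNn']; exact_mod_cast hN
    exact (mul_pos_iff_of_pos_right hepos).mp hNpos
  have hcop' : IsCoprime n' c' := Int.isCoprime_iff_gcd_eq_one.mpr hcop
  have hac : IsCoprime (γ 0 0) (γ 1 0) := ⟨γ 1 1, -γ 0 1, by linear_combination hdet⟩
  have hac' : IsCoprime (γ 0 0) c' := by
    rw [hcc'] at hac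
    exact hac.of_mul_right_left
  have hcol : IsCoprime (n' * γ 0 0) c' := hcop'.mul_left hac'
  obtain ⟨g, hg00, hg10⟩ := hcol.exists_SL2_col 0
  have hgdet : g 0 0 * g 1 1 - g 0 1 * g 1 0 = 1 := by
    have := g.det_coe
    rwa [Matrix.det_fin_two] at this
  rw [hg00, hg10] at hgdet
  set u := g 0 1 with hu
  set v := g 1 1 with hv
  set a := γ 0 0 with ha
  set b := γ 0 1 with hb
  set c := γ 1 0 with hc
  set d := γ 1 1 with hd
  -- the upper right entry
  set b' : ℤ := v * N * b - u * d with hb'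
  have hγ' : a * d - b * (c' * e) = 1 := by rw [← hcc']; exact hdet
  have I1 : n' * a * b' + u * n' = (N : ℤ) * b := by
    rw [hb', hNn']
    linear_combination (n' * e * b) * hgdet - (n' * u) * hγ'
  have I2 : c' * b' + v * n' = d := by
    rw [hb', hNn']
    linear_combination d * hgdet - (n' * v) * hγ'
  -- the comparison map
  have heR : (0 : ℝ) < (e : ℝ) := by exact_mod_cast hepos
  have hnR : (0 : ℝ) < (n' : ℝ) := by exact_mod_cast hn'pos
  let W : ℍ → ℍ := affineMap (e : ℝ) (b' : ℝ) (n' : ℝ) heR hnR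
  have hWcoe : ∀ z : ℍ, ((W z : ℍ) : ℂ) = ((e : ℂ) * z + (b' : ℂ)) / (n' : ℂ) := by
    intro z
    have := coe_affineMap (e : ℝ) (b' : ℝ) (n' : ℝ) heR hnR z
    simpa using this
  have key : ∀ z : ℍ, m (γ • z) = g • W z := by
    intro z
    apply UpperHalfPlane.ext
    rw [hm, coe_sl_smul, coe_sl_smul, hWcoe, hg00, hg10, ← hu, ← hv, ← ha, ← hb, ← hc, ← hd]
    have hD := sl_denom_ne_zero γ z
    rw [← hc, ← hd] at hD
    have hnC : (n' : ℂ) ≠ 0 := by exact_mod_cast hn'pos.ne'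
    have I1C : (n' : ℂ) * a * b' + u * n' = (N : ℂ) * b := by exact_mod_cast I1
    have I2C : (c' : ℂ) * b' + v * n' = d := by exact_mod_cast I2
    have hNC : (N : ℂ) = n' * e := by exact_mod_cast hNn'
    have hcC : (c : ℂ) = c' * e := by exact_mod_cast hcc'
    have h1 : ((n' * a : ℤ) : ℂ) * (((e : ℂ) * z + (b' : ℂ)) / (n' : ℂ)) + (u : ℂ) =
        (N : ℂ) * ((a : ℂ) * z + b) / n' := by
      push_cast
      field_simp
      linear_combination I1C + (-(a : ℂ) * z) * hNC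
    have h2 : (c' : ℂ) * (((e : ℂ) * z + (b' : ℂ)) / (n' : ℂ)) + (v : ℂ) =
        ((c : ℂ) * z + d) / n' := by
      field_simp
      linear_combination I2C + (-(z : ℂ)) * hcC
    rw [h1, h2]
    field_simp
  have hcomp : ∀ z : ℍ, jFn (W z) = jFn (m z) := by
    intro z
    rw [← h z, key z, jFn_smul]
  have hNR : (0 : ℝ) < (N : ℝ) := by exact_mod_cast hN
  have hratio : (e : ℝ) / n' = (N : ℝ) :=
    eq_of_jFn_comp_eq (div_pos heR hnR) hNR W m
      (fun z => im_affineMap (e : ℝ) (b' : ℝ) (n' : ℝ) heR hnR z)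
      (fun z => im_of_coe_eq_mul m hm z) hcomp
  -- hence `n' = 1`
  have hen : e = (N : ℤ) * n' := by
    have : (e : ℝ) = (N : ℝ) * n' := by
      field_simp at hratio
      linarith
    exact_mod_cast this
  have hn'1 : n' = 1 := by
    have h3 : e * (n' * n' - 1) = 0 := by
      rw [hNn'] at hen
      linear_combination -hen
    rcases mul_eq_zero.mp h3 with h4 | h4
    · exact absurd h4 hepos.ne'
    · have h5 : n' * n' = 1 := by linarith
      rcases Int.eq_one_or_neg_one_of_mul_eq_one h5 with h6 | h6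
      · exact h6
      · rw [h6] at hn'pos
        exact absurd hn'pos (by norm_num)
  rw [CongruenceSubgroup.Gamma0_mem, ZMod.intCast_zmod_eq_zero_iff_dvd]
  refine ⟨c', ?_⟩
  rw [hn'1, one_mul] at hNn'
  rw [← hc, hcc', hNn']
  ring

/-- The two previous statements combined. -/
theorem jFn_scale_eq_iff_mem_Gamma0 {N : ℕ} (hN : 0 < N) (m : ℍ → ℍ)
    (hm : ∀ z : ℍ, (m z : ℂ) = (N : ℂ) * z) (γ : SL(2, ℤ)) :
    (∀ z : ℍ, jFn (m (γ • z)) = jFn (m z)) ↔ γ ∈ CongruenceSubgroup.Gamma0 N :=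
  ⟨mem_Gamma0_of_jFn_scale_eq hN m hm γ, fun hγ z => jFn_scale_smul_of_mem_Gamma0 m hm hγ z⟩

end Fermat.Agent.S24.Stabilizer
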