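import Mathlib
import Fermat.Agent.S24.JDef
import Fermat.Agent.S24.HolFun
import Fermat.Agent.S24.Stabilizer

/-!
helper46. The level maps `z ↦ d z` as elements of `GL(2, ℝ)⁺`, the holomorphic functions
`jd d : z ↦ jFn (d z)`, and the stabilizer statements in the language of the `SL(2, ℤ)`-action
on `HolFun` (`(γ • f) z = f (γ⁻¹ • z)`).
-/

set_option autoImplicit false

open UpperHalfPlane hiding I
open Complex Filter Function Topology
open scoped Real Manifold MatrixGroups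

namespace Fermat.Agent.S24.JLevel

/-- The matrix `diag(d, 1)` as an element of `GL(2, ℝ)`. -/
noncomputable def diagGL' (d : ℕ) [NeZero d] : GL (Fin 2) ℝ :=
  Matrix.GeneralLinearGroup.mkOfDetNeZero !![(d : ℝ), 0; 0, 1] (by
    rw [Matrix.det_fin_two_of]
    have : (d : ℝ) ≠ 0 := by exact_mod_cast NeZero.ne d
    simpa using this)

theorem diagGL'_val (d : ℕ) [NeZero d] :
    ((diagGL' d : GL (Fin 2) ℝ) : Matrix (Fin 2) (Fin 2) ℝ) = !![(d : ℝ), 0; 0, 1] := rfl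

theorem det_diagGL' (d : ℕ) [NeZero d] : ((diagGL' d).det : ℝ) = d := by
  rw [Matrix.GeneralLinearGroup.val_det_apply, diagGL'_val, Matrix.det_fin_two_of]
  simp

theorem det_diagGL'_pos (d : ℕ) [NeZero d] : 0 < ((diagGL' d).det : ℝ) := by
  rw [det_diagGL']
  exact_mod_cast Nat.pos_of_ne_zero (NeZero.ne d)

/-- The matrix `diag(d, 1)` as an element of `GL(2, ℝ)⁺`. -/
noncomputable def diagGL (d : ℕ) [NeZero d] : GL(2, ℝ)⁺ := ⟨diagGL' d, det_diagGL'_pos d⟩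

theorem coe_diagGL (d : ℕ) [NeZero d] : ((diagGL d : GL(2, ℝ)⁺) : GL (Fin 2) ℝ) = diagGL' d := rfl

/-- `diag(d, 1) • z = d z`. -/
theorem coe_diagGL_smul (d : ℕ) [NeZero d] (z : ℍ) :
    ((diagGL d • z : ℍ) : ℂ) = (d : ℂ) * z := by
  change (((diagGL' d : GL (Fin 2) ℝ) • z : ℍ) : ℂ) = (d : ℂ) * z
  rw [UpperHalfPlane.coe_smul_of_det_pos (det_diagGL'_pos d)]
  simp [UpperHalfPlane.num, UpperHalfPlane.denom, diagGL'_val]

/-- The map `z ↦ d z` of the upper half plane. -/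
noncomputable def scaleH (d : ℕ) [NeZero d] (z : ℍ) : ℍ := diagGL d • z

theorem coe_scaleH (d : ℕ) [NeZero d] (z : ℍ) : ((scaleH d z : ℍ) : ℂ) = (d : ℂ) * z :=
  coe_diagGL_smul d z

theorem scaleH_eq_of_coe (d : ℕ) [NeZero d] (m : ℍ → ℍ) (hm : ∀ z : ℍ, (m z : ℂ) = (d : ℂ) * z)
    (z : ℍ) : m z = scaleH d z :=
  UpperHalfPlane.ext (by rw [hm, coe_scaleH])

theorem scaleH_one (z : ℍ) : scaleH 1 z = z :=
  UpperHalfPlane.ext (by rw [coe_scaleH]; simp)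

/-- The holomorphic function `z ↦ jFn (d z)`. -/
noncomputable def jd (d : ℕ) [NeZero d] : HolFun :=
  HolFun.mk (fun z => jFn (diagGL d • z))
    (HolFun.mdiff_comp_smul (HolFun.mk jFn jFn_mdiff) (diagGL d))

theorem jd_apply (d : ℕ) [NeZero d] (z : ℍ) : (jd d : ℍ → ℂ) z = jFn (diagGL d • z) := rfl

theorem jd_apply' (d : ℕ) [NeZero d] (z : ℍ) : (jd d : ℍ → ℂ) z = jFn (scaleH d z) := rfl

theorem jd_apply_of_coe (d : ℕ) [NeZero d] (m : ℍ → ℍ)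
    (hm : ∀ z : ℍ, (m z : ℂ) = (d : ℂ) * z) (z : ℍ) : (jd d : ℍ → ℂ) z = jFn (m z) := by
  rw [jd_apply', scaleH_eq_of_coe d m hm z]

/-- `jd d = (diag(d,1))⁻¹ • j` for the action `(g • f) z = f (g⁻¹ • z)`. -/
theorem jd_eq_smul (d : ℕ) [NeZero d] : jd d = (diagGL d)⁻¹ • HolFun.mk jFn jFn_mdiff := by
  apply HolFun.ext
  intro z
  rw [HolFun.smul_apply, inv_inv]
  rfl

theorem jd_one_apply (z : ℍ) : (jd 1 : ℍ → ℂ) z = jFn z := by
  rw [jd_apply', scaleH_one]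

/-- `jFn (d (γ z)) = jFn (d z)` for `γ ∈ Γ₀(N)` and `d ∣ N`. -/
theorem jFn_scaleH_smul_of_mem_Gamma0 {N d : ℕ} [NeZero d] (hd : d ∣ N) {γ : SL(2, ℤ)}
    (hγ : γ ∈ CongruenceSubgroup.Gamma0 N) (z : ℍ) :
    jFn (scaleH d (γ • z)) = jFn (scaleH d z) := by
  have hγd : γ ∈ CongruenceSubgroup.Gamma0 d := by
    rw [CongruenceSubgroup.Gamma0_mem, ZMod.intCast_zmod_eq_zero_iff_dvd] at hγ ⊢
    exact (Int.natCast_dvd_natCast.mpr hd).trans hγ
  exact Stabilizer.jFn_scale_smul_of_mem_Gamma0 (scaleH d) (coe_scaleH d) hγd z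

/-- `γ • jd d = jd d` for `γ ∈ Γ₀(N)` and `d ∣ N`. -/
theorem smul_jd_of_mem_Gamma0 {N d : ℕ} [NeZero d] (hd : d ∣ N) {γ : SL(2, ℤ)}
    (hγ : γ ∈ CongruenceSubgroup.Gamma0 N) : γ • jd d = jd d := by
  apply HolFun.ext
  intro z
  rw [HolFun.sl_smul_apply, jd_apply', jd_apply']
  exact jFn_scaleH_smul_of_mem_Gamma0 hd (inv_mem hγ) z

/-- If `γ • jd N = jd N` then `γ ∈ Γ₀(N)`. -/
theorem mem_Gamma0_of_smul_jd_eq {N : ℕ} [NeZero N] {γ : SL(2, ℤ)} (h : γ • jd N = jd N) :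
    γ ∈ CongruenceSubgroup.Gamma0 N := by
  have hinv : γ⁻¹ ∈ CongruenceSubgroup.Gamma0 N := by
    refine Stabilizer.mem_Gamma0_of_jFn_scale_eq (Nat.pos_of_ne_zero (NeZero.ne N))
      (scaleH N) (coe_scaleH N) γ⁻¹ (fun z => ?_)
    have h1 := congrArg (fun f : HolFun => (f : ℍ → ℂ) z) h
    simp only [HolFun.sl_smul_apply, jd_apply'] at h1
    exact h1
  simpa using inv_mem hinv

theorem smul_jd_eq_iff_mem_Gamma0 {N : ℕ} [NeZero N] {γ : SL(2, ℤ)} :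
    γ • jd N = jd N ↔ γ ∈ CongruenceSubgroup.Gamma0 N :=
  ⟨mem_Gamma0_of_smul_jd_eq, smul_jd_of_mem_Gamma0 dvd_rfl⟩

/-- Distinctness of the conjugates of `jd N`: `g • jd N = g' • jd N` iff `g` and `g'` define the
same left coset of `Γ₀(N)`. -/
theorem smul_jd_eq_smul_jd_iff {N : ℕ} [NeZero N] {g g' : SL(2, ℤ)} :
    g • jd N = g' • jd N ↔ g⁻¹ * g' ∈ CongruenceSubgroup.Gamma0 N := by
  rw [← smul_jd_eq_iff_mem_Gamma0, mul_smul]
  constructor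
  · intro h
    rw [← h, smul_smul, inv_mul_cancel, one_smul]
  · intro h
    calc g • jd N = g • (g⁻¹ • g' • jd N) := by rw [h]
      _ = g' • jd N := by rw [smul_inv_smul]

theorem smul_jd_eq_smul_jd_iff_quotient {N : ℕ} [NeZero N] {g g' : SL(2, ℤ)} :
    g • jd N = g' • jd N ↔
      (QuotientGroup.mk g : SL(2, ℤ) ⧸ CongruenceSubgroup.Gamma0 N) = QuotientGroup.mk g' := by
  rw [smul_jd_eq_smul_jd_iff, QuotientGroup.eq]

end Fermat.Agent.S24.JLevel
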