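import Mathlib

/-!
helper77 (P-S24 Part III base).  Generic extension of an "order function" `v : R → ℕ∞` on a
domain (additive on products, ultrametric, `⊤` exactly at `0`) to a `ℤ`-valued order on the
fraction field.
-/

set_option autoImplicit false

namespace Fermat.Agent.S24

/-- An order function on a domain: `v (a*b) = v a + v b`, `min (v a) (v b) ≤ v (a+b)`,
`v a = ⊤ ↔ a = 0`. -/
structure OrdFn (R : Type*) [CommRing R] where
  toFun : R → ℕ∞
  map_mul' : ∀ a b, toFun (a * b) = toFun a + toFun b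
  map_add' : ∀ a b, min (toFun a) (toFun b) ≤ toFun (a + b)
  eq_top_iff' : ∀ a, toFun a = ⊤ ↔ a = 0

namespace OrdFn

variable {R : Type*} [CommRing R] (v : OrdFn R)

instance : CoeFun (OrdFn R) (fun _ => R → ℕ∞) := ⟨OrdFn.toFun⟩

theorem map_mul (a b : R) : v (a * b) = v a + v b := v.map_mul' a b
theorem map_add (a b : R) : min (v a) (v b) ≤ v (a + b) := v.map_add' a b
theorem eq_top_iff (a : R) : v a = ⊤ ↔ a = 0 := v.eq_top_iff' a

theorem ne_top {a : R} (ha : a ≠ 0) : v a ≠ ⊤ := fun h => ha ((v.eq_top_iff a).mp h)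

@[simp] theorem map_zero : v 0 = ⊤ := (v.eq_top_iff 0).mpr rfl

theorem map_one [Nontrivial R] : v 1 = 0 := by
  have h : v (1 * 1) = v 1 + v 1 := v.map_mul 1 1
  rw [mul_one] at h
  have hne : v 1 ≠ ⊤ := v.ne_top one_ne_zero
  obtain ⟨n, hn⟩ := ENat.ne_top_iff_exists.mp hne
  rw [← hn] at h ⊢
  have h' : n = n + n := by exact_mod_cast h
  have : n = 0 := by omega
  rw [this]; rfl

/-- The natural-number valued order (junk value `0` at `0`). -/
noncomputable def nat (a : R) : ℕ := (v a).toNat

theorem nat_one [Nontrivial R] : v.nat 1 = 0 := by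
  rw [nat, v.map_one]; rfl

theorem coe_nat {a : R} (ha : a ≠ 0) : (v.nat a : ℕ∞) = v a :=
  ENat.natCast_toNat (v.ne_top ha)

theorem nat_mul [NoZeroDivisors R] {a b : R} (ha : a ≠ 0) (hb : b ≠ 0) :
    v.nat (a * b) = v.nat a + v.nat b := by
  have h := v.map_mul a b
  rw [← v.coe_nat ha, ← v.coe_nat hb, ← v.coe_nat (mul_ne_zero ha hb)] at h
  exact_mod_cast h

theorem nat_add_ge {a b : R} (ha : a ≠ 0) (hb : b ≠ 0) (hab : a + b ≠ 0) :
    min (v.nat a) (v.nat b) ≤ v.nat (a + b) := by
  have h := v.map_add a b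
  rw [← v.coe_nat ha, ← v.coe_nat hb, ← v.coe_nat hab] at h
  rcases min_le_iff.mp h with h1 | h1
  · exact min_le_iff.mpr (Or.inl (by exact_mod_cast h1))
  · exact min_le_iff.mpr (Or.inr (by exact_mod_cast h1))

variable [IsDomain R] (K : Type*) [Field K] [Algebra R K] [IsFractionRing R K]

/-- The `ℤ`-valued order on the fraction field (value `0` at `0`). -/
noncomputable def frac (x : K) : ℤ :=
  open scoped Classical in
  if x = 0 then 0 else
    (v.nat (IsLocalization.sec (nonZeroDivisors R) x).1 : ℤ)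
      - (v.nat ((IsLocalization.sec (nonZeroDivisors R) x).2 : R) : ℤ)

omit [IsDomain R] in
@[simp] theorem frac_zero : v.frac K 0 = 0 := by simp [frac]

theorem frac_div {a b : R} (ha : a ≠ 0) (hb : b ≠ 0) :
    v.frac K (algebraMap R K a / algebraMap R K b) = (v.nat a : ℤ) - (v.nat b : ℤ) := by
  have hinj := IsFractionRing.injective R K
  have ha' : algebraMap R K a ≠ 0 := fun h => ha (hinj (by rw [h, _root_.map_zero]))
  have hb' : algebraMap R K b ≠ 0 := fun h => hb (hinj (by rw [h, _root_.map_zero]))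
  set x := algebraMap R K a / algebraMap R K b with hx
  have hx0 : x ≠ 0 := div_ne_zero ha' hb'
  rw [frac, if_neg hx0]
  set s := IsLocalization.sec (nonZeroDivisors R) x with hs
  have hspec : x * algebraMap R K (s.2 : R) = algebraMap R K s.1 :=
    IsLocalization.sec_spec (nonZeroDivisors R) x
  have hs2 : (s.2 : R) ≠ 0 := nonZeroDivisors.ne_zero s.2.2
  have hs1 : s.1 ≠ 0 := IsLocalization.sec_fst_ne_zero hx0
  have key : a * (s.2 : R) = s.1 * b := by
    apply hinj
    rw [_root_.map_mul, _root_.map_mul, ← hspec, hx]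
    field_simp
  have h1 := v.nat_mul ha hs2
  have h2 := v.nat_mul hs1 hb
  rw [key] at h1
  omega

theorem frac_algebraMap {a : R} (ha : a ≠ 0) : v.frac K (algebraMap R K a) = (v.nat a : ℤ) := by
  have h := v.frac_div K ha (one_ne_zero (α := R))
  rw [_root_.map_one, div_one] at h
  rw [h, v.nat_one]
  simp

theorem exists_div (x : K) : ∃ a b : R, b ≠ 0 ∧ x = algebraMap R K a / algebraMap R K b := by
  obtain ⟨a, b, hb, h⟩ := IsFractionRing.div_surjective (A := R) x
  exact ⟨a, b, nonZeroDivisors.ne_zero hb, h.symm⟩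

theorem frac_mul {x y : K} (hx : x ≠ 0) (hy : y ≠ 0) :
    v.frac K (x * y) = v.frac K x + v.frac K y := by
  obtain ⟨a, b, hb, rfl⟩ := exists_div (R := R) K x
  obtain ⟨c, d, hd, rfl⟩ := exists_div (R := R) K y
  have ha : a ≠ 0 := by rintro rfl; simp at hx
  have hc : c ≠ 0 := by rintro rfl; simp at hy
  rw [div_mul_div_comm, ← _root_.map_mul, ← _root_.map_mul,
    v.frac_div K (mul_ne_zero ha hc) (mul_ne_zero hb hd), v.frac_div K ha hb, v.frac_div K hc hd,
    v.nat_mul ha hc, v.nat_mul hb hd]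
  push_cast; ring

theorem frac_one : v.frac K 1 = 0 := by
  have h := v.frac_algebraMap K (one_ne_zero (α := R))
  rw [_root_.map_one] at h
  rw [h, v.nat_one]; simp

theorem frac_inv (x : K) : v.frac K x⁻¹ = -v.frac K x := by
  rcases eq_or_ne x 0 with rfl | hx
  · simp
  have h := v.frac_mul K hx (inv_ne_zero hx)
  rw [mul_inv_cancel₀ hx, frac_one] at h
  omega

theorem frac_div' {x y : K} (hx : x ≠ 0) (hy : y ≠ 0) :
    v.frac K (x / y) = v.frac K x - v.frac K y := by
  rw [div_eq_mul_inv, v.frac_mul K hx (inv_ne_zero hy), frac_inv]; ring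

theorem frac_pow (x : K) (n : ℕ) : v.frac K (x ^ n) = n * v.frac K x := by
  rcases eq_or_ne x 0 with rfl | hx
  · rcases Nat.eq_zero_or_pos n with rfl | hn
    · simp [frac_one]
    · simp [zero_pow hn.ne']
  induction n with
  | zero => simp [frac_one]
  | succ n ih =>
    rw [pow_succ, v.frac_mul K (pow_ne_zero n hx) hx, ih]; push_cast; ring

theorem frac_neg (x : K) : v.frac K (-x) = v.frac K x := by
  rcases eq_or_ne x 0 with rfl | hx
  · simp
  have h1 : v.frac K ((-1 : K) * (-1)) = v.frac K (-1) + v.frac K (-1) :=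
    v.frac_mul K (by simp) (by simp)
  rw [neg_one_mul, neg_neg, frac_one] at h1
  have h2 : v.frac K (-1 : K) = 0 := by omega
  rw [← neg_one_mul, v.frac_mul K (by simp) hx, h2, zero_add]

theorem frac_add_ge {x y : K} (hx : x ≠ 0) (hy : y ≠ 0) (hxy : x + y ≠ 0) :
    min (v.frac K x) (v.frac K y) ≤ v.frac K (x + y) := by
  obtain ⟨a, b, hb, rfl⟩ := exists_div (R := R) K x
  obtain ⟨c, d, hd, rfl⟩ := exists_div (R := R) K y
  have hinj := IsFractionRing.injective R K
  have ha : a ≠ 0 := by rintro rfl; simp at hx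
  have hc : c ≠ 0 := by rintro rfl; simp at hy
  have hb' : algebraMap R K b ≠ 0 := fun h => hb (hinj (by rw [h, _root_.map_zero]))
  have hd' : algebraMap R K d ≠ 0 := fun h => hd (hinj (by rw [h, _root_.map_zero]))
  have hsum : algebraMap R K a / algebraMap R K b + algebraMap R K c / algebraMap R K d
      = algebraMap R K (a * d + c * b) / algebraMap R K (b * d) := by
    rw [_root_.map_add, _root_.map_mul, _root_.map_mul, _root_.map_mul]
    field_simp
  have hnum : a * d + c * b ≠ 0 := by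
    intro h
    rw [hsum, h, _root_.map_zero, zero_div] at hxy
    exact hxy rfl
  rw [hsum, v.frac_div K hnum (mul_ne_zero hb hd), v.frac_div K ha hb, v.frac_div K hc hd,
    v.nat_mul hb hd]
  have h1 := v.nat_add_ge (mul_ne_zero ha hd) (mul_ne_zero hc hb) hnum
  rw [v.nat_mul ha hd, v.nat_mul hc hb] at h1
  omega

end OrdFn

end Fermat.Agent.S24
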