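import Fermat.Agent.S24.HolFun
import Fermat.Agent.S24.FracOrd

/-!
helper77 (P-S24 Part III base).  Order of vanishing of holomorphic functions on `ℍ` at a point,
the field `MerFun` of fractions of holomorphic functions, and the `ℤ`-valued order on it.
-/

set_option autoImplicit false

open UpperHalfPlane Complex Filter
open scoped Manifold MatrixGroups Topology

namespace Fermat.Agent.S24

namespace HolFun

theorem analyticAt_comp_ofComplex (f : HolFun) (τ : ℍ) :
    AnalyticAt ℂ ((f : ℍ → ℂ) ∘ ofComplex) τ := by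
  have h := (UpperHalfPlane.mdifferentiable_iff.mp f.2)
  exact h.analyticAt (isOpen_upperHalfPlaneSet.mem_nhds τ.im_pos)

/-- The order of vanishing of a holomorphic function at a point of `ℍ`. -/
noncomputable def ordAtFun (τ : ℍ) (f : HolFun) : ℕ∞ :=
  analyticOrderAt ((f : ℍ → ℂ) ∘ ofComplex) τ

theorem comp_ofComplex_mul (f g : HolFun) :
    ((f * g : HolFun) : ℍ → ℂ) ∘ ofComplex
      = ((f : ℍ → ℂ) ∘ ofComplex) * ((g : ℍ → ℂ) ∘ ofComplex) := rfl

theorem comp_ofComplex_add (f g : HolFun) :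
    ((f + g : HolFun) : ℍ → ℂ) ∘ ofComplex
      = ((f : ℍ → ℂ) ∘ ofComplex) + ((g : ℍ → ℂ) ∘ ofComplex) := rfl

theorem ordAtFun_eq_top_iff (τ : ℍ) (f : HolFun) : ordAtFun τ f = ⊤ ↔ f = 0 := by
  constructor
  · intro h
    rw [ordAtFun, analyticOrderAt_eq_top] at h
    apply Subtype.ext
    apply UpperHalfPlane.eq_zero_of_frequently (τ := τ) f.2
    have h2 : ∀ᶠ z in 𝓝 τ, (f : ℍ → ℂ) z = 0 := by
      rw [← isOpenEmbedding_coe.map_nhds_eq, eventually_map] at h
      filter_upwards [h] with z hz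
      simpa using hz
    exact (h2.filter_mono nhdsWithin_le_nhds).frequently
  · rintro rfl
    rw [ordAtFun, analyticOrderAt_eq_top]
    exact Eventually.of_forall fun z => rfl

/-- The order of vanishing at `τ`, as an `OrdFn`. -/
noncomputable def ordAt (τ : ℍ) : OrdFn HolFun where
  toFun := ordAtFun τ
  map_mul' f g := by
    rw [ordAtFun, comp_ofComplex_mul]
    exact analyticOrderAt_mul (analyticAt_comp_ofComplex f τ) (analyticAt_comp_ofComplex g τ)
  map_add' f g := by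
    show min (analyticOrderAt ((f : ℍ → ℂ) ∘ ofComplex) τ)
      (analyticOrderAt ((g : ℍ → ℂ) ∘ ofComplex) τ)
        ≤ analyticOrderAt (((f + g : HolFun) : ℍ → ℂ) ∘ ofComplex) τ
    rw [comp_ofComplex_add]
    exact le_analyticOrderAt_add
  eq_top_iff' f := ordAtFun_eq_top_iff τ f

theorem ordAt_apply (τ : ℍ) (f : HolFun) :
    ordAt τ f = analyticOrderAt ((f : ℍ → ℂ) ∘ ofComplex) τ := rfl

theorem ordAt_eq_zero_iff (τ : ℍ) (f : HolFun) : ordAt τ f = 0 ↔ (f : ℍ → ℂ) τ ≠ 0 := by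
  rw [ordAt_apply, analyticOrderAt_eq_zero]
  simp [analyticAt_comp_ofComplex f τ]

theorem ordAt_smul (g : GL(2, ℝ)⁺) (f : HolFun) (τ : ℍ) :
    ordAt τ (g • f) = ordAt (g⁻¹ • τ) f := by
  have hg : 0 < ((g⁻¹ : GL(2, ℝ)⁺) : GL (Fin 2) ℝ).val.det := (g⁻¹).2
  set G : ℂ → ℂ := fun z => ↑(((g⁻¹ : GL(2, ℝ)⁺) : GL (Fin 2) ℝ) • ofComplex z) with hG
  have hGa : AnalyticAt ℂ G τ := UpperHalfPlane.analyticAt_smul hg τ
  have hGd : deriv G τ ≠ 0 := UpperHalfPlane.deriv_smul_ne_zero hg τ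
  have hGτ : G τ = ↑(g⁻¹ • τ) := by
    simp only [hG, ofComplex_apply]
    rfl
  have hcomp : ((g • f : HolFun) : ℍ → ℂ) ∘ ofComplex
      = ((f : ℍ → ℂ) ∘ ofComplex) ∘ G := by
    funext z
    simp only [Function.comp_apply, smul_apply, hG, ofComplex_apply]
    rfl
  rw [ordAt_apply, ordAt_apply, hcomp,
    analyticOrderAt_comp_of_deriv_ne_zero hGa hGd, hGτ]

theorem ordAt_sl_smul (γ : SL(2, ℤ)) (f : HolFun) (τ : ℍ) :
    ordAt τ (γ • f) = ordAt (γ⁻¹ • τ) f := by
  rw [sl_smul_def, ordAt_smul, ← map_inv, slToGLPos_smul]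

end HolFun

/-- The field of fractions of the ring of holomorphic functions on `ℍ`. -/
def MerFun : Type := FractionRing HolFun

namespace MerFun

noncomputable instance : Field MerFun := inferInstanceAs (Field (FractionRing HolFun))

noncomputable instance : Algebra HolFun MerFun :=
  inferInstanceAs (Algebra HolFun (FractionRing HolFun))

instance : IsFractionRing HolFun MerFun :=
  inferInstanceAs (IsFractionRing HolFun (FractionRing HolFun))

noncomputable instance instActGLPos : MulSemiringAction GL(2, ℝ)⁺ MerFun :=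
  IsFractionRing.mulSemiringAction GL(2, ℝ)⁺ HolFun MerFun

noncomputable instance instActSL : MulSemiringAction SL(2, ℤ) MerFun :=
  IsFractionRing.mulSemiringAction SL(2, ℤ) HolFun MerFun

instance : SMulDistribClass GL(2, ℝ)⁺ HolFun MerFun :=
  IsFractionRing.smulDistribClass GL(2, ℝ)⁺ HolFun MerFun

instance : SMulDistribClass SL(2, ℤ) HolFun MerFun :=
  IsFractionRing.smulDistribClass SL(2, ℤ) HolFun MerFun

theorem smul_algebraMap (g : GL(2, ℝ)⁺) (f : HolFun) :
    g • (algebraMap HolFun MerFun f) = algebraMap HolFun MerFun (g • f) :=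
  (algebraMap.coe_smul' g f MerFun).symm

theorem sl_smul_algebraMap (γ : SL(2, ℤ)) (f : HolFun) :
    γ • (algebraMap HolFun MerFun f) = algebraMap HolFun MerFun (γ • f) :=
  (algebraMap.coe_smul' γ f MerFun).symm

/-- The order of a meromorphic function (quotient of holomorphic functions) at `τ`. -/
noncomputable def ordMer (τ : ℍ) (h : MerFun) : ℤ := (HolFun.ordAt τ).frac MerFun h

theorem ordMer_zero (τ : ℍ) : ordMer τ 0 = 0 := OrdFn.frac_zero _ _

theorem ordMer_one (τ : ℍ) : ordMer τ 1 = 0 := OrdFn.frac_one _ _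

theorem ordMer_mul (τ : ℍ) {x y : MerFun} (hx : x ≠ 0) (hy : y ≠ 0) :
    ordMer τ (x * y) = ordMer τ x + ordMer τ y := OrdFn.frac_mul _ _ hx hy

theorem ordMer_inv (τ : ℍ) (x : MerFun) : ordMer τ x⁻¹ = -ordMer τ x := OrdFn.frac_inv _ _ x

theorem ordMer_div (τ : ℍ) {x y : MerFun} (hx : x ≠ 0) (hy : y ≠ 0) :
    ordMer τ (x / y) = ordMer τ x - ordMer τ y := OrdFn.frac_div' _ _ hx hy

theorem ordMer_pow (τ : ℍ) (x : MerFun) (n : ℕ) : ordMer τ (x ^ n) = n * ordMer τ x :=
  OrdFn.frac_pow _ _ x n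

theorem ordMer_neg (τ : ℍ) (x : MerFun) : ordMer τ (-x) = ordMer τ x := OrdFn.frac_neg _ _ x

theorem ordMer_add_ge (τ : ℍ) {x y : MerFun} (hx : x ≠ 0) (hy : y ≠ 0) (hxy : x + y ≠ 0) :
    min (ordMer τ x) (ordMer τ y) ≤ ordMer τ (x + y) := OrdFn.frac_add_ge _ _ hx hy hxy

theorem ordMer_algebraMap (τ : ℍ) {f : HolFun} (hf : f ≠ 0) :
    ordMer τ (algebraMap HolFun MerFun f) = ((HolFun.ordAt τ).nat f : ℤ) :=
  OrdFn.frac_algebraMap _ _ hf

theorem ordMer_algebraMap_nonneg (τ : ℍ) (f : HolFun) :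
    0 ≤ ordMer τ (algebraMap HolFun MerFun f) := by
  rcases eq_or_ne f 0 with rfl | hf
  · simp [ordMer_zero]
  · rw [ordMer_algebraMap τ hf]; exact Int.natCast_nonneg _

theorem ordMer_div_holFun (τ : ℍ) {a b : HolFun} (ha : a ≠ 0) (hb : b ≠ 0) :
    ordMer τ (algebraMap HolFun MerFun a / algebraMap HolFun MerFun b)
      = ((HolFun.ordAt τ).nat a : ℤ) - ((HolFun.ordAt τ).nat b : ℤ) :=
  OrdFn.frac_div _ _ ha hb

/-- Constants have order zero. -/
theorem ordMer_const (τ : ℍ) (c : ℂ) :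
    ordMer τ (algebraMap HolFun MerFun (algebraMap ℂ HolFun c)) = 0 := by
  rcases eq_or_ne c 0 with rfl | hc
  · simp [ordMer_zero]
  have hne : algebraMap ℂ HolFun c ≠ 0 := by
    intro h
    have := congrFun (congrArg Subtype.val h) I
    exact hc this
  rw [ordMer_algebraMap τ hne]
  have : HolFun.ordAt τ (algebraMap ℂ HolFun c) = 0 := by
    rw [HolFun.ordAt_eq_zero_iff]; exact hc
  simp [OrdFn.nat, this]

theorem ordMer_smul (g : GL(2, ℝ)⁺) (h : MerFun) (τ : ℍ) :
    ordMer τ (g • h) = ordMer (g⁻¹ • τ) h := by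
  rcases eq_or_ne h 0 with rfl | hh
  · simp [ordMer_zero]
  obtain ⟨a, b, hb, rfl⟩ := OrdFn.exists_div (R := HolFun) MerFun h
  have ha : a ≠ 0 := by rintro rfl; simp at hh
  have hga : g • a ≠ 0 := by
    intro h0
    exact ha (by simpa using congrArg (g⁻¹ • ·) h0)
  have hgb : g • b ≠ 0 := by
    intro h0
    exact hb (by simpa using congrArg (g⁻¹ • ·) h0)
  rw [smul_div₀', smul_algebraMap, smul_algebraMap, ordMer_div_holFun τ hga hgb,
    ordMer_div_holFun _ ha hb]
  simp only [OrdFn.nat, HolFun.ordAt_smul]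

theorem ordMer_sl_smul (γ : SL(2, ℤ)) (h : MerFun) (τ : ℍ) :
    ordMer τ (γ • h) = ordMer (γ⁻¹ • τ) h := by
  rcases eq_or_ne h 0 with rfl | hh
  · simp [ordMer_zero]
  obtain ⟨a, b, hb, rfl⟩ := OrdFn.exists_div (R := HolFun) MerFun h
  have ha : a ≠ 0 := by rintro rfl; simp at hh
  have hga : γ • a ≠ 0 := by
    intro h0
    exact ha (by simpa using congrArg (γ⁻¹ • ·) h0)
  have hgb : γ • b ≠ 0 := by
    intro h0
    exact hb (by simpa using congrArg (γ⁻¹ • ·) h0)
  rw [smul_div₀', sl_smul_algebraMap, sl_smul_algebraMap, ordMer_div_holFun τ hga hgb,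
    ordMer_div_holFun _ ha hb]
  simp only [OrdFn.nat, HolFun.ordAt_sl_smul]

end MerFun

end Fermat.Agent.S24
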