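import Mathlib
import Fermat.Agent.S24.JLevel
import Fermat.Agent.S24.SymmFn
import Fermat.Agent.S24.Growth
import Fermat.Agent.S24.CuspOrd
import Fermat.Agent.S24.Ord

/-!
helper32 (P-S24 Part III, package [E] `JD`).  The level functions `jd d : z ↦ j(d z)` of
`JLevel.lean` and the algebra they generate: moderate growth and `N`-periodicity of all
`SL(2, ℤ)`-translates.

* `jd_mem_growthAlg` : `jd d ∈ SymmFn.growthAlg`;
* `isCuspFn_smul_jd` : for `d ∣ N` every translate `g • jd d` is a cusp function of level `N`;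
* `cuspAlg N` : the subalgebra of `HolFun` of functions all of whose translates are cusp
  functions of level `N`; `smul_mem_cuspAlg`, `cuspAlg_le_growthAlg`, `jd_mem_cuspAlg`,
  `adjoin_jdSet_le_cuspAlg`, `jHol_mem_cuspAlg`;
* `smul_div_mem_cuspAlg`, `exists_smul_div_eq` : translates of quotients.
-/

set_option autoImplicit false

open UpperHalfPlane hiding I
open Complex Filter Function Topology
open scoped Real Manifold MatrixGroups

namespace Fermat.Agent.S24.JD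

open JLevel SymmFn CuspOrd

/-- `SymmFn.MG` is `ModGrowth`. -/
theorem mg_iff_modGrowth {f : ℍ → ℂ} : SymmFn.MG f ↔ ModGrowth f := Iff.rfl

/-- the integer matrix of `diag(d,1) * γ` -/
def jdMat (d : ℕ) (γ : SL(2, ℤ)) : Matrix (Fin 2) (Fin 2) ℤ :=
  !![(d : ℤ) * γ 0 0, (d : ℤ) * γ 0 1; γ 1 0, γ 1 1]

theorem jdMat_spec (d : ℕ) [NeZero d] (γ : SL(2, ℤ)) :
    ((diagGL' d * (γ : GL (Fin 2) ℝ) : GL (Fin 2) ℝ) : Matrix (Fin 2) (Fin 2) ℝ) =
      (jdMat d γ).map (Int.cast : ℤ → ℝ) := by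
  ext i j
  fin_cases i <;> fin_cases j <;>
    simp [jdMat, diagGL'_val, Matrix.mul_apply, Fin.sum_univ_two]

theorem det_diagGL'_mul_pos (d : ℕ) [NeZero d] (γ : SL(2, ℤ)) :
    0 < (diagGL' d * (γ : GL (Fin 2) ℝ)).det.val := by
  rw [map_mul, Units.val_mul]
  have : ((γ : GL (Fin 2) ℝ)).det.val = 1 := by simp
  rw [this, mul_one]
  exact det_diagGL'_pos d

/-- the translates of `jd d` as functions -/
theorem smul_jd_apply (d : ℕ) [NeZero d] (γ : SL(2, ℤ)) (z : ℍ) :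
    ((γ • jd d : HolFun) : ℍ → ℂ) z = jFn ((diagGL' d * ((γ⁻¹ : SL(2, ℤ)) : GL (Fin 2) ℝ)) • z) := by
  rw [HolFun.sl_smul_apply, jd_apply, mul_smul]
  rfl

/-- (c) all translates of `jd d` have moderate growth. -/
theorem jd_mem_growthAlg (d : ℕ) [NeZero d] : jd d ∈ SymmFn.growthAlg := by
  intro γ
  rw [mg_iff_modGrowth]
  have h := modGrowth_jFn_smul (diagGL' d * ((γ⁻¹ : SL(2, ℤ)) : GL (Fin 2) ℝ))
    (det_diagGL'_mul_pos d γ⁻¹) ⟨jdMat d γ⁻¹, jdMat_spec d γ⁻¹⟩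
  have heq : ((γ • jd d : HolFun) : ℍ → ℂ) =
      fun z => jFn ((diagGL' d * ((γ⁻¹ : SL(2, ℤ)) : GL (Fin 2) ℝ)) • z) :=
    funext (smul_jd_apply d γ)
  rw [heq]
  exact h

/-- conjugates of `T ^ N` lie in `Γ₀(N)` -/
theorem conj_T_pow_mem_Gamma0 (N : ℕ) (g : SL(2, ℤ)) :
    g⁻¹ * ModularGroup.T ^ (N : ℤ) * g ∈ CongruenceSubgroup.Gamma0 N := by
  have h1 : ModularGroup.T ^ (N : ℤ) ∈ CongruenceSubgroup.Gamma N := by
    have := CongruenceSubgroup.ModularGroup_T_pow_mem_Gamma (N : ℤ) (N : ℤ) dvd_rfl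
    simpa using this
  have h2 : g⁻¹ * ModularGroup.T ^ (N : ℤ) * g ∈ CongruenceSubgroup.Gamma N := by
    have := (CongruenceSubgroup.Gamma_normal (N := N)).conj_mem _ h1 g⁻¹
    simpa using this
  rw [CongruenceSubgroup.Gamma_mem] at h2
  rw [CongruenceSubgroup.Gamma0_mem]
  exact h2.2.2.1

/-- `N +ᵥ z = T ^ N • z` -/
theorem natCast_vadd_eq_T_zpow_smul (N : ℕ) (z : ℍ) :
    ((N : ℝ) +ᵥ z : ℍ) = ModularGroup.T ^ (N : ℤ) • z := by
  rw [UpperHalfPlane.modular_T_zpow_smul]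
  simp

/-- (f) periodicity of the translates of `jd d`, `d ∣ N`. -/
theorem isPer_smul_jd {N d : ℕ} [NeZero d] (hd : d ∣ N) (g : SL(2, ℤ)) :
    IsPer N ((g • jd d : HolFun) : ℍ → ℂ) := by
  intro z
  rw [HolFun.sl_smul_apply, HolFun.sl_smul_apply, jd_apply', jd_apply',
    natCast_vadd_eq_T_zpow_smul]
  have h : g⁻¹ • ModularGroup.T ^ (N : ℤ) • z =
      (g⁻¹ * ModularGroup.T ^ (N : ℤ) * g) • (g⁻¹ • z) := by
    rw [← mul_smul, ← mul_smul, mul_assoc, mul_assoc, mul_inv_cancel, mul_one]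
  rw [h]
  have := conj_T_pow_mem_Gamma0 N g
  exact jFn_scaleH_smul_of_mem_Gamma0 hd this (g⁻¹ • z)

/-- (f) the translates of `jd d`, `d ∣ N`, are cusp functions of level `N`. -/
theorem isCuspFn_smul_jd {N d : ℕ} [NeZero d] (hd : d ∣ N) (g : SL(2, ℤ)) :
    IsCuspFn N ((g • jd d : HolFun) : ℍ → ℂ) :=
  ⟨(g • jd d : HolFun).2, isPer_smul_jd hd g, jd_mem_growthAlg d g⟩

/-- (g) The subalgebra of holomorphic functions all of whose `SL(2,ℤ)`-translates are cusp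
functions of level `N` (holomorphic, `N`-periodic, moderate growth). -/
def cuspAlg (N : ℕ) : Subalgebra ℂ HolFun where
  carrier := {f | ∀ g : SL(2, ℤ), IsCuspFn N ((g • f : HolFun) : ℍ → ℂ)}
  mul_mem' {a b} ha hb g := by
    rw [smul_mul']
    exact (ha g).mul (hb g)
  one_mem' g := by
    rw [smul_one]
    exact isCuspFn_one N
  add_mem' {a b} ha hb g := by
    rw [smul_add]
    exact (ha g).add (hb g)
  zero_mem' g := by
    rw [smul_zero]
    exact isCuspFn_zero N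
  algebraMap_mem' c g := by
    rw [HolFun.sl_smul_algebraMap]
    exact isCuspFn_const N c

theorem mem_cuspAlg {N : ℕ} {f : HolFun} :
    f ∈ cuspAlg N ↔ ∀ g : SL(2, ℤ), IsCuspFn N ((g • f : HolFun) : ℍ → ℂ) := Iff.rfl

theorem isCuspFn_of_mem_cuspAlg {N : ℕ} {f : HolFun} (hf : f ∈ cuspAlg N) :
    IsCuspFn N (f : ℍ → ℂ) := by
  have := hf 1
  rwa [one_smul] at this

theorem smul_mem_cuspAlg {N : ℕ} {f : HolFun} (hf : f ∈ cuspAlg N) (γ : SL(2, ℤ)) :
    γ • f ∈ cuspAlg N := fun g => by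
  rw [← mul_smul]
  exact hf (g * γ)

theorem cuspAlg_le_growthAlg (N : ℕ) : cuspAlg N ≤ SymmFn.growthAlg :=
  fun _ hf g => (hf g).growth

theorem jd_mem_cuspAlg {N d : ℕ} [NeZero d] (hd : d ∣ N) : jd d ∈ cuspAlg N :=
  fun g => isCuspFn_smul_jd hd g

/-- the set of generators `jd d`, `d ∣ N` -/
def jdSet (N : ℕ) : Set HolFun := {f | ∃ (d : ℕ) (_ : NeZero d), d ∣ N ∧ f = jd d}

theorem jd_mem_jdSet {N d : ℕ} [NeZero d] (hd : d ∣ N) : jd d ∈ jdSet N := ⟨d, ‹_›, hd, rfl⟩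

theorem jdSet_subset_cuspAlg (N : ℕ) : jdSet N ⊆ cuspAlg N := by
  rintro f ⟨d, hd0, hd, rfl⟩
  exact jd_mem_cuspAlg hd

theorem adjoin_jdSet_le_cuspAlg (N : ℕ) : Algebra.adjoin ℂ (jdSet N) ≤ cuspAlg N :=
  Algebra.adjoin_le (jdSet_subset_cuspAlg N)

theorem adjoin_jdSet_le_growthAlg (N : ℕ) : Algebra.adjoin ℂ (jdSet N) ≤ SymmFn.growthAlg :=
  (adjoin_jdSet_le_cuspAlg N).trans (cuspAlg_le_growthAlg N)

theorem jd_one_eq_jHol : jd 1 = jHol := by
  apply HolFun.ext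
  intro z
  rw [jd_one_apply, jHol_apply]

theorem jHol_mem_cuspAlg (N : ℕ) : jHol ∈ cuspAlg N := by
  rw [← jd_one_eq_jHol]
  exact jd_mem_cuspAlg (one_dvd N)

/-- all translates of an element of the algebra generated by the `jd d` are cusp functions. -/
theorem isCuspFn_smul_of_mem_adjoin {N : ℕ} {f : HolFun} (hf : f ∈ Algebra.adjoin ℂ (jdSet N))
    (g : SL(2, ℤ)) : IsCuspFn N ((g • f : HolFun) : ℍ → ℂ) :=
  adjoin_jdSet_le_cuspAlg N hf g

/-- the algebra generated by the `jd d`, `d ∣ N`, is stable under `Γ₀(N)`... in fact every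
element is fixed by `Γ₀(N)`. -/
theorem smul_eq_of_mem_adjoin_of_mem_Gamma0 {N : ℕ} {f : HolFun}
    (hf : f ∈ Algebra.adjoin ℂ (jdSet N)) {γ : SL(2, ℤ)}
    (hγ : γ ∈ CongruenceSubgroup.Gamma0 N) : γ • f = f := by
  induction hf using Algebra.adjoin_induction with
  | mem x hx =>
    obtain ⟨d, hd0, hd, rfl⟩ := hx
    exact smul_jd_of_mem_Gamma0 hd hγ
  | algebraMap c => exact HolFun.sl_smul_algebraMap γ c
  | add x y _ _ hx hy => rw [smul_add, hx, hy]
  | mul x y _ _ hx hy => rw [smul_mul', hx, hy]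

/-- (h) translates of quotients of elements of `cuspAlg N` are quotients of elements of
`cuspAlg N`. -/
theorem smul_div_mem_cuspAlg {N : ℕ} {a e : HolFun} (ha : a ∈ cuspAlg N) (he : e ∈ cuspAlg N)
    (g : SL(2, ℤ)) :
    g • (algebraMap HolFun MerFun a / algebraMap HolFun MerFun e) =
      algebraMap HolFun MerFun (g • a) / algebraMap HolFun MerFun (g • e) ∧
      g • a ∈ cuspAlg N ∧ g • e ∈ cuspAlg N := by
  refine ⟨?_, smul_mem_cuspAlg ha g, smul_mem_cuspAlg he g⟩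
  rw [smul_div₀', MerFun.sl_smul_algebraMap, MerFun.sl_smul_algebraMap]

theorem smul_ne_zero_of_ne_zero {e : HolFun} (he : e ≠ 0) (g : SL(2, ℤ)) : g • e ≠ 0 := by
  intro h0
  exact he (by simpa using congrArg (g⁻¹ • ·) h0)

/-- (h), existential form: every translate of `a / e` with `a, e ∈ cuspAlg N`, `e ≠ 0`, is of
the same form. -/
theorem exists_smul_div_eq {N : ℕ} {a e : HolFun} (ha : a ∈ cuspAlg N) (he : e ∈ cuspAlg N)
    (he0 : e ≠ 0) (g : SL(2, ℤ)) :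
    ∃ a' e' : HolFun, a' ∈ cuspAlg N ∧ e' ∈ cuspAlg N ∧ e' ≠ 0 ∧
      g • (algebraMap HolFun MerFun a / algebraMap HolFun MerFun e) =
        algebraMap HolFun MerFun a' / algebraMap HolFun MerFun e' :=
  ⟨g • a, g • e, smul_mem_cuspAlg ha g, smul_mem_cuspAlg he g, smul_ne_zero_of_ne_zero he0 g,
    (smul_div_mem_cuspAlg ha he g).1⟩

end Fermat.Agent.S24.JD
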