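import Fermat.Agent.S24.Conj
import Fermat.Agent.S24.CuspOrdMer
import Fermat.Agent.S24.FinalAbs
import Fermat.Agent.S24.JD

/-!
helper6 (P-S24 Part IV, package [C] `AssembleInf`).  The place counting input at the cusp `∞`:
for an analytic realisation `D : Conj.EmbData N` of the function field of `X₀(N)` all of whose
conjugates are quotients of cusp functions of level `N`, the valuations
`w b f := ordInfMer N (σ_b f)` satisfy the hypotheses `Final.PCInput` of the place counting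
theorem for `y = (jF N)⁻¹` and the permutation `T` of `SL(2,ℤ) ⧸ Γ₀(N)`, with `m = N`.
-/

set_option autoImplicit false

open UpperHalfPlane ModularCurve CongruenceSubgroup IntermediateField
open scoped MatrixGroups

namespace Fermat.Agent.S24.AssembleInf

open Setup Conj CuspOrd

/-! ### Periods of `T` on the cosets -/

theorem T_pow_smul_coset (N : ℕ) (b : SL(2, ℤ) ⧸ Gamma0 N) : ModularGroup.T ^ N • b = b := by
  induction b using QuotientGroup.induction_on with
  | H a =>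
    show ((ModularGroup.T ^ N * a : SL(2, ℤ)) : SL(2, ℤ) ⧸ Gamma0 N) = (a : SL(2, ℤ) ⧸ Gamma0 N)
    rw [eq_comm, QuotientGroup.eq]
    have h := JD.conj_T_pow_mem_Gamma0 N a
    rw [zpow_natCast] at h
    rw [← mul_assoc]
    exact h

theorem toPerm_iterate {G X : Type*} [Group G] [MulAction G X] (g : G) (k : ℕ) (b : X) :
    ((MulAction.toPerm g : Equiv.Perm X) : X → X)^[k] b = g ^ k • b := by
  have h : ((MulAction.toPerm g : Equiv.Perm X) : X → X) = (g • · : X → X) := rfl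
  rw [h, smul_iterate]

theorem minimalPeriod_T_dvd (N : ℕ) (b : SL(2, ℤ) ⧸ Gamma0 N) :
    Function.minimalPeriod (MulAction.toPerm ModularGroup.T : Equiv.Perm (SL(2, ℤ) ⧸ Gamma0 N)) b
      ∣ N := by
  apply Function.IsPeriodicPt.minimalPeriod_dvd
  show ((MulAction.toPerm ModularGroup.T : Equiv.Perm (SL(2, ℤ) ⧸ Gamma0 N)) :
    SL(2, ℤ) ⧸ Gamma0 N → SL(2, ℤ) ⧸ Gamma0 N)^[N] b = b
  rw [toPerm_iterate, T_pow_smul_coset]

theorem T_pow_minimalPeriod_smul (N : ℕ) (b : SL(2, ℤ) ⧸ Gamma0 N) :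
    ModularGroup.T ^ (Function.minimalPeriod
      (MulAction.toPerm ModularGroup.T : Equiv.Perm (SL(2, ℤ) ⧸ Gamma0 N)) b) • b = b := by
  rw [← toPerm_iterate]
  exact Function.isPeriodicPt_minimalPeriod _ _

/-! ### Products -/

theorem isCuspMer_prod {N : ℕ} {ι : Type*} (s : Finset ι) (h : ι → MerFun)
    (hc : ∀ i ∈ s, IsCuspMer N (h i)) : IsCuspMer N (∏ i ∈ s, h i) := by
  classical
  induction s using Finset.induction_on with
  | empty => simpa using isCuspMer_one N
  | insert a s ha ih =>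
    rw [Finset.prod_insert ha]
    exact (hc a (Finset.mem_insert_self _ _)).mul
      (ih fun i hi => hc i (Finset.mem_insert_of_mem hi))

theorem ordInfMer_prod {N : ℕ} (hN : 0 < N) {ι : Type*} (s : Finset ι) (h : ι → MerFun)
    (hc : ∀ i ∈ s, IsCuspMer N (h i)) (hne : ∀ i ∈ s, h i ≠ 0) :
    ordInfMer N (∏ i ∈ s, h i) = ∑ i ∈ s, ordInfMer N (h i) := by
  classical
  induction s using Finset.induction_on with
  | empty => simp [ordInfMer_one hN]
  | insert a s ha ih =>
    rw [Finset.prod_insert ha, Finset.sum_insert ha,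
      ordInfMer_mul hN (hc a (Finset.mem_insert_self _ _))
        (isCuspMer_prod s h fun i hi => hc i (Finset.mem_insert_of_mem hi))
        (hne a (Finset.mem_insert_self _ _))
        (Finset.prod_ne_zero_iff.mpr fun i hi => hne i (Finset.mem_insert_of_mem hi)),
      ih (fun i hi => hc i (Finset.mem_insert_of_mem hi))
        (fun i hi => hne i (Finset.mem_insert_of_mem hi))]

/-! ### The valuations at `∞` -/

variable {N : ℕ} (D : EmbData N)

/-- The order at `∞` (in the parameter `q_N`) of the conjugate `σ_b f`. -/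
noncomputable def wInf (b : SL(2, ℤ) ⧸ Gamma0 N) (f : FF N) : ℤ := ordInfMer N (sigma D b f)

section

variable (hcusp : ∀ (x : FF N) (g : SL(2, ℤ)), IsCuspMer N (g • D.emb x))
include hcusp

theorem isCuspMer_sigma (b : SL(2, ℤ) ⧸ Gamma0 N) (f : FF N) : IsCuspMer N (sigma D b f) := by
  induction b using QuotientGroup.induction_on with
  | H a => rw [sigma_mk, tw_apply]; exact hcusp f a

theorem isAddVal_wInf (hN : 0 < N) (b : SL(2, ℤ) ⧸ Gamma0 N) : IsAddVal Kbar (wInf D b) :=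
  isAddVal_ordInfMer_comp hN (sigma D b) (fun c => iota c) (isCuspMer_sigma D hcusp b)
    (fun c => sigma_const D b c)

theorem wInf_T_smul (hN : 0 < N) (b : SL(2, ℤ) ⧸ Gamma0 N) (f : FF N) :
    wInf D (ModularGroup.T • b) f = wInf D b f := by
  rw [wInf, ← smul_sigma, ordInfMer_T_smul hN (isCuspMer_sigma D hcusp b f)]
  rfl

theorem dvd_wInf (hN : 0 < N) (b : SL(2, ℤ) ⧸ Gamma0 N) (f : FF N) :
    ((N / Function.minimalPeriod
      (MulAction.toPerm ModularGroup.T : Equiv.Perm (SL(2, ℤ) ⧸ Gamma0 N)) b : ℕ) : ℤ) ∣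
      wInf D b f := by
  refine dvd_ordInfMer hN (minimalPeriod_T_dvd N b) (isCuspMer_sigma D hcusp b f) ?_
  rw [smul_sigma, T_pow_minimalPeriod_smul]

omit hcusp in
theorem wInf_jF_inv (hN : 0 < N) (b : SL(2, ℤ) ⧸ Gamma0 N) : wInf D b (jF N)⁻¹ = N := by
  rw [wInf, map_inv₀, sigma_jF, ordInfMer_jHol_inv hN]

theorem sum_wInf [NeZero N] [FiniteDimensional Kbar⟮jF N⟯ (FF N)] (hN : 0 < N)
    (hnorm : ∀ (b0 : SL(2, ℤ) ⧸ Gamma0 N) (f : FF N),
        sigma D b0 (algebraMap Kbar⟮jF N⟯ (FF N) (Algebra.norm Kbar⟮jF N⟯ f))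
          = ∏ b, sigma D b f)
    (b0 : SL(2, ℤ) ⧸ Gamma0 N) (f : FF N) (hf : f ≠ 0) :
    ∑ b, wInf D b f
      = wInf D b0 (algebraMap Kbar⟮jF N⟯ (FF N) (Algebra.norm Kbar⟮jF N⟯ f)) := by
  rw [wInf, hnorm b0 f, ordInfMer_prod hN _ _ (fun b _ => isCuspMer_sigma D hcusp b f)
    (fun b _ => sigma_ne_zero D b hf)]
  rfl

/-- **The place counting input at `∞`.** -/
theorem pcInput_inf [NeZero N] [FiniteDimensional Kbar⟮jF N⟯ (FF N)]
    (hnorm : ∀ (b0 : SL(2, ℤ) ⧸ Gamma0 N) (f : FF N),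
        sigma D b0 (algebraMap Kbar⟮jF N⟯ (FF N) (Algebra.norm Kbar⟮jF N⟯ f))
          = ∏ b, sigma D b f) :
    Final.PCInput Kbar (jF N) (jF N)⁻¹
      (MulAction.toPerm ModularGroup.T : Equiv.Perm (SL(2, ℤ) ⧸ Gamma0 N)) := by
  have hN : 0 < N := Nat.pos_of_neZero N
  refine ⟨N, wInf D, ((1 : SL(2, ℤ)) : SL(2, ℤ) ⧸ Gamma0 N), hN, isAddVal_wInf D hcusp hN,
    wInf_jF_inv D hN, fun f hf => sum_wInf D hcusp hN hnorm _ f hf,
    fun b f => wInf_T_smul D hcusp hN b f, minimalPeriod_T_dvd N,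
    fun b f _ => dvd_wInf D hcusp hN b f⟩

end

end Fermat.Agent.S24.AssembleInf
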