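import Mathlib.FieldTheory.PrimitiveElement
import Mathlib.RingTheory.Norm.Transitivity
import Mathlib.FieldTheory.IsAlgClosed.AlgebraicClosure
import Mathlib.FieldTheory.Perfect
import Mathlib.FieldTheory.Minpoly.Field

/-!
helper19 (P-S24 Part III).  Pure field theory: a field extension `F / E0` all of whose elements
have degree at most `n`, together with `n` pairwise distinct `E0`-embeddings into a field `M`,
has degree exactly `n`, and the norm is the product of the embeddings.
-/

set_option autoImplicit false

open Polynomial IntermediateField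

namespace Fermat.Agent.S24.NormProd

section degree

variable {E0 F : Type*} [Field E0] [Field F] [Algebra E0 F]

/-- If `a` is a root of a nonzero polynomial of degree at most `n`, then `x = a / e` (with `e ≠ 0`
in the base field) is integral with minimal polynomial of degree at most `n`. -/
theorem isIntegral_and_natDegree_minpoly_le {n : ℕ} {a x : F} {e : E0} (he : e ≠ 0)
    (hx : x = a / algebraMap E0 F e) {p : E0[X]} (hp0 : p ≠ 0) (hpn : p.natDegree ≤ n)
    (hpa : aeval a p = 0) : IsIntegral E0 x ∧ (minpoly E0 x).natDegree ≤ n := by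
  have he' : algebraMap E0 F e ≠ 0 := by
    rw [Ne, map_eq_zero_iff _ (FaithfulSMul.algebraMap_injective E0 F)]; exact he
  set q : E0[X] := p.comp (C e * X) with hq
  have hqx : aeval x q = 0 := by
    rw [hq, aeval_comp]
    have : aeval x (C e * X : E0[X]) = a := by
      rw [map_mul, aeval_C, aeval_X, hx, mul_div_cancel₀ _ he']
    rw [this, hpa]
  have hq0 : q ≠ 0 := by
    intro h
    rw [hq, comp_eq_zero_iff] at h
    rcases h with h | ⟨_, h⟩
    · exact hp0 h
    · have h1 := congrArg (fun r : E0[X] => r.coeff 1) h
      simp at h1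
      exact he h1
  have hqn : q.natDegree ≤ n := by
    refine (natDegree_comp_le).trans ?_
    have : (C e * X : E0[X]).natDegree ≤ 1 := by
      refine (natDegree_C_mul_le _ _).trans ?_
      simp
    calc p.natDegree * (C e * X : E0[X]).natDegree ≤ p.natDegree * 1 :=
          Nat.mul_le_mul_left _ this
      _ = p.natDegree := mul_one _
      _ ≤ n := hpn
  have hint : IsIntegral E0 x := isAlgebraic_iff_isIntegral.mp ⟨q, hq0, hqx⟩
  refine ⟨hint, ?_⟩
  have := minpoly.degree_le_of_ne_zero E0 x hq0 hqx
  exact (natDegree_le_natDegree this).trans hqn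

/-- A separable algebraic extension in which every element has degree at most `n` is finite
of degree at most `n`. -/
theorem finiteDimensional_and_finrank_le_of_natDegree_minpoly_le [Algebra.IsSeparable E0 F]
    {n : ℕ} (h : ∀ x : F, (minpoly E0 x).natDegree ≤ n) :
    FiniteDimensional E0 F ∧ Module.finrank E0 F ≤ n := by
  have : Algebra.IsAlgebraic E0 F := Algebra.IsSeparable.isAlgebraic E0 F
  have key : ∀ L : IntermediateField E0 F, FiniteDimensional E0 L → Module.finrank E0 L ≤ n := by
    intro L hL
    have : Algebra.IsSeparable E0 L := Algebra.isSeparable_tower_bot_of_isSeparable E0 L F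
    obtain ⟨α, hα⟩ := Field.exists_primitive_element E0 L
    have h1 := (Field.primitive_element_iff_minpoly_natDegree_eq E0 α).mp hα
    rw [← h1]
    have h2 : minpoly E0 (α : F) = minpoly E0 α := (IntermediateField.minpoly_eq α).symm
    rw [← h2]
    exact h _
  have hfd : FiniteDimensional E0 F := by
    by_contra hnfd
    obtain ⟨L, hL, hlt⟩ := exists_lt_finrank_of_infinite_dimensional hnfd n
    exact absurd (key L hL) (not_le.mpr hlt)
  refine ⟨hfd, ?_⟩
  have := key ⊤ (topEquiv.symm.toLinearEquiv.finiteDimensional)
  rwa [IntermediateField.finrank_top'] at this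

end degree

section embeddings

variable {E0 F M : Type*} [Field E0] [Field F] [Field M] [Algebra E0 F]

/-- If a finite separable extension `F / E0` of degree at most `card X` has `card X` pairwise
distinct embeddings into a field `M` that agree on `E0`, then the degree is `card X` and the
norm is the product of the embeddings. -/
theorem finrank_eq_card_and_norm_eq_prod_of_finrank_le [FiniteDimensional E0 F]
    [Algebra.IsSeparable E0 F] {X : Type*} [Fintype X] (sig : X → F →+* M)
    (hinj : Function.Injective sig)
    (hagree : ∀ b b' (e : E0), sig b (algebraMap E0 F e) = sig b' (algebraMap E0 F e))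
    (hle : Module.finrank E0 F ≤ Fintype.card X) :
    Module.finrank E0 F = Fintype.card X ∧
      ∀ (b0 : X) (f : F), sig b0 (algebraMap E0 F (Algebra.norm E0 f)) = ∏ b, sig b f := by
  classical
  rcases isEmpty_or_nonempty X with hX | ⟨⟨b0⟩⟩
  · have h0 : Module.finrank E0 F = 0 := by
      have : Fintype.card X = 0 := Fintype.card_eq_zero
      omega
    have hpos : 0 < Module.finrank E0 F := Module.finrank_pos
    omega
  let Ω := AlgebraicClosure M
  let algΩ : Algebra E0 Ω :=
    (((algebraMap M Ω).comp (sig b0)).comp (algebraMap E0 F)).toAlgebra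
  have halg : ∀ e : E0, algebraMap E0 Ω e = algebraMap M Ω (sig b0 (algebraMap E0 F e)) :=
    fun e => rfl
  let τ : X → (F →ₐ[E0] Ω) := fun b =>
    { toRingHom := (algebraMap M Ω).comp (sig b)
      commutes' := fun e => by
        change algebraMap M Ω (sig b (algebraMap E0 F e)) = _
        rw [halg, hagree b b0] }
  have hτ : ∀ b f, τ b f = algebraMap M Ω (sig b f) := fun b f => rfl
  have hτinj : Function.Injective τ := by
    intro b b' h
    apply hinj
    ext f
    have := DFunLike.congr_fun h f
    rw [hτ, hτ] at this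
    exact (algebraMap M Ω).injective this
  have hcard : Fintype.card (F →ₐ[E0] Ω) = Module.finrank E0 F := AlgHom.card E0 F Ω
  have hge : Fintype.card X ≤ Module.finrank E0 F := by
    rw [← hcard]
    exact Fintype.card_le_of_injective τ hτinj
  have heq : Module.finrank E0 F = Fintype.card X := le_antisymm hle hge
  refine ⟨heq, ?_⟩
  have hbij : Function.Bijective τ := by
    rw [Fintype.bijective_iff_injective_and_card]
    exact ⟨hτinj, by rw [hcard, heq]⟩
  intro b1 f
  apply (algebraMap M Ω).injective
  rw [map_prod]
  have h1 : algebraMap M Ω (sig b1 (algebraMap E0 F (Algebra.norm E0 f)))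
      = algebraMap E0 Ω (Algebra.norm E0 f) := by
    rw [halg, hagree b1 b0]
  rw [h1, Algebra.norm_eq_prod_embeddings E0 Ω f]
  exact (Fintype.prod_bijective τ hbij _ _ (fun b => (hτ b f))).symm

/-- Main statement (shape requested by helper77): bounded degree on a generating set up to
denominators in `E0`, plus `card X` distinct embeddings agreeing on `E0`. -/
theorem finrank_eq_card_and_norm_eq_prod [Algebra.IsSeparable E0 F]
    {X : Type*} [Fintype X] (sig : X → F →+* M) (hinj : Function.Injective sig)
    (hagree : ∀ b b' (e : E0), sig b (algebraMap E0 F e) = sig b' (algebraMap E0 F e))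
    (A : Set F)
    (hgen : ∀ x : F, ∃ a ∈ A, ∃ e : E0, e ≠ 0 ∧ x = a / algebraMap E0 F e)
    (hdeg : ∀ a ∈ A, ∃ p : E0[X], p ≠ 0 ∧ p.natDegree ≤ Fintype.card X ∧ aeval a p = 0) :
    FiniteDimensional E0 F ∧ Module.finrank E0 F = Fintype.card X ∧
      ∀ (b0 : X) (f : F), sig b0 (algebraMap E0 F (Algebra.norm E0 f)) = ∏ b, sig b f := by
  have hb : ∀ x : F, (minpoly E0 x).natDegree ≤ Fintype.card X := by
    intro x
    obtain ⟨a, haA, e, he, hx⟩ := hgen x
    obtain ⟨p, hp0, hpn, hpa⟩ := hdeg a haA
    exact (isIntegral_and_natDegree_minpoly_le he hx hp0 hpn hpa).2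
  obtain ⟨hfd, hle⟩ := finiteDimensional_and_finrank_le_of_natDegree_minpoly_le hb
  obtain ⟨h1, h2⟩ := finrank_eq_card_and_norm_eq_prod_of_finrank_le sig hinj hagree hle
  exact ⟨hfd, h1, h2⟩

/-- Characteristic zero version. -/
theorem finrank_eq_card_and_norm_eq_prod_of_charZero [CharZero E0]
    {X : Type*} [Fintype X] (sig : X → F →+* M) (hinj : Function.Injective sig)
    (hagree : ∀ b b' (e : E0), sig b (algebraMap E0 F e) = sig b' (algebraMap E0 F e))
    (A : Set F)
    (hgen : ∀ x : F, ∃ a ∈ A, ∃ e : E0, e ≠ 0 ∧ x = a / algebraMap E0 F e)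
    (hdeg : ∀ a ∈ A, ∃ p : E0[X], p ≠ 0 ∧ p.natDegree ≤ Fintype.card X ∧ aeval a p = 0) :
    FiniteDimensional E0 F ∧ Module.finrank E0 F = Fintype.card X ∧
      ∀ (b0 : X) (f : F), sig b0 (algebraMap E0 F (Algebra.norm E0 f)) = ∏ b, sig b f := by
  have halg : Algebra.IsAlgebraic E0 F := by
    refine ⟨fun x => ?_⟩
    obtain ⟨a, haA, e, he, hx⟩ := hgen x
    obtain ⟨p, hp0, hpn, hpa⟩ := hdeg a haA
    exact (isIntegral_and_natDegree_minpoly_le he hx hp0 hpn hpa).1.isAlgebraic
  have : Algebra.IsSeparable E0 F := Algebra.IsAlgebraic.isSeparable_of_perfectField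
  exact finrank_eq_card_and_norm_eq_prod sig hinj hagree A hgen hdeg

end embeddings

end Fermat.Agent.S24.NormProd
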