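/-
S24, Part III: the conjugate embeddings `σ_b : F →+* MerFun`, `b ∈ SL(2,ℤ) ⧸ Γ₀(N)`,
of the function field `F` of `X₀(N)` into the field of meromorphic functions on `ℍ`,
degree and norm.
-/
import Fermat.Agent.S24.Setup
import Fermat.Agent.S24.Ord
import Fermat.Agent.S24.SymmFn
import Fermat.Agent.S24.NormProd
import Fermat.Agent.S24.AddVal

set_option autoImplicit false

noncomputable section

open UpperHalfPlane ModularCurve CongruenceSubgroup IntermediateField
open scoped MatrixGroups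

namespace Fermat.Agent.S24.Conj

open Setup

/-- Two ring homomorphisms out of `K(G)` into a field which agree on `K` and on `G` are equal. -/
theorem ringHom_eq_of_adjoin {K L M : Type*} [Field K] [Field L] [Algebra K L] [Field M]
    (G : Set L) (f g : IntermediateField.adjoin K G →+* M)
    (hK : ∀ c : K, f (algebraMap K _ c) = g (algebraMap K _ c))
    (hG : ∀ x (hx : x ∈ G), f ⟨x, subset_adjoin K G hx⟩ = g ⟨x, subset_adjoin K G hx⟩) :
    f = g := by
  refine RingHom.ext fun x => ?_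
  obtain ⟨x, hx⟩ := x
  induction hx using IntermediateField.adjoin_induction with
  | mem x hx => exact hG x hx
  | algebraMap c => exact hK c
  | add x y hx hy h1 h2 =>
    have : (⟨x + y, add_mem hx hy⟩ : IntermediateField.adjoin K G) = ⟨x, hx⟩ + ⟨y, hy⟩ := rfl
    rw [this, map_add, map_add, h1, h2]
  | inv x hx h1 =>
    have : (⟨x⁻¹, inv_mem hx⟩ : IntermediateField.adjoin K G) = (⟨x, hx⟩)⁻¹ := rfl
    rw [this, map_inv₀, map_inv₀, h1]
  | mul x y hx hy h1 h2 =>
    have : (⟨x * y, mul_mem hx hy⟩ : IntermediateField.adjoin K G) = ⟨x, hx⟩ * ⟨y, hy⟩ := rfl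
    rw [this, map_mul, map_mul, h1, h2]

/-- Constant functions as elements of `MerFun`. -/
def const (c : ℂ) : MerFun := algebraMap HolFun MerFun (algebraMap ℂ HolFun c)

theorem sl_smul_const (γ : SL(2, ℤ)) (c : ℂ) : γ • const c = const c := by
  rw [const, MerFun.sl_smul_algebraMap, HolFun.sl_smul_algebraMap]

theorem const_ne_zero {c : ℂ} (hc : c ≠ 0) : const c ≠ 0 := by
  rw [const, Ne, map_eq_zero_iff _ (IsFractionRing.injective HolFun MerFun)]
  intro h
  exact hc (congrFun (congrArg Subtype.val h) I)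

theorem ordMer_const (τ : ℍ) (c : ℂ) : MerFun.ordMer τ (const c) = 0 := MerFun.ordMer_const τ c

/-- The analytic realisation of the function field of `X₀(N)`: an embedding into the
meromorphic functions on `ℍ` whose image is exactly fixed by `Γ₀(N)`. -/
structure EmbData (N : ℕ) where
  /-- the embedding -/
  emb : FF N →+* MerFun
  emb_const : ∀ c : Kbar, emb (algebraMap Kbar (FF N) c) = const (iota c)
  emb_jF : emb (jF N) = algebraMap HolFun MerFun jHol
  fixed : ∀ γ ∈ Gamma0 N, ∀ x, γ • emb x = emb x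
  stab : ∀ γ : SL(2, ℤ), (∀ x, γ • emb x = emb x) → γ ∈ Gamma0 N

variable {N : ℕ} (D : EmbData N)

/-- The embedding twisted by `g ∈ SL(2,ℤ)`. -/
def tw (g : SL(2, ℤ)) : FF N →+* MerFun :=
  (MulSemiringAction.toRingHom SL(2, ℤ) MerFun g).comp D.emb

@[simp] theorem tw_apply (g : SL(2, ℤ)) (x : FF N) : tw D g x = g • D.emb x := rfl

theorem tw_eq_of_rel {a c : SL(2, ℤ)} (h : a⁻¹ * c ∈ Gamma0 N) : tw D a = tw D c := by
  ext x
  rw [tw_apply, tw_apply]
  calc a • D.emb x = a • ((a⁻¹ * c) • D.emb x) := by rw [D.fixed _ h]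
    _ = c • D.emb x := by rw [← mul_smul, mul_inv_cancel_left]

/-- The conjugate embeddings, indexed by the left cosets of `Γ₀(N)`. -/
def sigma (b : SL(2, ℤ) ⧸ Gamma0 N) : FF N →+* MerFun :=
  Quotient.liftOn' b (tw D) fun _ _ hac => tw_eq_of_rel D (QuotientGroup.leftRel_apply.mp hac)

@[simp] theorem sigma_mk (g : SL(2, ℤ)) : sigma D (QuotientGroup.mk g) = tw D g := rfl

theorem smul_sigma (g : SL(2, ℤ)) (b : SL(2, ℤ) ⧸ Gamma0 N) (x : FF N) :
    g • sigma D b x = sigma D (g • b) x := by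
  induction b using QuotientGroup.induction_on with
  | H a =>
    rw [sigma_mk, tw_apply, ← mul_smul]
    rfl

theorem sigma_const (b : SL(2, ℤ) ⧸ Gamma0 N) (c : Kbar) :
    sigma D b (algebraMap Kbar (FF N) c) = const (iota c) := by
  induction b using QuotientGroup.induction_on with
  | H a => rw [sigma_mk, tw_apply, D.emb_const, sl_smul_const]

theorem sigma_jF (b : SL(2, ℤ) ⧸ Gamma0 N) :
    sigma D b (jF N) = algebraMap HolFun MerFun jHol := by
  induction b using QuotientGroup.induction_on with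
  | H a => rw [sigma_mk, tw_apply, D.emb_jF, MerFun.sl_smul_algebraMap, sl_smul_jHol]

theorem sigma_injective : Function.Injective (sigma D) := by
  intro b b' h
  induction b using QuotientGroup.induction_on with
  | H a =>
  induction b' using QuotientGroup.induction_on with
  | H c =>
    rw [sigma_mk, sigma_mk] at h
    rw [QuotientGroup.eq]
    refine D.stab _ fun x => ?_
    have hx := DFunLike.congr_fun h x
    rw [tw_apply, tw_apply] at hx
    rw [mul_smul, ← hx, ← mul_smul, inv_mul_cancel, one_smul]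

theorem sigma_agree (b b' : SL(2, ℤ) ⧸ Gamma0 N) (e : Kbar⟮jF N⟯) :
    sigma D b (algebraMap Kbar⟮jF N⟯ (FF N) e) = sigma D b' (algebraMap Kbar⟮jF N⟯ (FF N) e) := by
  have h := ringHom_eq_of_adjoin (K := Kbar) {jF N}
    ((sigma D b).comp (algebraMap Kbar⟮jF N⟯ (FF N)))
    ((sigma D b').comp (algebraMap Kbar⟮jF N⟯ (FF N)))
    (fun c => by
      show sigma D b (algebraMap Kbar (FF N) c) = sigma D b' (algebraMap Kbar (FF N) c)
      rw [sigma_const, sigma_const])
    (fun x hx => by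
      rw [Set.mem_singleton_iff] at hx
      subst hx
      show sigma D b (jF N) = sigma D b' (jF N)
      rw [sigma_jF, sigma_jF])
  exact DFunLike.congr_fun h e

/-! ### Degree and norm -/

theorem card_quotient [NeZero N] : Fintype.card (SL(2, ℤ) ⧸ Gamma0 N) = (Gamma0 N).index := by
  rw [Subgroup.index, Nat.card_eq_fintype_card]

/-- **Degree and norm.** Given the generation statement `hgen` (GenRing) and the degree bound
`hdeg` (Embed), the function field has degree `[SL(2,ℤ) : Γ₀(N)]` over `K(j)` and the norm is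
the product of the conjugates. -/
theorem finrank_and_norm [NeZero N]
    (hgen : ∀ x : FF N, ∃ a ∈ (Algebra.adjoin Kbar (genSetF N) : Set (FF N)),
      ∃ e : Kbar⟮jF N⟯, e ≠ 0 ∧ x = a / algebraMap Kbar⟮jF N⟯ (FF N) e)
    (hdeg : ∀ a ∈ (Algebra.adjoin Kbar (genSetF N) : Set (FF N)),
      ∃ p : Polynomial Kbar⟮jF N⟯, p ≠ 0 ∧ p.natDegree ≤ (Gamma0 N).index ∧
        Polynomial.aeval a p = 0) :
    FiniteDimensional Kbar⟮jF N⟯ (FF N) ∧
      Module.finrank Kbar⟮jF N⟯ (FF N) = (Gamma0 N).index ∧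
      ∀ (b0 : SL(2, ℤ) ⧸ Gamma0 N) (f : FF N),
        sigma D b0 (algebraMap Kbar⟮jF N⟯ (FF N) (Algebra.norm Kbar⟮jF N⟯ f))
          = ∏ b, sigma D b f := by
  have h := NormProd.finrank_eq_card_and_norm_eq_prod_of_charZero (E0 := Kbar⟮jF N⟯)
    (F := FF N) (M := MerFun) (sigma D) (sigma_injective D) (sigma_agree D)
    (Algebra.adjoin Kbar (genSetF N) : Set (FF N)) hgen
    (fun a ha => by
      obtain ⟨p, hp0, hpn, hpa⟩ := hdeg a ha
      exact ⟨p, hp0, by rw [card_quotient]; exact hpn, hpa⟩)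
  rw [card_quotient] at h
  exact h

/-! ### The valuations attached to a point of `ℍ` -/

/-- The order at `τ` of the conjugate `σ_b f`. -/
def wFin (τ : ℍ) (b : SL(2, ℤ) ⧸ Gamma0 N) (f : FF N) : ℤ := MerFun.ordMer τ (sigma D b f)

theorem sigma_ne_zero (b : SL(2, ℤ) ⧸ Gamma0 N) {f : FF N} (hf : f ≠ 0) : sigma D b f ≠ 0 :=
  (map_ne_zero_iff _ (sigma D b).injective).mpr hf

theorem isAddVal_wFin (τ : ℍ) (b : SL(2, ℤ) ⧸ Gamma0 N) : IsAddVal Kbar (wFin D τ b) where
  map_mul f g hf hg := by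
    simp only [wFin]
    rw [map_mul, MerFun.ordMer_mul τ (sigma_ne_zero D b hf) (sigma_ne_zero D b hg)]
  map_add f g hf hg hfg := by
    simp only [wFin]
    rw [map_add]
    exact MerFun.ordMer_add_ge τ (sigma_ne_zero D b hf) (sigma_ne_zero D b hg)
      (by rw [← map_add]; exact sigma_ne_zero D b hfg)
  map_const c _ := by
    simp only [wFin]
    rw [sigma_const, ordMer_const]

theorem wFin_smul (τ : ℍ) (g : SL(2, ℤ)) (hg : g • τ = τ) (b : SL(2, ℤ) ⧸ Gamma0 N) (f : FF N) :
    wFin D τ (g • b) f = wFin D τ b f := by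
  rw [wFin, ← smul_sigma, MerFun.ordMer_sl_smul]
  have : g⁻¹ • τ = τ := by
    conv_lhs => rw [← hg]
    rw [← mul_smul, inv_mul_cancel, one_smul]
  rw [this]
  rfl

theorem ordMer_prod {ι : Type*} (τ : ℍ) (s : Finset ι) (h : ι → MerFun) (hne : ∀ i ∈ s, h i ≠ 0) :
    MerFun.ordMer τ (∏ i ∈ s, h i) = ∑ i ∈ s, MerFun.ordMer τ (h i) := by
  classical
  induction s using Finset.induction_on with
  | empty => simp [MerFun.ordMer_one]
  | insert a s ha ih =>
    rw [Finset.prod_insert ha, Finset.sum_insert ha,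
      MerFun.ordMer_mul τ (hne a (Finset.mem_insert_self _ _))
        (Finset.prod_ne_zero_iff.mpr fun i hi => hne i (Finset.mem_insert_of_mem hi)),
      ih fun i hi => hne i (Finset.mem_insert_of_mem hi)]

/-- Compatibility of the valuations with the norm. -/
theorem sum_wFin [NeZero N] [FiniteDimensional Kbar⟮jF N⟯ (FF N)]
    (hnorm : ∀ (b0 : SL(2, ℤ) ⧸ Gamma0 N) (f : FF N),
        sigma D b0 (algebraMap Kbar⟮jF N⟯ (FF N) (Algebra.norm Kbar⟮jF N⟯ f))
          = ∏ b, sigma D b f)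
    (τ : ℍ) (b0 : SL(2, ℤ) ⧸ Gamma0 N) (f : FF N) (hf : f ≠ 0) :
    ∑ b, wFin D τ b f
      = wFin D τ b0 (algebraMap Kbar⟮jF N⟯ (FF N) (Algebra.norm Kbar⟮jF N⟯ f)) := by
  rw [wFin, hnorm b0 f, ordMer_prod τ _ _ fun b _ => sigma_ne_zero D b hf]
  rfl

end Fermat.Agent.S24.Conj
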