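import Mathlib

/-!
Abstract embedding lemma: a subfield generated by a set maps into a field `M` as soon as the images
of the generators (under a reference map `φ`) lie in the image of `M` (under `ψ`).
-/

set_option autoImplicit false

namespace Fermat.Agent.S24.EmbedAbs

variable {K L L' M : Type*} [Field K] [Field L] [Field L'] [Field M] [Algebra K L]

/-- Membership in `IntermediateField.adjoin K G` implies membership in any subfield of `L`
containing the constants and `G`. -/
theorem mem_subfield_of_mem_adjoin (S : Subfield L) (G : Set L)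
    (hK : ∀ c : K, algebraMap K L c ∈ S) (hG : ∀ g ∈ G, g ∈ S) {x : L}
    (hx : x ∈ IntermediateField.adjoin K G) : x ∈ S := by
  have h : (IntermediateField.adjoin K G).toSubfield ≤ S := by
    change Subfield.closure (Set.range (algebraMap K L) ∪ G) ≤ S
    rw [Subfield.closure_le]
    rintro y (⟨c, rfl⟩ | hy)
    · exact hK c
    · exact hG y hy
  exact h hx

/-- The abstract embedding lemma. -/
theorem exists_ringHom_of_generators (φ : L →+* L') (ψ : M →+* L') (G : Set L)
    (hK : ∀ c : K, φ (algebraMap K L c) ∈ ψ.fieldRange)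
    (hG : ∀ g ∈ G, φ g ∈ ψ.fieldRange) :
    ∃ emb : IntermediateField.adjoin K G →+* M, ∀ x, ψ (emb x) = φ (x : L) := by
  have hmem : ∀ x : IntermediateField.adjoin K G, φ (x : L) ∈ ψ.fieldRange := fun x =>
    mem_subfield_of_mem_adjoin (K := K) (ψ.fieldRange.comap φ) G hK hG x.2
  let e : M ≃+* ψ.fieldRange :=
    RingEquiv.ofBijective ψ.rangeRestrictField
      ⟨fun a b hab => ψ.injective (congrArg Subtype.val hab), by
        rintro ⟨y, x, rfl⟩
        exact ⟨x, rfl⟩⟩
  let φ' : IntermediateField.adjoin K G →+* ψ.fieldRange :=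
    (φ.comp (IntermediateField.adjoin K G).toSubfield.subtype).codRestrict ψ.fieldRange hmem
  refine ⟨e.symm.toRingHom.comp φ', fun x => ?_⟩
  have h1 : (e (e.symm (φ' x)) : L') = ψ (e.symm (φ' x)) := rfl
  have h2 : ψ ((e.symm.toRingHom.comp φ') x) = ψ (e.symm (φ' x)) := rfl
  rw [h2, ← h1, RingEquiv.apply_symm_apply]
  rfl

/-- Uniqueness: two ring homs out of a field into `M` that agree after composing with `ψ` agree. -/
theorem ringHom_ext_of_comp {A : Type*} [Semiring A] (ψ : M →+* L') (f g : A →+* M)
    (h : ∀ x, ψ (f x) = ψ (g x)) : f = g :=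
  RingHom.ext fun x => ψ.injective (h x)

end Fermat.Agent.S24.EmbedAbs
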