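import Mathlib
import Fermat.Prelude.Def_ModularCurve_ArithmeticGalois
import Fermat.Agent.S24.EmbedAbs
import Fermat.Agent.S24.HolFun
import Fermat.Agent.S24.Ord
import Fermat.Agent.S24.JLevel

/-!
helper46. Generic construction of the analytic embedding of the function field
`F = modularFunctionFieldBar N` into `MerFun = Frac(HolFun)`.

Input (to be supplied by the `q`-expansion file): a subalgebra `P` of `HolFun` together with an
injective ring hom `ψ₀ : P →+* LaurentSeries ℂ` (the `q`-expansion) which is the identity on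
constants and sends `jd d` (`d ∣ N`) to the base change of `qExpand ℚ d jq`.

Output: `emb : F →+* MerFun` with values in `Frac(P)`, compatible with `q`-expansions, sending
constants to constants and the generators `j(q^d)` to `jd d`.
-/

set_option autoImplicit false

open ModularCurve
open scoped MatrixGroups

namespace Fermat.Agent.S24.EmbedGen

/-- The algebraic closure of `ℚ` used as field of constants. -/
local notation "Kbar" => AlgebraicClosure ℚ

section FracMaps

variable (P : Subalgebra ℂ HolFun)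

/-- The fraction field of a subalgebra `P` of `HolFun`. -/
def FracP : Type := FractionRing P

noncomputable instance : Field (FracP P) := inferInstanceAs (Field (FractionRing P))

noncomputable instance : Algebra P (FracP P) := inferInstanceAs (Algebra P (FractionRing P))

instance : IsFractionRing P (FracP P) := inferInstanceAs (IsFractionRing P (FractionRing P))

theorem toMerAux_injective :
    Function.Injective ((algebraMap HolFun MerFun).comp P.val.toRingHom) := by
  intro a b hab
  have h1 : algebraMap HolFun MerFun (a : HolFun) = algebraMap HolFun MerFun (b : HolFun) := hab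
  exact Subtype.ext (IsFractionRing.injective HolFun MerFun h1)

/-- The canonical map `Frac(P) → MerFun` induced by the inclusion `P ≤ HolFun`. -/
noncomputable def toMer : FracP P →+* MerFun :=
  IsFractionRing.lift (A := P) (K := FracP P) (toMerAux_injective P)

theorem toMer_algebraMap (a : P) :
    toMer P (algebraMap P (FracP P) a) = algebraMap HolFun MerFun (a : HolFun) :=
  IsFractionRing.lift_algebraMap (A := P) (K := FracP P) (toMerAux_injective P) a

theorem toMer_div (a b : P) :
    toMer P (algebraMap P (FracP P) a / algebraMap P (FracP P) b) =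
      algebraMap HolFun MerFun (a : HolFun) / algebraMap HolFun MerFun (b : HolFun) := by
  rw [map_div₀, toMer_algebraMap, toMer_algebraMap]

variable {P}

/-- The extension of an injective ring hom `P → LaurentSeries ℂ` to `Frac(P)`. -/
noncomputable def qFrac (ψ₀ : P →+* LaurentSeries ℂ) (hinj : Function.Injective ψ₀) :
    FracP P →+* LaurentSeries ℂ :=
  IsFractionRing.lift (A := P) (K := FracP P) hinj

theorem qFrac_algebraMap (ψ₀ : P →+* LaurentSeries ℂ) (hinj : Function.Injective ψ₀) (a : P) :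
    qFrac ψ₀ hinj (algebraMap P (FracP P) a) = ψ₀ a :=
  IsFractionRing.lift_algebraMap (A := P) (K := FracP P) hinj a

theorem qFrac_div (ψ₀ : P →+* LaurentSeries ℂ) (hinj : Function.Injective ψ₀) (a b : P) :
    qFrac ψ₀ hinj (algebraMap P (FracP P) a / algebraMap P (FracP P) b) =
      ψ₀ a / ψ₀ b := by
  rw [map_div₀, qFrac_algebraMap, qFrac_algebraMap]

end FracMaps

section BaseChange

/-- Base change of coefficients `ℚ → Kbar → ℂ` is base change `ℚ → ℂ`. -/
theorem coeffMap_coeffEmb_eq (ι : Kbar →+* ℂ) (x : LaurentSeries ℚ) :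
    coeffMap ι (coeffEmb Kbar x) = coeffMap (algebraMap ℚ ℂ) x := by
  rw [coeffEmb, coeffMap_coeffMap]
  exact coeffMap_congr (RingHom.ext_rat _ _) x

theorem coeffMap_algebraMap_eq_C {A B : Type*} [Field A] [Field B] (f : A →+* B) (c : A) :
    coeffMap f (algebraMap A (LaurentSeries A) c) = HahnSeries.C (f c) := by
  rw [algebraMap_laurentSeries_eq_single, coeffMap_single]
  rfl

end BaseChange

section Main

variable {N : ℕ} (ι : Kbar →+* ℂ) {P : Subalgebra ℂ HolFun}
  {ψ₀ : P →+* LaurentSeries ℂ} (hinj : Function.Injective ψ₀)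

/-- The `q`-expansion hypothesis on the generators. -/
def GenHyp (N : ℕ) {P : Subalgebra ℂ HolFun} (ψ₀ : P →+* LaurentSeries ℂ) : Prop :=
  ∀ (d : ℕ) [NeZero d], d ∣ N → ∃ h : JLevel.jd d ∈ P,
    ψ₀ ⟨JLevel.jd d, h⟩ = coeffMap (algebraMap ℚ ℂ) (qExpand ℚ d jq)

include hinj in
theorem rat_mem_fieldRange (hconst : ∀ c : ℂ, ψ₀ (algebraMap ℂ P c) = HahnSeries.C c)
    (c : ℂ) : (HahnSeries.C c : LaurentSeries ℂ) ∈ (qFrac ψ₀ hinj).fieldRange :=
  ⟨algebraMap P (FracP P) (algebraMap ℂ P c), by rw [qFrac_algebraMap, hconst]⟩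

/-- Every element of `modularFunctionFieldFull N`, base changed to `ℂ`, is a `q`-expansion. -/
theorem coeffMap_mem_fieldRange_of_mem_full
    (hconst : ∀ c : ℂ, ψ₀ (algebraMap ℂ P c) = HahnSeries.C c) (hgen : GenHyp N ψ₀)
    {x : LaurentSeries ℚ} (hx : x ∈ modularFunctionFieldFull N) :
    coeffMap (algebraMap ℚ ℂ) x ∈ (qFrac ψ₀ hinj).fieldRange := by
  have := EmbedAbs.mem_subfield_of_mem_adjoin (K := ℚ)
    ((qFrac ψ₀ hinj).fieldRange.comap (coeffMap (algebraMap ℚ ℂ))) (divisorExpansions N)
    (fun c => by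
      rw [Subfield.mem_comap, coeffMap_algebraMap_eq_C]
      exact rat_mem_fieldRange hinj hconst _)
    (fun g hg => by
      obtain ⟨d, hd0, hdN, rfl⟩ := hg
      rw [Subfield.mem_comap]
      obtain ⟨h, hh⟩ := @hgen d hd0 hdN
      exact ⟨algebraMap P (FracP P) ⟨JLevel.jd d, h⟩, by rw [qFrac_algebraMap, hh]⟩)
    hx
  exact this

/-- The generic embedding into `Frac(P)`, compatible with `q`-expansions. -/
theorem exists_embFrac (hconst : ∀ c : ℂ, ψ₀ (algebraMap ℂ P c) = HahnSeries.C c)
    (hgen : GenHyp N ψ₀) :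
    ∃ emb₀ : ↥(modularFunctionFieldBar N) →+* FracP P,
      ∀ x, qFrac ψ₀ hinj (emb₀ x) = coeffMap ι (x : LaurentSeries Kbar) := by
  have h1 : ∀ c : Kbar, coeffMap ι (algebraMap Kbar (LaurentSeries Kbar) c) ∈
      (qFrac ψ₀ hinj).fieldRange := by
    intro c
    rw [coeffMap_algebraMap_eq_C]
    exact rat_mem_fieldRange hinj hconst _
  have h2 : ∀ g ∈ (⇑(coeffEmb Kbar) '' (modularFunctionFieldFull N : Set (LaurentSeries ℚ))),
      coeffMap ι g ∈ (qFrac ψ₀ hinj).fieldRange := by
    rintro g ⟨x, hx, rfl⟩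
    rw [coeffMap_coeffEmb_eq]
    exact coeffMap_mem_fieldRange_of_mem_full hinj hconst hgen hx
  exact EmbedAbs.exists_ringHom_of_generators (K := Kbar) (L := LaurentSeries Kbar)
    (coeffMap ι) (qFrac ψ₀ hinj)
    (⇑(coeffEmb Kbar) '' (modularFunctionFieldFull N : Set (LaurentSeries ℚ))) h1 h2

/-- Membership of the generators `j(q^d)`, `d ∣ N`, in the function field. -/
theorem jqd_mem_bar {d : ℕ} [NeZero d] (hd : d ∣ N) :
    coeffEmb Kbar (qExpand ℚ d jq) ∈ modularFunctionFieldBar N :=
  coeffEmb_mem_laurentBaseChange Kbar (jqd_mem_full N hd)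

include hinj in
/-- The generic analytic embedding `F → MerFun`, with all its properties. -/
theorem exists_emb (hconst : ∀ c : ℂ, ψ₀ (algebraMap ℂ P c) = HahnSeries.C c)
    (hgen : GenHyp N ψ₀) :
    ∃ emb : ↥(modularFunctionFieldBar N) →+* MerFun,
      (∀ c : Kbar, emb (algebraMap Kbar ↥(modularFunctionFieldBar N) c) =
        algebraMap HolFun MerFun (algebraMap ℂ HolFun (ι c))) ∧
      (∀ (d : ℕ) [NeZero d] (hd : d ∣ N),
        emb ⟨coeffEmb Kbar (qExpand ℚ d jq), jqd_mem_bar hd⟩ =
          algebraMap HolFun MerFun (JLevel.jd d)) ∧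
      (∀ x : ↥(modularFunctionFieldBar N), ∃ a b : P, b ≠ 0 ∧
        emb x = algebraMap HolFun MerFun (a : HolFun) / algebraMap HolFun MerFun (b : HolFun) ∧
        coeffMap ι (x : LaurentSeries Kbar) * ψ₀ b = ψ₀ a) := by
  obtain ⟨emb₀, hemb₀⟩ := exists_embFrac ι hinj hconst hgen
  have hqinj : Function.Injective (qFrac ψ₀ hinj) := (qFrac ψ₀ hinj).injective
  refine ⟨(toMer P).comp emb₀, ?_, ?_, ?_⟩
  · intro c
    have h1 : emb₀ (algebraMap Kbar ↥(modularFunctionFieldBar N) c) =
        algebraMap P (FracP P) (algebraMap ℂ P (ι c)) := by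
      apply hqinj
      rw [hemb₀, qFrac_algebraMap, hconst]
      exact coeffMap_algebraMap_eq_C ι c
    rw [RingHom.comp_apply, h1, toMer_algebraMap]
    rfl
  · intro d hd0 hd
    obtain ⟨h, hh⟩ := @hgen d hd0 hd
    have h1 : emb₀ ⟨coeffEmb Kbar (qExpand ℚ d jq), jqd_mem_bar hd⟩ =
        algebraMap P (FracP P) ⟨JLevel.jd d, h⟩ := by
      apply hqinj
      rw [hemb₀, qFrac_algebraMap, hh]
      exact coeffMap_coeffEmb_eq ι _
    rw [RingHom.comp_apply, h1, toMer_algebraMap]
  · intro x
    obtain ⟨a, b, hb, hab⟩ := IsFractionRing.div_surjective P (emb₀ x)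
    have hb0 : b ≠ 0 := nonZeroDivisors.ne_zero hb
    refine ⟨a, b, hb0, ?_, ?_⟩
    · rw [RingHom.comp_apply, ← hab, toMer_div]
    · have h2 := hemb₀ x
      rw [← hab, qFrac_div] at h2
      have hψb : ψ₀ b ≠ 0 := fun h0 => hb0 (hinj (by rw [h0, map_zero]))
      rw [← h2, div_mul_cancel₀ _ hψb]

end Main

end Fermat.Agent.S24.EmbedGen
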