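import Mathlib
import Fermat.Agent.S24.EmbedGen
import Fermat.Agent.S24.Setup
import Fermat.Agent.S24.Conj
import Fermat.Agent.S24.JD
import Fermat.Agent.S24.QExp
import Fermat.Agent.S24.JQExp
import Fermat.Agent.S24.CuspOrdMer

/-!
helper46 (P-S24 Part III, package [A]).  The analytic realisation of the function field of
`X₀(N)`: construction of `Conj.EmbData N`.

* `PN N := Algebra.adjoin ℂ (JD.jdSet N)`, the algebra generated by the `jd d`, `d ∣ N`;
  `PN_le_PerFun`, `psiN N : PN N →+* LaurentSeries ℂ` (restriction of `QExp.qLaurent`).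
* `jdPer d : QExp.PerFun` with `coe_jdPer`, `qLaurent_jdPer` (unconditional).
* `exists_embData'` : an `EmbData N` whose embedding sends `gen N hd` to `jd d`, has values in
  `Frac (PN N)` and is compatible with `q`-expansions.
* `exists_embData : Nonempty (Conj.EmbData N)`.
* `EmbProps D` bundles the extra properties; `EmbProps.isCuspMer_smul` (`hcusp`).
-/

set_option autoImplicit false

open ModularCurve
open UpperHalfPlane hiding I
open scoped MatrixGroups

namespace Fermat.Agent.S24.Embed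

open Setup Conj JLevel JD QExp SymmFn CuspOrd

/-! ### The generators as elements of `PerFun` -/

/-- The function `z ↦ jFn (d z)` as an element of `PerFun`. -/
noncomputable def jdPer (d : ℕ) [NeZero d] : PerFun :=
  QExp.scale d (scaleH d) (coe_scaleH d) jPer

theorem coe_jdPer (d : ℕ) [NeZero d] : ((jdPer d : PerFun) : HolFun) = jd d :=
  HolFun.ext fun _ => rfl

theorem jd_mem_PerFun (d : ℕ) [NeZero d] : jd d ∈ PerFun := by
  rw [← coe_jdPer]
  exact (jdPer d).2

/-- The `q`-expansion of `z ↦ jFn (d z)` (unconditional). -/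
theorem qLaurent_jdPer (d : ℕ) [NeZero d] :
    qLaurent (jdPer d) = coeffMap (algebraMap ℚ ℂ) (qExpand ℚ d jq) :=
  qLaurent_jPer_scale JQExp.qExpansion_E₄ JQExp.qExpansion_discriminant d (scaleH d)
    (coe_scaleH d)

/-! ### The algebra generated by the `jd d` -/

/-- The subalgebra of `HolFun` generated by the `jd d`, `d ∣ N`. -/
def PN (N : ℕ) : Subalgebra ℂ HolFun := Algebra.adjoin ℂ (JD.jdSet N)

theorem jd_mem_PN {N d : ℕ} [NeZero d] (hd : d ∣ N) : jd d ∈ PN N :=
  Algebra.subset_adjoin (jd_mem_jdSet hd)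

theorem PN_le_PerFun (N : ℕ) : PN N ≤ PerFun := by
  refine Algebra.adjoin_le ?_
  rintro f ⟨d, hd0, -, rfl⟩
  exact jd_mem_PerFun d

theorem PN_le_cuspAlg (N : ℕ) : PN N ≤ cuspAlg N := adjoin_jdSet_le_cuspAlg N

theorem PN_le_growthAlg (N : ℕ) : PN N ≤ growthAlg := adjoin_jdSet_le_growthAlg N

theorem smul_eq_of_mem_PN {N : ℕ} {f : HolFun} (hf : f ∈ PN N) {γ : SL(2, ℤ)}
    (hγ : γ ∈ CongruenceSubgroup.Gamma0 N) : γ • f = f :=
  smul_eq_of_mem_adjoin_of_mem_Gamma0 hf hγ

/-- The `q`-expansion on `PN N`. -/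
noncomputable def psiN (N : ℕ) : PN N →+* LaurentSeries ℂ :=
  (qLaurent : PerFun →+* LaurentSeries ℂ).comp
    (Subalgebra.inclusion (PN_le_PerFun N) : PN N →+* PerFun)

theorem psiN_apply (N : ℕ) (a : PN N) :
    psiN N a = qLaurent ⟨(a : HolFun), PN_le_PerFun N a.2⟩ := rfl

theorem psiN_injective (N : ℕ) : Function.Injective (psiN N) := by
  intro a b hab
  rw [psiN_apply, psiN_apply] at hab
  have h := qLaurent_injective hab
  exact Subtype.ext (congrArg (fun f : PerFun => (f : HolFun)) h)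

theorem psiN_algebraMap (N : ℕ) (c : ℂ) :
    psiN N (algebraMap ℂ (PN N) c) = HahnSeries.C c := by
  have h1 : psiN N (algebraMap ℂ (PN N) c) = qLaurent (algebraMap ℂ PerFun c) := rfl
  rw [h1, AlgHom.commutes, algebraMap_laurentSeries_eq_single]
  rfl

theorem genHyp_psiN (N : ℕ) : EmbedGen.GenHyp N (psiN N) := by
  intro d hd0 hd
  refine ⟨jd_mem_PN hd, ?_⟩
  rw [psiN_apply, ← qLaurent_jdPer d]
  congr 1

/-! ### The embedding data -/

/-- Extra properties of an embedding datum: the generators go to the `jd d`, the values are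
quotients of elements of `PN N`, compatibly with `q`-expansions. -/
structure EmbProps {N : ℕ} (D : EmbData N) : Prop where
  emb_gen : ∀ (d : ℕ) [NeZero d] (hd : d ∣ N),
    D.emb (gen N hd) = algebraMap HolFun MerFun (jd d)
  emb_frac : ∀ x : FF N, ∃ a b : HolFun, ∃ (ha : a ∈ PN N) (hb : b ∈ PN N), b ≠ 0 ∧
    D.emb x = algebraMap HolFun MerFun a / algebraMap HolFun MerFun b ∧
    coeffMap iota (x : LaurentSeries Kbar) * qLaurent ⟨b, PN_le_PerFun N hb⟩ =
      qLaurent ⟨a, PN_le_PerFun N ha⟩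

/-- The analytic embedding of the function field of `X₀(N)`, with all its properties. -/
theorem exists_embData' (N : ℕ) [NeZero N] : ∃ D : EmbData N, EmbProps D := by
  obtain ⟨emb, h1, h2, h3⟩ :=
    EmbedGen.exists_emb (N := N) iota (psiN_injective N) (psiN_algebraMap N) (genHyp_psiN N)
  have hfrac : ∀ x : FF N, ∃ a b : HolFun, ∃ (ha : a ∈ PN N) (hb : b ∈ PN N), b ≠ 0 ∧
      emb x = algebraMap HolFun MerFun a / algebraMap HolFun MerFun b ∧
      coeffMap iota (x : LaurentSeries Kbar) * qLaurent ⟨b, PN_le_PerFun N hb⟩ =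
        qLaurent ⟨a, PN_le_PerFun N ha⟩ := by
    intro x
    obtain ⟨a, b, hb0, hx, hq⟩ := h3 x
    refine ⟨a, b, a.2, b.2, fun h0 => hb0 (Subtype.ext h0), hx, ?_⟩
    exact hq
  have hgen : ∀ (d : ℕ) [NeZero d] (hd : d ∣ N),
      emb (gen N hd) = algebraMap HolFun MerFun (jd d) := fun d _ hd => h2 d hd
  refine ⟨⟨emb, h1, ?_, ?_, ?_⟩, ⟨hgen, hfrac⟩⟩
  · -- `emb (jF N) = jHol`
    have := hgen 1 (one_dvd N)
    rw [jd_one_eq_jHol] at this
    exact this
  · -- fixed by `Γ₀(N)`
    intro γ hγ x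
    obtain ⟨a, b, ha, hb, -, hx, -⟩ := hfrac x
    rw [hx, smul_div₀', MerFun.sl_smul_algebraMap, MerFun.sl_smul_algebraMap,
      smul_eq_of_mem_PN ha hγ, smul_eq_of_mem_PN hb hγ]
  · -- the stabilizer is `Γ₀(N)`
    intro γ hγ
    have h := hγ (gen N (dvd_refl N))
    rw [hgen N (dvd_refl N), MerFun.sl_smul_algebraMap] at h
    exact mem_Gamma0_of_smul_jd_eq (IsFractionRing.injective HolFun MerFun h)

theorem exists_embData (N : ℕ) [NeZero N] : Nonempty (EmbData N) :=
  let ⟨D, _⟩ := exists_embData' N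
  ⟨D⟩

namespace EmbProps

variable {N : ℕ} {D : EmbData N}

/-- `hcusp`: every translate of every value of the embedding is a quotient of cusp functions of
level `N`. -/
theorem isCuspMer_smul (hD : EmbProps D) (x : FF N) (g : SL(2, ℤ)) :
    IsCuspMer N (g • D.emb x) := by
  obtain ⟨a, b, ha, hb, hb0, hx, -⟩ := hD.emb_frac x
  obtain ⟨a', e', ha', he', he0, h⟩ :=
    exists_smul_div_eq (PN_le_cuspAlg N ha) (PN_le_cuspAlg N hb) hb0 g
  exact ⟨a', e', isCuspFn_of_mem_cuspAlg ha', isCuspFn_of_mem_cuspAlg he', he0, by rw [hx, h]⟩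

theorem isCuspMer_emb (hD : EmbProps D) (x : FF N) : IsCuspMer N (D.emb x) := by
  have := hD.isCuspMer_smul x 1
  rwa [one_smul] at this

theorem isCuspMer_sigma (hD : EmbProps D) (b : SL(2, ℤ) ⧸ CongruenceSubgroup.Gamma0 N)
    (x : FF N) : IsCuspMer N (sigma D b x) := by
  induction b using QuotientGroup.induction_on with
  | H g => exact hD.isCuspMer_smul x g

/-- If `θ ∈ PN N` has `q`-expansion `coeffMap iota a` then `emb a = θ`. -/
theorem emb_eq_of_qLaurent_eq (hD : EmbProps D) (a : FF N) {θ : HolFun} (hθ : θ ∈ PN N)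
    (hq : qLaurent ⟨θ, PN_le_PerFun N hθ⟩ = coeffMap iota (a : LaurentSeries Kbar)) :
    D.emb a = algebraMap HolFun MerFun θ := by
  obtain ⟨a', b', ha', hb', hb0, hx, hq'⟩ := hD.emb_frac a
  rw [← hq] at hq'
  have h1 : (⟨θ, PN_le_PerFun N hθ⟩ : PerFun) * ⟨b', PN_le_PerFun N hb'⟩ =
      ⟨a', PN_le_PerFun N ha'⟩ := by
    apply qLaurent_injective
    rw [map_mul]
    exact hq'
  have h2 : θ * b' = a' := congrArg (fun f : PerFun => (f : HolFun)) h1
  have hb0' : algebraMap HolFun MerFun b' ≠ 0 := fun h0 =>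
    hb0 (IsFractionRing.injective HolFun MerFun (by rw [h0, map_zero]))
  rw [hx, ← h2, map_mul, mul_div_assoc, div_self hb0', mul_one]

end EmbProps

end Fermat.Agent.S24.Embed
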