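/-
S24, Part III: generation of the function field `F = modularFunctionFieldBar N`.

* `adjoin_genSet` : `F = Kbar(j(d z) : d ∣ N)` inside `LaurentSeries Kbar`;
* `adjoin_genSetF` : the same statement inside `F`;
* `exists_div` : if the generators are algebraic over `Kbar(j)`, every element of `F` is a
  quotient `a / e` with `a` in the `Kbar`-algebra generated by the `j(d z)` and `e ∈ Kbar(j)`.
-/
import Fermat.Agent.S24.Setup

set_option autoImplicit false

noncomputable section

open ModularCurve IntermediateField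

namespace Fermat.Agent.S24.GenRing

open Setup

/-! ### An abstract lemma -/

section Abstract

variable {K F : Type*} [Field K] [Field F] [Algebra K F]

/-- If `F = K(S)`, `t ∈ S` and all elements of `S` are algebraic over `K(t)`, then every element
of `F` is of the form `a / s(t)` with `a ∈ K[S]` and `s` a polynomial with `s(t) ≠ 0`. -/
theorem exists_div_aeval (t : F) (S : Set F) (ht : t ∈ S)
    (hgen : IntermediateField.adjoin K S = ⊤)
    (halg : ∀ s ∈ S, IsAlgebraic K⟮t⟯ s) (x : F) :
    ∃ a ∈ Algebra.adjoin K S, ∃ s : Polynomial K, Polynomial.aeval t s ≠ 0 ∧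
      x = a / Polynomial.aeval t s := by
  -- Step 1: `F` is generated as a `K(t)`-algebra by `S`
  have htop : IntermediateField.adjoin K⟮t⟯ S = ⊤ := by
    rw [eq_top_iff]
    intro y _
    have hy : y ∈ IntermediateField.adjoin K S := by rw [hgen]; trivial
    induction hy using IntermediateField.adjoin_induction with
    | mem y hy => exact subset_adjoin _ _ hy
    | algebraMap c =>
      have : algebraMap K F c = algebraMap K⟮t⟯ F (algebraMap K K⟮t⟯ c) := rfl
      rw [this]
      exact IntermediateField.algebraMap_mem _ _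
    | add y z _ _ h1 h2 => exact add_mem (h1 trivial) (h2 trivial)
    | inv y _ h1 => exact inv_mem (h1 trivial)
    | mul y z _ _ h1 h2 => exact mul_mem (h1 trivial) (h2 trivial)
  have hx : x ∈ Algebra.adjoin K⟮t⟯ S := by
    rw [← IntermediateField.adjoin_toSubalgebra_of_isAlgebraic halg, htop]
    trivial
  -- Step 2: induction
  have htA : t ∈ Algebra.adjoin K S := Algebra.subset_adjoin ht
  have haev : ∀ r : Polynomial K, Polynomial.aeval t r ∈ Algebra.adjoin K S := fun r =>
    Algebra.adjoin_mono (Set.singleton_subset_iff.mpr ht)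
      (Polynomial.aeval_mem_adjoin_singleton K t)
  induction hx using Algebra.adjoin_induction with
  | mem y hy =>
    exact ⟨y, Algebra.subset_adjoin hy, 1, by simp, by simp⟩
  | algebraMap e =>
    obtain ⟨r, s, hrs⟩ := (IntermediateField.mem_adjoin_simple_iff K (e : F)).mp e.2
    by_cases hs : Polynomial.aeval t s = 0
    · refine ⟨0, Subalgebra.zero_mem _, 1, by simp, ?_⟩
      have : algebraMap K⟮t⟯ F e = (e : F) := rfl
      rw [this, hrs, hs]
      simp
    · exact ⟨Polynomial.aeval t r, haev r, s, hs, hrs⟩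
  | add y z _ _ h1 h2 =>
    obtain ⟨a, ha, s, hs, rfl⟩ := h1
    obtain ⟨a', ha', s', hs', rfl⟩ := h2
    refine ⟨a * Polynomial.aeval t s' + a' * Polynomial.aeval t s,
      Subalgebra.add_mem _ (Subalgebra.mul_mem _ ha (haev s')) (Subalgebra.mul_mem _ ha' (haev s)),
      s * s', by rw [map_mul]; exact mul_ne_zero hs hs', ?_⟩
    rw [map_mul]
    field_simp
  | mul y z _ _ h1 h2 =>
    obtain ⟨a, ha, s, hs, rfl⟩ := h1
    obtain ⟨a', ha', s', hs', rfl⟩ := h2
    refine ⟨a * a', Subalgebra.mul_mem _ ha ha', s * s',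
      by rw [map_mul]; exact mul_ne_zero hs hs', ?_⟩
    rw [map_mul]
    field_simp

/-- Same with the denominator in `K(t)`. -/
theorem exists_div_of_algebraic (t : F) (S : Set F) (ht : t ∈ S)
    (hgen : IntermediateField.adjoin K S = ⊤)
    (halg : ∀ s ∈ S, IsAlgebraic K⟮t⟯ s) (x : F) :
    ∃ a ∈ (Algebra.adjoin K S : Set F), ∃ e : K⟮t⟯, e ≠ 0 ∧ x = a / algebraMap K⟮t⟯ F e := by
  obtain ⟨a, ha, s, hs, hx⟩ := exists_div_aeval t S ht hgen halg x
  have hmem : Polynomial.aeval t s ∈ K⟮t⟯ := by
    have := Polynomial.aeval_mem_adjoin_singleton K t (p := s)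
    exact IntermediateField.algebra_adjoin_le_adjoin K _ this
  refine ⟨a, ha, ⟨Polynomial.aeval t s, hmem⟩, ?_, hx⟩
  intro h
  exact hs (congrArg Subtype.val h)

end Abstract

/-! ### The function field of `X₀(N)` -/

variable (N : ℕ)

theorem coeffEmb_algebraMap (c : ℚ) :
    coeffEmb Kbar (algebraMap ℚ (LaurentSeries ℚ) c)
      = algebraMap Kbar (LaurentSeries Kbar) (algebraMap ℚ Kbar c) := by
  rw [algebraMap_laurentSeries_eq_single, algebraMap_laurentSeries_eq_single, coeffEmb,
    coeffMap_single]

/-- `F = Kbar(j(d z) : d ∣ N)`. -/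
theorem adjoin_genSet : IntermediateField.adjoin Kbar (genSet N) = modularFunctionFieldBar N := by
  apply le_antisymm
  · rw [IntermediateField.adjoin_le_iff]
    rintro x ⟨d, hd, hdN, rfl⟩
    exact jK_mem N hdN
  · show IntermediateField.adjoin Kbar
      (⇑(coeffEmb Kbar) '' (modularFunctionFieldFull N : Set (LaurentSeries ℚ))) ≤ _
    rw [IntermediateField.adjoin_le_iff]
    have key : ∀ y, y ∈ IntermediateField.adjoin ℚ (divisorExpansions N) →
        coeffEmb Kbar y ∈ IntermediateField.adjoin Kbar (genSet N) := by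
      intro y hy
      induction hy using IntermediateField.adjoin_induction with
      | mem y hy =>
        obtain ⟨d, hd, hdN, rfl⟩ := hy
        exact subset_adjoin _ _ ⟨d, hd, hdN, rfl⟩
      | algebraMap c =>
        rw [coeffEmb_algebraMap]
        exact IntermediateField.algebraMap_mem _ _
      | add y z _ _ h1 h2 =>
        rw [map_add]
        exact add_mem h1 h2
      | inv y _ h1 =>
        rw [map_inv₀]
        exact inv_mem h1
      | mul y z _ _ h1 h2 =>
        rw [map_mul]
        exact mul_mem h1 h2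
    rintro _ ⟨y, hy, rfl⟩
    exact key y hy

/-- The generators generate `F` as a field over `Kbar` (statement inside `F`). -/
theorem adjoin_genSetF : IntermediateField.adjoin Kbar (genSetF N) = ⊤ := by
  rw [eq_top_iff]
  rintro ⟨x, hx⟩ _
  have hx' : x ∈ IntermediateField.adjoin Kbar (genSet N) := by rw [adjoin_genSet]; exact hx
  have hle : ∀ {y}, y ∈ IntermediateField.adjoin Kbar (genSet N) →
      y ∈ modularFunctionFieldBar N := fun h => by rw [← adjoin_genSet]; exact h
  have key : ∀ y (hy : y ∈ IntermediateField.adjoin Kbar (genSet N)),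
      (⟨y, hle hy⟩ : FF N) ∈ IntermediateField.adjoin Kbar (genSetF N) := by
    intro y hy
    induction hy using IntermediateField.adjoin_induction with
    | mem y hy =>
      obtain ⟨d, hd, hdN, rfl⟩ := hy
      exact subset_adjoin _ _ ⟨d, hd, hdN, rfl⟩
    | algebraMap c => exact IntermediateField.algebraMap_mem _ c
    | add y z hy hz h1 h2 =>
      have : (⟨y + z, hle (add_mem hy hz)⟩ : FF N) = ⟨y, hle hy⟩ + ⟨z, hle hz⟩ := rfl
      rw [this]
      exact add_mem h1 h2
    | inv y hy h1 =>
      have : (⟨y⁻¹, hle (inv_mem hy)⟩ : FF N) = (⟨y, hle hy⟩)⁻¹ := rfl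
      rw [this]
      exact inv_mem h1
    | mul y z hy hz h1 h2 =>
      have : (⟨y * z, hle (mul_mem hy hz)⟩ : FF N) = ⟨y, hle hy⟩ * ⟨z, hle hz⟩ := rfl
      rw [this]
      exact mul_mem h1 h2
  exact key x hx'

/-- **Generation up to denominators in `Kbar(j)`.** -/
theorem exists_div (halg : ∀ g ∈ genSetF N, IsAlgebraic Kbar⟮jF N⟯ g) (x : FF N) :
    ∃ a ∈ (Algebra.adjoin Kbar (genSetF N) : Set (FF N)), ∃ e : Kbar⟮jF N⟯,
      e ≠ 0 ∧ x = a / algebraMap Kbar⟮jF N⟯ (FF N) e :=
  exists_div_of_algebraic (jF N) (genSetF N) (jF_mem_genSetF N) (adjoin_genSetF N) halg x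

end Fermat.Agent.S24.GenRing
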