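import Fermat.Agent.S24.Final
import Fermat.Agent.S24.AssembleFin
import Fermat.Agent.S24.AssembleInf
import Fermat.Agent.S24.Embed
import Fermat.Agent.S24.GenRing
import Fermat.Agent.S24.TransJ
import Fermat.Agent.S24.ZP.ZeroPlaces

/-!
# S24: assembly of all parts, modulo the degree bound `hdeg`

`genus_of_hdeg` proves the statement S24 from the single remaining input `hdeg` (every element of
the `Kbar`-algebra generated by the `j(d z)`, `d ∣ N`, is a root of a nonzero polynomial of degree
at most `[SL(2,ℤ) : Γ₀(N)]` over `Kbar(j)`).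
-/

set_option autoImplicit false

noncomputable section

open AlgebraicCurve IntermediateField ModularCurve CongruenceSubgroup
open scoped MatrixGroups

namespace Fermat.Agent.S24.Main

open Fermat.Agent.S24.Setup

theorem genus_of_hdeg (N : ℕ) [NeZero N]
    [HasCanonicalDivisor (K := Kbar) (F := FF N)]
    (hdeg : ∀ a ∈ (Algebra.adjoin Kbar (genSetF N) : Set (FF N)),
      ∃ p : Polynomial Kbar⟮jF N⟯, p ≠ 0 ∧ p.natDegree ≤ (Gamma0 N).index ∧
        Polynomial.aeval a p = 0) :
    (AlgebraicCurve.genus Kbar (FF N) : ℚ) = genusFormula N := by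
  have halg : ∀ g ∈ genSetF N, IsAlgebraic Kbar⟮jF N⟯ g := by
    intro g hg
    obtain ⟨p, hp0, -, hpa⟩ := hdeg g (Algebra.subset_adjoin hg)
    exact ⟨p, hp0, hpa⟩
  have hgen := GenRing.exists_div N halg
  obtain ⟨D, hD⟩ := Embed.exists_embData' N
  obtain ⟨hfd, hfr, hnorm⟩ := Conj.finrank_and_norm D hgen hdeg
  exact Final.genus_modular_of_inputs N (TransJ.transcendental_jF N) hfd hfr
    (fun y hy _ => ZP.zeroPlacesData y hy)
    (AssembleFin.pcInput_zero D hnorm) (AssembleFin.pcInput_1728 D hnorm)
    (AssembleFin.pcInput_generic D hnorm)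
    (AssembleInf.pcInput_inf D (fun x g => hD.isCuspMer_smul x g) hnorm)

end Fermat.Agent.S24.Main
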