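import Mathlib
import Fermat.Prelude.Def_ModularCurve_CanonicalDivisor
import Fermat.Agent.S24.AddVal

/-!
# S24 Part I-c: order of `d y` at a place

For a place `v` of `F/K` with residue field `K` whose local ring has a finitely generated
module of Kaehler differentials, we show that `d π` generates the differentials for every
uniformizer `π`, that `d u ∈ O_v • d π` for `u ∈ O_v`, and deduce
`v.ordDifferential (d y) = v.ord y - 1` when `v.ord y ≠ 0` (characteristic zero) and
`0 ≤ v.ordDifferential (d u)` for `u ∈ O_v`.
-/

set_option autoImplicit false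

open KaehlerDifferential AlgebraicCurve IsLocalRing

namespace Fermat.Agent.S24

variable {K F : Type*} [Field K] [Field F] [Algebra K F]

/-- The residue field of the place `v` is `K`. -/
def ResidueTrivial (v : Place K F) : Prop :=
  ∀ u : v.toValuationSubring, ∃ c : K,
    u - algebraMap K v.toValuationSubring c ∈ maximalIdeal v.toValuationSubring

section Nakayama

variable (v : Place K F)

/-- Nakayama: the differentials of the local ring at `v` are generated by `d π`. -/
theorem span_D_irreducible_eq_top (hres : ResidueTrivial v)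
    [Module.Finite v.toValuationSubring Ω[v.toValuationSubring⁄K]]
    {π : v.toValuationSubring} (hπ : Irreducible π) :
    Submodule.span v.toValuationSubring {D K v.toValuationSubring π} = ⊤ := by
  have hm : maximalIdeal v.toValuationSubring = Ideal.span {π} := hπ.maximalIdeal_eq
  have key : ∀ u : v.toValuationSubring, D K v.toValuationSubring u ∈
      Submodule.span v.toValuationSubring {D K v.toValuationSubring π} ⊔
        (maximalIdeal v.toValuationSubring) •
          (⊤ : Submodule v.toValuationSubring Ω[v.toValuationSubring⁄K]) := by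
    intro u
    obtain ⟨c, hc⟩ := hres u
    rw [hm, Ideal.mem_span_singleton'] at hc
    obtain ⟨u₁, hu₁⟩ := hc
    have hu : u = algebraMap K v.toValuationSubring c + u₁ * π := by rw [hu₁]; ring
    rw [hu, map_add, Derivation.map_algebraMap, zero_add, Derivation.leibniz]
    apply Submodule.add_mem
    · apply Submodule.mem_sup_left
      exact Submodule.smul_mem _ _ (Submodule.subset_span rfl)
    · apply Submodule.mem_sup_right
      apply Submodule.smul_mem_smul _ Submodule.mem_top
      rw [hm]
      exact Ideal.mem_span_singleton_self π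
  have htop : (⊤ : Submodule v.toValuationSubring Ω[v.toValuationSubring⁄K]) ≤
      Submodule.span v.toValuationSubring {D K v.toValuationSubring π} ⊔
        (maximalIdeal v.toValuationSubring) •
          (⊤ : Submodule v.toValuationSubring Ω[v.toValuationSubring⁄K]) := by
    rw [← span_range_derivation K v.toValuationSubring, Submodule.span_le]
    rintro _ ⟨u, rfl⟩
    rw [span_range_derivation K v.toValuationSubring]
    exact key u
  have hfg : (⊤ : Submodule v.toValuationSubring Ω[v.toValuationSubring⁄K]).FG :=
    Module.finite_def.mp inferInstance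
  have hjac : maximalIdeal v.toValuationSubring ≤
      (⊥ : Ideal v.toValuationSubring).jacobson := by
    rw [jacobson_eq_maximalIdeal ⊥ bot_ne_top]
  exact top_le_iff.mp (Submodule.le_of_le_smul_of_le_jacobson_bot hfg hjac htop)

end Nakayama

section Transfer

variable (v : Place K F)

/-- For `u` in the local ring, `d u` is an integral multiple of `d π`. -/
theorem exists_D_eq_smul_D_irreducible (hres : ResidueTrivial v)
    [Module.Finite v.toValuationSubring Ω[v.toValuationSubring⁄K]]
    {π : v.toValuationSubring} (hπ : Irreducible π) (u : v.toValuationSubring) :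
    ∃ a : v.toValuationSubring, D K F (u : F) = (a : F) • D K F (π : F) := by
  have hmem : D K v.toValuationSubring u ∈
      Submodule.span v.toValuationSubring {D K v.toValuationSubring π} := by
    rw [span_D_irreducible_eq_top v hres hπ]
    exact Submodule.mem_top
  obtain ⟨a, ha⟩ := Submodule.mem_span_singleton.mp hmem
  refine ⟨a, ?_⟩
  have h := congrArg (KaehlerDifferential.map K K v.toValuationSubring F) ha
  rw [map_smul, KaehlerDifferential.map_D, KaehlerDifferential.map_D] at h
  exact h.symm

/-- `d π` spans the differentials of `F`. -/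
theorem span_D_coe_irreducible_eq_top (hres : ResidueTrivial v)
    [Module.Finite v.toValuationSubring Ω[v.toValuationSubring⁄K]]
    {π : v.toValuationSubring} (hπ : Irreducible π) :
    Submodule.span F {D K F (π : F)} = ⊤ := by
  rw [eq_top_iff, ← span_range_derivation K F, Submodule.span_le]
  have hint : ∀ f : F, f ∈ v.toValuationSubring → D K F f ∈ Submodule.span F {D K F (π : F)} := by
    intro f hf
    obtain ⟨a, ha⟩ := exists_D_eq_smul_D_irreducible v hres hπ ⟨f, hf⟩
    change D K F f = _ at ha
    rw [ha]
    exact Submodule.smul_mem _ _ (Submodule.subset_span rfl)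
  rintro _ ⟨f, rfl⟩
  rcases v.toValuationSubring.mem_or_inv_mem f with hf | hf
  · exact hint f hf
  · have h1 := hint f⁻¹ hf
    have h2 : D K F f = -(f⁻¹)⁻¹ ^ 2 • D K F f⁻¹ := by
      conv_lhs => rw [← inv_inv f]
      rw [Derivation.leibniz_inv]
    rw [h2]
    exact Submodule.smul_mem _ _ h1

/-- The chosen uniformizer behind `Place.dCoord`. -/
theorem exists_irreducible_dCoord :
    ∃ π : v.toValuationSubring, Irreducible π ∧ v.dCoord = D K F (π : F) :=
  ⟨_, (IsDiscreteValuationRing.exists_irreducible v.toValuationSubring).choose_spec, rfl⟩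

theorem dCoordGenerates_of_residueTrivial (hres : ResidueTrivial v)
    [Module.Finite v.toValuationSubring Ω[v.toValuationSubring⁄K]] : v.DCoordGenerates := by
  obtain ⟨π, hπ, hd⟩ := exists_irreducible_dCoord v
  exact ⟨by rw [hd]; exact span_D_coe_irreducible_eq_top v hres hπ⟩

end Transfer

section Ord

variable (v : Place K F)

theorem ord_intCast [CharZero K] {m : ℤ} (hm : m ≠ 0) : v.ord ((m : F)) = 0 := by
  have h := (isAddVal_ord v).map_const (m : K) (Int.cast_ne_zero.mpr hm)
  rwa [map_intCast] at h

theorem coe_ne_zero_of_irreducible {π : v.toValuationSubring} (hπ : Irreducible π) :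
    (π : F) ≠ 0 := by
  simpa [ne_eq, ZeroMemClass.coe_eq_zero] using hπ.ne_zero

/-- The coefficient of `d u` against `dCoord` is integral for `u` in the local ring. -/
theorem differentialCoeff_D_mem (hres : ResidueTrivial v)
    [Module.Finite v.toValuationSubring Ω[v.toValuationSubring⁄K]] [Nontrivial Ω[F⁄K]]
    {u : F} (hu : u ∈ v.toValuationSubring) :
    v.differentialCoeff (D K F u) ∈ v.toValuationSubring := by
  have hgen : v.DCoordGenerates := dCoordGenerates_of_residueTrivial v hres
  obtain ⟨π, hπ, hd⟩ := exists_irreducible_dCoord v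
  obtain ⟨a, ha⟩ := exists_D_eq_smul_D_irreducible v hres hπ ⟨u, hu⟩
  change D K F u = _ at ha
  rw [← hd] at ha
  rw [v.differentialCoeff_unique ha]
  exact a.2

/-- `0 ≤ ord_v (d u / d π_v)` for `u` in the local ring at `v`. -/
theorem ordDifferential_D_nonneg (hres : ResidueTrivial v)
    [Module.Finite v.toValuationSubring Ω[v.toValuationSubring⁄K]] [Nontrivial Ω[F⁄K]]
    {u : F} (hu : u ∈ v.toValuationSubring) :
    0 ≤ v.ordDifferential (D K F u) := by
  have h := differentialCoeff_D_mem v hres hu
  rw [Place.ordDifferential]
  rcases eq_or_ne (v.differentialCoeff (D K F u)) 0 with h0 | h0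
  · rw [h0, v.ord_zero]
  · exact (place_mem_iff_ord_nonneg v h0).mp h

/-- `ord_v (d y / d π_v) = ord_v y - 1` when `ord_v y ≠ 0` (characteristic zero). -/
theorem ordDifferential_D_of_ord_ne_zero [CharZero K] (hres : ResidueTrivial v)
    [Module.Finite v.toValuationSubring Ω[v.toValuationSubring⁄K]] [Nontrivial Ω[F⁄K]]
    {y : F} (hy : v.ord y ≠ 0) :
    v.ordDifferential (D K F y) = v.ord y - 1 ∧ v.differentialCoeff (D K F y) ≠ 0 := by
  have hgen : v.DCoordGenerates := dCoordGenerates_of_residueTrivial v hres
  have hcharF : CharZero F := charZero_of_injective_algebraMap (algebraMap K F).injective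
  obtain ⟨π, hπ, hd⟩ := exists_irreducible_dCoord v
  have hy0 : y ≠ 0 := by
    rintro rfl
    exact hy v.ord_zero
  obtain ⟨u, hu⟩ := v.exists_unit_mul_zpow hy0 hπ
  obtain ⟨a, ha⟩ := exists_D_eq_smul_D_irreducible v hres hπ (u : v.toValuationSubring)
  have hπ0 : (π : F) ≠ 0 := coe_ne_zero_of_irreducible v hπ
  have hu0 : ((u : v.toValuationSubring) : F) ≠ 0 := by
    simp [ne_eq, ZeroMemClass.coe_eq_zero]
  have hDy : D K F y = ((π : F) ^ (v.ord y) * (a : F) +
      ((v.ord y : ℤ) : F) * ((u : v.toValuationSubring) : F) * (π : F) ^ (v.ord y - 1)) •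
        v.dCoord := by
    rw [hd]
    conv_lhs => rw [hu]
    rw [Derivation.leibniz, Derivation.leibniz_zpow, ha, ← Int.cast_smul_eq_zsmul F (v.ord y)]
    simp only [smul_smul, ← add_smul]
    congr 1
    ring
  have hmF : ((v.ord y : ℤ) : F) ≠ 0 := Int.cast_ne_zero.mpr hy
  have h2ne : ((v.ord y : ℤ) : F) * ((u : v.toValuationSubring) : F) * (π : F) ^ (v.ord y - 1) ≠ 0 :=
    mul_ne_zero (mul_ne_zero hmF hu0) (zpow_ne_zero _ hπ0)
  have h2 : v.ord (((v.ord y : ℤ) : F) * ((u : v.toValuationSubring) : F) *
      (π : F) ^ (v.ord y - 1)) = v.ord y - 1 := by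
    rw [mul_assoc, v.ord_mul hmF (mul_ne_zero hu0 (zpow_ne_zero _ hπ0)), ord_intCast v hy,
      v.ord_unit_smul_zpow u hπ, zero_add]
  rw [Place.ordDifferential, v.differentialCoeff_unique hDy]
  by_cases ha0 : (a : F) = 0
  · rw [ha0, mul_zero, zero_add]
    exact ⟨h2, h2ne⟩
  · have h1ne : (π : F) ^ (v.ord y) * (a : F) ≠ 0 := mul_ne_zero (zpow_ne_zero _ hπ0) ha0
    have h1 : v.ord y ≤ v.ord ((π : F) ^ (v.ord y) * (a : F)) := by
      rw [v.ord_mul (zpow_ne_zero _ hπ0) ha0, v.ord_zpow, v.ord_coe_irreducible hπ, mul_one]
      have := (place_mem_iff_ord_nonneg v ha0).mp a.2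
      omega
    have hlt : v.ord (((v.ord y : ℤ) : F) * ((u : v.toValuationSubring) : F) *
        (π : F) ^ (v.ord y - 1)) < v.ord ((π : F) ^ (v.ord y) * (a : F)) := by
      rw [h2]
      omega
    have hsum := (isAddVal_ord v).map_add_of_lt h2ne h1ne hlt
    rw [add_comm] at hsum
    refine ⟨by rw [hsum, h2], ?_⟩
    intro h0
    rw [add_comm] at h0
    have : ((v.ord y : ℤ) : F) * ((u : v.toValuationSubring) : F) * (π : F) ^ (v.ord y - 1) =
        -((π : F) ^ (v.ord y) * (a : F)) := eq_neg_of_add_eq_zero_left h0
    rw [this, (isAddVal_ord v).map_neg h1ne] at hlt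
    exact lt_irrefl _ hlt

/-- Translation by a constant: `ord_v (d x / d π_v) = ord_v (x - c) - 1` when
`ord_v (x - c) ≠ 0`. -/
theorem ordDifferential_D_of_ord_sub_const_ne_zero [CharZero K] (hres : ResidueTrivial v)
    [Module.Finite v.toValuationSubring Ω[v.toValuationSubring⁄K]] [Nontrivial Ω[F⁄K]]
    {x : F} (c : K) (hx : v.ord (x - algebraMap K F c) ≠ 0) :
    v.ordDifferential (D K F x) = v.ord (x - algebraMap K F c) - 1 ∧
      v.differentialCoeff (D K F x) ≠ 0 := by
  have h := ordDifferential_D_of_ord_ne_zero v hres hx
  rwa [map_sub, Derivation.map_algebraMap, sub_zero] at h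

end Ord

section Hypotheses

variable (v : Place K F)

/-- Over an algebraically closed constant field, an algebraic residue field is trivial. -/
theorem residueTrivial_of_isAlgClosed [IsAlgClosed K] [Algebra.IsIntegral K v.ResidueField] :
    ResidueTrivial v := by
  intro u
  obtain ⟨c, hc⟩ := (IsAlgClosed.algebraMap_bijective_of_isIntegral (k := K)
    (K := v.ResidueField)).2 (IsLocalRing.residue v.toValuationSubring u)
  refine ⟨c, ?_⟩
  rw [← Ideal.Quotient.eq_zero_iff_mem]
  change IsLocalRing.residue v.toValuationSubring (u - algebraMap K v.toValuationSubring c) = 0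
  rw [map_sub, sub_eq_zero, ← hc]
  rfl

theorem residueTrivial_of_finiteResidue [IsAlgClosed K] [v.FiniteResidue] :
    ResidueTrivial v := by
  have : Module.Finite K v.ResidueField := Place.FiniteResidue.finite
  exact residueTrivial_of_isAlgClosed v

/-- If the local ring at `v` is a localization of a finitely generated `K`-algebra `S ⊆ F`,
then it is essentially of finite type, hence has finitely generated differentials
(`KaehlerDifferential.finite`). -/
theorem essFiniteType_of_isLocalization {S : Type*} [CommRing S] [Algebra K S]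
    [Algebra S F] [IsScalarTower K S F] [Algebra.FiniteType K S]
    [Algebra S v.toValuationSubring] [IsScalarTower S v.toValuationSubring F]
    (M : Submonoid S) [IsLocalization M v.toValuationSubring] :
    Algebra.EssFiniteType K v.toValuationSubring := by
  have htower : IsScalarTower K S v.toValuationSubring :=
    IsScalarTower.of_algebraMap_eq fun c => by
      apply Subtype.ext
      have h1 : ((algebraMap S v.toValuationSubring (algebraMap K S c) : v.toValuationSubring) : F)
          = algebraMap S F (algebraMap K S c) :=
        (IsScalarTower.algebraMap_apply S v.toValuationSubring F (algebraMap K S c)).symm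
      rw [h1, ← IsScalarTower.algebraMap_apply K S F]
      rfl
  have hloc : Algebra.EssFiniteType S v.toValuationSubring :=
    Algebra.EssFiniteType.of_isLocalization _ M
  exact Algebra.EssFiniteType.comp K S v.toValuationSubring

theorem finite_kaehler_of_isLocalization {S : Type*} [CommRing S] [Algebra K S]
    [Algebra S F] [IsScalarTower K S F] [Algebra.FiniteType K S]
    [Algebra S v.toValuationSubring] [IsScalarTower S v.toValuationSubring F]
    (M : Submonoid S) [IsLocalization M v.toValuationSubring] :
    Module.Finite v.toValuationSubring Ω[v.toValuationSubring⁄K] := by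
  have := essFiniteType_of_isLocalization v M
  exact KaehlerDifferential.finite K v.toValuationSubring

end Hypotheses

end Fermat.Agent.S24
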