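import Mathlib
import Fermat.Agent.S24.DiffOrd
import Fermat.Agent.S24.PlacesZD.PrimePlace

/-!
# S24 Part I-c, bridging to places coming from primes of a Dedekind domain

For a Dedekind domain `S` with fraction field `F` which is a finitely generated `K`-algebra,
the local ring of `placeOfPrime hK P` has finitely generated Kaehler differentials, so the
results of `DiffOrd.lean` apply to it.
-/

set_option autoImplicit false

open KaehlerDifferential AlgebraicCurve IsLocalRing IsDedekindDomain

noncomputable section

namespace Fermat.Agent.S24

variable {K F : Type*} [Field K] [Field F] [Algebra K F]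
variable {S : Type*} [CommRing S] [IsDedekindDomain S] [Algebra S F] [IsFractionRing S F]

theorem finite_kaehler_placeOfPrime [Algebra K S] [IsScalarTower K S F] [Algebra.FiniteType K S]
    (hK : ∀ a : K, algebraMap K F a ∈ (algebraMap S F).range) (P : HeightOneSpectrum S) :
    Module.Finite (placeOfPrime hK P).toValuationSubring
      Ω[(placeOfPrime hK P).toValuationSubring⁄K] :=
  @finite_kaehler_of_isLocalization K F _ _ _ (placeOfPrime hK P) S _ _ _ _ _
    (inferInstanceAs (Algebra S (P.valuationSubringAtPrime F)))
    (inferInstanceAs (IsScalarTower S (P.valuationSubringAtPrime F) F))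
    P.asIdeal.primeCompl
    (inferInstanceAs (IsLocalization P.asIdeal.primeCompl (P.valuationSubringAtPrime F)))

end Fermat.Agent.S24

end
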