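import Mathlib
import Fermat.Prelude.Def_ModularCurve_CanonicalDivisor

/-!
Kaehler differentials of a function field of one variable in characteristic zero.
-/

set_option autoImplicit false

open Polynomial IntermediateField KaehlerDifferential
open scoped TensorProduct

namespace Fermat.Agent.S24.Kaehler

section Main

variable {K F : Type*} [Field K] [Field F] [Algebra K F] [CharZero K]

/-- If `x` is transcendental over `K` and `F` is algebraic over `K(x)` (characteristic zero), the
module of differentials of `F / K` is free of rank one on `dx`. -/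
theorem exists_linearEquiv (x : F) (hx : Transcendental K x) [Algebra.IsAlgebraic K⟮x⟯ F] :
    ∃ e : F ≃ₗ[F] Ω[F⁄K], e 1 = D K F x := by
  let alg1 : Algebra K[X] F := (aeval x : K[X] →ₐ[K] F).toRingHom.toAlgebra
  have halg1 : ∀ p : K[X], algebraMap K[X] F p = aeval x p := fun p => rfl
  have tower1 : IsScalarTower K K[X] F := IsScalarTower.of_algebraMap_eq (fun a => by
    rw [halg1, Polynomial.algebraMap_eq, aeval_C])
  let e : RatFunc K ≃ₐ[K] K⟮x⟯ := RatFunc.algEquivOfTranscendental x hx
  let alg2 : Algebra (RatFunc K) F :=
    ((algebraMap K⟮x⟯ F).comp e.toRingEquiv.toRingHom).toAlgebra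
  have halg2 : ∀ r : RatFunc K, algebraMap (RatFunc K) F r = ((e r : K⟮x⟯) : F) := fun r => rfl
  have tower2 : IsScalarTower K[X] (RatFunc K) F := IsScalarTower.of_algebraMap_eq (fun p => by
    rw [halg1, halg2, RatFunc.algEquivOfTranscendental_algebraMap]
    simp)
  have halgebraic : Algebra.IsAlgebraic (RatFunc K) F := by
    refine Algebra.IsAlgebraic.ringHom_of_comp_eq (R := K⟮x⟯) (A := F) (S := RatFunc K) (B := F)
      e.symm.toRingEquiv.toRingHom (RingHom.id F) e.symm.injective Function.surjective_id ?_
    ext r
    simp only [RingHom.coe_comp, Function.comp_apply, halg2]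
    simp
  have hchar : CharZero (RatFunc K) :=
    charZero_of_injective_algebraMap (algebraMap K (RatFunc K)).injective
  have hsep : Algebra.IsSeparable (RatFunc K) F := inferInstance
  have het1 : Algebra.FormallyEtale K[X] (RatFunc K) :=
    Algebra.FormallyEtale.of_isLocalization (nonZeroDivisors K[X])
  have het2 : Algebra.FormallyEtale (RatFunc K) F := Algebra.FormallyEtale.of_isSeparable _ _
  have het : Algebra.FormallyEtale K[X] F := Algebra.FormallyEtale.comp K[X] (RatFunc K) F
  let e1 : F ⊗[K[X]] Ω[K[X]⁄K] ≃ₗ[F] Ω[F⁄K] := tensorKaehlerEquivOfFormallyEtale K K[X] F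
  let e2 : F ⊗[K[X]] Ω[K[X]⁄K] ≃ₗ[F] F ⊗[K[X]] K[X] :=
    TensorProduct.AlgebraTensorModule.congr (LinearEquiv.refl F F) (polynomialEquiv K)
  let e3 : F ⊗[K[X]] K[X] ≃ₗ[F] F := TensorProduct.AlgebraTensorModule.rid K[X] F F
  refine ⟨e3.symm.trans (e2.symm.trans e1), ?_⟩
  simp only [LinearEquiv.trans_apply]
  have h3 : e3.symm 1 = (1 : F) ⊗ₜ[K[X]] (1 : K[X]) := by
    rw [LinearEquiv.symm_apply_eq]; simp [e3]
  have h2 : e2.symm ((1 : F) ⊗ₜ[K[X]] (1 : K[X])) = (1 : F) ⊗ₜ[K[X]] D K K[X] X := by
    rw [LinearEquiv.symm_apply_eq]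
    simp [e2]
  rw [h3, h2]
  simp only [e1, tensorKaehlerEquivOfFormallyEtale_apply, mapBaseChange_tmul, one_smul, map_D]
  rw [halg1, aeval_X]

/-- `dx` spans the module of differentials. -/
theorem span_D_eq_top (x : F) (hx : Transcendental K x) [Algebra.IsAlgebraic K⟮x⟯ F] :
    Submodule.span F {D K F x} = ⊤ := by
  obtain ⟨e, he⟩ := exists_linearEquiv x hx
  rw [← he, eq_top_iff]
  intro ω _
  rw [Submodule.mem_span_singleton]
  refine ⟨e.symm ω, ?_⟩
  rw [← map_smul, smul_eq_mul, mul_one, LinearEquiv.apply_symm_apply]

/-- `dx ≠ 0`. -/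
theorem D_ne_zero (x : F) (hx : Transcendental K x) [Algebra.IsAlgebraic K⟮x⟯ F] :
    D K F x ≠ 0 := by
  obtain ⟨e, he⟩ := exists_linearEquiv x hx
  rw [← he]
  intro h
  exact one_ne_zero (e.map_eq_zero_iff.mp h)

/-- The module of differentials of a function field of one variable is nontrivial. -/
theorem nontrivial_kaehler (x : F) (hx : Transcendental K x) [Algebra.IsAlgebraic K⟮x⟯ F] :
    Nontrivial Ω[F⁄K] :=
  ⟨⟨D K F x, 0, D_ne_zero x hx⟩⟩

/-- The module of differentials of a function field of one variable has rank one. -/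
theorem finrank_kaehler (x : F) (hx : Transcendental K x) [Algebra.IsAlgebraic K⟮x⟯ F] :
    Module.finrank F Ω[F⁄K] = 1 := by
  obtain ⟨e, -⟩ := exists_linearEquiv x hx
  rw [← e.finrank_eq, Module.finrank_self]

/-- Every differential is a multiple of `dx`. -/
theorem exists_eq_smul_D (x : F) (hx : Transcendental K x) [Algebra.IsAlgebraic K⟮x⟯ F]
    (ω : Ω[F⁄K]) : ∃ f : F, ω = f • D K F x := by
  have hω : ω ∈ (⊤ : Submodule F Ω[F⁄K]) := Submodule.mem_top
  rw [← span_D_eq_top x hx, Submodule.mem_span_singleton] at hω
  exact hω.imp fun _ hf => hf.symm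

/-- The coefficient of a differential with respect to `dx` is unique. -/
theorem smul_D_injective (x : F) (hx : Transcendental K x) [Algebra.IsAlgebraic K⟮x⟯ F] :
    Function.Injective (fun f : F => f • D K F x) := by
  intro f g hfg
  have h : (f - g) • D K F x = 0 := by rw [sub_smul]; exact sub_eq_zero.mpr hfg
  rcases smul_eq_zero.mp h with h | h
  · exact sub_eq_zero.mp h
  · exact absurd h (D_ne_zero x hx)

end Main

section Nonconstant

variable {K F : Type*} [Field K] [Field F] [Algebra K F]

/-- Over an algebraically closed field of constants, a nonconstant element is transcendental. -/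
theorem transcendental_of_notMem_range [IsAlgClosed K] {t : F}
    (ht : t ∉ Set.range (algebraMap K F)) : Transcendental K t := by
  intro halg
  apply ht
  have hint : IsIntegral K t := halg.isIntegral
  have hdeg : (minpoly K t).degree = 1 :=
    IsAlgClosed.degree_eq_one_of_irreducible K (minpoly.irreducible hint)
  exact minpoly.mem_range_of_degree_eq_one K t hdeg

/-- A transcendental element is not a constant. -/
theorem notMem_range_of_transcendental {t : F} (ht : Transcendental K t) :
    t ∉ Set.range (algebraMap K F) := by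
  rintro ⟨a, rfl⟩
  exact ht (isAlgebraic_algebraMap a)

open scoped IntermediateField.algebraAdjoinAdjoin in
/-- In a function field of one variable, every transcendental element `t` is a separating
variable: `F` is algebraic over `K(t)`. -/
theorem isAlgebraic_adjoin_of_transcendental (x : F) [Algebra.IsAlgebraic K⟮x⟯ F]
    {t : F} (ht : Transcendental K t) : Algebra.IsAlgebraic K⟮t⟯ F := by
  have h1 : Algebra.IsAlgebraic (Algebra.adjoin K ({x} : Set F)) F :=
    (IsFractionRing.comap_isAlgebraic_iff (A := Algebra.adjoin K ({x} : Set F))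
      (K := K⟮x⟯) (C := F)).mpr inferInstance
  have h2 : Algebra.trdeg K F ≤ 1 := by
    have := Algebra.IsAlgebraic.trdeg_le_cardinalMk K ({x} : Set F)
    simpa using this
  have h3 : AlgebraicIndependent K (fun _ : PUnit.{_ + 1} => t) :=
    algebraicIndependent_unique_type_iff.mpr ht
  have h4 : IsTranscendenceBasis K (fun _ : PUnit.{_ + 1} => t) :=
    h3.isTranscendenceBasis_of_trdeg_le_of_finite (by simpa using h2)
  have h5 := h4.isAlgebraic_field
  rwa [Set.range_const] at h5

/-- A function field of one variable is essentially of finite type over its constants. -/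
theorem essFiniteType_of_finiteDimensional_adjoin (x : F) [FiniteDimensional K⟮x⟯ F] :
    Algebra.EssFiniteType K F := by
  have h1 : Algebra.EssFiniteType K K⟮x⟯ :=
    IntermediateField.essFiniteType_iff.mpr ⟨{x}, by simp⟩
  have h2 : Algebra.EssFiniteType K⟮x⟯ F := inferInstance
  exact Algebra.EssFiniteType.comp K K⟮x⟯ F

/-- In a function field of one variable, `F` is finite over `K(t)` for every transcendental
element `t`. -/
theorem finiteDimensional_adjoin_of_transcendental (x : F) [FiniteDimensional K⟮x⟯ F]
    {t : F} (ht : Transcendental K t) : FiniteDimensional K⟮t⟯ F := by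
  have h1 : Algebra.EssFiniteType K F := essFiniteType_of_finiteDimensional_adjoin x
  have h2 : Algebra.EssFiniteType K⟮t⟯ F := Algebra.EssFiniteType.of_comp K K⟮t⟯ F
  have h3 : Algebra.IsAlgebraic K⟮t⟯ F := isAlgebraic_adjoin_of_transcendental x ht
  exact Algebra.finite_of_essFiniteType_of_isAlgebraic

/-- Over an algebraically closed field of constants, a nonconstant element `t` of a function
field of one variable is transcendental and `F` is finite over `K(t)`. -/
theorem transcendental_and_finiteDimensional_of_notMem_range [IsAlgClosed K] (x : F)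
    [FiniteDimensional K⟮x⟯ F] {t : F} (ht : t ∉ Set.range (algebraMap K F)) :
    Transcendental K t ∧ FiniteDimensional K⟮t⟯ F :=
  ⟨transcendental_of_notMem_range ht,
    finiteDimensional_adjoin_of_transcendental x (transcendental_of_notMem_range ht)⟩

variable [CharZero K] [IsAlgClosed K]

/-- For a nonconstant `t`, `dt` spans the differentials. -/
theorem span_D_eq_top_of_notMem_range (x : F) [Algebra.IsAlgebraic K⟮x⟯ F] {t : F}
    (ht : t ∉ Set.range (algebraMap K F)) : Submodule.span F {D K F t} = ⊤ := by
  have htr := transcendental_of_notMem_range ht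
  have := isAlgebraic_adjoin_of_transcendental x htr
  exact span_D_eq_top t htr

/-- For a nonconstant `t`, `dt ≠ 0`. -/
theorem D_ne_zero_of_notMem_range (x : F) [Algebra.IsAlgebraic K⟮x⟯ F] {t : F}
    (ht : t ∉ Set.range (algebraMap K F)) : D K F t ≠ 0 := by
  have htr := transcendental_of_notMem_range ht
  have := isAlgebraic_adjoin_of_transcendental x htr
  exact D_ne_zero t htr

/-- `dt = 0` exactly for the constants. -/
theorem D_eq_zero_iff (x : F) [Algebra.IsAlgebraic K⟮x⟯ F] {t : F} :
    D K F t = 0 ↔ t ∈ Set.range (algebraMap K F) := by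
  constructor
  · intro h
    by_contra hne
    exact D_ne_zero_of_notMem_range x hne h
  · rintro ⟨a, rfl⟩
    exact (D K F).map_algebraMap a

end Nonconstant

section Places

open AlgebraicCurve

variable {K F : Type*} [Field K] [Field F] [Algebra K F]

/-- Constants have order zero at every place. -/
theorem ord_algebraMap (v : Place K F) (a : K) : v.ord (algebraMap K F a) = 0 := by
  rcases eq_or_ne a 0 with rfl | ha
  · simp
  · have hu : IsUnit (algebraMap K v.toValuationSubring a) :=
      (isUnit_iff_ne_zero.mpr ha).map (algebraMap K v.toValuationSubring)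
    simpa using v.ord_coe_unit hu.unit

/-- The local coordinate used in the definition of `Place.dCoord`. -/
theorem dCoord_eq (v : Place K F) :
    v.dCoord =
      D K F ((IsDiscreteValuationRing.exists_irreducible v.toValuationSubring).choose : F) :=
  rfl

/-- `Place.dCoord` is `dπ` for an element `π` of order one. -/
theorem exists_dCoord_eq (v : Place K F) : ∃ π : F, v.ord π = 1 ∧ v.dCoord = D K F π :=
  ⟨_, v.ord_coe_irreducible
    (IsDiscreteValuationRing.exists_irreducible v.toValuationSubring).choose_spec, dCoord_eq v⟩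

/-- An element of nonzero order is not a constant. -/
theorem notMem_range_of_ord_ne_zero (v : Place K F) {f : F} (hf : v.ord f ≠ 0) :
    f ∉ Set.range (algebraMap K F) := by
  rintro ⟨a, rfl⟩
  exact hf (ord_algebraMap v a)

variable [CharZero K] [IsAlgClosed K]

/-- At every place of a function field of one variable over an algebraically closed field of
characteristic zero, the differential of the local coordinate spans the differentials. -/
theorem dCoordGenerates (x : F) [Algebra.IsAlgebraic K⟮x⟯ F] (v : Place K F) :
    v.DCoordGenerates := by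
  obtain ⟨π, hπ, hd⟩ := exists_dCoord_eq v
  refine ⟨?_⟩
  rw [hd]
  exact span_D_eq_top_of_notMem_range x
    (notMem_range_of_ord_ne_zero v (by rw [hπ]; exact one_ne_zero))

/-- `Place.dCoord ≠ 0`. -/
theorem dCoord_ne_zero (x : F) [Algebra.IsAlgebraic K⟮x⟯ F] (v : Place K F) :
    v.dCoord ≠ 0 := by
  obtain ⟨π, hπ, hd⟩ := exists_dCoord_eq v
  rw [hd]
  exact D_ne_zero_of_notMem_range x
    (notMem_range_of_ord_ne_zero v (by rw [hπ]; exact one_ne_zero))

end Places

end Fermat.Agent.S24.Kaehler
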