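import Fermat.Agent.S24.Fiber

set_option autoImplicit false
set_option linter.unusedSectionVars false

noncomputable section

open IsDedekindDomain WithZero IsLocalRing AlgebraicCurve Ideal Polynomial

namespace Fermat.Agent.S24.ZD

section ZD
variable {K F : Type*} [Field K] [Field F] [Algebra K F] [IsAlgClosed K] [CharZero K]
variable [Algebra K[X] F] [IsScalarTower K K[X] F] [Algebra (RatFunc K) F]
  [IsScalarTower K[X] (RatFunc K) F] [FiniteDimensional (RatFunc K) F]

local notation "𝓑" => FunctionField.ringOfIntegers K F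

instance isTorsionFree_ringOfIntegers : Module.IsTorsionFree K[X] 𝓑 :=
  Module.isTorsionFree_iff_algebraMap_injective.mpr
    (FunctionField.ringOfIntegers.algebraMap_injective K F)

example : Module.Flat K[X] 𝓑 := inferInstance

instance span_X_isMaximal : (span {(X : K[X])}).IsMaximal :=
  PrincipalIdealRing.isMaximal_of_irreducible Polynomial.irreducible_X

theorem surjective_algebraMap_quotient_span_X :
    Function.Surjective (algebraMap K (K[X] ⧸ span {(X : K[X])})) := by
  intro q
  obtain ⟨p, rfl⟩ := Ideal.Quotient.mk_surjective q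
  refine ⟨p.coeff 0, ?_⟩
  rw [IsScalarTower.algebraMap_apply K K[X] (K[X] ⧸ span {(X : K[X])}), Ideal.Quotient.algebraMap_eq,
    Ideal.Quotient.eq, Ideal.mem_span_singleton, Polynomial.algebraMap_eq, Polynomial.X_dvd_iff]
  simp

end ZD
end Fermat.Agent.S24.ZD

namespace Fermat.Agent.S24.ZD
section ZD2
variable {K F : Type*} [Field K] [Field F] [Algebra K F]

open Polynomial AlgebraicCurve

/-- an element integral over a ring mapping into a valuation subring lies in it. -/
theorem mem_valuationSubring_of_isIntegral {R : Type*} [CommRing R] [Algebra R F]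
    (V : ValuationSubring F) (h : ∀ r : R, algebraMap R F r ∈ V) {b : F} (hb : IsIntegral R b) :
    b ∈ V := by
  obtain ⟨p, hp, hroot⟩ := hb
  let f : R →+* V := (algebraMap R F).codRestrict V h
  have hcomp : (algebraMap V F).comp f = algebraMap R F := by
    ext r; rfl
  have hint : IsIntegral V b := ⟨p.map f, hp.map f, by rw [eval₂_map, hcomp]; exact hroot⟩
  obtain ⟨y, hy⟩ := IsIntegrallyClosed.isIntegral_iff.mp hint
  rw [← hy]
  exact y.2

variable [Algebra K[X] F] [IsScalarTower K K[X] F]

theorem algebraMap_polynomial_eq_aeval (p : K[X]) :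
    algebraMap K[X] F p = aeval (algebraMap K[X] F X) p := by
  have : (algebraMap K[X] F) = (aeval (algebraMap K[X] F X) : K[X] →ₐ[K] F).toRingHom := by
    apply Polynomial.ringHom_ext
    · intro a
      simp only [AlgHom.toRingHom_eq_coe, RingHom.coe_coe, aeval_C]
      rw [← Polynomial.algebraMap_eq, ← IsScalarTower.algebraMap_apply]
    · simp
  exact congrFun (congrArg DFunLike.coe this) p

theorem algebraMap_polynomial_mem (v : Place K F)
    (hy : algebraMap K[X] F X ∈ v.toValuationSubring) (p : K[X]) :
    algebraMap K[X] F p ∈ v.toValuationSubring := by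
  rw [algebraMap_polynomial_eq_aeval]
  let S : Subalgebra K F :=
    { v.toValuationSubring.toSubring with algebraMap_mem' := v.algebraMap_mem' }
  have : aeval (algebraMap K[X] F X) p ∈ Algebra.adjoin K {algebraMap K[X] F X} :=
    Polynomial.aeval_mem_adjoin_singleton K _
  have hle : Algebra.adjoin K {algebraMap K[X] F X} ≤ S :=
    Algebra.adjoin_le (Set.singleton_subset_iff.mpr hy)
  exact hle this

end ZD2
end Fermat.Agent.S24.ZD

namespace Fermat.Agent.S24.ZD
section ZD3
variable {K F : Type*} [Field K] [Field F] [Algebra K F] [IsAlgClosed K] [CharZero K]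
variable [Algebra K[X] F] [IsScalarTower K K[X] F] [Algebra (RatFunc K) F]
  [IsScalarTower K[X] (RatFunc K) F] [FiniteDimensional (RatFunc K) F]

open Polynomial AlgebraicCurve

local notation "𝓑" => FunctionField.ringOfIntegers K F

theorem zeroPlaces_ringOfIntegers_X :
    zeroPlaces (K := K) (F := F) 𝓑 (X : K[X]) = {v | 0 < v.ord (algebraMap K[X] F X)} := by
  ext v
  constructor
  · exact fun h => h.2
  · intro h
    refine ⟨fun b => ?_, h⟩
    have hy : algebraMap K[X] F X ∈ v.toValuationSubring := by
      rw [PlaceLemmas.mem_iff_ord]; right; exact le_of_lt h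
    exact mem_valuationSubring_of_isIntegral (R := K[X]) v.toValuationSubring
      (algebraMap_polynomial_mem v hy) b.2

theorem sum_ord_zeros_X :
    ∃ (_ : Fintype {v : Place K F // 0 < v.ord (algebraMap K[X] F X)}),
      ∑ v : {v : Place K F // 0 < v.ord (algebraMap K[X] F X)},
        v.1.ord (algebraMap K[X] F X) = (Module.finrank (RatFunc K) F : ℤ) := by
  obtain ⟨inst, hsum⟩ := sum_ord_zeroPlaces (K := K) (F := F) 𝓑 (X : K[X]) Polynomial.X_ne_zero
    surjective_algebraMap_quotient_span_X
  have hset := zeroPlaces_ringOfIntegers_X (K := K) (F := F)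
  rw [IsFractionRing.finrank_eq K[X] (RatFunc K) 𝓑 F]
  let e : {v : Place K F // 0 < v.ord (algebraMap K[X] F X)} ≃
      zeroPlaces (K := K) (F := F) 𝓑 (X : K[X]) := Equiv.setCongr hset.symm
  refine ⟨Fintype.ofEquiv _ e.symm, ?_⟩
  let : Fintype {v : Place K F // 0 < v.ord (algebraMap K[X] F X)} := Fintype.ofEquiv _ e.symm
  rw [← hsum, ← Equiv.sum_comp e]
  rfl

end ZD3
end Fermat.Agent.S24.ZD

namespace Fermat.Agent.S24.ZD
section ZD4
variable {K F : Type*} [Field K] [Field F] [Algebra K F] [IsAlgClosed K] [CharZero K]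

open Polynomial AlgebraicCurve IntermediateField

/-- **Degree of the zero divisor**: for `y` transcendental with `F / K(y)` finite, the sum of the
orders of `y` at its zeros is `[F : K(y)]`. -/
theorem sum_ord_zeros (y : F) (hy : Transcendental K y) [FiniteDimensional K⟮y⟯ F] :
    ∃ (_ : Fintype {v : Place K F // 0 < v.ord y}),
      ∑ v : {v : Place K F // 0 < v.ord y}, v.1.ord y = (Module.finrank K⟮y⟯ F : ℤ) := by
  let alg1 : Algebra K[X] F := (aeval y : K[X] →ₐ[K] F).toRingHom.toAlgebra
  have halg1 : ∀ p : K[X], algebraMap K[X] F p = aeval y p := fun p => rfl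
  have tower1 : IsScalarTower K K[X] F := IsScalarTower.of_algebraMap_eq (fun a => by
    rw [halg1, Polynomial.algebraMap_eq, aeval_C])
  let e : RatFunc K ≃ₐ[K] K⟮y⟯ := RatFunc.algEquivOfTranscendental y hy
  let alg2 : Algebra (RatFunc K) F :=
    ((algebraMap K⟮y⟯ F).comp e.toRingEquiv.toRingHom).toAlgebra
  have halg2 : ∀ r : RatFunc K, algebraMap (RatFunc K) F r = ((e r : K⟮y⟯) : F) := fun r => rfl
  have tower2 : IsScalarTower K[X] (RatFunc K) F := IsScalarTower.of_algebraMap_eq (fun p => by
    rw [halg1, halg2, RatFunc.algEquivOfTranscendental_algebraMap]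
    simp)
  have hc : (algebraMap K⟮y⟯ F).comp e.toRingEquiv.toRingHom
      = (RingEquiv.refl F).toRingHom.comp (algebraMap (RatFunc K) F) := by
    ext r; rfl
  have fin : FiniteDimensional (RatFunc K) F :=
    Module.Finite.of_equiv_equiv e.symm.toRingEquiv (RingEquiv.refl F) (by
      ext r
      simp only [RingHom.coe_comp, Function.comp_apply, halg2]
      simp)
  have hfr : Module.finrank (RatFunc K) F = Module.finrank K⟮y⟯ F :=
    Algebra.finrank_eq_of_equiv_equiv e.toRingEquiv (RingEquiv.refl F) hc
  have hX : algebraMap K[X] F X = y := by rw [halg1, aeval_X]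
  have key := sum_ord_zeros_X (K := K) (F := F)
  rw [hX, hfr] at key
  exact key

end ZD4
end Fermat.Agent.S24.ZD
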