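import Mathlib
import Fermat.Prelude.Def_AlgebraicCurve_DivisorClassGroup
import Fermat.Agent.S24.ZeroDivisor

/-!
# Principal divisors of a function field over an algebraically closed field (S24, part I-b4)

`K` algebraically closed of characteristic zero, `x : F` transcendental over `K` with
`F / K(x)` finite.

* `PDiv.transcendental_of_notMem_range`, `PDiv.finiteDimensional_adjoin_simple_of_transcendental`:
  a nonconstant `f` is transcendental and `F / K(f)` is finite.
* `PDiv.sum_ord_poles`: the pole orders of `y` add up to `[F : K(y)]`.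
* `PDiv.finite_and_sum`: every `f` has finitely many zeros and poles and the orders add up to `0`.
* `PDiv.degree_eq_zero_of_forall_ord`, `PDiv.hasPrincipalDivisors`: packaged versions (assuming
  all places have degree one).
-/

set_option autoImplicit false

noncomputable section

namespace Fermat.Agent.S24.PDiv

open AlgebraicCurve IntermediateField

variable {K F : Type*} [Field K] [Field F] [Algebra K F]

/-! ### Nonconstant functions -/

/-- Over an algebraically closed field, an algebraic element of an extension is a constant. -/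
theorem mem_range_of_isAlgebraic [IsAlgClosed K] {f : F} (hf : IsAlgebraic K f) :
    f ∈ Set.range (algebraMap K F) := by
  have hint : IsIntegral K f := hf.isIntegral
  have hdeg : (minpoly K f).degree = 1 :=
    IsAlgClosed.degree_eq_one_of_irreducible K (minpoly.irreducible hint)
  exact minpoly.mem_range_of_degree_eq_one K f hdeg

theorem transcendental_of_notMem_range [IsAlgClosed K] {f : F}
    (hf : f ∉ Set.range (algebraMap K F)) : Transcendental K f :=
  fun h => hf (mem_range_of_isAlgebraic h)

/-- exchange: if `x` is transcendental, `F / K(x)` is algebraic and `f` is transcendental, then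
`x` is algebraic over `K(f)`. -/
theorem isAlgebraic_adjoin_simple_of_transcendental {x f : F} (hx : Transcendental K x)
    [Algebra.IsAlgebraic K⟮x⟯ F] (hf : Transcendental K f) : IsAlgebraic K⟮f⟯ x := by
  have h1 : IsAlgebraic (Algebra.adjoin K {x}) f :=
    isAlgebraic_adjoin_iff.mp (Algebra.IsAlgebraic.isAlgebraic f)
  have h2 := IsAlgebraic.adjoin_singleton (A := F) (B := F) hx hf h1
  exact isAlgebraic_adjoin_iff.mpr h2

/-- If `F / K(x)` is finite and `f` is transcendental over `K`, then `F / K(f)` is finite. -/
theorem finiteDimensional_adjoin_simple_of_transcendental {x f : F} (hx : Transcendental K x)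
    [FiniteDimensional K⟮x⟯ F] (hf : Transcendental K f) : FiniteDimensional K⟮f⟯ F := by
  have halg : IsAlgebraic K⟮f⟯ x := isAlgebraic_adjoin_simple_of_transcendental hx hf
  let Ffx := restrictScalars K K⟮f⟯⟮x⟯
  let Fxf := restrictScalars K K⟮x⟯⟮f⟯
  let : Algebra K⟮f⟯ Ffx := K⟮f⟯⟮x⟯.algebra
  let : Module K⟮f⟯ Ffx := Algebra.toModule
  let : SMul K⟮f⟯ Ffx := Algebra.toSMul
  let : Algebra K⟮x⟯ Fxf := K⟮x⟯⟮f⟯.algebra
  let : Module K⟮x⟯ Fxf := Algebra.toModule
  let : SMul K⟮x⟯ Fxf := Algebra.toSMul
  have : FiniteDimensional K⟮f⟯ Ffx :=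
    adjoin.finiteDimensional (isAlgebraic_iff_isIntegral.mp halg)
  have : FiniteDimensional Ffx F := by
    unfold Ffx
    rw [adjoin_simple_comm]
    have : IsScalarTower K⟮x⟯ Fxf F := isScalarTower_mid' K⟮x⟯⟮f⟯
    exact .right K⟮x⟯ Fxf F
  have : IsScalarTower K⟮f⟯ Ffx F := isScalarTower_mid' K⟮f⟯⟮x⟯
  exact .trans K⟮f⟯ Ffx F

/-- Task I-b4 (1): a nonconstant function is transcendental and `F` is finite over `K(f)`. -/
theorem transcendental_and_finiteDimensional [IsAlgClosed K] {x f : F} (hx : Transcendental K x)
    [FiniteDimensional K⟮x⟯ F] (hf : f ∉ Set.range (algebraMap K F)) :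
    Transcendental K f ∧ FiniteDimensional K⟮f⟯ F :=
  ⟨transcendental_of_notMem_range hf,
    finiteDimensional_adjoin_simple_of_transcendental hx (transcendental_of_notMem_range hf)⟩

/-! ### `K(1/y) = K(y)` and `K(y - a) = K(y)` -/

theorem adjoin_simple_inv (y : F) : K⟮y⁻¹⟯ = K⟮y⟯ := by
  apply le_antisymm
  · rw [adjoin_simple_le_iff]
    exact inv_mem (mem_adjoin_simple_self K y)
  · rw [adjoin_simple_le_iff]
    have := inv_mem (mem_adjoin_simple_self K y⁻¹)
    rwa [inv_inv] at this

theorem transcendental_inv {y : F} (hy : Transcendental K y) : Transcendental K y⁻¹ :=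
  fun h => hy (IsAlgebraic.inv_iff.mp h)

theorem finiteDimensional_adjoin_simple_inv (y : F) [h : FiniteDimensional K⟮y⟯ F] :
    FiniteDimensional K⟮y⁻¹⟯ F := by
  rw [adjoin_simple_inv]
  exact h

theorem finrank_adjoin_simple_inv (y : F) :
    Module.finrank K⟮y⁻¹⟯ F = Module.finrank K⟮y⟯ F := by
  rw [adjoin_simple_inv]

theorem adjoin_simple_sub_algebraMap (y : F) (a : K) : K⟮y - algebraMap K F a⟯ = K⟮y⟯ := by
  apply le_antisymm
  · rw [adjoin_simple_le_iff]
    exact sub_mem (mem_adjoin_simple_self K y) (IntermediateField.algebraMap_mem _ a)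
  · rw [adjoin_simple_le_iff]
    have := add_mem (mem_adjoin_simple_self K (y - algebraMap K F a))
      (IntermediateField.algebraMap_mem K⟮y - algebraMap K F a⟯ a)
    rwa [sub_add_cancel] at this

theorem transcendental_sub_algebraMap {y : F} (hy : Transcendental K y) (a : K) :
    Transcendental K (y - algebraMap K F a) := by
  intro h
  apply hy
  have := h.add (isAlgebraic_algebraMap (R := K) (A := F) a)
  rwa [sub_add_cancel] at this

theorem finiteDimensional_adjoin_simple_sub_algebraMap (y : F) (a : K)
    [h : FiniteDimensional K⟮y⟯ F] : FiniteDimensional K⟮y - algebraMap K F a⟯ F := by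
  rw [adjoin_simple_sub_algebraMap]
  exact h

theorem finrank_adjoin_simple_sub_algebraMap (y : F) (a : K) :
    Module.finrank K⟮y - algebraMap K F a⟯ F = Module.finrank K⟮y⟯ F := by
  rw [adjoin_simple_sub_algebraMap]

/-- the order of a constant vanishes at every place -/
theorem ord_algebraMap (v : Place K F) (a : K) : v.ord (algebraMap K F a) = 0 := by
  rcases eq_or_ne a 0 with rfl | ha
  · simp
  · have hu : IsUnit (algebraMap K v.toValuationSubring a) := (IsUnit.mk0 a ha).map _
    have := v.ord_coe_unit hu.unit
    simpa using this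

/-! ### The degree of a divisor as a `finsum` -/

theorem degree_eq_finsum (D : Divisor K F) :
    Divisor.degree D = ∑ᶠ v : Place K F, D v * (v.deg : ℤ) := by
  have hsupp : Function.support (fun v : Place K F => D v * (v.deg : ℤ)) ⊆ ↑D.support := by
    intro v hv
    simp only [Function.mem_support, ne_eq] at hv
    simp only [Finset.mem_coe, Finsupp.mem_support_iff, ne_eq]
    intro h
    exact hv (by rw [h, zero_mul])
  rw [finsum_eq_sum_of_support_subset _ hsupp]
  simp [Divisor.degree, Finsupp.sum]

theorem degree_eq_finsum_of_deg_eq_one (hdeg : ∀ v : Place K F, v.deg = 1) (D : Divisor K F) :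
    Divisor.degree D = ∑ᶠ v : Place K F, D v := by
  rw [degree_eq_finsum]
  congr 1
  ext v
  rw [hdeg v]
  simp

section AlgClosed

variable [IsAlgClosed K] [CharZero K]

/-! ### Zeros and poles -/

/-- **Degree of the pole divisor**: for `y` transcendental with `F / K(y)` finite, the sum of
the pole orders of `y` is `[F : K(y)]`. -/
theorem sum_ord_poles (y : F) (hy : Transcendental K y) [FiniteDimensional K⟮y⟯ F] :
    ∃ (_ : Fintype {v : Place K F // v.ord y < 0}),
      ∑ v : {v : Place K F // v.ord y < 0}, -(v.1.ord y) = (Module.finrank K⟮y⟯ F : ℤ) := by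
  have hy' : Transcendental K y⁻¹ := transcendental_inv hy
  have hfin : FiniteDimensional K⟮y⁻¹⟯ F := finiteDimensional_adjoin_simple_inv y
  obtain ⟨inst, hsum⟩ := ZD.sum_ord_zeros y⁻¹ hy'
  let e : {v : Place K F // v.ord y < 0} ≃ {v : Place K F // 0 < v.ord y⁻¹} :=
    Equiv.subtypeEquivRight (fun v => by rw [Place.ord_inv, neg_pos])
  refine ⟨Fintype.ofEquiv _ e.symm, ?_⟩
  rw [← finrank_adjoin_simple_inv y, ← hsum]
  refine @Fintype.sum_equiv _ _ _ (Fintype.ofEquiv _ e.symm) inst _ e _ _ (fun v => ?_)
  change -(v.1.ord y) = v.1.ord y⁻¹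
  rw [Place.ord_inv]

/-- the zeros of `y - a` (the fibre of `y` over `a`): the orders add up to `[F : K(y)]`. -/
theorem sum_ord_zeros_sub_algebraMap (y : F) (hy : Transcendental K y) [FiniteDimensional K⟮y⟯ F]
    (a : K) :
    ∃ (_ : Fintype {v : Place K F // 0 < v.ord (y - algebraMap K F a)}),
      ∑ v : {v : Place K F // 0 < v.ord (y - algebraMap K F a)},
        v.1.ord (y - algebraMap K F a) = (Module.finrank K⟮y⟯ F : ℤ) := by
  have hfin : FiniteDimensional K⟮y - algebraMap K F a⟯ F :=
    finiteDimensional_adjoin_simple_sub_algebraMap y a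
  rw [← finrank_adjoin_simple_sub_algebraMap y a]
  exact ZD.sum_ord_zeros (y - algebraMap K F a) (transcendental_sub_algebraMap hy a)

theorem finite_setOf_ord_pos (y : F) (hy : Transcendental K y) [FiniteDimensional K⟮y⟯ F] :
    {v : Place K F | 0 < v.ord y}.Finite := by
  obtain ⟨inst, -⟩ := ZD.sum_ord_zeros y hy
  exact Set.finite_coe_iff.mp (Finite.of_fintype {v : Place K F // 0 < v.ord y})

theorem finite_setOf_ord_neg (y : F) (hy : Transcendental K y) [FiniteDimensional K⟮y⟯ F] :
    {v : Place K F | v.ord y < 0}.Finite := by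
  obtain ⟨inst, -⟩ := sum_ord_poles y hy
  exact Set.finite_coe_iff.mp (Finite.of_fintype {v : Place K F // v.ord y < 0})

/-- For `f` transcendental with `F / K(f)` finite: finitely many zeros and poles, and the
total sum of orders vanishes. -/
theorem finite_and_sum_of_transcendental (f : F) (hf : Transcendental K f)
    [FiniteDimensional K⟮f⟯ F] :
    {v : Place K F | v.ord f ≠ 0}.Finite ∧ ∑ᶠ v : Place K F, v.ord f = 0 := by
  classical
  obtain ⟨instZ, hZ⟩ := ZD.sum_ord_zeros f hf
  obtain ⟨instP, hP⟩ := sum_ord_poles f hf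
  have hfin : {v : Place K F | v.ord f ≠ 0}.Finite := by
    refine ((finite_setOf_ord_pos f hf).union (finite_setOf_ord_neg f hf)).subset ?_
    intro v hv
    rcases lt_or_gt_of_ne (hv : v.ord f ≠ 0) with h | h
    · exact Or.inr h
    · exact Or.inl h
  refine ⟨hfin, ?_⟩
  have hsupp : Function.support (fun v : Place K F => v.ord f) ⊆ ↑hfin.toFinset := by
    intro v hv
    simpa using hv
  rw [finsum_eq_sum_of_support_subset _ hsupp,
    ← Finset.sum_filter_add_sum_filter_not hfin.toFinset (fun v => 0 < v.ord f)]
  have h1 : ∑ v ∈ hfin.toFinset with 0 < v.ord f, v.ord f = (Module.finrank K⟮f⟯ F : ℤ) := by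
    rw [← hZ]
    refine Finset.sum_subtype _ (fun v => ?_) _
    simp only [Finset.mem_filter, Set.Finite.mem_toFinset, Set.mem_ofPred_eq]
    exact ⟨fun h => h.2, fun h => ⟨h.ne', h⟩⟩
  have h2 : ∑ v ∈ hfin.toFinset with ¬ 0 < v.ord f, v.ord f
      = -(Module.finrank K⟮f⟯ F : ℤ) := by
    rw [← hP, ← Finset.sum_neg_distrib]
    simp only [neg_neg]
    refine Finset.sum_subtype _ (fun v => ?_) _
    simp only [Finset.mem_filter, Set.Finite.mem_toFinset, Set.mem_ofPred_eq, not_lt]
    exact ⟨fun h => lt_of_le_of_ne h.2 h.1, fun h => ⟨h.ne, h.le⟩⟩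
  rw [h1, h2]
  ring

/-! ### Principal divisors -/

variable (x : F) (hx : Transcendental K x) [FiniteDimensional K⟮x⟯ F]

include hx in
/-- Task I-b4 (2): in a function field over an algebraically closed field every function has
finitely many zeros and poles, and the sum of all its orders is zero. -/
theorem finite_and_sum (f : F) :
    {v : Place K F | v.ord f ≠ 0}.Finite ∧ ∑ᶠ v : Place K F, v.ord f = 0 := by
  by_cases hf : f ∈ Set.range (algebraMap K F)
  · obtain ⟨a, rfl⟩ := hf
    have h0 : ∀ v : Place K F, v.ord (algebraMap K F a) = 0 := fun v => ord_algebraMap v a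
    constructor
    · convert Set.finite_empty
      ext v
      simp [h0 v]
    · simp [h0]
  · have hft : Transcendental K f := transcendental_of_notMem_range hf
    have : FiniteDimensional K⟮f⟯ F := finiteDimensional_adjoin_simple_of_transcendental hx hft
    exact finite_and_sum_of_transcendental f hft

include hx in
theorem finite_setOf_ord_ne_zero (f : F) : {v : Place K F | v.ord f ≠ 0}.Finite :=
  (finite_and_sum x hx f).1

include hx in
theorem finsum_ord_eq_zero (f : F) : ∑ᶠ v : Place K F, v.ord f = 0 :=
  (finite_and_sum x hx f).2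

include hx in
/-- the divisor of a function exists (as a finitely supported function on places) -/
theorem exists_divisor_ord (f : F) : ∃ D : Divisor K F, ∀ v : Place K F, D v = v.ord f :=
  ⟨Finsupp.ofSupportFinite (fun v => v.ord f) (finite_and_sum x hx f).1, fun _ => rfl⟩

include hx in
/-- Task I-b4 (3): a principal divisor has degree zero (given that all places have degree one,
which is part I-b2). -/
theorem degree_eq_zero_of_forall_ord (hdeg : ∀ v : Place K F, v.deg = 1) (f : F)
    (D : Divisor K F) (hD : ∀ v : Place K F, D v = v.ord f) : Divisor.degree D = 0 := by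
  rw [degree_eq_finsum_of_deg_eq_one hdeg, ← (finite_and_sum x hx f).2]
  congr 1
  ext v
  exact hD v

include hx in
theorem hasPrincipalDivisors (hdeg : ∀ v : Place K F, v.deg = 1) : HasPrincipalDivisors K F where
  exists_divisor f _ := by
    obtain ⟨D, hD⟩ := exists_divisor_ord x hx f
    exact ⟨D, hD, degree_eq_zero_of_forall_ord x hx hdeg f D hD⟩

include hx in
/-- the `deg_principal` field of `RH.FFData`, literally. -/
theorem deg_principal (hdeg : ∀ v : Place K F, v.deg = 1) :
    ∀ f : F, f ≠ 0 → ∀ E : Divisor K F, (∀ v, E v = v.ord f) → Divisor.degree E = 0 :=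
  fun f _ E hE => degree_eq_zero_of_forall_ord x hx hdeg f E hE

end AlgClosed

end Fermat.Agent.S24.PDiv
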