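import Fermat.Agent.S24.ZeroDivisor
import Fermat.Agent.S24.AddVal
import Fermat.Prelude.Def_AlgebraicCurve_CanonicalDivisor

set_option autoImplicit false
set_option linter.unusedSectionVars false

noncomputable section

open AlgebraicCurve KaehlerDifferential IntermediateField

namespace Fermat.Agent.S24.RH

variable {K F : Type*} [Field K] [Field F] [Algebra K F]

/-- shifting the generator by a constant does not change the simple extension. -/
theorem adjoin_sub_const (x : F) (a : K) : K⟮x - algebraMap K F a⟯ = K⟮x⟯ := by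
  apply le_antisymm
  · rw [adjoin_simple_le_iff]
    exact sub_mem (mem_adjoin_simple_self K x) (IntermediateField.algebraMap_mem _ a)
  · rw [adjoin_simple_le_iff]
    have h : x = (x - algebraMap K F a) + algebraMap K F a := by ring
    have h2 : (x - algebraMap K F a) + algebraMap K F a ∈ K⟮x - algebraMap K F a⟯ :=
      add_mem (mem_adjoin_simple_self K _) (IntermediateField.algebraMap_mem _ a)
    rwa [← h] at h2

theorem adjoin_inv (x : F) : K⟮x⁻¹⟯ = K⟮x⟯ := by
  apply le_antisymm
  · rw [adjoin_simple_le_iff]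
    exact inv_mem (mem_adjoin_simple_self K x)
  · rw [adjoin_simple_le_iff]
    have h2 : (x⁻¹)⁻¹ ∈ K⟮x⁻¹⟯ := inv_mem (mem_adjoin_simple_self K _)
    rwa [inv_inv] at h2

theorem transcendental_sub_const {x : F} (hx : Transcendental K x) (a : K) :
    Transcendental K (x - algebraMap K F a) := by
  intro h
  apply hx
  have h2 : IsAlgebraic K ((x - algebraMap K F a) + algebraMap K F a) :=
    h.add (isAlgebraic_algebraMap a)
  rwa [sub_add_cancel] at h2

theorem transcendental_inv {x : F} (hx : Transcendental K x) : Transcendental K x⁻¹ := by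
  intro h
  apply hx
  have h2 := h.inv
  rwa [inv_inv] at h2


variable [IsAlgClosed K] [CharZero K]

/-- zeros of `y`, as a type. -/
abbrev Zeros (K : Type*) {F : Type*} [Field K] [Field F] [Algebra K F] (y : F) : Type _ :=
  {v : Place K F // 0 < v.ord y}

/-- the general function field facts consumed by the Riemann-Hurwitz bookkeeping. -/
structure FFData (K : Type*) {F : Type*} [Field K] [Field F] [Algebra K F] (x : F) : Prop where
  transcendental : Transcendental K x
  finite : FiniteDimensional K⟮x⟯ F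
  deg_one : ∀ v : Place K F, v.deg = 1
  residue : ∀ v : Place K F, 0 ≤ v.ord x → ∃ a : K, 0 < v.ord (x - algebraMap K F a)
  dx_ne : D K F x ≠ 0
  span_dx : Submodule.span F {D K F x} = ⊤
  dcoord : ∀ v : Place K F, v.DCoordGenerates
  ord_diff : ∀ (v : Place K F) (y : F), v.ord y ≠ 0 →
    v.ordDifferential (D K F y) = v.ord y - 1
  deg_principal : ∀ f : F, f ≠ 0 → ∀ E : Divisor K F, (∀ v, E v = v.ord f) →
    Divisor.degree E = 0

namespace FFData

variable {x : F} (h : FFData K x)

include h

theorem x_ne_zero : x ≠ 0 := by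
  rintro rfl
  exact h.transcendental (isAlgebraic_zero)

theorem sub_const_ne_zero (a : K) : x - algebraMap K F a ≠ 0 := by
  intro h0
  apply h.transcendental
  rw [sub_eq_zero.mp h0]
  exact isAlgebraic_algebraMap a

/-- the zeros of `x - a`: finitely many, orders summing to `n`. -/
theorem zeros_sub_const (a : K) :
    ∃ (_ : Fintype (Zeros K (x - algebraMap K F a))),
      ∑ v : Zeros K (x - algebraMap K F a), v.1.ord (x - algebraMap K F a)
        = (Module.finrank K⟮x⟯ F : ℤ) := by
  have hfin : FiniteDimensional K⟮x - algebraMap K F a⟯ F := by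
    rw [adjoin_sub_const]; exact h.finite
  have key := ZD.sum_ord_zeros (x - algebraMap K F a) (transcendental_sub_const h.transcendental a)
  rw [adjoin_sub_const] at key
  exact key

theorem zeros_inv :
    ∃ (_ : Fintype (Zeros K x⁻¹)),
      ∑ v : Zeros K x⁻¹, v.1.ord x⁻¹ = (Module.finrank K⟮x⟯ F : ℤ) := by
  have hfin : FiniteDimensional K⟮x⁻¹⟯ F := by
    rw [adjoin_inv]; exact h.finite
  have key := ZD.sum_ord_zeros x⁻¹ (transcendental_inv h.transcendental)
  rw [adjoin_inv] at key
  exact key


theorem const_unique (v : Place K F) {a b : K} (ha : 0 < v.ord (x - algebraMap K F a))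
    (hb : 0 < v.ord (x - algebraMap K F b)) : a = b := by
  by_contra hab
  have hw := isAddVal_ord (K := K) v
  have hne : (x - algebraMap K F a) - (x - algebraMap K F b) ≠ 0 := by
    rw [sub_sub_sub_cancel_left, ← map_sub]
    exact (map_ne_zero_iff _ (algebraMap K F).injective).mpr (sub_ne_zero.mpr (Ne.symm hab))
  have h1 := hw.map_sub (h.sub_const_ne_zero a) (h.sub_const_ne_zero b) hne
  rw [sub_sub_sub_cancel_left, ← map_sub, hw.map_const _ (sub_ne_zero.mpr (Ne.symm hab))] at h1
  have := lt_min ha hb
  omega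

theorem ord_nonneg_of_zero (v : Place K F) {a : K} (ha : 0 < v.ord (x - algebraMap K F a)) :
    0 ≤ v.ord x := by
  have hw := isAddVal_ord (K := K) v
  rcases eq_or_ne a 0 with rfl | ha0
  · simpa using ha.le
  have hc : algebraMap K F a ≠ 0 := (map_ne_zero_iff _ (algebraMap K F).injective).mpr ha0
  have h1 := hw.map_add (x - algebraMap K F a) (algebraMap K F a) (h.sub_const_ne_zero a) hc
    (by rw [sub_add_cancel]; exact h.x_ne_zero)
  rw [sub_add_cancel, hw.map_const a ha0] at h1
  have : 0 ≤ min (v.ord (x - algebraMap K F a)) 0 := le_min ha.le le_rfl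
  omega

theorem pole_iff (v : Place K F) : v.ord x < 0 ↔ 0 < v.ord x⁻¹ := by
  rw [v.ord_inv]; omega

/-- every place is a pole of `x` or a zero of `x - a` for some `a`. -/
theorem pole_or_zero (v : Place K F) :
    0 < v.ord x⁻¹ ∨ ∃ a : K, 0 < v.ord (x - algebraMap K F a) := by
  rcases lt_or_ge (v.ord x) 0 with hlt | hge
  · exact Or.inl ((h.pole_iff v).mp hlt)
  · exact Or.inr (h.residue v hge)

theorem ordDiff_pole (v : Place K F) (hv : 0 < v.ord x⁻¹) :
    v.ordDifferential (D K F x) = -(v.ord x⁻¹) - 1 := by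
  have hx : v.ord x ≠ 0 := by
    have := (h.pole_iff v).mpr hv
    omega
  rw [h.ord_diff v x hx, v.ord_inv, neg_neg]

theorem ordDiff_zero (v : Place K F) {a : K} (hv : 0 < v.ord (x - algebraMap K F a)) :
    v.ordDifferential (D K F x) = v.ord (x - algebraMap K F a) - 1 := by
  have hD : D K F x = D K F (x - algebraMap K F a) := by
    rw [map_sub, Derivation.map_algebraMap, sub_zero]
  rw [hD, h.ord_diff v _ hv.ne']


end FFData

/-- the ramification data over the projective line. -/
structure RamData (K : Type*) {F : Type*} [Field K] [Field F] [Algebra K F] (x : F)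
    (S : Finset K) (r : K → ℕ) (rinf : ℕ) : Prop where
  card_zero : ∀ a ∈ S, Nat.card (Zeros K (x - algebraMap K F a)) = r a
  card_unram : ∀ a ∉ S, Nat.card (Zeros K (x - algebraMap K F a)) = Module.finrank K⟮x⟯ F
  card_inf : Nat.card (Zeros K x⁻¹) = rinf

/-- the finset of zeros of `y`, given finiteness. -/
def zerosFinset (y : F) [Fintype (Zeros K y)] : Finset (Place K F) :=
  Finset.univ.map ⟨(Subtype.val : Zeros K y → Place K F), Subtype.val_injective⟩

omit [IsAlgClosed K] [CharZero K] in
theorem mem_zerosFinset (y : F) [Fintype (Zeros K y)] (v : Place K F) :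
    v ∈ zerosFinset (K := K) y ↔ 0 < v.ord y := by
  simp [zerosFinset]

omit [IsAlgClosed K] [CharZero K] in
theorem sum_zerosFinset (y : F) [Fintype (Zeros K y)] (g : Place K F → ℤ) :
    ∑ v ∈ zerosFinset (K := K) y, g v = ∑ v : Zeros K y, g v.1 := by
  simp [zerosFinset]

omit [IsAlgClosed K] [CharZero K] in
theorem card_zerosFinset (y : F) [Fintype (Zeros K y)] :
    (zerosFinset (K := K) y).card = Nat.card (Zeros K y) := by
  simp [zerosFinset, Nat.card_eq_fintype_card]


section Main

variable {x : F} (h : FFData K x) {S : Finset K} {r : K → ℕ} {rinf : ℕ}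
  (hR : RamData K x S r rinf)

include h hR

/-- outside `S` everything is unramified. -/
theorem ord_eq_one_of_unram {a : K} (ha : a ∉ S) (v : Place K F)
    (hv : 0 < v.ord (x - algebraMap K F a)) : v.ord (x - algebraMap K F a) = 1 := by
  obtain ⟨inst, hsum⟩ := h.zeros_sub_const a
  have hcard := hR.card_unram a ha
  rw [Nat.card_eq_fintype_card] at hcard
  have h1 : ∑ v : Zeros K (x - algebraMap K F a), (v.1.ord (x - algebraMap K F a) - 1) = 0 := by
    rw [Finset.sum_sub_distrib, hsum]
    simp [hcard]
  have h2 := (Finset.sum_eq_zero_iff_of_nonneg (fun (w : Zeros K (x - algebraMap K F a)) _ => by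
    have := w.2; omega)).mp h1 ⟨v, hv⟩ (Finset.mem_univ _)
  simp only at h2
  omega

/-- **Riemann-Hurwitz bookkeeping**: the degree of the divisor of `dx`. -/
theorem degree_div_dx (Dx : Divisor K F) (hDx : ∀ v, Dx v = v.ordDifferential (D K F x)) :
    Divisor.degree Dx = -((Module.finrank K⟮x⟯ F : ℤ) + rinf)
      + ∑ a ∈ S, ((Module.finrank K⟮x⟯ F : ℤ) - r a) := by
  classical
  set n : ℤ := (Module.finrank K⟮x⟯ F : ℤ) with hn
  obtain ⟨instInf, hsumInf⟩ := h.zeros_inv
  have hz := fun a => h.zeros_sub_const a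
  choose inst hsum using hz
  let Tinf : Finset (Place K F) := zerosFinset (K := K) x⁻¹
  let Tz : K → Finset (Place K F) := fun a => zerosFinset (K := K) (x - algebraMap K F a)
  let T : Finset (Place K F) := Tinf ∪ S.biUnion Tz
  -- support is inside T
  have hsupp : Dx.support ⊆ T := by
    intro v hv
    rw [Finsupp.mem_support_iff] at hv
    by_contra hvT
    apply hv
    have hnp : ¬ 0 < v.ord x⁻¹ := fun hp =>
      hvT (Finset.mem_union_left _ ((mem_zerosFinset _ v).mpr hp))
    obtain ⟨a, ha⟩ := (h.pole_or_zero v).resolve_left hnp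
    have haS : a ∉ S := fun haS =>
      hvT (Finset.mem_union_right _ (Finset.mem_biUnion.mpr ⟨a, haS, (mem_zerosFinset _ v).mpr ha⟩))
    rw [hDx, h.ordDiff_zero v ha, ord_eq_one_of_unram h hR haS v ha, sub_self]
  -- degree as a sum over T
  have hdeg : Divisor.degree Dx = ∑ v ∈ T, Dx v := by
    have : Divisor.degree Dx = Dx.sum (fun v k => k * (v.deg : ℤ)) := by
      simp [Divisor.degree, Finsupp.liftAddHom_apply]
    rw [this, Finsupp.sum_of_support_subset Dx hsupp _ (fun v _ => by simp)]
    refine Finset.sum_congr rfl (fun v _ => ?_)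
    rw [h.deg_one v]; simp
  -- disjointness
  have hdisj1 : Disjoint Tinf (S.biUnion Tz) := by
    rw [Finset.disjoint_left]
    intro v hv1 hv2
    rw [mem_zerosFinset] at hv1
    obtain ⟨a, _, hva⟩ := Finset.mem_biUnion.mp hv2
    rw [mem_zerosFinset] at hva
    have h1 := (h.pole_iff v).mpr hv1
    have h2 := h.ord_nonneg_of_zero v hva
    omega
  have hdisj2 : (S : Set K).PairwiseDisjoint Tz := by
    intro a _ b _ hab
    rw [Function.onFun, Finset.disjoint_left]
    intro v hva hvb
    rw [mem_zerosFinset] at hva hvb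
    exact hab (h.const_unique v hva hvb)
  rw [hdeg, Finset.sum_union hdisj1, Finset.sum_biUnion hdisj2]
  congr 1
  · -- poles
    rw [sum_zerosFinset]
    have : ∀ v : Zeros K x⁻¹, Dx v.1 = -(v.1.ord x⁻¹) - 1 := fun v => by
      rw [hDx, h.ordDiff_pole v.1 v.2]
    simp_rw [this]
    rw [Finset.sum_sub_distrib, Finset.sum_neg_distrib, hsumInf]
    have hc := hR.card_inf
    rw [Nat.card_eq_fintype_card] at hc
    simp [hc]
    ring
  · refine Finset.sum_congr rfl (fun a ha => ?_)
    rw [sum_zerosFinset]
    have : ∀ v : Zeros K (x - algebraMap K F a), Dx v.1 = v.1.ord (x - algebraMap K F a) - 1 :=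
      fun v => by rw [hDx, h.ordDiff_zero v.1 v.2]
    simp_rw [this]
    rw [Finset.sum_sub_distrib, hsum a]
    have hc := hR.card_zero a ha
    rw [Nat.card_eq_fintype_card] at hc
    simp [hc, hn]


/-- the degree of the divisor of an arbitrary nonzero differential. -/
theorem degree_canonical [HasCanonicalDivisor (K := K) (F := F)]
    (ω : Ω[F⁄K]) (hω : ω ≠ 0) (Dω : Divisor K F) (hDω : ∀ v, Dω v = v.ordDifferential ω) :
    Divisor.degree Dω = -((Module.finrank K⟮x⟯ F : ℤ) + rinf)
      + ∑ a ∈ S, ((Module.finrank K⟮x⟯ F : ℤ) - r a) := by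
  have hnt : Nontrivial Ω[F⁄K] := ⟨⟨_, _, h.dx_ne⟩⟩
  -- write ω = f • dx
  have hmem : ω ∈ Submodule.span F {D K F x} := by rw [h.span_dx]; exact Submodule.mem_top
  obtain ⟨f, hf⟩ := Submodule.mem_span_singleton.mp hmem
  have hf0 : f ≠ 0 := by
    rintro rfl
    rw [zero_smul] at hf
    exact hω hf.symm
  -- the divisor of dx
  let Dx : Divisor K F := canonicalDivisorOf h.dx_ne
  have hDx : ∀ v, Dx v = v.ordDifferential (D K F x) := fun v => canonicalDivisorOf_apply h.dx_ne v
  -- the difference is the divisor of f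
  have hE : ∀ v, (Dω - Dx) v = v.ord f := by
    intro v
    have := h.dcoord v
    have hc : v.differentialCoeff (D K F x) ≠ 0 := by
      intro h0
      have h1 := v.differentialCoeff_smul_dCoord (D K F x)
      rw [h0, zero_smul] at h1
      exact h.dx_ne h1.symm
    rw [Finsupp.sub_apply, hDω, hDx, ← hf, v.ordDifferential_smul hf0 hc]
    ring
  have h0 := h.deg_principal f hf0 (Dω - Dx) hE
  rw [map_sub, sub_eq_zero] at h0
  rw [h0]
  exact degree_div_dx h hR Dx hDx


/-- the genus, given the numerical identity. -/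
theorem genus_eq [HasCanonicalDivisor (K := K) (F := F)] (g : ℕ)
    (hg : (2 * g : ℤ) - 2 = -((Module.finrank K⟮x⟯ F : ℤ) + rinf)
      + ∑ a ∈ S, ((Module.finrank K⟮x⟯ F : ℤ) - r a)) :
    AlgebraicCurve.genus K F = g := by
  have hex : ∃ ω : Ω[F⁄K], ω ≠ 0 := ⟨_, h.dx_ne⟩
  rw [AlgebraicCurve.genus, dif_pos hex]
  have hdeg := degree_canonical h hR hex.choose hex.choose_spec
    (canonicalDivisorOf hex.choose_spec) (fun v => canonicalDivisorOf_apply hex.choose_spec v)
  rw [hdeg, ← hg]
  have : (2 * (g : ℤ) - 2 + 2).toNat = 2 * g := by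
    have : (2 * (g : ℤ) - 2 + 2) = ((2 * g : ℕ) : ℤ) := by push_cast; ring
    rw [this, Int.toNat_natCast]
  rw [this]
  omega

end Main

end Fermat.Agent.S24.RH
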