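import Fermat.Agent.S24.PrincipalDiv
import Fermat.Agent.S24.DiffOrdPrime
import Fermat.Agent.S24.Kaehler
import Fermat.Agent.S24.RiemannHurwitz
import Fermat.Agent.S24.PrincDiv

/-!
# Assembly of `RH.FFData K x` (S24, part I glue)

For `K` algebraically closed of characteristic zero, `x : F` transcendental with `F / K(x)` finite:
* `FFDataAll.finite_kaehler hx v`: the local ring of every place has finitely generated
  differentials (every place is the place of a prime of the integral closure of `K[x]` or
  `K[1/x]`, a `K`-algebra of finite type);
* `FFDataAll.ord_diff hx`: the literal `ord_diff` field;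
* `FFDataAll.ffData hx : RH.FFData K x`: all fields, from `PrincipalDiv` (deg one, residue),
  `Kaehler` (dx), `DiffOrd` (orders of differentials), `PrincDiv` (principal divisors).
-/

set_option autoImplicit false

noncomputable section

open IntermediateField IsDedekindDomain AlgebraicCurve Polynomial KaehlerDifferential

namespace Fermat.Agent.S24.FFDataAll

variable {K F : Type*} [Field K] [Field F] [Algebra K F]

section XForm

variable [IsAlgClosed K] [CharZero K]
variable [Algebra K[X] F] [IsScalarTower K K[X] F] [Algebra (RatFunc K) F]
  [IsScalarTower K[X] (RatFunc K) F] [FiniteDimensional (RatFunc K) F]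

local notation "𝓑" => FunctionField.ringOfIntegers K F

theorem finite_kaehler_X (v : Place K F) (hX : algebraMap K[X] F X ∈ v.toValuationSubring) :
    Module.Finite v.toValuationSubring Ω[v.toValuationSubring⁄K] := by
  have h : ∀ b : 𝓑, algebraMap 𝓑 F b ∈ v.toValuationSubring := fun b =>
    ZD.mem_valuationSubring_of_isIntegral (R := K[X]) v.toValuationSubring
      (ZD.algebraMap_polynomial_mem v hX) b.2
  have hft : Algebra.FiniteType K 𝓑 :=
    Algebra.FiniteType.trans (S := K[X]) inferInstance inferInstance
  have hK : ∀ a : K, algebraMap K F a ∈ (algebraMap 𝓑 F).range := fun a =>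
    ⟨algebraMap K 𝓑 a, (IsScalarTower.algebraMap_apply K 𝓑 F a).symm⟩
  obtain ⟨P, hP⟩ := exists_placeOfPrime_eq hK v h
  subst hP
  exact finite_kaehler_placeOfPrime hK P

end XForm

section General

variable [IsAlgClosed K] [CharZero K]

theorem finite_kaehler_of_mem (v : Place K F) {y : F} (hy : Transcendental K y)
    [FiniteDimensional K⟮y⟯ F] (hyv : y ∈ v.toValuationSubring) :
    Module.Finite v.toValuationSubring Ω[v.toValuationSubring⁄K] := by
  obtain ⟨alg1, tower1, alg2, tower2, fin, hX⟩ := PD.exists_polynomial_instances y hy
  exact finite_kaehler_X v (by rw [hX]; exact hyv)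

variable {x : F} (hx : Transcendental K x) [FiniteDimensional K⟮x⟯ F]

include hx in
/-- the local ring of every place has finitely generated differentials. -/
theorem finite_kaehler (v : Place K F) :
    Module.Finite v.toValuationSubring Ω[v.toValuationSubring⁄K] := by
  rcases v.toValuationSubring.mem_or_inv_mem x with h | h
  · exact finite_kaehler_of_mem v hx h
  · have : FiniteDimensional K⟮x⁻¹⟯ F := by rw [PD.adjoin_inv_eq]; infer_instance
    exact finite_kaehler_of_mem v (PD.transcendental_inv hx) h

include hx in
theorem residueTrivial (v : Place K F) : ResidueTrivial v := by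
  have : Module.Finite K v.ResidueField := PD.finite_residueField hx v
  exact residueTrivial_of_isAlgClosed v

include hx in
/-- the `ord_diff` field of `RH.FFData`, literally. -/
theorem ord_diff : ∀ (v : Place K F) (y : F), v.ord y ≠ 0 →
    v.ordDifferential (D K F y) = v.ord y - 1 := by
  intro v y hy
  have := finite_kaehler hx v
  have : Nontrivial Ω[F⁄K] := Kaehler.nontrivial_kaehler x hx
  exact (ordDifferential_D_of_ord_ne_zero v (residueTrivial hx v) hy).1

include hx in
/-- All the general function field facts needed by the Riemann-Hurwitz bookkeeping. -/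
theorem ffData : RH.FFData K x where
  transcendental := hx
  finite := inferInstance
  deg_one := fun v => PD.deg_eq_one hx v
  residue := by
    intro v hv
    have hmem : x ∈ v.toValuationSubring := by
      rw [ZD.PlaceLemmas.mem_iff_ord]; right; exact hv
    obtain ⟨a, ha | ha⟩ := PD.exists_const_sub_ord_pos hx v hmem
    · exact absurd (ha ▸ isAlgebraic_algebraMap (R := K) (A := F) a) hx
    · exact ⟨a, ha⟩
  dx_ne := Kaehler.D_ne_zero x hx
  span_dx := Kaehler.span_D_eq_top x hx
  dcoord := fun v => Kaehler.dCoordGenerates x v
  ord_diff := ord_diff hx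
  deg_principal := PDiv.deg_principal x hx (fun v => PD.deg_eq_one hx v)

end General

end Fermat.Agent.S24.FFDataAll
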