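import Mathlib
import Fermat.Prelude.Def_AlgebraicCurve_Repartitions
import Fermat.Prelude.Def_AlgebraicCurve_IsCurveOver

set_option autoImplicit false

noncomputable section

open IsDedekindDomain WithZero IsLocalRing AlgebraicCurve

namespace Fermat.Agent.S24.ZD

/-- Two equivalent `ℤᵐ⁰`-valued valuations on a field that both attain `exp (-1)` are equal. -/
theorem valuation_eq_of_isEquiv {F : Type*} [Field F] (v₁ v₂ : Valuation F ℤᵐ⁰)
    (h : v₁.IsEquiv v₂)
    (h₁ : ∃ π, v₁ π = exp (-1 : ℤ)) (h₂ : ∃ π, v₂ π = exp (-1 : ℤ)) : v₁ = v₂ := by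
  obtain ⟨π₁, hπ₁⟩ := h₁
  obtain ⟨π₂, hπ₂⟩ := h₂
  have hπ₁0 : π₁ ≠ 0 := by
    rintro rfl; rw [map_zero] at hπ₁; exact exp_ne_zero hπ₁.symm
  have hπ₂0 : π₂ ≠ 0 := by
    rintro rfl; rw [map_zero] at hπ₂; exact exp_ne_zero hπ₂.symm
  have nz₁ : ∀ f : F, f ≠ 0 → v₁ f ≠ 0 := fun f hf => (Valuation.ne_zero_iff v₁).mpr hf
  have nz₂ : ∀ f : F, f ≠ 0 → v₂ f ≠ 0 := fun f hf => (Valuation.ne_zero_iff v₂).mpr hf
  have key : ∀ f : F, f ≠ 0 → log (v₂ f) = -(log (v₂ π₁)) * log (v₁ f) := by
    intro f hf
    have h1 : v₁ (f * π₁ ^ (log (v₁ f))) = 1 := by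
      rw [map_mul, map_zpow₀, hπ₁, ← exp_zsmul, smul_eq_mul, mul_neg, mul_one]
      conv_lhs => rw [← exp_log (nz₁ f hf)]
      rw [← exp_add, log_exp]; simp
    have h2 : v₂ (f * π₁ ^ (log (v₁ f))) = 1 := (Valuation.isEquiv_iff_val_eq_one.mp h).mp h1
    rw [map_mul, map_zpow₀] at h2
    have := congrArg log h2
    rw [log_mul (nz₂ f hf) (zpow_ne_zero _ (nz₂ _ hπ₁0)),
      log_zpow, log_one, smul_eq_mul] at this
    linarith
  have hc : log (v₂ π₁) = -1 := by
    have e1 := key π₂ hπ₂0
    rw [hπ₂, log_exp] at e1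
    have hneg1 : log (v₂ π₁) < 0 := by
      have : v₂ π₁ < 1 := (Valuation.isEquiv_iff_val_lt_one.mp h).mp
        (by rw [hπ₁, ← exp_zero, exp_lt_exp]; norm_num)
      rwa [← exp_zero, ← log_lt_iff_lt_exp (nz₂ _ hπ₁0)] at this
    have hneg2 : log (v₁ π₂) < 0 := by
      have : v₁ π₂ < 1 := (Valuation.isEquiv_iff_val_lt_one.mp h).mpr
        (by rw [hπ₂, ← exp_zero, exp_lt_exp]; norm_num)
      rwa [← exp_zero, ← log_lt_iff_lt_exp (nz₁ _ hπ₂0)] at this
    nlinarith
  ext f
  rcases eq_or_ne f 0 with rfl | hf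
  · simp
  · have := key f hf
    rw [hc] at this
    rw [← exp_log (nz₁ f hf), ← exp_log (nz₂ f hf), this]
    simp

variable {K F : Type*} [Field K] [Field F] [Algebra K F]

namespace PlaceLemmas

variable (v : Place K F)

/-- membership in the valuation ring is `adicValuation ≤ 1`. -/
theorem mem_iff_adicValuation_le_one (f : F) :
    f ∈ v.toValuationSubring ↔ v.adicValuation f ≤ 1 := by
  constructor
  · exact v.adicValuation_le_one_of_mem
  · intro h
    have key : ∀ w : HeightOneSpectrum v.toValuationSubring,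
        w.valuation F f ≤ 1 := by
      intro w
      have hw : w = v.heightOneSpectrum := by
        apply HeightOneSpectrum.ext
        rw [Place.heightOneSpectrum_asIdeal]
        exact (IsLocalRing.eq_maximalIdeal (w.isMaximal)) 
      rw [hw]
      exact h
    obtain ⟨a, ha⟩ := HeightOneSpectrum.mem_integers_of_valuation_le_one F f key
    rw [← ha]
    exact a.2

theorem mem_iff_ord (f : F) :
    f ∈ v.toValuationSubring ↔ f = 0 ∨ 0 ≤ v.ord f := by
  rw [mem_iff_adicValuation_le_one, v.adicValuation_le_one_iff]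

theorem valuationSubring_adicValuation :
    v.adicValuation.valuationSubring = v.toValuationSubring := by
  ext f
  rw [Valuation.mem_valuationSubring_iff, ← mem_iff_adicValuation_le_one]

theorem exists_adicValuation_eq_exp_neg_one : ∃ π : F, v.adicValuation π = exp (-1 : ℤ) := by
  obtain ⟨π, hπ⟩ := IsDiscreteValuationRing.exists_irreducible v.toValuationSubring
  exact ⟨π, v.adicValuation_coe_irreducible hπ⟩

theorem exists_ord_eq_one : ∃ t : F, v.ord t = 1 := by
  obtain ⟨π, hπ⟩ := IsDiscreteValuationRing.exists_irreducible v.toValuationSubring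
  exact ⟨π, v.ord_coe_irreducible hπ⟩

section Dedekind

variable {R : Type*} [CommRing R] [IsDedekindDomain R] [Algebra R F] [IsFractionRing R F]
  [Algebra K R] [IsScalarTower K R F]

theorem adicValuation_ofHeightOneSpectrum (w : HeightOneSpectrum R) :
    (Place.ofHeightOneSpectrum (K := K) w).adicValuation = w.valuation F := by
  apply valuation_eq_of_isEquiv
  · rw [Valuation.isEquiv_iff_valuationSubring, valuationSubring_adicValuation]
    rfl
  · exact exists_adicValuation_eq_exp_neg_one _
  · exact w.valuation_exists_uniformizer F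

theorem ord_ofHeightOneSpectrum (w : HeightOneSpectrum R) (f : F) :
    (Place.ofHeightOneSpectrum (K := K) w).ord f = -(log (w.valuation F f)) := by
  rw [Place.ord, adicValuation_ofHeightOneSpectrum]

theorem ofHeightOneSpectrum_injective :
    Function.Injective (Place.ofHeightOneSpectrum (K := K) (F := F) (R := R)) := by
  intro w₁ w₂ h
  apply HeightOneSpectrum.eq_of_valuation_isEquiv_valuation (K := F)
  rw [Valuation.isEquiv_iff_valuationSubring]
  have := congrArg Place.toValuationSubring h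
  simpa using this

end Dedekind

end PlaceLemmas

end Fermat.Agent.S24.ZD
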