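import Mathlib
import Fermat.Prelude.Def_AlgebraicCurve_DivisorClassGroup

/-!
# Places of a function field and primes of a Dedekind subring

For fields `K ⊆ F` and a Dedekind domain `B` with `K ⊆ B ⊆ F`, `Frac B = F`, the places of `F/K`
(in the sense of the prelude, `AlgebraicCurve.Place K F`) whose valuation ring contains `B`
correspond bijectively to the nonzero primes of `B`; `ord` is the `P`-adic valuation and the
residue field is `B ⧸ P`.
-/

set_option autoImplicit false

noncomputable section

namespace Fermat.Agent.S24.PD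

open AlgebraicCurve IsDedekindDomain IsDedekindDomain.HeightOneSpectrum WithZero

section general

variable {F : Type*} [Field F]

theorem isUnit_valuationSubring_iff {Γ : Type*} [LinearOrderedCommGroupWithZero Γ]
    (w : Valuation F Γ) (x : w.valuationSubring) : IsUnit x ↔ w (x : F) = 1 := by
  rw [ValuationSubring.valuation_eq_one_iff,
    (Valuation.isEquiv_valuation_valuationSubring w).eq_one_iff_eq_one]

theorem mem_maximalIdeal_valuationSubring_iff {Γ : Type*} [LinearOrderedCommGroupWithZero Γ]
    (w : Valuation F Γ) (x : w.valuationSubring) :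
    x ∈ IsLocalRing.maximalIdeal w.valuationSubring ↔ w (x : F) < 1 := by
  rw [ValuationSubring.valuation_lt_one_iff,
    (Valuation.isEquiv_valuation_valuationSubring w).lt_one_iff_lt_one]

/-- In the valuation ring of a `ℤᵐ⁰`-valued valuation, an element of valuation `exp (-1)` is
irreducible. -/
theorem irreducible_of_valuation_eq_exp_neg_one (w : Valuation F ℤᵐ⁰)
    [IsDiscreteValuationRing w.valuationSubring]
    (π : w.valuationSubring) (hπ : w (π : F) = exp (-1 : ℤ)) : Irreducible π := by
  rw [IsDiscreteValuationRing.irreducible_iff_uniformizer]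
  ext z
  rw [mem_maximalIdeal_valuationSubring_iff, Ideal.mem_span_singleton]
  have hπ0 : (π : F) ≠ 0 := by
    intro h
    rw [h, map_zero] at hπ
    exact exp_ne_zero hπ.symm
  constructor
  · intro hz
    have hz' : w ((z : F) / (π : F)) ≤ 1 := by
      rw [map_div₀, hπ, div_le_iff₀ (exp_pos), one_mul]
      rcases eq_or_ne (w (z : F)) 0 with h0 | h0
      · rw [h0]; exact zero_le
      · rw [← exp_log h0, exp_le_exp]
        have : log (w (z : F)) < 0 := by
          rwa [← exp_log h0, ← exp_zero, exp_lt_exp] at hz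
        omega
    refine ⟨⟨(z : F) / (π : F), hz'⟩, ?_⟩
    ext
    push_cast
    field_simp
  · rintro ⟨c, rfl⟩
    push_cast
    rw [map_mul, hπ]
    calc exp (-1 : ℤ) * w (c : F) ≤ exp (-1 : ℤ) * 1 := by
          gcongr
          exact c.2
      _ < 1 := by rw [mul_one, ← exp_zero, exp_lt_exp]; omega

end general

variable {K F : Type*} [Field K] [Field F] [Algebra K F]

/-- membership in the valuation ring of a place in terms of `ord` -/
theorem place_mem_iff (v : Place K F) {f : F} (hf : f ≠ 0) :
    f ∈ v.toValuationSubring ↔ 0 ≤ v.ord f := by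
  obtain ⟨π, hπ⟩ := IsDiscreteValuationRing.exists_irreducible v.toValuationSubring
  obtain ⟨u, hu⟩ := v.exists_unit_mul_zpow hf hπ
  have hπ0 : (π : F) ≠ 0 := by
    simpa [ne_eq, ZeroMemClass.coe_eq_zero] using hπ.ne_zero
  constructor
  · intro hmem
    by_contra hneg
    push Not at hneg
    set n := v.ord f with hn
    obtain ⟨k, hk⟩ : ∃ k : ℕ, n = -((k : ℤ) + 1) := ⟨(-n - 1).toNat, by omega⟩
    have h1 : (π : F) ^ (k + 1) * f = ((u : v.toValuationSubring) : F) := by
      rw [hu, hk, zpow_neg, ← zpow_natCast]
      push_cast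
      field_simp
    have h2 : π ^ (k + 1) * ⟨f, hmem⟩ = (u : v.toValuationSubring) := by
      ext; push_cast; exact h1
    have h3 : IsUnit (π ^ (k + 1) * ⟨f, hmem⟩ : v.toValuationSubring) := h2 ▸ u.isUnit
    have h4 : IsUnit (π ^ (k + 1)) := isUnit_of_mul_isUnit_left h3
    exact hπ.not_isUnit (isUnit_of_mul_isUnit_left (by rwa [pow_succ'] at h4))
  · intro hpos
    rw [hu]
    obtain ⟨k, hk⟩ : ∃ k : ℕ, v.ord f = k := ⟨(v.ord f).toNat, by omega⟩
    rw [hk, zpow_natCast]
    exact v.toValuationSubring.mul_mem _ _ (SetLike.coe_mem _)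
      (pow_mem (SetLike.coe_mem _) _)

theorem place_ord_algebraMap (v : Place K F) (a : K) : v.ord (algebraMap K F a) = 0 := by
  rcases eq_or_ne a 0 with rfl | ha
  · simp
  have h0 : algebraMap K F a ≠ 0 := by simpa using ha
  have h1 := (place_mem_iff v h0).mp (v.algebraMap_mem' a)
  have h2 := (place_mem_iff v (inv_ne_zero h0)).mp
    (by rw [← map_inv₀]; exact v.algebraMap_mem' a⁻¹)
  rw [v.ord_inv] at h2
  omega

/-- membership in the maximal ideal of the valuation ring of a place in terms of `ord` -/
theorem place_mem_maximalIdeal_iff (v : Place K F) (x : v.toValuationSubring) (hx : (x : F) ≠ 0) :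
    x ∈ IsLocalRing.maximalIdeal v.toValuationSubring ↔ 0 < v.ord (x : F) := by
  rw [IsLocalRing.mem_maximalIdeal, mem_nonunits_iff]
  have h0 := (place_mem_iff v hx).mp x.2
  constructor
  · intro hnu
    by_contra hle
    have h1 : v.ord (x : F) = 0 := by omega
    have h2 : (x : F)⁻¹ ∈ v.toValuationSubring := by
      rw [place_mem_iff v (inv_ne_zero hx), v.ord_inv, h1, neg_zero]
    apply hnu
    refine ⟨⟨x, ⟨(x : F)⁻¹, h2⟩, ?_, ?_⟩, rfl⟩ <;> ext <;> push_cast <;> field_simp
  · intro hpos hu
    obtain ⟨u, hu⟩ := hu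
    have := v.ord_coe_unit u
    rw [hu] at this
    omega

/-- Key comparison: if the valuation ring of a place `v` is the valuation ring of a `ℤᵐ⁰`-valued
valuation `w` taking the value `exp (-1)`, then `v.ord = -log ∘ w`. -/
theorem place_ord_eq_of_valuationSubring_eq (v : Place K F) (w : Valuation F ℤᵐ⁰)
    (hvw : v.toValuationSubring = w.valuationSubring) (hw : ∃ π : F, w π = exp (-1 : ℤ))
    (f : F) : v.ord f = -log (w f) := by
  rcases eq_or_ne f 0 with rfl | hf
  · simp
  obtain ⟨π, hπ⟩ := hw
  have hπ0 : π ≠ 0 := by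
    rintro rfl
    rw [map_zero] at hπ
    exact exp_ne_zero hπ.symm
  have hwf : w f ≠ 0 := (Valuation.ne_zero_iff _).mpr hf
  set n : ℤ := -log (w f) with hn
  have hu1 : w (f * π ^ (-n)) = 1 := by
    rw [map_mul, map_zpow₀, hπ, ← exp_zsmul, smul_eq_mul, hn]
    simp only [neg_neg, mul_neg, mul_one]
    rw [exp_neg, exp_log hwf, mul_inv_cancel₀ hwf]
  have hπmem : π ∈ v.toValuationSubring := by
    rw [hvw, Valuation.mem_valuationSubring_iff, hπ, ← exp_zero, exp_le_exp]; omega
  have humem : f * π ^ (-n) ∈ v.toValuationSubring := by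
    rw [hvw, Valuation.mem_valuationSubring_iff, hu1]
  have hirr : Irreducible (⟨π, hπmem⟩ : v.toValuationSubring) := by
    have key : ∀ (A : ValuationSubring F) (hA : A = w.valuationSubring)
        [IsDiscreteValuationRing A] (h : π ∈ A), Irreducible (⟨π, h⟩ : A) := by
      intro A hA _ h
      subst hA
      exact irreducible_of_valuation_eq_exp_neg_one w ⟨π, h⟩ hπ
    exact key _ hvw hπmem
  have hunit : IsUnit (⟨f * π ^ (-n), humem⟩ : v.toValuationSubring) := by
    have key : ∀ (A : ValuationSubring F) (hA : A = w.valuationSubring)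
        (h : f * π ^ (-n) ∈ A), IsUnit (⟨f * π ^ (-n), h⟩ : A) := by
      intro A hA h
      subst hA
      exact (isUnit_valuationSubring_iff w ⟨_, h⟩).mpr hu1
    exact key _ hvw humem
  have := v.ord_unit_smul_zpow hunit.unit hirr n
  rw [IsUnit.unit_spec] at this
  simp only at this
  rw [← this]
  congr 1
  rw [mul_assoc, ← zpow_add₀ hπ0, neg_add_cancel, zpow_zero, mul_one]

variable {B : Type*} [CommRing B] [IsDedekindDomain B] [Algebra K B] [Algebra B F]
  [IsScalarTower K B F] [IsFractionRing B F]

theorem isPrincipalIdealRing_valuationSubring (P : HeightOneSpectrum B) :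
    IsPrincipalIdealRing (P.valuation F).valuationSubring := by
  rw [← valuationSubringAtPrime_eq_valuationSubring]
  have := IsLocalization.AtPrime.isDiscreteValuationRing_of_dedekind_domain B P.ne_bot
    (valuationSubringAtPrime F P)
  infer_instance

/-- The place of `F` attached to a nonzero prime of a Dedekind subring with fraction field `F`. -/
def placeOfPrime (P : HeightOneSpectrum B) : Place K F where
  toValuationSubring := (P.valuation F).valuationSubring
  algebraMap_mem' a := by
    rw [Valuation.mem_valuationSubring_iff, IsScalarTower.algebraMap_apply K B F]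
    exact P.valuation_le_one _
  ne_top' := by
    intro h
    obtain ⟨π, hπ⟩ := P.valuation_exists_uniformizer F
    have h1 : π⁻¹ ∈ (P.valuation F).valuationSubring := h ▸ ValuationSubring.mem_top _
    rw [Valuation.mem_valuationSubring_iff, map_inv₀, hπ] at h1
    rw [← exp_neg, neg_neg, ← exp_zero, exp_le_exp] at h1
    omega
  isPrincipalIdealRing' := isPrincipalIdealRing_valuationSubring P

@[simp]
theorem placeOfPrime_toValuationSubring (P : HeightOneSpectrum B) :
    (placeOfPrime (K := K) (F := F) P).toValuationSubring = (P.valuation F).valuationSubring :=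
  rfl

theorem algebraMap_mem_placeOfPrime (P : HeightOneSpectrum B) (b : B) :
    algebraMap B F b ∈ (placeOfPrime (K := K) (F := F) P).toValuationSubring :=
  (Valuation.mem_valuationSubring_iff _ _).mpr (P.valuation_le_one b)

/-- `ord` at the place of `P` is the `P`-adic valuation. -/
theorem placeOfPrime_ord (P : HeightOneSpectrum B) (f : F) :
    (placeOfPrime (K := K) (F := F) P).ord f = -log (P.valuation F f) :=
  place_ord_eq_of_valuationSubring_eq _ _ rfl (P.valuation_exists_uniformizer F) f

theorem placeOfPrime_ord_algebraMap (P : HeightOneSpectrum B) {b : B} (hb : b ≠ 0) :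
    (placeOfPrime (K := K) (F := F) P).ord (algebraMap B F b) =
      (multiplicity P.asIdeal (Ideal.span {b}) : ℤ) := by
  rw [placeOfPrime_ord, valuation_of_algebraMap, intValuation_eq_exp_neg_multiplicity P hb,
    log_exp, neg_neg]

/-- the prime of `B` cut out by a place whose valuation ring contains `B` -/
def primeOfPlace (v : Place K F) (hB : ∀ b : B, algebraMap B F b ∈ v.toValuationSubring) :
    HeightOneSpectrum B where
  asIdeal := (IsLocalRing.maximalIdeal v.toValuationSubring).comap
    ((algebraMap B F).codRestrict v.toValuationSubring.toSubring hB)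
  isPrime := Ideal.IsPrime.comap _
  ne_bot := by
    intro hbot
    apply v.ne_top'
    rw [eq_top_iff]
    intro x _
    obtain ⟨a, s, hs, rfl⟩ := IsFractionRing.div_surjective B x
    have hs0 : s ≠ 0 := nonZeroDivisors.ne_zero hs
    have hsu : IsUnit (⟨algebraMap B F s, hB s⟩ : v.toValuationSubring) := by
      by_contra hns
      have : s ∈ (⊥ : Ideal B) := by
        rw [← hbot, Ideal.mem_comap]
        exact hns
      exact hs0 (by simpa using this)
    obtain ⟨u, hu⟩ := hsu
    have h1 : (algebraMap B F s)⁻¹ = ((u⁻¹ : (v.toValuationSubring)ˣ) : F) := by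
      have h2 : ((u : v.toValuationSubring) : F) = algebraMap B F s := by rw [hu]
      have h3 : ((u : v.toValuationSubring) : F) * ((u⁻¹ : (v.toValuationSubring)ˣ) : F) = 1 := by
        rw [← MulMemClass.coe_mul, Units.mul_inv]; rfl
      rw [h2] at h3
      exact inv_eq_of_mul_eq_one_right h3
    rw [div_eq_mul_inv, h1]
    exact v.toValuationSubring.mul_mem _ _ (hB a) (SetLike.coe_mem _)

omit [Algebra K B] [IsScalarTower K B F] in
theorem mem_primeOfPlace_iff (v : Place K F)
    (hB : ∀ b : B, algebraMap B F b ∈ v.toValuationSubring) (b : B) :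
    b ∈ (primeOfPlace v hB).asIdeal ↔
      (⟨algebraMap B F b, hB b⟩ : v.toValuationSubring) ∈
        IsLocalRing.maximalIdeal v.toValuationSubring := Iff.rfl

omit [Algebra K B] [IsScalarTower K B F] in
theorem mem_primeOfPlace_iff_ord (v : Place K F)
    (hB : ∀ b : B, algebraMap B F b ∈ v.toValuationSubring) {b : B} (hb : b ≠ 0) :
    b ∈ (primeOfPlace v hB).asIdeal ↔ 0 < v.ord (algebraMap B F b) := by
  rw [mem_primeOfPlace_iff]
  exact place_mem_maximalIdeal_iff v ⟨algebraMap B F b, hB b⟩
    (by simpa using (IsFractionRing.injective B F).ne hb)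

omit [Algebra K B] [IsScalarTower K B F] in
theorem inv_mem_of_notMem_primeOfPlace (v : Place K F)
    (hB : ∀ b : B, algebraMap B F b ∈ v.toValuationSubring) {b : B}
    (hb : b ∉ (primeOfPlace v hB).asIdeal) : (algebraMap B F b)⁻¹ ∈ v.toValuationSubring := by
  rw [mem_primeOfPlace_iff, IsLocalRing.mem_maximalIdeal, mem_nonunits_iff, not_not] at hb
  obtain ⟨u, hu⟩ := hb
  have h2 : ((u : v.toValuationSubring) : F) = algebraMap B F b := by rw [hu]
  have h3 : ((u : v.toValuationSubring) : F) * ((u⁻¹ : (v.toValuationSubring)ˣ) : F) = 1 := by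
    rw [← MulMemClass.coe_mul, Units.mul_inv]; rfl
  rw [h2] at h3
  rw [inv_eq_of_mul_eq_one_right h3]
  exact SetLike.coe_mem _

theorem placeOfPrime_primeOfPlace (v : Place K F)
    (hB : ∀ b : B, algebraMap B F b ∈ v.toValuationSubring) :
    placeOfPrime (primeOfPlace v hB) = v := by
  apply Place.ext
  show ((primeOfPlace v hB).valuation F).valuationSubring = v.toValuationSubring
  have hle : ((primeOfPlace v hB).valuation F).valuationSubring ≤ v.toValuationSubring := by
    intro x hx
    rw [Valuation.mem_valuationSubring_iff] at hx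
    obtain ⟨n, d, hnd⟩ := exists_primeCompl_mul_eq_of_integer (primeOfPlace v hB) x hx
    have hd0 : algebraMap B F (d : B) ≠ 0 := by
      intro h0
      have : (d : B) = 0 := (IsFractionRing.injective B F) (by rw [h0, map_zero])
      exact d.2 (this ▸ Ideal.zero_mem _)
    have hx' : x = algebraMap B F n * (algebraMap B F (d : B))⁻¹ := by
      rw [← hnd]; field_simp
    rw [hx']
    exact v.toValuationSubring.mul_mem _ _ (hB n) (inv_mem_of_notMem_primeOfPlace v hB d.2)
  have := isPrincipalIdealRing_valuationSubring (F := F) (primeOfPlace v hB)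
  exact ValuationSubring.eq_of_le_of_ne_top _ hle v.ne_top'

theorem primeOfPlace_placeOfPrime (P : HeightOneSpectrum B)
    (hB : ∀ b : B, algebraMap B F b ∈ (placeOfPrime (K := K) (F := F) P).toValuationSubring) :
    primeOfPlace (placeOfPrime (K := K) (F := F) P) hB = P := by
  apply HeightOneSpectrum.ext
  ext b
  rw [mem_primeOfPlace_iff, ← P.valuation_lt_one_iff_mem (K := F)]
  exact ValuationSubring.valuation_lt_one_iff _ _ |>.trans
    ((Valuation.isEquiv_valuation_valuationSubring (P.valuation F)).lt_one_iff_lt_one).symm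

/-- Places whose valuation ring contains `B` correspond to nonzero primes of `B`. -/
def placeEquivPrime :
    {v : Place K F // ∀ b : B, algebraMap B F b ∈ v.toValuationSubring} ≃ HeightOneSpectrum B where
  toFun v := primeOfPlace v.1 v.2
  invFun P := ⟨placeOfPrime P, algebraMap_mem_placeOfPrime P⟩
  left_inv v := Subtype.ext (placeOfPrime_primeOfPlace v.1 v.2)
  right_inv P := primeOfPlace_placeOfPrime P _

/-- The `K`-algebra map from `B` to the residue field of the place of `P`. -/
def toResidueOfPrime (P : HeightOneSpectrum B) :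
    B →ₐ[K] (placeOfPrime (K := K) (F := F) P).ResidueField where
  toRingHom := (IsLocalRing.residue _).comp
    ((algebraMap B F).codRestrict (placeOfPrime (K := K) (F := F) P).toValuationSubring.toSubring
      (algebraMap_mem_placeOfPrime P))
  commutes' a := by
    show IsLocalRing.residue _ _ = IsLocalRing.residue _ (algebraMap K _ a)
    congr 1
    ext
    exact (IsScalarTower.algebraMap_apply K B F a).symm

theorem toResidueOfPrime_apply (P : HeightOneSpectrum B) (b : B) :
    toResidueOfPrime (K := K) (F := F) P b =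
      IsLocalRing.residue _ (⟨algebraMap B F b, algebraMap_mem_placeOfPrime P b⟩ :
        (placeOfPrime (K := K) (F := F) P).toValuationSubring) := rfl

theorem ker_toResidueOfPrime (P : HeightOneSpectrum B) :
    RingHom.ker (toResidueOfPrime (K := K) (F := F) P) = P.asIdeal := by
  ext b
  rw [RingHom.mem_ker, toResidueOfPrime_apply, IsLocalRing.residue_eq_zero_iff,
    ← P.valuation_lt_one_iff_mem (K := F)]
  exact ValuationSubring.valuation_lt_one_iff _ _ |>.trans
    ((Valuation.isEquiv_valuation_valuationSubring (P.valuation F)).lt_one_iff_lt_one).symm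

theorem mem_maximalIdeal_of_mem (P : HeightOneSpectrum B) {c : B} (hc : c ∈ P.asIdeal) :
    (⟨algebraMap B F c, algebraMap_mem_placeOfPrime P c⟩ :
      (placeOfPrime (K := K) (F := F) P).toValuationSubring) ∈ IsLocalRing.maximalIdeal _ := by
  rw [← ker_toResidueOfPrime (K := K) (F := F) P, RingHom.mem_ker, toResidueOfPrime_apply,
    IsLocalRing.residue_eq_zero_iff] at hc
  exact hc

theorem toResidueOfPrime_surjective (P : HeightOneSpectrum B) :
    Function.Surjective (toResidueOfPrime (K := K) (F := F) P) := by
  intro z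
  obtain ⟨x, rfl⟩ := IsLocalRing.residue_surjective z
  have hx : P.valuation F (x : F) ≤ 1 := x.2
  obtain ⟨n, d, hnd⟩ := exists_primeCompl_mul_eq_of_integer P (x : F) hx
  have hPmax : P.asIdeal.IsMaximal := P.isMaximal
  obtain ⟨d', hd'⟩ : ∃ d' : B, (d : B) * d' - 1 ∈ P.asIdeal := by
    obtain ⟨d', c, hc, h⟩ := Ideal.IsMaximal.exists_inv hPmax d.2
    refine ⟨d', ?_⟩
    have : (d : B) * d' - 1 = -c := by rw [← h]; ring
    rw [this]
    exact P.asIdeal.neg_mem hc
  refine ⟨n * d', ?_⟩
  rw [toResidueOfPrime_apply, ← sub_eq_zero, ← map_sub, IsLocalRing.residue_eq_zero_iff]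
  have hmem : (⟨algebraMap B F ((d : B) * d' - 1), algebraMap_mem_placeOfPrime P _⟩ :
      (placeOfPrime (K := K) (F := F) P).toValuationSubring) ∈ IsLocalRing.maximalIdeal _ :=
    mem_maximalIdeal_of_mem P hd'
  have heq : (⟨algebraMap B F (n * d'), algebraMap_mem_placeOfPrime P _⟩ :
      (placeOfPrime (K := K) (F := F) P).toValuationSubring) - x =
      x * ⟨algebraMap B F ((d : B) * d' - 1), algebraMap_mem_placeOfPrime P _⟩ := by
    ext
    show algebraMap B F (n * d') - (x : F) = (x : F) * algebraMap B F ((d : B) * d' - 1)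
    rw [map_mul, ← hnd, map_sub, map_mul, map_one]
    ring
  rw [heq]
  exact Ideal.mul_mem_left _ _ hmem

/-- `B ⧸ P` is the residue field of the place of `P`. -/
def quotientEquivResidue (P : HeightOneSpectrum B) :
    (B ⧸ P.asIdeal) ≃ₐ[K] (placeOfPrime (K := K) (F := F) P).ResidueField :=
  (Ideal.quotientEquivAlgOfEq K (ker_toResidueOfPrime (K := K) (F := F) P).symm).trans
    (Ideal.quotientKerAlgEquivOfSurjective (toResidueOfPrime_surjective (K := K) (F := F) P))

theorem deg_placeOfPrime (P : HeightOneSpectrum B) :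
    (placeOfPrime (K := K) (F := F) P).deg = Module.finrank K (B ⧸ P.asIdeal) :=
  (quotientEquivResidue (K := K) (F := F) P).toLinearEquiv.finrank_eq.symm

end Fermat.Agent.S24.PD
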