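/-
helper94 (P-S24 Part I-b, pieces b3/b4): for a function field `F / K` of one variable over an
algebraically closed field `K` of characteristic zero (`x : F` transcendental, `F / K(x)` finite):
* `finiteDimensional_adjoin_of_transcendental`: `F / K(f)` is finite for every transcendental `f`;
* `residue_surjective`, `finite_residueField`, `deg_eq_one`: every place has residue field `K`;
* `exists_const_sub_ord_pos`, `const_unique`: value of a function at a place;
* `exists_finset_zeros`, `exists_finset_poles`: zero and pole divisors of `f` have degree `[F : K(f)]`;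
* `exists_divisor`, `hasPrincipalDivisors`: principal divisors have degree zero.
Built on helper54's `ZD.sum_ord_zeros`.
-/
import Fermat.Agent.S24.ZeroDivisor
import Fermat.Agent.S24.PlacesZD.Basic

set_option autoImplicit false

open IntermediateField IsDedekindDomain WithZero IsLocalRing AlgebraicCurve Ideal Polynomial

namespace Fermat.Agent.S24.PD

section FieldTheory

variable {K F : Type*} [Field K] [Field F] [Algebra K F]

open scoped IntermediateField.algebraAdjoinAdjoin in
/-- If `F / K(x)` is finite and `f` is transcendental over `K`, then `F / K(f)` is algebraic. -/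
theorem isAlgebraic_adjoin_of_transcendental {x : F} [FiniteDimensional K⟮x⟯ F]
    {f : F} (hf : Transcendental K f) : Algebra.IsAlgebraic K⟮f⟯ F := by
  have h0 : Algebra.IsAlgebraic K⟮x⟯ F := Algebra.IsAlgebraic.of_finite _ _
  have h1 : Algebra.IsAlgebraic (Algebra.adjoin K ({x} : Set F)) F :=
    (IsFractionRing.comap_isAlgebraic_iff (A := Algebra.adjoin K ({x} : Set F)) (K := K⟮x⟯)).mpr h0
  have hle : Algebra.trdeg K F ≤ 1 := by
    have := Algebra.IsAlgebraic.trdeg_le_cardinalMk K ({x} : Set F)
    simpa using this
  have hind : AlgebraicIndependent K (fun _ : Unit => f) :=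
    algebraicIndependent_unique_type_iff.mpr hf
  have hb : IsTranscendenceBasis K (fun _ : Unit => f) := by
    apply hind.isTranscendenceBasis_of_lift_trdeg_le_of_finite
    simpa using hle
  have h2 := hb.isAlgebraic
  have hr : Set.range (fun _ : Unit => f) = {f} := by
    ext; simp [eq_comm]
  rw [hr] at h2
  exact (IsFractionRing.comap_isAlgebraic_iff (A := Algebra.adjoin K ({f} : Set F))
    (K := K⟮f⟯)).mp h2

/-- If `F / K(x)` is finite and `f` is transcendental over `K`, then `F / K(f)` is finite. -/
theorem finiteDimensional_adjoin_of_transcendental {x : F} [FiniteDimensional K⟮x⟯ F]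
    {f : F} (hf : Transcendental K f) : FiniteDimensional K⟮f⟯ F := by
  have h1 : Algebra.EssFiniteType K K⟮x⟯ :=
    IntermediateField.essFiniteType_iff.mpr ⟨{x}, by simp⟩
  have h2 : Algebra.EssFiniteType K F := Algebra.EssFiniteType.comp K K⟮x⟯ F
  have h3 : Algebra.EssFiniteType K⟮f⟯ F := Algebra.EssFiniteType.of_comp K K⟮f⟯ F
  have h4 : Algebra.IsAlgebraic K⟮f⟯ F := isAlgebraic_adjoin_of_transcendental (x := x) hf
  exact Algebra.finite_of_essFiniteType_of_isAlgebraic

/-- Over an algebraically closed field, algebraic elements of an extension field are constants. -/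
theorem exists_algebraMap_eq_of_isAlgebraic [IsAlgClosed K] {f : F} (hf : IsAlgebraic K f) :
    ∃ a : K, algebraMap K F a = f := by
  have hint : IsIntegral K f := hf.isIntegral
  have hdeg := IsAlgClosed.degree_eq_one_of_irreducible K (minpoly.irreducible hint)
  have := minpoly.mem_range_of_degree_eq_one K f hdeg
  exact this

theorem adjoin_inv_eq (x : F) : K⟮x⁻¹⟯ = K⟮x⟯ := by
  apply le_antisymm
  · rw [adjoin_simple_le_iff]
    exact inv_mem (mem_adjoin_simple_self K x)
  · rw [adjoin_simple_le_iff]
    have : x⁻¹ ∈ K⟮x⁻¹⟯ := mem_adjoin_simple_self K x⁻¹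
    simpa using inv_mem this

theorem transcendental_inv {x : F} (hx : Transcendental K x) : Transcendental K x⁻¹ := by
  intro h
  exact hx (by simpa using h.inv)

theorem adjoin_sub_const_eq (x : F) (a : K) : K⟮x - algebraMap K F a⟯ = K⟮x⟯ := by
  apply le_antisymm
  · rw [adjoin_simple_le_iff]
    exact sub_mem (mem_adjoin_simple_self K x) (IntermediateField.algebraMap_mem _ a)
  · rw [adjoin_simple_le_iff]
    have : x - algebraMap K F a ∈ K⟮x - algebraMap K F a⟯ := mem_adjoin_simple_self K _
    have h2 := add_mem this (IntermediateField.algebraMap_mem K⟮x - algebraMap K F a⟯ a)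
    simpa using h2

theorem transcendental_sub_const {x : F} (hx : Transcendental K x) (a : K) :
    Transcendental K (x - algebraMap K F a) := by
  intro h
  apply hx
  have := h.add (isAlgebraic_algebraMap (R := K) (A := F) a)
  simpa using this

end FieldTheory

section Residue

variable {K F : Type*} [Field K] [Field F] [Algebra K F]

/-- Nullstellensatz form: residue fields of finite type algebras over an algebraically closed
field are the base field. -/
theorem bijective_algebraMap_quotient_of_isMaximal [IsAlgClosed K] {B : Type*} [CommRing B]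
    [Algebra K B] [Algebra.FiniteType K B] (P : Ideal B) [P.IsMaximal] :
    Function.Bijective (algebraMap K (B ⧸ P)) := by
  let _ : Field (B ⧸ P) := Ideal.Quotient.field P
  have h1 : Algebra.FiniteType K (B ⧸ P) := inferInstance
  have h2 : Module.Finite K (B ⧸ P) := finite_of_finite_type_of_isJacobsonRing K (B ⧸ P)
  have h3 : Algebra.IsIntegral K (B ⧸ P) := Algebra.IsIntegral.of_finite K _
  exact IsAlgClosed.algebraMap_bijective_of_isIntegral

variable (v : Place K F)

theorem adicValuation_algebraMap_eq_one {a : K} (ha : a ≠ 0) :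
    v.adicValuation (algebraMap K F a) = 1 := by
  apply le_antisymm (v.adicValuation_algebraMap_le_one a)
  have h1 := v.adicValuation_algebraMap_le_one a⁻¹
  rw [map_inv₀, map_inv₀] at h1
  have h0 : v.adicValuation (algebraMap K F a) ≠ 0 :=
    v.adicValuation_ne_zero (by simpa using ha)
  rwa [inv_le_one₀ (zero_lt_iff.mpr h0)] at h1

theorem mem_maximalIdeal_iff (u : v.toValuationSubring) :
    u ∈ maximalIdeal v.toValuationSubring ↔ v.adicValuation (u : F) < 1 := by
  rw [v.adicValuation_coe, HeightOneSpectrum.intValuation_lt_one_iff_mem,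
    Place.heightOneSpectrum_asIdeal]

theorem residue_eq_algebraMap_iff (u : v.toValuationSubring) (a : K) :
    IsLocalRing.residue v.toValuationSubring u = algebraMap K v.ResidueField a ↔
      v.adicValuation ((u : F) - algebraMap K F a) < 1 := by
  have : algebraMap K v.ResidueField a
      = IsLocalRing.residue v.toValuationSubring (algebraMap K v.toValuationSubring a) := rfl
  rw [this, ← sub_eq_zero, ← map_sub, IsLocalRing.residue_eq_zero_iff, mem_maximalIdeal_iff]
  rfl

section Dedekind

variable {R : Type*} [CommRing R] [IsDedekindDomain R] [Algebra R F] [IsFractionRing R F]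
  [Algebra K R] [IsScalarTower K R F]

/-- If the valuation ring of `v` contains the Dedekind domain `R` with fraction field `F`, and
the residue field of `R` at the centre of `v` is `K`, then the residue field of `v` is `K`. -/
theorem residue_surjective_of_dedekind
    (h : ∀ r : R, algebraMap R F r ∈ v.toValuationSubring)
    (hres : Function.Surjective (algebraMap K (R ⧸ (ZD.PlaceLemmas.primeOfPlace v h).asIdeal))) :
    Function.Surjective (algebraMap K v.ResidueField) := by
  intro r
  obtain ⟨u, rfl⟩ := IsLocalRing.residue_surjective r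
  set w := ZD.PlaceLemmas.primeOfPlace v h with hw
  have hv : (w.valuation F).valuationSubring = v.toValuationSubring :=
    congrArg Place.toValuationSubring (ZD.PlaceLemmas.ofHeightOneSpectrum_primeOfPlace v h)
  have hu : w.valuation F (u : F) ≤ 1 := by
    rw [← Valuation.mem_valuationSubring_iff, hv]; exact u.2
  obtain ⟨n, d, hnd⟩ := HeightOneSpectrum.exists_primeCompl_mul_eq_of_integer w (u : F) hu
  obtain ⟨an, han⟩ := hres (Ideal.Quotient.mk _ n)
  obtain ⟨ad, had⟩ := hres (Ideal.Quotient.mk _ (d : R))
  have hmk : ∀ a : K, algebraMap K (R ⧸ w.asIdeal) a = Ideal.Quotient.mk _ (algebraMap K R a) :=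
    fun a => rfl
  have had0 : ad ≠ 0 := by
    rintro rfl
    rw [map_zero] at had
    exact d.2 (Ideal.Quotient.eq_zero_iff_mem.mp had.symm)
  refine ⟨an / ad, ?_⟩
  symm
  rw [residue_eq_algebraMap_iff]
  -- the numerator
  set e : R := n * algebraMap K R ad - algebraMap K R an * d with he
  have hemem : e ∈ w.asIdeal := by
    rw [← Ideal.Quotient.eq_zero_iff_mem, he, map_sub, map_mul, map_mul, ← hmk, ← hmk, han, had]
    ring
  have hval_e : v.adicValuation (algebraMap R F e) < 1 :=
    (ZD.PlaceLemmas.mem_primeOfPlace_iff v h e).mp hemem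
  have hval_d : v.adicValuation (algebraMap R F d) = 1 := by
    have h1 : ¬ v.adicValuation (algebraMap R F d) < 1 := by
      rw [← ZD.PlaceLemmas.mem_primeOfPlace_iff v h]
      exact d.2
    exact le_antisymm ((ZD.PlaceLemmas.mem_iff_adicValuation_le_one v _).mp (h d)) (not_lt.mp h1)
  have hd0 : algebraMap R F d ≠ 0 := by
    intro h0; rw [h0, map_zero] at hval_d; exact zero_ne_one hval_d
  have had0' : algebraMap K F ad ≠ 0 := by simpa using had0
  have hval_ad : v.adicValuation (algebraMap K F ad) = 1 :=
    adicValuation_algebraMap_eq_one v had0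
  have key : (u : F) - algebraMap K F (an / ad)
      = algebraMap R F e * (algebraMap R F d)⁻¹ * (algebraMap K F ad)⁻¹ := by
    have hx : (u : F) = algebraMap R F n * (algebraMap R F d)⁻¹ := by
      rw [← hnd, mul_assoc, mul_inv_cancel₀ hd0, mul_one]
    rw [hx, he, map_sub, map_mul, map_mul, ← IsScalarTower.algebraMap_apply K R F,
      ← IsScalarTower.algebraMap_apply K R F, map_div₀]
    field_simp
  rw [key, map_mul, map_mul, map_inv₀, map_inv₀, hval_d, hval_ad, inv_one, mul_one, mul_one]
  exact hval_e

end Dedekind

end Residue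

variable {K F : Type*} [Field K] [Field F] [Algebra K F]

section XForm

variable [IsAlgClosed K] [CharZero K]
variable [Algebra K[X] F] [IsScalarTower K K[X] F] [Algebra (RatFunc K) F]
  [IsScalarTower K[X] (RatFunc K) F] [FiniteDimensional (RatFunc K) F]

local notation "𝓑" => FunctionField.ringOfIntegers K F

theorem residue_surjective_X (v : Place K F)
    (hX : algebraMap K[X] F X ∈ v.toValuationSubring) :
    Function.Surjective (algebraMap K v.ResidueField) := by
  have h : ∀ b : 𝓑, algebraMap 𝓑 F b ∈ v.toValuationSubring := fun b =>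
    ZD.mem_valuationSubring_of_isIntegral (R := K[X]) v.toValuationSubring
      (ZD.algebraMap_polynomial_mem v hX) b.2
  have hft : Algebra.FiniteType K 𝓑 :=
    Algebra.FiniteType.trans (S := K[X]) inferInstance inferInstance
  have hmax : (ZD.PlaceLemmas.primeOfPlace v h).asIdeal.IsMaximal :=
    (ZD.PlaceLemmas.primeOfPlace v h).isMaximal
  exact residue_surjective_of_dedekind v h
    (bijective_algebraMap_quotient_of_isMaximal _).2

end XForm

/-- packaging of the instances used to apply the `K[X]`-form results to `y`. -/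
theorem exists_polynomial_instances [IsAlgClosed K] (y : F) (hy : Transcendental K y) [FiniteDimensional K⟮y⟯ F] :
    ∃ (_ : Algebra K[X] F) (_ : IsScalarTower K K[X] F) (_ : Algebra (RatFunc K) F)
      (_ : IsScalarTower K[X] (RatFunc K) F) (_ : FiniteDimensional (RatFunc K) F),
      algebraMap K[X] F X = y := by
  let alg1 : Algebra K[X] F := (aeval y : K[X] →ₐ[K] F).toRingHom.toAlgebra
  have halg1 : ∀ p : K[X], algebraMap K[X] F p = aeval y p := fun p => rfl
  have tower1 : IsScalarTower K K[X] F := IsScalarTower.of_algebraMap_eq (fun a => by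
    rw [halg1, Polynomial.algebraMap_eq, aeval_C])
  let e : RatFunc K ≃ₐ[K] K⟮y⟯ := RatFunc.algEquivOfTranscendental y hy
  let alg2 : Algebra (RatFunc K) F :=
    ((algebraMap K⟮y⟯ F).comp e.toRingEquiv.toRingHom).toAlgebra
  have halg2 : ∀ r : RatFunc K, algebraMap (RatFunc K) F r = ((e r : K⟮y⟯) : F) := fun r => rfl
  have tower2 : IsScalarTower K[X] (RatFunc K) F := IsScalarTower.of_algebraMap_eq (fun p => by
    rw [halg1, halg2, RatFunc.algEquivOfTranscendental_algebraMap]
    simp)
  have fin : FiniteDimensional (RatFunc K) F :=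
    Module.Finite.of_equiv_equiv e.symm.toRingEquiv (RingEquiv.refl F) (by
      ext r
      simp only [RingHom.coe_comp, Function.comp_apply, halg2]
      simp)
  exact ⟨alg1, tower1, alg2, tower2, fin, by rw [halg1, aeval_X]⟩

section YForm

variable [IsAlgClosed K] [CharZero K]

theorem residue_surjective_of_mem (v : Place K F) {y : F} (hy : Transcendental K y)
    [FiniteDimensional K⟮y⟯ F] (hyv : y ∈ v.toValuationSubring) :
    Function.Surjective (algebraMap K v.ResidueField) := by
  obtain ⟨alg1, tower1, alg2, tower2, fin, hX⟩ := exists_polynomial_instances y hy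
  exact residue_surjective_X v (by rw [hX]; exact hyv)

end YForm

section General

variable [IsAlgClosed K] [CharZero K]

/-- **Residue fields are the constant field.** -/
theorem residue_surjective {x : F} (hx : Transcendental K x) [FiniteDimensional K⟮x⟯ F]
    (v : Place K F) : Function.Surjective (algebraMap K v.ResidueField) := by
  rcases v.toValuationSubring.mem_or_inv_mem x with h | h
  · exact residue_surjective_of_mem v hx h
  · have : FiniteDimensional K⟮x⁻¹⟯ F := by rw [adjoin_inv_eq]; infer_instance
    exact residue_surjective_of_mem v (transcendental_inv hx) h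

theorem finite_residueField {x : F} (hx : Transcendental K x) [FiniteDimensional K⟮x⟯ F]
    (v : Place K F) : Module.Finite K v.ResidueField :=
  Module.Finite.of_surjective (Algebra.linearMap K v.ResidueField) (residue_surjective hx v)

/-- **All places have degree one.** -/
theorem deg_eq_one {x : F} (hx : Transcendental K x) [FiniteDimensional K⟮x⟯ F]
    (v : Place K F) : v.deg = 1 :=
  haveI := finite_residueField hx v
  v.deg_eq_one_of_isAlgClosed_of_finite

/-- every element of the valuation ring is congruent to a constant. -/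
theorem exists_const_sub_ord_pos {x : F} (hx : Transcendental K x) [FiniteDimensional K⟮x⟯ F]
    (v : Place K F) {u : F} (hu : u ∈ v.toValuationSubring) :
    ∃ a : K, u = algebraMap K F a ∨ 0 < v.ord (u - algebraMap K F a) := by
  obtain ⟨a, ha⟩ := residue_surjective hx v (IsLocalRing.residue _ ⟨u, hu⟩)
  refine ⟨a, ?_⟩
  have h1 := (residue_eq_algebraMap_iff v ⟨u, hu⟩ a).mp ha.symm
  by_cases h0 : u - algebraMap K F a = 0
  · left; exact sub_eq_zero.mp h0
  · right
    exact (ZD.ord_pos_iff_adicValuation_lt_one v h0).mpr h1

omit [IsAlgClosed K] [CharZero K] in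
theorem ord_algebraMap_eq_zero (v : Place K F) (a : K) : v.ord (algebraMap K F a) = 0 :=
  Fermat.Agent.S24.ord_algebraMap v a

omit [IsAlgClosed K] [CharZero K] in
/-- the constant in `exists_const_sub_ord_pos` is unique. -/
theorem const_unique (v : Place K F) {u : F} {a b : K}
    (ha : 0 < v.ord (u - algebraMap K F a)) (hb : 0 < v.ord (u - algebraMap K F b)) : a = b := by
  by_contra hab
  have hne : algebraMap K F (a - b) ≠ 0 := by
    simpa [sub_eq_zero] using hab
  have h1 : v.ord (algebraMap K F (a - b)) = 0 := ord_algebraMap_eq_zero v _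
  have h2 : algebraMap K F (a - b) = (u - algebraMap K F b) - (u - algebraMap K F a) := by
    rw [map_sub]; ring
  have hma := Fermat.Agent.S24.mem_of_ord_pos v ha
  have hmb := Fermat.Agent.S24.mem_of_ord_pos v hb
  have hua : u - algebraMap K F a ≠ 0 := by rintro h; rw [h] at ha; simp at ha
  have hub : u - algebraMap K F b ≠ 0 := by rintro h; rw [h] at hb; simp at hb
  have h3 : (⟨u - algebraMap K F b, hmb⟩ : v.toValuationSubring)
      - ⟨u - algebraMap K F a, hma⟩ ∈ maximalIdeal v.toValuationSubring := by
    apply Ideal.sub_mem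
    · exact (Fermat.Agent.S24.ord_pos_iff v ⟨_, hmb⟩ (by simpa [Subtype.ext_iff] using hub)).mp hb
    · exact (Fermat.Agent.S24.ord_pos_iff v ⟨_, hma⟩ (by simpa [Subtype.ext_iff] using hua)).mp ha
  have h4 : (⟨u - algebraMap K F b, hmb⟩ : v.toValuationSubring) - ⟨u - algebraMap K F a, hma⟩
      ≠ 0 := by
    intro h
    apply hne
    rw [h2]
    exact congrArg Subtype.val h
  have h5 := (Fermat.Agent.S24.ord_pos_iff v _ h4).mpr h3
  have h6 : ((⟨u - algebraMap K F b, hmb⟩ : v.toValuationSubring) - ⟨u - algebraMap K F a, hma⟩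
      : v.toValuationSubring) = (algebraMap K F (a - b) : F) := by
    rw [h2]; rfl
  rw [h6, h1] at h5
  exact lt_irrefl _ h5

end General

section Principal

variable [IsAlgClosed K] [CharZero K]

/-- finset form of `ZD.sum_ord_zeros`. -/
theorem exists_finset_zeros {f : F} (hf : Transcendental K f) [FiniteDimensional K⟮f⟯ F] :
    ∃ Z : Finset (Place K F), (∀ v, v ∈ Z ↔ 0 < v.ord f) ∧
      ∑ v ∈ Z, v.ord f = (Module.finrank K⟮f⟯ F : ℤ) := by
  classical
  obtain ⟨inst, hsum⟩ := ZD.sum_ord_zeros f hf
  refine ⟨(Finset.univ : Finset {v : Place K F // 0 < v.ord f}).map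
    (Function.Embedding.subtype _), fun v => ?_, ?_⟩
  · simp
  · rw [Finset.sum_map, ← hsum]
    rfl

omit [IsAlgClosed K] [CharZero K] in
theorem finrank_adjoin_inv (f : F) : Module.finrank K⟮f⁻¹⟯ F = Module.finrank K⟮f⟯ F := by
  rw [adjoin_inv_eq]

/-- the pole divisor has the same degree as the zero divisor. -/
theorem exists_finset_poles {f : F} (hf : Transcendental K f) [FiniteDimensional K⟮f⟯ F] :
    ∃ P : Finset (Place K F), (∀ v, v ∈ P ↔ v.ord f < 0) ∧
      ∑ v ∈ P, v.ord f = -(Module.finrank K⟮f⟯ F : ℤ) := by
  have : FiniteDimensional K⟮f⁻¹⟯ F := by rw [adjoin_inv_eq]; infer_instance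
  obtain ⟨P, hP, hsum⟩ := exists_finset_zeros (transcendental_inv hf)
  refine ⟨P, fun v => ?_, ?_⟩
  · rw [hP, Place.ord_inv, neg_pos]
  · rw [← finrank_adjoin_inv, ← hsum, ← Finset.sum_neg_distrib]
    exact Finset.sum_congr rfl fun v _ => by rw [Place.ord_inv, neg_neg]

/-- **Principal divisors have degree zero** (function field of a curve over an algebraically
closed field of characteristic zero). -/
theorem exists_divisor {x : F} (hx : Transcendental K x) [FiniteDimensional K⟮x⟯ F]
    (f : F) (hf0 : f ≠ 0) :
    ∃ D : Divisor K F, (∀ v : Place K F, D v = v.ord f) ∧ Divisor.degree D = 0 := by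
  classical
  by_cases hf : IsAlgebraic K f
  · obtain ⟨a, rfl⟩ := exists_algebraMap_eq_of_isAlgebraic hf
    exact ⟨0, fun v => by rw [Fermat.Agent.S24.ord_algebraMap]; rfl, map_zero _⟩
  · have hfin : FiniteDimensional K⟮f⟯ F := finiteDimensional_adjoin_of_transcendental (x := x) hf
    obtain ⟨Z, hZ, hZsum⟩ := exists_finset_zeros (K := K) hf
    obtain ⟨P, hP, hPsum⟩ := exists_finset_poles (K := K) hf
    have hdisj : Disjoint Z P := by
      rw [Finset.disjoint_left]
      intro v hvZ hvP
      have h1 := (hZ v).mp hvZ
      have h2 := (hP v).mp hvP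
      omega
    let D : Divisor K F := Finsupp.onFinset (Z ∪ P) (fun v => v.ord f) (fun v hv => by
      rw [Finset.mem_union, hZ, hP]
      omega)
    refine ⟨D, fun v => rfl, ?_⟩
    have hdeg : Divisor.degree D = D.sum fun v n => n * (v.deg : ℤ) := by
      simp [Divisor.degree, Finsupp.liftAddHom_apply]
    rw [hdeg, Finsupp.onFinset_sum _ (fun v => by simp), Finset.sum_union hdisj]
    simp only [deg_eq_one hx, Nat.cast_one, mul_one]
    rw [hZsum, hPsum]
    ring

theorem hasPrincipalDivisors {x : F} (hx : Transcendental K x) [FiniteDimensional K⟮x⟯ F] :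
    HasPrincipalDivisors K F :=
  ⟨fun f hf => exists_divisor hx f hf⟩

end Principal


section Fibres

variable [IsAlgClosed K] [CharZero K]

omit [IsAlgClosed K] [CharZero K] in
theorem finrank_adjoin_sub_const (y : F) (a : K) :
    Module.finrank K⟮y - algebraMap K F a⟯ F = Module.finrank K⟮y⟯ F := by
  rw [adjoin_sub_const_eq]

/-- the fibre of `y` over `a : K`: the sum of the ramification indices is `[F : K(y)]`. -/
theorem exists_finset_fibre {y : F} (hy : Transcendental K y) [FiniteDimensional K⟮y⟯ F] (a : K) :
    ∃ Z : Finset (Place K F), (∀ v, v ∈ Z ↔ 0 < v.ord (y - algebraMap K F a)) ∧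
      ∑ v ∈ Z, v.ord (y - algebraMap K F a) = (Module.finrank K⟮y⟯ F : ℤ) := by
  have : FiniteDimensional K⟮y - algebraMap K F a⟯ F := by
    rw [adjoin_sub_const_eq]; infer_instance
  obtain ⟨Z, hZ, hsum⟩ := exists_finset_zeros (transcendental_sub_const hy a)
  exact ⟨Z, hZ, by rw [hsum, finrank_adjoin_sub_const]⟩

/-- every place is a pole of `y` or lies in the fibre over exactly one `a : K`. -/
theorem ord_neg_or_existsUnique_fibre {y : F} (hy : Transcendental K y)
    [FiniteDimensional K⟮y⟯ F] (v : Place K F) :
    v.ord y < 0 ∨ ∃! a : K, 0 < v.ord (y - algebraMap K F a) := by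
  have hy0 : y ≠ 0 := by
    rintro rfl
    exact hy (isAlgebraic_zero)
  rcases lt_or_ge (v.ord y) 0 with h | h
  · exact Or.inl h
  · right
    have hmem : y ∈ v.toValuationSubring := (Fermat.Agent.S24.ord_nonneg_iff v hy0).mp h
    obtain ⟨a, ha⟩ := exists_const_sub_ord_pos hy v hmem
    rcases ha with ha | ha
    · exact absurd (ha ▸ isAlgebraic_algebraMap (R := K) (A := F) a) hy
    · exact ⟨a, ha, fun b hb => const_unique v hb ha⟩

end Fibres


section FFDataFields

variable [IsAlgClosed K] [CharZero K]

/-- field `deg_one` of helper24's `RH.FFData`. -/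
theorem ffData_deg_one (x : F) (hx : Transcendental K x) [FiniteDimensional K⟮x⟯ F] :
    ∀ v : Place K F, v.deg = 1 :=
  fun v => deg_eq_one hx v

/-- field `residue` of helper24's `RH.FFData`. -/
theorem ffData_residue (x : F) (hx : Transcendental K x) [FiniteDimensional K⟮x⟯ F] :
    ∀ v : Place K F, 0 ≤ v.ord x → ∃ a : K, 0 < v.ord (x - algebraMap K F a) := by
  intro v hv
  rcases ord_neg_or_existsUnique_fibre hx v with h | h
  · omega
  · exact h.exists

/-- field `deg_principal` of helper24's `RH.FFData`. -/
theorem ffData_deg_principal (x : F) (hx : Transcendental K x) [FiniteDimensional K⟮x⟯ F] :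
    ∀ f : F, f ≠ 0 → ∀ E : Divisor K F, (∀ v, E v = v.ord f) → Divisor.degree E = 0 := by
  intro f hf E hE
  obtain ⟨D, hD, hdeg⟩ := exists_divisor hx f hf
  have : E = D := Finsupp.ext fun v => by rw [hE, hD]
  rw [this, hdeg]

end FFDataFields

end Fermat.Agent.S24.PD
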