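import Mathlib
import Fermat.Agent.S24.QExp
import Fermat.Agent.S24.Growth
import Fermat.Agent.S24.JQExp
import Fermat.Agent.S24.JLevel
import Fermat.Agent.S24.Ord

/-!
helper4 (P-S24 Part III, follow-up of `QExp.lean`).

* `modGrowth_iff_growth` : the local `QExp.ModGrowth` is (definitionally) `Fermat.Agent.S24.ModGrowth`.
* `qLaurent_jPer'`, `jdPer d : PerFun` (with underlying `HolFun` equal to `JLevel.jd d`) and
  `qLaurent_jdPer : qLaurent (jdPer d) = coeffMap (algebraMap ℚ ℂ) (qExpand ℚ d jq)`
  (unconditional, using `JQExp.qExpansion_E₄` and `JQExp.qExpansion_discriminant`).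
* `qLaurentFrac : FractionRing PerFun →+* LaurentSeries ℂ`, injective, extending `qLaurent`.
* `fracIncl : FractionRing PerFun →+* MerFun`, injective, extending `PerFun ⊆ HolFun`.
-/

set_option autoImplicit false

open Complex Filter Function
open UpperHalfPlane hiding I
open scoped Manifold MatrixGroups Topology Real

namespace Fermat.Agent.S24.QExp

local notation "Δ" => ModularForm.discriminant

theorem modGrowth_iff_growth {f : ℍ → ℂ} : ModGrowth f ↔ Fermat.Agent.S24.ModGrowth f := Iff.rfl

/-- Build an element of `PerFun` from the `Growth.lean` form of moderate growth. -/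
def PerFun.mk' (f : ℍ → ℂ) (hf : MDiff f) (hp : IsPer 1 f) (hg : Fermat.Agent.S24.ModGrowth f) :
    PerFun := PerFun.mk f hf hp hg

theorem mem_PerFun_iff {f : HolFun} :
    f ∈ PerFun ↔ IsPer 1 (f : ℍ → ℂ) ∧ Fermat.Agent.S24.ModGrowth (f : ℍ → ℂ) := Iff.rfl

/-! ### Unconditional `q`-expansions of `j(d z)` -/

open ModularCurve in
theorem qExpansion_discriminant' :
    qExpansion 1 Δ = (PowerSeries.X * etaProd ^ 24).map (Int.castRingHom ℂ) :=
  JQExp.qExpansion_discriminant

open ModularCurve in
theorem qLaurent_jPer' : qLaurent jPer = coeffMap (algebraMap ℚ ℂ) jq :=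
  qLaurent_jPer JQExp.qExpansion_E₄ qExpansion_discriminant'

open ModularCurve in
theorem qLaurent_scale_jPer (d : ℕ) [NeZero d] (φ : ℍ → ℍ) (hφ : ∀ z, (φ z : ℂ) = (d : ℂ) * z) :
    qLaurent (scale d φ hφ jPer) = coeffMap (algebraMap ℚ ℂ) (qExpand ℚ d jq) :=
  qLaurent_jPer_scale JQExp.qExpansion_E₄ qExpansion_discriminant' d φ hφ

/-- The function `z ↦ jFn (d z)` (= `JLevel.jd d`) as an element of `PerFun`. -/
noncomputable def jdPer (d : ℕ) [NeZero d] : PerFun :=
  scale d (JLevel.scaleH d) (JLevel.coe_scaleH d) jPer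

theorem coe_jdPer (d : ℕ) [NeZero d] : ((jdPer d : PerFun) : HolFun) = JLevel.jd d := rfl

theorem fn_jdPer (d : ℕ) [NeZero d] (z : ℍ) : fn (jdPer d) z = jFn (JLevel.scaleH d z) := rfl

theorem jd_mem_PerFun (d : ℕ) [NeZero d] : JLevel.jd d ∈ PerFun := (jdPer d).2

open ModularCurve in
theorem qLaurent_jdPer (d : ℕ) [NeZero d] :
    qLaurent (jdPer d) = coeffMap (algebraMap ℚ ℂ) (qExpand ℚ d jq) :=
  qLaurent_scale_jPer d _ _


/-! ### Extension to fraction fields -/

/-- `qLaurent` as a ring homomorphism. -/
noncomputable def qLaurentRingHom : PerFun →+* LaurentSeries ℂ := qLaurent.toRingHom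

theorem qLaurentRingHom_apply (f : PerFun) : qLaurentRingHom f = qLaurent f := rfl

theorem qLaurentRingHom_injective : Function.Injective qLaurentRingHom := qLaurent_injective

/-- The extension of `qLaurent` to the fraction field of `PerFun`. -/
noncomputable def qLaurentFrac : FractionRing PerFun →+* LaurentSeries ℂ :=
  IsFractionRing.lift (A := PerFun) (K := FractionRing PerFun) (g := qLaurentRingHom)
    qLaurentRingHom_injective

theorem qLaurentFrac_algebraMap (f : PerFun) :
    qLaurentFrac (algebraMap PerFun (FractionRing PerFun) f) = qLaurent f := by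
  unfold qLaurentFrac
  rw [IsFractionRing.lift_algebraMap]
  rfl

theorem qLaurentFrac_injective : Function.Injective qLaurentFrac := qLaurentFrac.injective

theorem qLaurentFrac_div (a b : PerFun) :
    qLaurentFrac (algebraMap PerFun (FractionRing PerFun) a /
      algebraMap PerFun (FractionRing PerFun) b) = qLaurent a / qLaurent b := by
  rw [map_div₀, qLaurentFrac_algebraMap, qLaurentFrac_algebraMap]

/-- The inclusion `PerFun → HolFun → MerFun` as a ring homomorphism. -/
noncomputable def toMerFun : PerFun →+* MerFun :=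
  (algebraMap HolFun MerFun).comp (PerFun.val : PerFun →+* HolFun)

theorem toMerFun_apply (f : PerFun) : toMerFun f = algebraMap HolFun MerFun (f : HolFun) := rfl

theorem toMerFun_injective : Function.Injective toMerFun := by
  intro a b h
  exact Subtype.ext (IsFractionRing.injective HolFun MerFun h)

/-- The inclusion of the fraction field of `PerFun` into `MerFun`. -/
noncomputable def fracIncl : FractionRing PerFun →+* MerFun :=
  IsFractionRing.lift (A := PerFun) (K := FractionRing PerFun) (g := toMerFun) toMerFun_injective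

theorem fracIncl_algebraMap (f : PerFun) :
    fracIncl (algebraMap PerFun (FractionRing PerFun) f) =
      algebraMap HolFun MerFun (f : HolFun) := by
  unfold fracIncl
  rw [IsFractionRing.lift_algebraMap]
  rfl

theorem fracIncl_injective : Function.Injective fracIncl := fracIncl.injective

theorem fracIncl_algebraMap_const (c : ℂ) :
    fracIncl (algebraMap PerFun (FractionRing PerFun) (algebraMap ℂ PerFun c)) =
      algebraMap HolFun MerFun (algebraMap ℂ HolFun c) := by
  rw [fracIncl_algebraMap]; rfl

theorem qLaurentFrac_algebraMap_const (c : ℂ) :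
    qLaurentFrac (algebraMap PerFun (FractionRing PerFun) (algebraMap ℂ PerFun c)) =
      algebraMap ℂ (LaurentSeries ℂ) c := by
  rw [qLaurentFrac_algebraMap, AlgHom.commutes]

open ModularCurve in
theorem qLaurentFrac_jdPer (d : ℕ) [NeZero d] :
    qLaurentFrac (algebraMap PerFun (FractionRing PerFun) (jdPer d)) =
      coeffMap (algebraMap ℚ ℂ) (qExpand ℚ d jq) := by
  rw [qLaurentFrac_algebraMap, qLaurent_jdPer]

theorem fracIncl_jdPer (d : ℕ) [NeZero d] :
    fracIncl (algebraMap PerFun (FractionRing PerFun) (jdPer d)) =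
      algebraMap HolFun MerFun (JLevel.jd d) := by
  rw [fracIncl_algebraMap, coe_jdPer]

end Fermat.Agent.S24.QExp
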