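import Mathlib
import Fermat.Agent.S24.Embed

/-!
helper46 (P-S24 Part III, package [A], input for `hdeg`).  Every element `a` of the
`Kbar`-algebra generated by the generators `gen N hd` of the function field has an analytic
counterpart `θ ∈ PN N` (the `ℂ`-algebra generated by the `jd d`) with the same `q`-expansion:
`qLaurent θ = coeffMap iota a`.  Such a `θ` is fixed by `Γ₀(N)`, lies in `SymmFn.growthAlg` and in
`QExp.PerFun`.
-/

set_option autoImplicit false

open ModularCurve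
open UpperHalfPlane hiding I
open scoped MatrixGroups

namespace Fermat.Agent.S24.EmbedTheta

open Setup Conj JLevel JD QExp SymmFn Embed

/-- The predicate: `a` has an analytic counterpart in `PN N`. -/
def HasTheta (N : ℕ) (a : FF N) : Prop :=
  ∃ θ : HolFun, ∃ hθ : θ ∈ PN N,
    qLaurent ⟨θ, PN_le_PerFun N hθ⟩ = coeffMap iota (a : LaurentSeries Kbar)

theorem hasTheta_gen (N : ℕ) {d : ℕ} [NeZero d] (hd : d ∣ N) : HasTheta N (gen N hd) := by
  refine ⟨jd d, jd_mem_PN hd, ?_⟩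
  rw [coe_gen, coeffMap_iota_jK, ← qLaurent_jdPer d]
  congr 1

theorem hasTheta_algebraMap (N : ℕ) (c : Kbar) : HasTheta N (algebraMap Kbar (FF N) c) := by
  refine ⟨algebraMap ℂ HolFun (iota c), Subalgebra.algebraMap_mem _ _, ?_⟩
  have h1 : (⟨algebraMap ℂ HolFun (iota c),
      PN_le_PerFun N (Subalgebra.algebraMap_mem _ _)⟩ : PerFun) =
      algebraMap ℂ PerFun (iota c) := rfl
  rw [h1, AlgHom.commutes]
  exact (phi_algebraMap N c).symm

theorem HasTheta.add {N : ℕ} {a b : FF N} (ha : HasTheta N a) (hb : HasTheta N b) :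
    HasTheta N (a + b) := by
  obtain ⟨θ, hθ, h1⟩ := ha
  obtain ⟨η, hη, h2⟩ := hb
  refine ⟨θ + η, add_mem hθ hη, ?_⟩
  have h3 : (⟨θ + η, PN_le_PerFun N (add_mem hθ hη)⟩ : PerFun) =
      ⟨θ, PN_le_PerFun N hθ⟩ + ⟨η, PN_le_PerFun N hη⟩ := rfl
  rw [h3, map_add, h1, h2]
  exact (map_add (coeffMap iota) _ _).symm

theorem HasTheta.mul {N : ℕ} {a b : FF N} (ha : HasTheta N a) (hb : HasTheta N b) :
    HasTheta N (a * b) := by
  obtain ⟨θ, hθ, h1⟩ := ha
  obtain ⟨η, hη, h2⟩ := hb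
  refine ⟨θ * η, mul_mem hθ hη, ?_⟩
  have h3 : (⟨θ * η, PN_le_PerFun N (mul_mem hθ hη)⟩ : PerFun) =
      ⟨θ, PN_le_PerFun N hθ⟩ * ⟨η, PN_le_PerFun N hη⟩ := rfl
  rw [h3, map_mul, h1, h2]
  exact (map_mul (coeffMap iota) _ _).symm

/-- Every element of the `Kbar`-algebra generated by the `gen N hd` has an analytic
counterpart. -/
theorem hasTheta_of_mem_adjoin (N : ℕ) {a : FF N}
    (ha : a ∈ Algebra.adjoin Kbar (genSetF N)) : HasTheta N a := by
  induction ha using Algebra.adjoin_induction with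
  | mem x hx =>
    obtain ⟨d, hd0, hd, rfl⟩ := hx
    exact hasTheta_gen N hd
  | algebraMap c => exact hasTheta_algebraMap N c
  | add x y _ _ hx hy => exact hx.add hy
  | mul x y _ _ hx hy => exact hx.mul hy

/-- The form consumed by `HDeg.exists_poly`: the four properties of `θ`. -/
theorem exists_theta (N : ℕ) {a : FF N} (ha : a ∈ Algebra.adjoin Kbar (genSetF N)) :
    ∃ θ : HolFun, (∀ γ ∈ CongruenceSubgroup.Gamma0 N, γ • θ = θ) ∧ θ ∈ growthAlg ∧
      ∃ hper : θ ∈ PerFun,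
        qLaurent ⟨θ, hper⟩ = coeffMap iota (a : LaurentSeries Kbar) := by
  obtain ⟨θ, hθ, hq⟩ := hasTheta_of_mem_adjoin N ha
  exact ⟨θ, fun γ hγ => smul_eq_of_mem_PN hθ hγ, PN_le_growthAlg N hθ, PN_le_PerFun N hθ, hq⟩

/-- The embedding sends `a` to its analytic counterpart. -/
theorem emb_eq_theta {N : ℕ} {D : EmbData N} (hD : EmbProps D) {a : FF N}
    (ha : a ∈ Algebra.adjoin Kbar (genSetF N)) :
    ∃ θ : HolFun, θ ∈ PN N ∧ D.emb a = algebraMap HolFun MerFun θ := by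
  obtain ⟨θ, hθ, hq⟩ := hasTheta_of_mem_adjoin N ha
  exact ⟨θ, hθ, hD.emb_eq_of_qLaurent_eq a hθ hq⟩

/-- `hdeg` in the shape consumed by `Conj.finrank_and_norm`, from the abstract degree bound
(`HDeg.exists_poly`, supplied as the hypothesis `H`). -/
theorem hdeg_of (N : ℕ)
    (H : ∀ (θ : HolFun), (∀ γ ∈ CongruenceSubgroup.Gamma0 N, γ • θ = θ) → θ ∈ growthAlg →
      ∀ (hper : θ ∈ PerFun) (a : FF N),
        qLaurent ⟨θ, hper⟩ = coeffMap iota (a : LaurentSeries Kbar) →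
        ∃ p : Polynomial (IntermediateField.adjoin Kbar {jF N}), p ≠ 0 ∧
          p.natDegree ≤ (CongruenceSubgroup.Gamma0 N).index ∧ Polynomial.aeval a p = 0) :
    ∀ a ∈ (Algebra.adjoin Kbar (genSetF N) : Set (FF N)),
      ∃ p : Polynomial (IntermediateField.adjoin Kbar {jF N}), p ≠ 0 ∧
        p.natDegree ≤ (CongruenceSubgroup.Gamma0 N).index ∧ Polynomial.aeval a p = 0 := by
  intro a ha
  obtain ⟨θ, hfix, hgr, hper, hq⟩ := exists_theta N ha
  exact H θ hfix hgr hper a hq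

end Fermat.Agent.S24.EmbedTheta
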