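import Fermat.Agent.S24.CombOrbits

/-!
helper19 (P-S24 Part IV).  Periods of `T`, `S`, `S * T` acting on `SL(2,ℤ) ⧸ Γ₀(N)`:
the hypotheses `hper` of the place counting theorem.
-/

set_option autoImplicit false

open Matrix Matrix.SpecialLinearGroup CongruenceSubgroup ModularGroup MulAction Function
open scoped MatrixGroups

namespace Fermat.Agent.S24.Periods

open Fermat.Agent.S24.Comb

variable {N : ℕ}

section General

variable {G X : Type*} [Group G] [MulAction G X]

theorem coe_toPerm (g : G) : ⇑(MulAction.toPerm g : Equiv.Perm X) = (g • ·) := rfl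

theorem toPerm_iterate (g : G) (n : ℕ) (x : X) :
    (⇑(MulAction.toPerm g : Equiv.Perm X))^[n] x = g ^ n • x := by
  rw [coe_toPerm, smul_iterate]

/-- If `g ^ n` fixes `x` then the minimal period of `x` under `g` divides `n`. -/
theorem minimalPeriod_toPerm_dvd {g : G} {n : ℕ} {x : X} (h : g ^ n • x = x) :
    minimalPeriod (MulAction.toPerm g : Equiv.Perm X) x ∣ n := by
  apply IsPeriodicPt.minimalPeriod_dvd
  rw [IsPeriodicPt, IsFixedPt, toPerm_iterate]
  exact h

/-- `g ^ k` fixes `x` when `k` is the minimal period of `x` under `g`. -/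
theorem pow_minimalPeriod_smul (g : G) (x : X) :
    g ^ minimalPeriod (MulAction.toPerm g : Equiv.Perm X) x • x = x := by
  have h := isPeriodicPt_minimalPeriod (MulAction.toPerm g : Equiv.Perm X) x
  rwa [IsPeriodicPt, IsFixedPt, toPerm_iterate] at h

theorem pow_smul_of_minimalPeriod_eq {g : G} {x : X} {k : ℕ}
    (hk : k = minimalPeriod (MulAction.toPerm g : Equiv.Perm X) x) : g ^ k • x = x := by
  rw [hk]; exact pow_minimalPeriod_smul g x

/-- Multiples of the minimal period also fix `x`. -/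
theorem pow_smul_of_minimalPeriod_dvd {g : G} {x : X} {n : ℕ}
    (h : minimalPeriod (MulAction.toPerm g : Equiv.Perm X) x ∣ n) : g ^ n • x = x := by
  obtain ⟨c, rfl⟩ := h
  rw [pow_mul]
  induction c with
  | zero => simp
  | succ c ih => rw [pow_succ, mul_smul, pow_minimalPeriod_smul, ih]

end General

theorem act_T_pow (k : ℕ) (v : ZMod N × ZMod N) :
    act N (T ^ k) v = (v.1 + (k : ZMod N) * v.2, v.2) := by
  induction k generalizing v with
  | zero => simp [act_one]
  | succ k ih =>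
    rw [pow_succ, act_mul, act_T, ih]
    ext
    · simp only [Nat.cast_succ]; ring
    · rfl

/-- `T ^ N` acts trivially on `SL(2,ℤ) ⧸ Γ₀(N)`. -/
theorem T_pow_smul (q : SL(2, ℤ) ⧸ Gamma0 N) : T ^ N • q = q := by
  induction q using QuotientGroup.induction_on with
  | H γ =>
    rw [smul_coset, coset_eq_iff, col_mul, act_T_pow]
    simp [cross]
    ring

theorem minimalPeriod_T_dvd (q : SL(2, ℤ) ⧸ Gamma0 N) :
    minimalPeriod (MulAction.toPerm T : Equiv.Perm (SL(2, ℤ) ⧸ Gamma0 N)) q ∣ N :=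
  minimalPeriod_toPerm_dvd (T_pow_smul q)

theorem S_pow_two_smul (q : SL(2, ℤ) ⧸ Gamma0 N) : S ^ 2 • q = q := by
  rw [pow_two, mul_smul, S_smul_S_smul]

theorem minimalPeriod_S_dvd (q : SL(2, ℤ) ⧸ Gamma0 N) :
    minimalPeriod (MulAction.toPerm S : Equiv.Perm (SL(2, ℤ) ⧸ Gamma0 N)) q ∣ 2 :=
  minimalPeriod_toPerm_dvd (S_pow_two_smul q)

theorem ST_pow_three_smul (q : SL(2, ℤ) ⧸ Gamma0 N) : (S * T) ^ 3 • q = q := by
  rw [pow_succ, pow_two, mul_smul, mul_smul, ST_smul_ST_smul_ST_smul]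

theorem minimalPeriod_ST_dvd (q : SL(2, ℤ) ⧸ Gamma0 N) :
    minimalPeriod (MulAction.toPerm (S * T) : Equiv.Perm (SL(2, ℤ) ⧸ Gamma0 N)) q ∣ 3 :=
  minimalPeriod_toPerm_dvd (ST_pow_three_smul q)

/-- The minimal period of `S` is `1` or `2`. -/
theorem minimalPeriod_S_eq (q : SL(2, ℤ) ⧸ Gamma0 N) :
    minimalPeriod (MulAction.toPerm S : Equiv.Perm (SL(2, ℤ) ⧸ Gamma0 N)) q = 1 ∨
      minimalPeriod (MulAction.toPerm S : Equiv.Perm (SL(2, ℤ) ⧸ Gamma0 N)) q = 2 :=
  (Nat.dvd_prime Nat.prime_two).mp (minimalPeriod_S_dvd q)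

/-- The minimal period of `S * T` is `1` or `3`. -/
theorem minimalPeriod_ST_eq (q : SL(2, ℤ) ⧸ Gamma0 N) :
    minimalPeriod (MulAction.toPerm (S * T) : Equiv.Perm (SL(2, ℤ) ⧸ Gamma0 N)) q = 1 ∨
      minimalPeriod (MulAction.toPerm (S * T) : Equiv.Perm (SL(2, ℤ) ⧸ Gamma0 N)) q = 3 :=
  (Nat.dvd_prime Nat.prime_three).mp (minimalPeriod_ST_dvd q)

/-- Minimal period one means fixed point. -/
theorem smul_eq_of_minimalPeriod_eq_one {G X : Type*} [Group G] [MulAction G X] {g : G} {x : X}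
    (h : minimalPeriod (MulAction.toPerm g : Equiv.Perm X) x = 1) : g • x = x := by
  have := pow_minimalPeriod_smul g x
  rwa [h, pow_one] at this

end Fermat.Agent.S24.Periods
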