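import Mathlib
import Fermat.Agent.S24.DiffOrd

/-!
# S24 Part I-c, bridging to `Place.ofHeightOneSpectrum`

For a Dedekind domain `R` with fraction field `F` which is a finitely generated `K`-algebra,
the local ring of a place whose valuation ring is the localization of `R` at a height one
prime has finitely generated Kaehler differentials, so the results of `DiffOrd.lean` apply.
-/

set_option autoImplicit false

open KaehlerDifferential AlgebraicCurve IsLocalRing IsDedekindDomain

noncomputable section

namespace Fermat.Agent.S24

variable {K F : Type*} [Field K] [Field F] [Algebra K F]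
variable {R : Type*} [CommRing R] [IsDedekindDomain R] [Algebra R F] [IsFractionRing R F]

theorem finite_kaehler_of_eq_valuationSubringAtPrime [Algebra K R] [IsScalarTower K R F]
    [Algebra.FiniteType K R] (v : Place K F) (w : HeightOneSpectrum R)
    (h : v.toValuationSubring = w.valuationSubringAtPrime F) :
    Module.Finite v.toValuationSubring Ω[v.toValuationSubring⁄K] := by
  obtain ⟨A, h1, h2, h3⟩ := v
  change A = _ at h
  subst h
  exact @finite_kaehler_of_isLocalization K F _ _ _ ⟨_, h1, h2, h3⟩ R _ _ _ _ _
    (inferInstanceAs (Algebra R (w.valuationSubringAtPrime F)))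
    (inferInstanceAs (IsScalarTower R (w.valuationSubringAtPrime F) F))
    w.asIdeal.primeCompl
    (inferInstanceAs (IsLocalization w.asIdeal.primeCompl (w.valuationSubringAtPrime F)))

theorem finite_kaehler_ofHeightOneSpectrum [Algebra K R] [IsScalarTower K R F]
    [Algebra.FiniteType K R] (w : HeightOneSpectrum R) :
    Module.Finite (Place.ofHeightOneSpectrum (K := K) (F := F) w).toValuationSubring
      Ω[(Place.ofHeightOneSpectrum (K := K) (F := F) w).toValuationSubring⁄K] :=
  finite_kaehler_of_eq_valuationSubringAtPrime _ w
    (HeightOneSpectrum.valuationSubringAtPrime_eq_valuationSubring (K := F) w).symm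

end Fermat.Agent.S24

end
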