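import Mathlib
import Fermat.Agent.S24.DiffOrdSpec
import Fermat.Agent.S24.ZeroDivisor
import Fermat.Agent.S24.PrincipalDiv
import Fermat.Agent.S24.Kaehler

/-!
# S24 Part I-c: the differential order theorems for every place of a function field

Setting: `K` a field of characteristic zero, `y : F` transcendental over `K` with `F / K(y)`
finite.  Every place `v` of `F / K` has a local ring which is a localization of a finitely
generated `K`-algebra (the integral closure of `K[y]` or of `K[1/y]`), hence finitely
generated Kaehler differentials.
-/

set_option autoImplicit false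
set_option linter.unusedSectionVars false

open KaehlerDifferential AlgebraicCurve IsLocalRing IsDedekindDomain Polynomial IntermediateField

noncomputable section

namespace Fermat.Agent.S24

section RingOfIntegers

variable {K F : Type*} [Field K] [Field F] [Algebra K F] [CharZero K]
variable [Algebra K[X] F] [IsScalarTower K K[X] F] [Algebra (RatFunc K) F]
  [IsScalarTower K[X] (RatFunc K) F] [FiniteDimensional (RatFunc K) F]

local notation "𝓑" => FunctionField.ringOfIntegers K F

theorem finiteType_ringOfIntegers : Algebra.FiniteType K 𝓑 := by
  have h1 : Module.Finite K[X] 𝓑 := inferInstance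
  have h2 : Algebra.FiniteType K[X] 𝓑 := inferInstance
  exact Algebra.FiniteType.trans (R := K) (S := K[X]) (A := 𝓑) inferInstance h2

theorem finite_kaehler_of_X_mem (v : Place K F)
    (hv : algebraMap K[X] F X ∈ v.toValuationSubring) :
    Module.Finite v.toValuationSubring Ω[v.toValuationSubring⁄K] := by
  have hB : ∀ b : 𝓑, algebraMap 𝓑 F b ∈ v.toValuationSubring := fun b =>
    ZD.mem_valuationSubring_of_isIntegral (R := K[X]) v.toValuationSubring
      (ZD.algebraMap_polynomial_mem v hv) b.2
  have hft : Algebra.FiniteType K 𝓑 := finiteType_ringOfIntegers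
  have key := finite_kaehler_ofHeightOneSpectrum (K := K) (F := F)
    (ZD.PlaceLemmas.primeOfPlace v hB)
  have heq := ZD.PlaceLemmas.ofHeightOneSpectrum_primeOfPlace (K := K) v hB
  exact Eq.mp (congrArg (fun P : Place K F =>
    Module.Finite P.toValuationSubring Ω[P.toValuationSubring⁄K]) heq) key

end RingOfIntegers

section Adjoin

variable {K F : Type*} [Field K] [Field F] [Algebra K F] [CharZero K]

/-- `y` transcendental, `F / K(y)` finite, `y ∈ O_v`: finitely generated differentials. -/
theorem finite_kaehler_of_mem (y : F) (hy : Transcendental K y) [FiniteDimensional K⟮y⟯ F]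
    (v : Place K F) (hv : y ∈ v.toValuationSubring) :
    Module.Finite v.toValuationSubring Ω[v.toValuationSubring⁄K] := by
  let alg1 : Algebra K[X] F := (aeval y : K[X] →ₐ[K] F).toRingHom.toAlgebra
  have halg1 : ∀ p : K[X], algebraMap K[X] F p = aeval y p := fun p => rfl
  have tower1 : IsScalarTower K K[X] F := IsScalarTower.of_algebraMap_eq (fun a => by
    rw [halg1, Polynomial.algebraMap_eq, aeval_C])
  let e : RatFunc K ≃ₐ[K] K⟮y⟯ := RatFunc.algEquivOfTranscendental y hy
  let alg2 : Algebra (RatFunc K) F :=
    ((algebraMap K⟮y⟯ F).comp e.toRingEquiv.toRingHom).toAlgebra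
  have halg2 : ∀ r : RatFunc K, algebraMap (RatFunc K) F r = ((e r : K⟮y⟯) : F) := fun r => rfl
  have tower2 : IsScalarTower K[X] (RatFunc K) F := IsScalarTower.of_algebraMap_eq (fun p => by
    rw [halg1, halg2, RatFunc.algEquivOfTranscendental_algebraMap]
    simp)
  have fin : FiniteDimensional (RatFunc K) F :=
    Module.Finite.of_equiv_equiv e.symm.toRingEquiv (RingEquiv.refl F) (by
      ext r
      simp only [RingHom.coe_comp, Function.comp_apply, halg2]
      simp)
  have hX : algebraMap K[X] F X = y := by rw [halg1, aeval_X]
  exact finite_kaehler_of_X_mem v (by rw [hX]; exact hv)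

/-- `y` transcendental, `F / K(y)` finite: every place has finitely generated differentials. -/
theorem finite_kaehler_place (y : F) (hy : Transcendental K y) [FiniteDimensional K⟮y⟯ F]
    (v : Place K F) :
    Module.Finite v.toValuationSubring Ω[v.toValuationSubring⁄K] := by
  rcases v.toValuationSubring.mem_or_inv_mem y with h | h
  · exact finite_kaehler_of_mem y hy v h
  · have hfin : FiniteDimensional K⟮y⁻¹⟯ F := by
      rw [PD.adjoin_inv_eq]
      infer_instance
    exact finite_kaehler_of_mem y⁻¹ (PD.transcendental_inv hy) v h

end Adjoin

section FFDataFields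

variable {K F : Type*} [Field K] [Field F] [Algebra K F] [IsAlgClosed K] [CharZero K]

/-- every place of a function field over an algebraically closed field has residue field `K`. -/
theorem residueTrivial_place (x : F) (hx : Transcendental K x) [FiniteDimensional K⟮x⟯ F]
    (v : Place K F) : ResidueTrivial v := by
  have := PD.finite_residueField hx v
  exact residueTrivial_of_isAlgClosed v

/-- literal shape of `RH.FFData.dcoord`. -/
theorem ffData_dcoord (x : F) (hx : Transcendental K x) [FiniteDimensional K⟮x⟯ F] :
    ∀ v : Place K F, v.DCoordGenerates := by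
  intro v
  have := finite_kaehler_place x hx v
  exact dCoordGenerates_of_residueTrivial v (residueTrivial_place x hx v)

/-- literal shape of `RH.FFData.ord_diff`. -/
theorem ffData_ord_diff (x : F) (hx : Transcendental K x) [FiniteDimensional K⟮x⟯ F] :
    ∀ (v : Place K F) (y : F), v.ord y ≠ 0 →
      v.ordDifferential (D K F y) = v.ord y - 1 := by
  intro v y hy
  have := finite_kaehler_place x hx v
  have hnt : Nontrivial Ω[F⁄K] := Kaehler.nontrivial_kaehler x hx
  exact (ordDifferential_D_of_ord_ne_zero v (residueTrivial_place x hx v) hy).1

/-- the coefficient of `d y` at `v` is nonzero when `ord_v y ≠ 0`. -/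
theorem differentialCoeff_D_ne_zero (x : F) (hx : Transcendental K x) [FiniteDimensional K⟮x⟯ F]
    (v : Place K F) {y : F} (hy : v.ord y ≠ 0) : v.differentialCoeff (D K F y) ≠ 0 := by
  have := finite_kaehler_place x hx v
  have hnt : Nontrivial Ω[F⁄K] := Kaehler.nontrivial_kaehler x hx
  exact (ordDifferential_D_of_ord_ne_zero v (residueTrivial_place x hx v) hy).2

/-- `0 ≤ ord_v (d u / d π_v)` for `u` in the local ring at `v`. -/
theorem ordDifferential_D_nonneg_place (x : F) (hx : Transcendental K x)
    [FiniteDimensional K⟮x⟯ F] (v : Place K F) {u : F} (hu : u ∈ v.toValuationSubring) :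
    0 ≤ v.ordDifferential (D K F u) := by
  have := finite_kaehler_place x hx v
  have hnt : Nontrivial Ω[F⁄K] := Kaehler.nontrivial_kaehler x hx
  exact ordDifferential_D_nonneg v (residueTrivial_place x hx v) hu

end FFDataFields

end Fermat.Agent.S24

end
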