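import Fermat.Agent.S24.PrincipalDiv
import Fermat.Agent.S24.PlacesDedekind

/-!
# Weak approximation at the zeros of `y` (S24, part I-b3, field `approx` of `ZeroPlacesData`)

For `K` algebraically closed of characteristic zero, `y : F` transcendental with `F / K(y)`
finite, and a zero `v` of `y`, there is `f : F` with `ord_v f = 1` and `ord_v' f = 0` at every
other zero `v'` of `y` (Chinese remainder theorem in the integral closure of `K[y]`).
-/

set_option autoImplicit false

noncomputable section

open IsDedekindDomain IsDedekindDomain.HeightOneSpectrum WithZero AlgebraicCurve Polynomial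
  IntermediateField

namespace Fermat.Agent.S24.Approx

section Dedekind

variable {B : Type*} [CommRing B] [IsDedekindDomain B]

/-- CRT in a Dedekind domain: for nonzero `c` and a prime `P` there is `b` with `P`-adic order
one and order zero at every other prime containing `c`. -/
theorem exists_intValuation_eq (c : B) (hc : c ≠ 0) (P : HeightOneSpectrum B) :
    ∃ b : B, P.intValuation b = exp (-1 : ℤ) ∧
      ∀ Q : HeightOneSpectrum B, c ∈ Q.asIdeal → Q ≠ P → Q.intValuation b = 1 := by
  classical
  have hI : (Ideal.span {c} : Ideal B) ≠ 0 := by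
    rw [Ne, Ideal.zero_eq_bot, Ideal.span_singleton_eq_bot]
    exact hc
  let s : Finset (HeightOneSpectrum B) := insert P (Ideal.finite_factors hI).toFinset
  obtain ⟨π, hπ⟩ := P.intValuation_exists_uniformizer
  obtain ⟨b, hb⟩ := IsDedekindDomain.exists_forall_sub_mem_ideal (s := s)
    (fun Q : HeightOneSpectrum B => Q.asIdeal) (fun Q => if Q = P then 2 else 1)
    (fun Q _ => Q.prime) (fun Q _ Q' _ h hQ => h (HeightOneSpectrum.ext hQ))
    (fun Q => if (Q : HeightOneSpectrum B) = P then π else 1)
  refine ⟨b, ?_, ?_⟩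
  · have h1 := hb P (Finset.mem_insert_self _ _)
    simp only [if_true] at h1
    rw [← intValuation_le_pow_iff_mem] at h1
    have h2 : P.intValuation (b - π) < P.intValuation π := by
      rw [hπ]
      refine lt_of_le_of_lt h1 ?_
      rw [exp_lt_exp]
      norm_num
    have h3 : P.intValuation b = P.intValuation π := by
      have := Valuation.map_add_eq_of_lt_left P.intValuation h2
      rw [add_comm, sub_add_cancel] at this
      exact this
    rw [h3, hπ]
  · intro Q hcQ hQP
    have hQs : Q ∈ s := by
      apply Finset.mem_insert_of_mem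
      rw [Set.Finite.mem_toFinset]
      exact (Ideal.dvd_span_singleton.mpr hcQ)
    have h1 := hb Q hQs
    simp only [if_neg hQP, pow_one] at h1
    rw [← intValuation_lt_one_iff_mem] at h1
    have h2 : Q.intValuation (b - 1) < Q.intValuation 1 := by rwa [map_one]
    have := Valuation.map_add_eq_of_lt_left Q.intValuation h2
    rw [add_comm, sub_add_cancel, map_one] at this
    exact this

variable {K F : Type*} [Field K] [Field F] [Algebra K F]
variable [Algebra K B] [Algebra B F] [IsScalarTower K B F] [IsFractionRing B F]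

/-- Weak approximation for the places lying over a Dedekind subring `B` with `Frac B = F`:
given `c ≠ 0` in `B` and a place `v ⊇ B`, there is `f` with `ord_v f = 1` and `ord_v' f = 0`
for every other place `v' ⊇ B` at which `c` vanishes. -/
theorem exists_ord_eq_one_of_dedekind (c : B) (hc : c ≠ 0) (v : Place K F)
    (hv : ∀ b : B, algebraMap B F b ∈ v.toValuationSubring) :
    ∃ f : F, f ≠ 0 ∧ v.ord f = 1 ∧ ∀ v' : Place K F,
      (∀ b : B, algebraMap B F b ∈ v'.toValuationSubring) → 0 < v'.ord (algebraMap B F c) →
      v' ≠ v → v'.ord f = 0 := by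
  obtain ⟨b, hbP, hbQ⟩ := exists_intValuation_eq c hc (PD.primeOfPlace v hv)
  have hb0 : b ≠ 0 := by
    rintro rfl
    rw [map_zero] at hbP
    exact (WithZero.exp_ne_zero).symm hbP
  refine ⟨algebraMap B F b, (IsFractionRing.injective B F).ne hb0 |>.trans_eq (map_zero _) |> id,
    ?_, ?_⟩
  · rw [← PD.placeOfPrime_primeOfPlace v hv, PD.placeOfPrime_ord, valuation_of_algebraMap, hbP,
      log_exp]
    norm_num
  · intro v' hv' hcv' hne
    have hQ : c ∈ (PD.primeOfPlace v' hv').asIdeal :=
      (PD.mem_primeOfPlace_iff_ord v' hv' hc).mpr hcv'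
    have hQP : PD.primeOfPlace v' hv' ≠ PD.primeOfPlace v hv := by
      intro h
      apply hne
      rw [← PD.placeOfPrime_primeOfPlace v' hv', ← PD.placeOfPrime_primeOfPlace v hv, h]
    rw [← PD.placeOfPrime_primeOfPlace v' hv', PD.placeOfPrime_ord, valuation_of_algebraMap,
      hbQ _ hQ hQP, log_one, neg_zero]

end Dedekind

variable {K F : Type*} [Field K] [Field F] [Algebra K F]

section XForm

variable [IsAlgClosed K] [CharZero K]
variable [Algebra K[X] F] [IsScalarTower K K[X] F] [Algebra (RatFunc K) F]
  [IsScalarTower K[X] (RatFunc K) F] [FiniteDimensional (RatFunc K) F]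

local notation "𝓑" => FunctionField.ringOfIntegers K F

omit [IsAlgClosed K] in
theorem approx_X (v : Place K F) (hv : 0 < v.ord (algebraMap K[X] F X)) :
    ∃ f : F, f ≠ 0 ∧ v.ord f = 1 ∧ ∀ v' : Place K F,
      0 < v'.ord (algebraMap K[X] F X) → v' ≠ v → v'.ord f = 0 := by
  have hB : ∀ w : Place K F, 0 < w.ord (algebraMap K[X] F X) →
      ∀ b : 𝓑, algebraMap 𝓑 F b ∈ w.toValuationSubring := by
    intro w hw b
    have hX : algebraMap K[X] F X ∈ w.toValuationSubring := by
      rw [ZD.PlaceLemmas.mem_iff_ord]; right; exact hw.le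
    exact ZD.mem_valuationSubring_of_isIntegral (R := K[X]) w.toValuationSubring
      (ZD.algebraMap_polynomial_mem w hX) b.2
  have hc : (algebraMap K[X] 𝓑 X) ≠ 0 := by
    intro h
    have := FunctionField.ringOfIntegers.algebraMap_injective K F (h.trans (map_zero _).symm)
    exact Polynomial.X_ne_zero this
  have hcF : algebraMap 𝓑 F (algebraMap K[X] 𝓑 X) = algebraMap K[X] F X :=
    (IsScalarTower.algebraMap_apply K[X] 𝓑 F X).symm
  obtain ⟨f, hf0, hf1, hf⟩ :=
    exists_ord_eq_one_of_dedekind (K := K) (F := F) (algebraMap K[X] 𝓑 X) hc v (hB v hv)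
  refine ⟨f, hf0, hf1, fun v' hv' hne => hf v' (hB v' hv') ?_ hne⟩
  rw [hcF]
  exact hv'

end XForm

variable [IsAlgClosed K] [CharZero K]

/-- The `approx` field of `ZeroPlacesData K y`. -/
theorem approx (y : F) (hy : Transcendental K y) [FiniteDimensional K⟮y⟯ F] :
    ∀ v : Place K F, 0 < v.ord y → ∃ f : F, f ≠ 0 ∧ v.ord f = 1 ∧
      ∀ v' : Place K F, 0 < v'.ord y → v' ≠ v → v'.ord f = 0 := by
  obtain ⟨alg1, tower1, alg2, tower2, fin, hX⟩ := PD.exists_polynomial_instances y hy
  intro v hv
  have := approx_X (K := K) (F := F) v (by rw [hX]; exact hv)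
  rw [hX] at this
  exact this

end Fermat.Agent.S24.Approx
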