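import Fermat.Agent.S24.PlaceDedekind

set_option autoImplicit false
set_option linter.unusedSectionVars false

noncomputable section

open IsDedekindDomain WithZero IsLocalRing AlgebraicCurve Ideal

namespace Fermat.Agent.S24.ZD

section Fiber
variable {K F : Type*} [Field K] [Field F] [Algebra K F] [IsAlgClosed K]
variable {A : Type*} (B : Type*) [CommRing A] [IsDomain A] [CommRing B] [IsDedekindDomain B]
  [Algebra A B] [Module.Finite A B] [Module.IsTorsionFree A B] [Module.Flat A B]
  [Algebra K A] [Algebra K B] [IsScalarTower K A B]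
  [Algebra B F] [IsFractionRing B F] [Algebra A F] [IsScalarTower A B F] [IsScalarTower K B F]

/-- places of `F` whose valuation ring contains `B` and at which `π` vanishes. -/
def zeroPlaces (π : A) : Set (Place K F) :=
  {v | (∀ b : B, algebraMap B F b ∈ v.toValuationSubring) ∧ 0 < v.ord (algebraMap A F π)}

theorem ord_pos_iff_adicValuation_lt_one (v : Place K F) {f : F} (hf : f ≠ 0) :
    0 < v.ord f ↔ v.adicValuation f < 1 := by
  rw [Place.ord, neg_pos, ← log_one (M := ℤ)]
  have h0 : v.adicValuation f ≠ 0 := v.adicValuation_ne_zero hf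
  rw [log_lt_log h0 one_ne_zero]

variable (π : A) (hπ0 : π ≠ 0) [hmax : (span {π}).IsMaximal]

include B hπ0 in
theorem algebraMap_ne_zero' : algebraMap A F π ≠ 0 := by
  rw [IsScalarTower.algebraMap_apply A B F]
  have h1 : algebraMap A B π ≠ 0 :=
    (map_ne_zero_iff _ (FaithfulSMul.algebraMap_injective A B)).mpr hπ0
  exact (map_ne_zero_iff _ (IsFractionRing.injective B F)).mpr h1

include hπ0 in
/-- the prime over `span {π}` attached to a place in `zeroPlaces`. -/
theorem liesOver_primeOfPlace (v : Place K F) (hv : v ∈ zeroPlaces (K := K) (F := F) B π) :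
    (PlaceLemmas.primeOfPlace v hv.1).asIdeal.LiesOver (span {π}) := by
  constructor
  have hmem : π ∈ (PlaceLemmas.primeOfPlace v hv.1).asIdeal.under A := by
    rw [Ideal.under_def, Ideal.mem_comap, PlaceLemmas.mem_primeOfPlace_iff,
      ← IsScalarTower.algebraMap_apply A B F,
      ← ord_pos_iff_adicValuation_lt_one v (algebraMap_ne_zero' B π hπ0)]
    exact hv.2
  have hle : span {π} ≤ (PlaceLemmas.primeOfPlace v hv.1).asIdeal.under A := by
    rw [Ideal.span_le, Set.singleton_subset_iff]; exact hmem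
  have hne : (PlaceLemmas.primeOfPlace v hv.1).asIdeal.under A ≠ ⊤ :=
    (Ideal.IsPrime.under A _).ne_top
  exact (hmax.eq_of_le hne hle)


include hπ0 in
theorem span_ne_bot : (span {π} : Ideal A) ≠ ⊥ := by
  simpa using hπ0

/-- the height one prime attached to a prime over `span {π}`. -/
def heightOneOfPrimesOver (Q : (span {π}).primesOver B) : HeightOneSpectrum B :=
  ⟨Q.1, Q.2.1, Ideal.ne_bot_of_mem_primesOver (span_ne_bot π hπ0) Q.2⟩

instance liesOver_heightOneOfPrimesOver (Q : (span {π}).primesOver B) :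
    (heightOneOfPrimesOver B π hπ0 Q).asIdeal.LiesOver (span {π}) := Q.2.2

include hπ0 in
theorem ord_ofHeightOneSpectrum_eq_ramificationIdx (Q : (span {π}).primesOver B) :
    (Place.ofHeightOneSpectrum (K := K) (F := F) (heightOneOfPrimesOver B π hπ0 Q)).ord
      (algebraMap A F π) = (Q.1.ramificationIdx A : ℤ) := by
  rw [PlaceLemmas.ord_ofHeightOneSpectrum]
  exact (ramificationIdx_eq_neg_log_valuation π hπ0 (heightOneOfPrimesOver B π hπ0 Q)).symm

/-- primes over `span {π}` correspond to places where `π` vanishes. -/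
def primesOverEquivZeroPlaces :
    (span {π}).primesOver B ≃ zeroPlaces (K := K) (F := F) B π where
  toFun Q := ⟨Place.ofHeightOneSpectrum (K := K) (heightOneOfPrimesOver B π hπ0 Q),
    PlaceLemmas.algebraMap_mem_ofHeightOneSpectrum _, by
      rw [ord_ofHeightOneSpectrum_eq_ramificationIdx B π hπ0 Q]
      have : Q.1.IsPrime := Q.2.1
      exact_mod_cast Ideal.ramificationIdx_pos Q.1 A⟩
  invFun v := ⟨(PlaceLemmas.primeOfPlace v.1 v.2.1).asIdeal,
    (PlaceLemmas.primeOfPlace v.1 v.2.1).isPrime, liesOver_primeOfPlace B π hπ0 v.1 v.2⟩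
  left_inv Q := by
    apply Subtype.ext
    have := PlaceLemmas.ofHeightOneSpectrum_primeOfPlace (K := K) (F := F) (R := B)
      (Place.ofHeightOneSpectrum (K := K) (heightOneOfPrimesOver B π hπ0 Q))
      (PlaceLemmas.algebraMap_mem_ofHeightOneSpectrum _)
    have h2 := PlaceLemmas.ofHeightOneSpectrum_injective this
    exact congrArg HeightOneSpectrum.asIdeal h2
  right_inv v := by
    apply Subtype.ext
    exact PlaceLemmas.ofHeightOneSpectrum_primeOfPlace v.1 v.2.1


include hπ0 in
theorem sum_ord_zeroPlaces (hres : Function.Surjective (algebraMap K (A ⧸ span {π}))) :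
    ∃ (_ : Fintype (zeroPlaces (K := K) (F := F) B π)),
      ∑ v : zeroPlaces (K := K) (F := F) B π, v.1.ord (algebraMap A F π)
        = (Module.finrank A B : ℤ) := by
  have : Algebra.IsIntegral A B := Algebra.IsIntegral.of_finite A B
  let e := primesOverEquivZeroPlaces (K := K) (F := F) B π hπ0
  refine ⟨Fintype.ofEquiv _ e, ?_⟩
  let : Fintype (zeroPlaces (K := K) (F := F) B π) := Fintype.ofEquiv _ e
  rw [← Ideal.sum_ramification_inertia_eq_finrank (span {π}) B, Nat.cast_sum,
    ← Equiv.sum_comp e]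
  refine Finset.sum_congr rfl (fun Q _ => ?_)
  have hQp : Q.1.IsPrime := Q.2.1
  have hQm : Q.1.IsMaximal :=
    hQp.isMaximal (Ideal.ne_bot_of_mem_primesOver (span_ne_bot π hπ0) Q.2)
  have hQl : Q.1.LiesOver (span {π}) := Q.2.2
  rw [inertiaDeg_eq_one_of_isAlgClosed (K := K) (span {π}) hres Q.1, mul_one]
  exact ord_ofHeightOneSpectrum_eq_ramificationIdx B π hπ0 Q

end Fiber
end Fermat.Agent.S24.ZD
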