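/-
S24 Part V (combinatorics of `SL(2,ℤ) ⧸ Γ₀(N)`): the orbits of `T` are in bijection with
`Σ d ∣ N, (ZMod (gcd d (N/d)))ˣ`, hence their number is `cuspCount N`.
-/
import Fermat.Agent.S24.CombOrbits

set_option autoImplicit false

open Matrix Matrix.SpecialLinearGroup CongruenceSubgroup ModularGroup MulAction
open scoped MatrixGroups

namespace Fermat.Agent.S24.Comb

open ModularCurve

variable {N : ℕ}

theorem act_T_zpow (k : ℤ) (v : ZMod N × ZMod N) :
    act N (T ^ k) v = (v.1 + (k : ZMod N) * v.2, v.2) := by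
  simp only [act, coe_T_zpow]
  simp

/-- Two cosets are in the same `T`-orbit iff their columns are related by a translation and a
unit. -/
theorem mk_orbit_T_eq_iff (γ γ' : SL(2, ℤ)) :
    (Quotient.mk'' (γ : SL(2, ℤ) ⧸ Gamma0 N) :
        orbitRel.Quotient (Subgroup.zpowers T) (SL(2, ℤ) ⧸ Gamma0 N)) =
      Quotient.mk'' (γ' : SL(2, ℤ) ⧸ Gamma0 N) ↔
    ∃ k : ℤ, cross (col N γ) ((col N γ').1 + (k : ZMod N) * (col N γ').2, (col N γ').2) = 0 := by
  rw [Quotient.eq'']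
  change (γ : SL(2, ℤ) ⧸ Gamma0 N) ∈ orbit (Subgroup.zpowers T) (γ' : SL(2, ℤ) ⧸ Gamma0 N) ↔ _
  constructor
  · rintro ⟨⟨g, hg⟩, hgq⟩
    obtain ⟨k, rfl⟩ := Subgroup.mem_zpowers_iff.mp hg
    refine ⟨k, ?_⟩
    have h1 : ((T ^ k * γ' : SL(2, ℤ)) : SL(2, ℤ) ⧸ Gamma0 N) = γ := hgq
    rw [eq_comm, coset_eq_iff, col_mul, act_T_zpow] at h1
    exact h1
  · rintro ⟨k, hk⟩
    refine ⟨⟨T ^ k, Subgroup.zpow_mem_zpowers T k⟩, ?_⟩
    change ((T ^ k * γ' : SL(2, ℤ)) : SL(2, ℤ) ⧸ Gamma0 N) = γ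
    rw [eq_comm, coset_eq_iff, col_mul, act_T_zpow]
    exact hk

theorem exists_mul_of_castHom_eq_zero {g : ℕ} [NeZero N] (hg : g ∣ N) (z : ZMod N)
    (hz : ZMod.castHom hg (ZMod g) z = 0) : ∃ m : ZMod N, z = (g : ZMod N) * m := by
  rw [← ZMod.natCast_zmod_val z, map_natCast, ZMod.natCast_eq_zero_iff] at hz
  obtain ⟨m, hm⟩ := hz
  refine ⟨(m : ZMod N), ?_⟩
  rw [← ZMod.natCast_zmod_val z, hm, Nat.cast_mul]

theorem castHom_eq_zero_of_mul_eq_zero {d g : ℕ} [NeZero N] (hd : d ∣ N) (hg : g ∣ N / d)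
    (hgN : g ∣ N) (w : ZMod N) (h : (d : ZMod N) * w = 0) :
    ZMod.castHom hgN (ZMod g) w = 0 := by
  rw [← ZMod.natCast_zmod_val w, ← Nat.cast_mul, ZMod.natCast_eq_zero_iff] at h
  rw [← ZMod.natCast_zmod_val w, map_natCast, ZMod.natCast_eq_zero_iff]
  have hd0 : 0 < d := Nat.pos_of_dvd_of_pos hd (Nat.pos_of_ne_zero (NeZero.ne N))
  have h1 : N / d ∣ w.val := by
    have h2 : d * (N / d) ∣ d * w.val := by rwa [Nat.mul_div_cancel' hd]
    exact Nat.dvd_of_mul_dvd_mul_left hd0 h2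
  exact hg.trans h1

/-- The index set for the cusps of `Gamma0 N`. -/
abbrev CuspIdx (N : ℕ) : Type := Σ d : N.divisors, (ZMod (Nat.gcd d.1 (N / d.1)))ˣ

theorem gcd_dvd_level (d : N.divisors) : Nat.gcd d.1 (N / d.1) ∣ N :=
  (Nat.gcd_dvd_left _ _).trans (Nat.dvd_of_mem_divisors d.2)

/-- A unit modulo `N` lifting a given unit modulo `gcd d (N/d)`. -/
noncomputable def unitLift [NeZero N] (i : CuspIdx N) : (ZMod N)ˣ :=
  (ZMod.unitsMap_surjective (gcd_dvd_level i.1) i.2).choose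

theorem castHom_unitLift [NeZero N] (i : CuspIdx N) :
    ZMod.castHom (gcd_dvd_level i.1) (ZMod (Nat.gcd i.1.1 (N / i.1.1))) (unitLift i : ZMod N) =
      (i.2 : ZMod (Nat.gcd i.1.1 (N / i.1.1))) := by
  have h := (ZMod.unitsMap_surjective (gcd_dvd_level i.1) i.2).choose_spec
  exact congrArg Units.val h

theorem exists_cuspRep [NeZero N] (i : CuspIdx N) :
    ∃ γ : SL(2, ℤ), col N γ = ((unitLift i : ZMod N), ((i.1.1 : ℕ) : ZMod N)) :=
  exists_col_eq (N := N) ⟨((unitLift i)⁻¹ : (ZMod N)ˣ), 0, by simp⟩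

/-- A representative in `SL(2,ℤ)` of the cusp with index `i`. -/
noncomputable def cuspRep [NeZero N] (i : CuspIdx N) : SL(2, ℤ) := (exists_cuspRep i).choose

theorem col_cuspRep [NeZero N] (i : CuspIdx N) :
    col N (cuspRep i) = ((unitLift i : ZMod N), ((i.1.1 : ℕ) : ZMod N)) :=
  (exists_cuspRep i).choose_spec

/-- The map from the index set to the set of `T`-orbits. -/
noncomputable def cuspMap [NeZero N] (i : CuspIdx N) :
    orbitRel.Quotient (Subgroup.zpowers T) (SL(2, ℤ) ⧸ Gamma0 N) :=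
  Quotient.mk'' ((cuspRep i : SL(2, ℤ)) : SL(2, ℤ) ⧸ Gamma0 N)

theorem card_cuspIdx [NeZero N] : Nat.card (CuspIdx N) = cuspCount N := by
  unfold CuspIdx cuspCount
  rw [Nat.card_sigma]
  rw [← Finset.sum_coe_sort N.divisors (fun d => Nat.totient (Nat.gcd d (N / d)))]
  refine Finset.sum_congr rfl (fun d _ => ?_)
  have hd : 0 < d.1 := Nat.pos_of_mem_divisors d.2
  have : NeZero (Nat.gcd d.1 (N / d.1)) := ⟨Nat.gcd_ne_zero_left hd.ne'⟩
  rw [Nat.card_eq_fintype_card, ZMod.card_units_eq_totient]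

theorem dvd_of_unit_mul_eq [NeZero N] {d d' : ℕ} (hd : d ∣ N) (u : (ZMod N)ˣ) (w : ZMod N)
    (h : (u : ZMod N) * (d' : ZMod N) = (d : ZMod N) * w) : d ∣ d' := by
  have h1 := congrArg (ZMod.castHom hd (ZMod d)) h
  rw [map_mul, map_mul, map_natCast, map_natCast, ZMod.natCast_self, zero_mul] at h1
  have hu : IsUnit (ZMod.castHom hd (ZMod d) (u : ZMod N)) := u.isUnit.map _
  rw [hu.mul_right_eq_zero] at h1
  exact (ZMod.natCast_eq_zero_iff d' d).mp h1

theorem cuspMap_injective [NeZero N] : Function.Injective (cuspMap (N := N)) := by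
  intro i i' h
  unfold cuspMap at h
  rw [mk_orbit_T_eq_iff, col_cuspRep, col_cuspRep] at h
  obtain ⟨k, hk⟩ := h
  simp only [cross] at hk
  obtain ⟨⟨d, hd⟩, a⟩ := i
  obtain ⟨⟨d', hd'⟩, a'⟩ := i'
  have hdN : d ∣ N := Nat.dvd_of_mem_divisors hd
  have hdN' : d' ∣ N := Nat.dvd_of_mem_divisors hd'
  have ha := castHom_unitLift (⟨⟨d, hd⟩, a⟩ : CuspIdx N)
  have ha' := castHom_unitLift (⟨⟨d', hd'⟩, a'⟩ : CuspIdx N)
  simp only at hk ha ha'
  generalize unitLift (⟨⟨d, hd⟩, a⟩ : CuspIdx N) = x at hk ha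
  generalize unitLift (⟨⟨d', hd'⟩, a'⟩ : CuspIdx N) = x' at hk ha'
  have h1 : d ∣ d' := dvd_of_unit_mul_eq hdN x ((x' : ZMod N) + (k : ZMod N) * (d' : ZMod N))
    (by linear_combination hk)
  have h2 : d' ∣ d := dvd_of_unit_mul_eq hdN' x' ((x : ZMod N) - (k : ZMod N) * (d : ZMod N))
    (by linear_combination (-1 : ZMod N) * hk)
  have hdd : d = d' := Nat.dvd_antisymm h1 h2
  subst hdd
  have h3 : (d : ZMod N) * ((x : ZMod N) - (x' : ZMod N) - (k : ZMod N) * (d : ZMod N)) = 0 := by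
    linear_combination hk
  have h4 := castHom_eq_zero_of_mul_eq_zero hdN (Nat.gcd_dvd_right d (N / d))
    (gcd_dvd_level ⟨d, hd⟩) _ h3
  rw [map_sub, map_sub, map_mul, map_natCast, ha, ha',
    (ZMod.natCast_eq_zero_iff d _).mpr (Nat.gcd_dvd_left d (N / d)), mul_zero, sub_zero,
    sub_eq_zero] at h4
  have haa : a = a' := Units.ext h4
  subst haa
  rfl

theorem exists_cuspIdx_cross_eq_zero [NeZero N] {x y : ZMod N} (hcop : IsCoprime x y) :
    ∃ (i : CuspIdx N) (k : ℤ),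
      cross ((unitLift i : ZMod N), ((i.1.1 : ℕ) : ZMod N)) (x + (k : ZMod N) * y, y) = 0 := by
  obtain ⟨d, hdN, u, hu, hy⟩ := ZMod.eq_unit_mul_divisor y
  have hdmem : d ∈ N.divisors := Nat.mem_divisors.mpr ⟨hdN, NeZero.ne N⟩
  have hgN : Nat.gcd d (N / d) ∣ N := gcd_dvd_level ⟨d, hdmem⟩
  have hgd : ((d : ℕ) : ZMod (Nat.gcd d (N / d))) = 0 :=
    (ZMod.natCast_eq_zero_iff d _).mpr (Nat.gcd_dvd_left d (N / d))
  -- the image of `x` modulo `g` is a unit
  have hxu : IsUnit (ZMod.castHom hgN (ZMod (Nat.gcd d (N / d))) x) := by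
    have h1 := hcop.map (ZMod.castHom hgN (ZMod (Nat.gcd d (N / d))))
    rw [hy, map_mul, map_natCast, hgd, mul_zero] at h1
    exact isCoprime_zero_right.mp h1
  have huu : IsUnit (ZMod.castHom hgN (ZMod (Nat.gcd d (N / d))) u) := hu.map _
  let i : CuspIdx N := ⟨⟨d, hdmem⟩, hxu.unit * huu.unit⁻¹⟩
  have hi := castHom_unitLift i
  -- `z = x̃ * u - x` vanishes modulo `g`
  have hz : ZMod.castHom hgN (ZMod (Nat.gcd d (N / d))) ((unitLift i : ZMod N) * u - x) = 0 := by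
    rw [map_sub, map_mul, hi]
    simp only [i, Units.val_mul, IsUnit.unit_spec]
    rw [mul_assoc, huu.val_inv_mul, mul_one, sub_self]
  obtain ⟨m, hm⟩ := exists_mul_of_castHom_eq_zero hgN _ hz
  -- Bezout
  have hbez : ((Nat.gcd d (N / d) : ℕ) : ZMod N) =
      (d : ZMod N) * ((Nat.gcdA d (N / d) : ℤ) : ZMod N) +
        ((N / d : ℕ) : ZMod N) * ((Nat.gcdB d (N / d) : ℤ) : ZMod N) := by
    have h := congrArg (Int.cast : ℤ → ZMod N) (Nat.gcd_eq_gcd_ab d (N / d))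
    simp only [Int.cast_add, Int.cast_mul, Int.cast_natCast] at h
    exact h
  have hde : (d : ZMod N) * ((N / d : ℕ) : ZMod N) = 0 := by
    rw [← Nat.cast_mul, Nat.mul_div_cancel' hdN, ZMod.natCast_self]
  obtain ⟨k, hk⟩ := ZMod.intCast_surjective
    (((hu.unit⁻¹ : (ZMod N)ˣ) : ZMod N) * ((Nat.gcdA d (N / d) : ℤ) : ZMod N) * m)
  have hku : (k : ZMod N) * u = ((Nat.gcdA d (N / d) : ℤ) : ZMod N) * m := by
    rw [hk]
    have h1 : ((hu.unit⁻¹ : (ZMod N)ˣ) : ZMod N) * u = 1 := hu.val_inv_mul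
    linear_combination ((Nat.gcdA d (N / d) : ℤ) : ZMod N) * m * h1
  refine ⟨i, k, ?_⟩
  simp only [cross]
  change (unitLift i : ZMod N) * y - (d : ZMod N) * (x + (k : ZMod N) * y) = 0
  rw [hy]
  linear_combination (d : ZMod N) * hm + (d : ZMod N) * m * hbez
    + ((Nat.gcdB d (N / d) : ℤ) : ZMod N) * m * hde - (d : ZMod N) * (d : ZMod N) * hku

theorem cuspMap_surjective [NeZero N] : Function.Surjective (cuspMap (N := N)) := by
  intro q
  induction q using Quotient.inductionOn' with | _ c => ?_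
  induction c using QuotientGroup.induction_on with | _ γ => ?_
  obtain ⟨i, k, hik⟩ := exists_cuspIdx_cross_eq_zero (isCoprime_col (N := N) γ)
  refine ⟨i, ?_⟩
  unfold cuspMap
  rw [mk_orbit_T_eq_iff, col_cuspRep]
  exact ⟨k, hik⟩

/-- The number of orbits of `T` on `SL(2,ℤ) ⧸ Γ₀(N)` is the number of cusps
`∑ d ∣ N, φ(gcd(d, N/d))`. -/
theorem card_orbits_T (N : ℕ) [NeZero N] :
    Nat.card (orbitRel.Quotient (Subgroup.zpowers T) (SL(2, ℤ) ⧸ Gamma0 N)) = cuspCount N := by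
  rw [← card_cuspIdx (N := N)]
  exact (Nat.card_congr
    (Equiv.ofBijective cuspMap ⟨cuspMap_injective, cuspMap_surjective⟩)).symm

end Fermat.Agent.S24.Comb
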