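import Fermat.Agent.S24.FinalAbs
import Fermat.Agent.S24.FFDataAll
import Fermat.Agent.S24.PartV.Main
import Fermat.Agent.S24.Setup
import Fermat.Prelude.Def_ModularCurve_GenusNumerics

/-!
# S24, Part VI: the genus of `X₀(N)` from the place counting inputs

`genus_modular_of_inputs` reduces the statement S24 to
* `Transcendental Kbar (jF N)`, `FiniteDimensional Kbar⟮jF N⟯ (FF N)`, `finrank = index`
  (Part III),
* `ZeroPlacesData` for all transcendental `y` (Part I-b3),
* the place counting inputs `PCInput` over `0`, `1728`, the other finite points and `∞`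
  (Part IV).
-/

set_option autoImplicit false
set_option linter.unusedSectionVars false

noncomputable section

open AlgebraicCurve IntermediateField ModularCurve CongruenceSubgroup ModularGroup
open scoped MatrixGroups

namespace Fermat.Agent.S24.Final

open Fermat.Agent.S24.Setup

/-- The two notions of orbit count agree. -/
theorem orbCount_toPerm {G X : Type*} [Group G] [MulAction G X] (γ : G) :
    orbCount (MulAction.toPerm γ : Equiv.Perm X) = PartV.orbCount X γ := by
  unfold orbCount PartV.orbCount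
  refine Nat.card_congr (Quotient.congr (Equiv.refl X) ?_)
  intro a b
  have hpow : ∀ k : ℤ, ∀ z : X, ((MulAction.toPerm γ : Equiv.Perm X) ^ k) z = γ ^ k • z := by
    intro k z
    have h := map_zpow (MulAction.toPermHom G X) γ k
    have h2 : (MulAction.toPerm γ : Equiv.Perm X) ^ k = MulAction.toPerm (γ ^ k) := h.symm
    rw [h2]
    rfl
  show MulAction.orbitRel (Subgroup.zpowers (MulAction.toPerm γ : Equiv.Perm X)) X a b ↔
    MulAction.orbitRel (Subgroup.zpowers γ) X a b
  rw [MulAction.orbitRel_apply, MulAction.orbitRel_apply, MulAction.mem_orbit_iff,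
    MulAction.mem_orbit_iff]
  constructor
  · rintro ⟨⟨σ, hσ⟩, hσb⟩
    obtain ⟨k, rfl⟩ := Subgroup.mem_zpowers_iff.mp hσ
    refine ⟨⟨γ ^ k, Subgroup.zpow_mem_zpowers γ k⟩, ?_⟩
    rw [← hσb]
    exact (hpow k b).symm
  · rintro ⟨⟨σ, hσ⟩, hσb⟩
    obtain ⟨k, rfl⟩ := Subgroup.mem_zpowers_iff.mp hσ
    refine ⟨⟨(MulAction.toPerm γ : Equiv.Perm X) ^ k, Subgroup.zpow_mem_zpowers _ k⟩, ?_⟩
    rw [← hσb]
    exact hpow k b

variable (N : ℕ) [NeZero N]

/-- **S24 from its inputs.** -/
theorem genus_modular_of_inputs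
    [HasCanonicalDivisor (K := Kbar) (F := FF N)]
    [Fintype (SL(2, ℤ) ⧸ Gamma0 N)]
    (hx : Transcendental Kbar (jF N))
    (hfd : FiniteDimensional Kbar⟮jF N⟯ (FF N))
    (hdeg : Module.finrank Kbar⟮jF N⟯ (FF N) = (Gamma0 N).index)
    (hZ : ∀ y : FF N, Transcendental Kbar y → ∀ [FiniteDimensional Kbar⟮y⟯ (FF N)],
      ZeroPlacesData Kbar y)
    (h0 : PCInput Kbar (jF N) (jF N - algebraMap Kbar (FF N) 0)
      (MulAction.toPerm (S * T) : Equiv.Perm (SL(2, ℤ) ⧸ Gamma0 N)))
    (h1728 : PCInput Kbar (jF N) (jF N - algebraMap Kbar (FF N) 1728)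
      (MulAction.toPerm S : Equiv.Perm (SL(2, ℤ) ⧸ Gamma0 N)))
    (hgen : ∀ a : Kbar, a ≠ 0 → a ≠ 1728 → PCInput Kbar (jF N) (jF N - algebraMap Kbar (FF N) a)
      (1 : Equiv.Perm (SL(2, ℤ) ⧸ Gamma0 N)))
    (hinf : PCInput Kbar (jF N) (jF N)⁻¹
      (MulAction.toPerm T : Equiv.Perm (SL(2, ℤ) ⧸ Gamma0 N))) :
    (AlgebraicCurve.genus Kbar (FF N) : ℚ) = genusFormula N := by
  classical
  have hFF : RH.FFData Kbar (jF N) := FFDataAll.ffData hx
  obtain ⟨g, hgQ, hgZ⟩ := PartV.exists_genus N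
  have hn : (Module.finrank Kbar⟮jF N⟯ (FF N) : ℤ) = (dedekindPsi N : ℤ) := by
    rw [hdeg, PartV.index_Gamma0]
  have hX : Fintype.card (SL(2, ℤ) ⧸ Gamma0 N) = Module.finrank Kbar⟮jF N⟯ (FF N) := by
    rw [hdeg, ← Nat.card_eq_fintype_card, PartV.card_coset, PartV.index_Gamma0]
  have h1728ne : (1728 : Kbar) ≠ 0 := by norm_num
  let gOf : Kbar → Equiv.Perm (SL(2, ℤ) ⧸ Gamma0 N) := fun a =>
    if a = 0 then MulAction.toPerm (S * T) else if a = 1728 then MulAction.toPerm S else 1
  have hgOf0 : gOf 0 = MulAction.toPerm (S * T) := if_pos rfl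
  have hgOf1728 : gOf 1728 = MulAction.toPerm S := by
    show (if (1728 : Kbar) = 0 then _ else _) = _
    rw [if_neg h1728ne, if_pos rfl]
  have hgOfgen : ∀ a : Kbar, a ≠ 0 → a ≠ 1728 → gOf a = 1 := by
    intro a ha0 ha1
    show (if a = 0 then _ else _) = _
    rw [if_neg ha0, if_neg ha1]
  have hfinAll : ∀ a : Kbar, PCInput Kbar (jF N) (jF N - algebraMap Kbar (FF N) a) (gOf a) := by
    intro a
    by_cases ha0 : a = 0
    · subst ha0
      rw [hgOf0]
      exact h0
    · by_cases ha1 : a = 1728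
      · subst ha1
        rw [hgOf1728]
        exact h1728
      · rw [hgOfgen a ha0 ha1]
        exact hgen a ha0 ha1
  have key := genus_eq_of_pcInputs (K := Kbar) (F := FF N) (jF N) hFF hZ hX
    ({0, 1728} : Finset Kbar) gOf
    (fun a ha => by
      simp only [Finset.mem_insert, Finset.mem_singleton, not_or] at ha
      exact hgOfgen a ha.1 ha.2)
    (MulAction.toPerm T) hfinAll hinf g (by
      rw [Finset.sum_pair h1728ne.symm, hgOf0, hgOf1728, orbCount_toPerm, orbCount_toPerm,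
        orbCount_toPerm, hn, hgZ]
      ring)
  rw [key, hgQ]

end Fermat.Agent.S24.Final
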