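import Mathlib
import Fermat.Agent.S24.JDef
import Fermat.Agent.S24.JFun.Basic
import Fermat.Agent.S24.LocalOrder

/-!
helper19 (P-S24 Part III/IV).  The elliptic fixed points `i` (of `S`) and `ρ` (of `S * T`),
vanishing of `E₆` resp. `E₄` there, and the values `j(i) = 1728`, `j(ρ) = 0`.
-/

set_option autoImplicit false

open UpperHalfPlane ModularForm EisensteinSeries
open scoped MatrixGroups Manifold

namespace Fermat.Agent.S24.FixedPts

open Fermat.Agent.S24.LocalOrder Fermat.Agent.S24.JFun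

/-- A level one modular form vanishes at a point fixed by `γ` unless `(cτ+d)^k = 1`. -/
theorem modularForm_eq_zero_of_fixed {k : ℤ} (f : ModularForm 𝒮ℒ k) (γ : SL(2, ℤ)) (τ : ℍ)
    (hfix : γ • τ = τ) (hk : denom γ τ ^ k ≠ 1) : f τ = 0 := by
  have hg : (γ : GL (Fin 2) ℝ) ∈ 𝒮ℒ := ⟨γ, rfl⟩
  have h := SlashInvariantForm.slash_action_eqn'' f hg τ
  rw [← ModularGroup.sl_moeb, hfix] at h
  by_contra hne
  apply hk
  have h2 : (1 : ℂ) * f τ = denom γ τ ^ k * f τ := by rw [one_mul]; exact h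
  exact (mul_right_cancel₀ hne h2).symm

theorem S_smul_I : ModularGroup.S • (UpperHalfPlane.I : ℍ) = UpperHalfPlane.I := by
  rw [UpperHalfPlane.ext_iff, modular_S_smul]
  simp

/-- The point `ρ = -1/2 + (√3/2) i`. -/
noncomputable def rho : ℍ :=
  ⟨(-1 / 2 : ℂ) + ((Real.sqrt 3 / 2 : ℝ) : ℂ) * Complex.I, by
    simp only [Complex.add_im, Complex.mul_im, Complex.ofReal_re, Complex.I_im, mul_one,
      Complex.ofReal_im, Complex.I_re, mul_zero, add_zero]
    have : (-1 / 2 : ℂ).im = 0 := by norm_num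
    rw [this, zero_add]
    positivity⟩

theorem coe_rho : (rho : ℂ) = (-1 / 2 : ℂ) + ((Real.sqrt 3 / 2 : ℝ) : ℂ) * Complex.I := rfl

theorem rho_sq_add_rho_add_one : (rho : ℂ) ^ 2 + (rho : ℂ) + 1 = 0 := by
  rw [coe_rho]
  have h3 : ((Real.sqrt 3 : ℝ) : ℂ) ^ 2 = 3 := by
    rw [← Complex.ofReal_pow, Real.sq_sqrt (by norm_num : (0 : ℝ) ≤ 3)]; norm_num
  push_cast
  linear_combination (-(1 : ℂ) / 4) * h3 + ((Real.sqrt 3 : ℝ) : ℂ) ^ 2 / 4 * Complex.I_sq

theorem ST_smul_rho : (ModularGroup.S * ModularGroup.T) • rho = rho := by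
  rw [mul_smul, modular_T_smul, UpperHalfPlane.ext_iff, modular_S_smul]
  simp only [coe_vadd, Complex.ofReal_one]
  have h := rho_sq_add_rho_add_one
  have hmul : (-((1 : ℂ) + (rho : ℂ))) * (rho : ℂ) = 1 := by linear_combination -h
  change (-((1 : ℂ) + (rho : ℂ)))⁻¹ = (rho : ℂ)
  exact inv_eq_of_mul_eq_one_right hmul

theorem pow_six_ne_one_of_sq {d : ℂ} (h2 : d ^ 2 = ((0 : ℤ) : ℂ) * d - 1) : d ^ (6 : ℤ) ≠ 1 := by
  intro h6
  have h6' : d ^ 6 = 1 := by
    have : d ^ (6 : ℤ) = d ^ 6 := by norm_cast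
    rw [← this]; exact h6
  have : d ^ 6 = (d ^ 2) ^ 3 := by ring
  rw [this, h2] at h6'
  norm_num at h6'

theorem pow_four_ne_one_of_sq {d : ℂ} (h2 : d ^ 2 = ((1 : ℤ) : ℂ) * d - 1) : d ^ (4 : ℤ) ≠ 1 := by
  intro h4
  have h4' : d ^ 4 = 1 := by
    have : d ^ (4 : ℤ) = d ^ 4 := by norm_cast
    rw [← this]; exact h4
  have h2' : d ^ 2 = d - 1 := by rw [h2]; push_cast; ring
  have hd4 : d ^ 4 = -d := by
    have : d ^ 4 = (d ^ 2) ^ 2 := by ring
    rw [this, h2']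
    linear_combination h2'
  have hdm : d = -1 := by
    rw [hd4] at h4'
    linear_combination -h4'
  rw [hdm] at h2'
  norm_num at h2'

/-- `E₆` vanishes at every fixed point of `S`. -/
theorem E₆_eq_zero_of_S_fixed (τ : ℍ) (hfix : ModularGroup.S • τ = τ) : E₆ τ = 0 := by
  apply modularForm_eq_zero_of_fixed E₆ ModularGroup.S τ hfix
  have h2 := denom_sq_of_fixed ModularGroup.S τ hfix
  have htr : (ModularGroup.S 0 0 + ModularGroup.S 1 1 : ℤ) = 0 := by simp [ModularGroup.S]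
  rw [htr] at h2
  exact pow_six_ne_one_of_sq h2

/-- `E₄` vanishes at every fixed point of `S * T`. -/
theorem E₄_eq_zero_of_ST_fixed (τ : ℍ) (hfix : (ModularGroup.S * ModularGroup.T) • τ = τ) :
    E₄ τ = 0 := by
  apply modularForm_eq_zero_of_fixed E₄ (ModularGroup.S * ModularGroup.T) τ hfix
  have h2 := denom_sq_of_fixed (ModularGroup.S * ModularGroup.T) τ hfix
  have htr : ((ModularGroup.S * ModularGroup.T) 0 0 + (ModularGroup.S * ModularGroup.T) 1 1 : ℤ)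
      = 1 := by
    rw [Matrix.SpecialLinearGroup.coe_mul]
    simp [ModularGroup.S, ModularGroup.T, Matrix.mul_apply, Fin.sum_univ_two]
  rw [htr] at h2
  exact pow_four_ne_one_of_sq h2

theorem E₆_I : E₆ (UpperHalfPlane.I : ℍ) = 0 := E₆_eq_zero_of_S_fixed _ S_smul_I

theorem E₄_rho : E₄ rho = 0 := E₄_eq_zero_of_ST_fixed _ ST_smul_rho

theorem jFn_eq_1728_of_S_fixed (τ : ℍ) (hfix : ModularGroup.S • τ = τ) : jFn τ = 1728 :=
  (jFn_eq_1728_iff τ).mpr (E₆_eq_zero_of_S_fixed τ hfix)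

theorem jFn_eq_zero_of_ST_fixed (τ : ℍ) (hfix : (ModularGroup.S * ModularGroup.T) • τ = τ) :
    jFn τ = 0 :=
  (jFn_eq_zero_iff τ).mpr (E₄_eq_zero_of_ST_fixed τ hfix)

theorem jFn_I : jFn (UpperHalfPlane.I : ℍ) = 1728 := jFn_eq_1728_of_S_fixed _ S_smul_I

theorem jFn_rho : jFn rho = 0 := jFn_eq_zero_of_ST_fixed _ ST_smul_rho

end Fermat.Agent.S24.FixedPts
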