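import Fermat.Agent.S24.EmbedTheta
import Fermat.Agent.S24.Descent
import Fermat.Agent.S24.TransJ

/-!
# S24, Part III: the degree bound over `Kbar(j)` (independent backup of `HDeg.exists_poly`)

If `θ` is a `Γ₀(N)`-invariant holomorphic function of moderate growth whose `q`-expansion is the
base change of `a ∈ F`, then `a` is a root of a nonzero polynomial of degree at most
`[SL(2,ℤ) : Γ₀(N)]` over `Kbar(j)`: the analytic relation `SymmFn.exists_relation` over `ℂ[j]`
is transported to Laurent series by `qLaurent` and descended to `Kbar` by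
`Descent.exists_relation_of_relation_baseChange`.
-/

set_option autoImplicit false
set_option linter.unusedSectionVars false

noncomputable section

open ModularCurve CongruenceSubgroup IntermediateField Polynomial
open scoped MatrixGroups

namespace Fermat.Agent.S24.HDegB

open Setup SymmFn QExp Embed

/-- `j` as an element of `PerFun`. -/
theorem coe_jdPer_one : ((jdPer 1 : PerFun) : HolFun) = jHol := by
  rw [coe_jdPer, JD.jd_one_eq_jHol]

theorem qLaurent_jdPer_one : qLaurent (jdPer 1) = coeffMap iota (jK 1) := by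
  rw [qLaurent_jdPer, coeffMap_iota_jK]

/-- evaluation of a complex polynomial at `j` commutes with the inclusion of `PerFun`. -/
theorem coe_aeval_jdPer (p : ℂ[X]) :
    ((aeval (jdPer 1) p : PerFun) : HolFun) = aeval jHol p := by
  have h := Polynomial.aeval_algHom_apply (PerFun.val) (jdPer 1) p
  rw [← coe_jdPer_one]
  exact h.symm

variable (N : ℕ) [NeZero N]

/-- The generator `j` of `Kbar(j)`. -/
def jGen : Kbar⟮jF N⟯ := ⟨jF N, mem_adjoin_simple_self Kbar (jF N)⟩

theorem aeval_jGen_ne_zero {q : Kbar[X]} (hq : q ≠ 0) : aeval (jGen N) q ≠ 0 := by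
  intro h0
  have h1 : aeval (jF N) q = 0 := by
    have h2 := congrArg (algebraMap Kbar⟮jF N⟯ (FF N)) h0
    rw [map_zero, ← Polynomial.aeval_algebraMap_apply] at h2
    exact h2
  exact TransJ.transcendental_jF N ⟨q, hq, h1⟩

theorem coe_aeval_jF (q : Kbar[X]) :
    ((aeval (jF N) q : FF N) : LaurentSeries Kbar) = aeval (jK 1) q := by
  have h := Polynomial.aeval_algHom_apply ((modularFunctionFieldBar N).val) (jF N) q
  exact h.symm

theorem exists_poly (θ : HolFun) (hfix : ∀ γ ∈ Gamma0 N, γ • θ = θ) (hgr : θ ∈ growthAlg)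
    (hper : θ ∈ PerFun) (a : FF N)
    (hq : qLaurent ⟨θ, hper⟩ = coeffMap iota (a : LaurentSeries Kbar)) :
    ∃ p : Polynomial Kbar⟮jF N⟯, p ≠ 0 ∧ p.natDegree ≤ (Gamma0 N).index ∧
      Polynomial.aeval a p = 0 := by
  classical
  set n := (Gamma0 N).index with hn
  obtain ⟨p, hp1, hrel⟩ := SymmFn.exists_relation (Gamma0 N) θ hfix hgr
  -- the relation in `PerFun`
  let θ' : PerFun := ⟨θ, hper⟩
  have hrelP : ∑ i ∈ Finset.range (n + 1), aeval (jdPer 1) (p i) * θ' ^ i = 0 := by
    apply Subtype.ext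
    have h0 : ((0 : PerFun) : HolFun) = 0 := rfl
    have hval : ∀ x : PerFun, (x : HolFun) = PerFun.val x := fun _ => rfl
    rw [h0, ← hrel, hval, map_sum]
    refine Finset.sum_congr rfl fun i _ => ?_
    rw [map_mul, map_pow, ← hval, ← hval, coe_aeval_jdPer]
  -- the relation between Laurent series over `ℂ`
  have hrelL : ∑ i ∈ Finset.range (n + 1),
      aeval (coeffMap iota (jK 1)) (p i) * coeffMap iota ((a : LaurentSeries Kbar) ^ i) = 0 := by
    have h := congrArg qLaurent hrelP
    rw [map_sum, map_zero] at h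
    rw [← h]
    refine Finset.sum_congr rfl fun i _ => ?_
    rw [map_mul, map_pow, map_pow, ← Polynomial.aeval_algHom_apply, qLaurent_jdPer_one, hq]
  -- descent to `Kbar`
  let _ : Algebra Kbar ℂ := iota.toAlgebra
  have hpn : p n ≠ 0 := by
    intro h0
    rw [h0, map_zero] at hp1
    exact zero_ne_one hp1
  have hrelF : ∑ i : Fin (n + 1),
      aeval (coeffMap (algebraMap Kbar ℂ) (jK 1)) (p i) *
        coeffMap (algebraMap Kbar ℂ) ((fun i : Fin (n + 1) => (a : LaurentSeries Kbar) ^ (i : ℕ)) i)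
        = 0 := by
    rw [Fin.sum_univ_eq_sum_range
      (fun i => aeval (coeffMap (algebraMap Kbar ℂ) (jK 1)) (p i) *
        coeffMap (algebraMap Kbar ℂ) ((a : LaurentSeries Kbar) ^ i)) (n + 1)]
    exact hrelL
  obtain ⟨p', ⟨i0, hi0⟩, -, hrelK⟩ := Descent.exists_relation_of_relation_baseChange
    (K := Kbar) (C := ℂ) (jK 1) (fun i : Fin (n + 1) => (a : LaurentSeries Kbar) ^ (i : ℕ))
    (fun i => p i) ⟨⟨n, Nat.lt_succ_self n⟩, hpn⟩ hrelF
  -- the polynomial over `Kbar(j)`
  let P : Polynomial Kbar⟮jF N⟯ :=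
    ∑ i : Fin (n + 1), Polynomial.C (aeval (jGen N) (p' i)) * Polynomial.X ^ (i : ℕ)
  have hcoeff : ∀ i : Fin (n + 1), P.coeff i = aeval (jGen N) (p' i) := by
    intro i
    simp only [P, Polynomial.finsetSum_coeff, Polynomial.coeff_C_mul, Polynomial.coeff_X_pow]
    rw [Finset.sum_eq_single i]
    · simp
    · intro b _ hb
      have : (i : ℕ) ≠ (b : ℕ) := fun h => hb (Fin.ext h.symm)
      simp [this]
    · intro h
      exact absurd (Finset.mem_univ i) h
  refine ⟨P, ?_, ?_, ?_⟩
  · intro h0
    have := hcoeff i0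
    rw [h0, Polynomial.coeff_zero] at this
    exact aeval_jGen_ne_zero N hi0 this.symm
  · apply Polynomial.natDegree_sum_le_of_forall_le
    intro i _
    refine (Polynomial.natDegree_C_mul_X_pow_le _ _).trans ?_
    exact Nat.lt_succ_iff.mp i.2
  · apply Subtype.ext
    have hcoe : ((aeval a P : FF N) : LaurentSeries Kbar) =
        ∑ i : Fin (n + 1), aeval (jK 1) (p' i) * (a : LaurentSeries Kbar) ^ (i : ℕ) := by
      simp only [P, map_sum, map_mul, map_pow, Polynomial.aeval_C, Polynomial.aeval_X]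
      rw [AddSubmonoidClass.coe_finsetSum]
      refine Finset.sum_congr rfl fun i _ => ?_
      rw [MulMemClass.coe_mul, SubmonoidClass.coe_pow]
      congr 1
      have h1 : algebraMap Kbar⟮jF N⟯ (FF N) (aeval (jGen N) (p' i)) = aeval (jF N) (p' i) := by
        rw [← Polynomial.aeval_algebraMap_apply]
        rfl
      rw [h1, coe_aeval_jF]
    rw [hcoe, hrelK]
    rfl

end Fermat.Agent.S24.HDegB
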