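/-
helper19: linear disjointness of Laurent series under extension of the coefficient field
(P-S24 Part III, descent).
-/
import Fermat.Prelude.Def_ModularCurve_LaurentCoeff
import Mathlib.LinearAlgebra.Dual.Lemmas
import Mathlib.LinearAlgebra.LinearIndependent.Defs

set_option autoImplicit false

namespace Fermat.Agent.S24.LaurentDescent

open ModularCurve

variable {K L : Type*} [Field K] [Field L]

/-- Apply an additive map coefficientwise to a Laurent series. -/
noncomputable def coeffAddMap (lam : L →+ K) : LaurentSeries L →+ LaurentSeries K where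
  toFun x := x.map lam
  map_zero' := by
    ext k
    simp
  map_add' x y := by
    ext k
    simp

@[simp]
theorem coeffAddMap_coeff (lam : L →+ K) (x : LaurentSeries L) (k : ℤ) :
    (coeffAddMap lam x).coeff k = lam (x.coeff k) := rfl

theorem coeff_smul_coeffMap (φ : K →+* L) (c : L) (f : LaurentSeries K) (k : ℤ) :
    (c • coeffMap φ f).coeff k = c * φ (f.coeff k) := by
  simp

/-- Key computation: applying a `K`-linear functional coefficientwise to `c • coeffMap φ f`. -/
theorem coeffAddMap_smul_coeffMap (φ : K →+* L) (lam : L →+ K)
    (hlam : ∀ (a : K) (x : L), lam (φ a * x) = a * lam x) (c : L) (f : LaurentSeries K) :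
    coeffAddMap lam (c • coeffMap φ f) = lam c • f := by
  ext k
  rw [coeffAddMap_coeff, coeff_smul_coeffMap, mul_comm, hlam]
  simp [mul_comm]

theorem linearIndependent_coeffMap (φ : K →+* L) {ι : Type*} (f : ι → LaurentSeries K)
    (hf : LinearIndependent K f) :
    LinearIndependent L (fun i => coeffMap φ (f i)) := by
  let _ : Algebra K L := φ.toAlgebra
  rw [linearIndependent_iff']
  intro s g hg i hi
  rw [← Module.forall_dual_apply_eq_zero_iff K (g i)]
  intro lam
  have hlam : ∀ (a : K) (x : L), lam.toAddMonoidHom (φ a * x) = a * lam.toAddMonoidHom x := by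
    intro a x
    have := lam.map_smul a x
    rw [Algebra.smul_def] at this
    exact this
  have h1 := congrArg (coeffAddMap lam.toAddMonoidHom) hg
  rw [map_sum, map_zero] at h1
  simp only [coeffAddMap_smul_coeffMap φ lam.toAddMonoidHom hlam] at h1
  exact (linearIndependent_iff'.mp hf) s (fun j => lam (g j)) h1 i hi

end Fermat.Agent.S24.LaurentDescent
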