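import Fermat.Agent.S24.PrincipalDiv

/-!
# Valuation of a norm (S24, part I-b3, field `ord_norm` of `ZeroPlacesData`)

* `OrdNorm.multiplicity_relNorm`: for Dedekind domains `B / A`, the multiplicity of a maximal
  ideal `p` of `A` in the relative norm of an ideal `I` of `B` is `∑_{Q | p} f(Q|p) * mult_Q I`.
* `OrdNorm.log_valuation_norm`: if all residue degrees over `p` are one, then
  `v_p (N_{F/L} f) = ∑_{Q | p} v_Q f`.
* `OrdNorm.ord_norm`: for a function field `F / K` (`K` algebraically closed of characteristic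
  zero) and `y` transcendental with `F / K(y)` finite: at every zero `v'` of `y`,
  `ord_{v'} (N_{F/K(y)} f) = ord_{v'} y * ∑_{v zero of y} ord_v f`.
-/

set_option autoImplicit false
set_option linter.unusedSectionVars false

noncomputable section

open Ideal IsDedekindDomain IsDedekindDomain.HeightOneSpectrum WithZero AlgebraicCurve Polynomial
  IntermediateField

namespace Fermat.Agent.S24.OrdNorm

section Abstract

variable {A B : Type*} [CommRing A] [IsDedekindDomain A] [CommRing B] [IsDedekindDomain B]
  [Algebra A B] [Module.Finite A B] [Module.IsTorsionFree A B] [PerfectField (FractionRing A)]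

theorem multiplicity_prime_prime {P Q : Ideal B} (hP : P.IsMaximal) (hQ : Q.IsMaximal) :
    multiplicity P Q = if P = Q then 1 else 0 := by
  split_ifs with h
  · subst h
    exact multiplicity_self
  · rw [multiplicity_eq_zero, Ideal.dvd_iff_le]
    intro hle
    exact h (hQ.eq_of_le hP.ne_top hle).symm

theorem multiplicity_relNorm_prime (p : Ideal A) [hp : p.IsMaximal] (hp0 : p ≠ ⊥)
    (Q : Ideal B) [hQ : Q.IsMaximal] :
    multiplicity p (relNorm A Q) = if Q.under A = p then Q.inertiaDeg A else 0 := by
  have : Algebra.IsIntegral A B := Algebra.IsIntegral.of_finite A B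
  have hq : (Q.under A).IsMaximal := Ideal.IsMaximal.under A Q
  have hlies : Q.LiesOver (Q.under A) := ⟨rfl⟩
  rw [relNorm_eq_pow_of_isMaximal Q (Q.under A)]
  split_ifs with h
  · rw [h]
    exact multiplicity_pow_self hp0 (fun hu => hp.ne_top (Ideal.isUnit_iff.mp hu)) _
  · rw [multiplicity_eq_zero]
    intro hdvd
    have hprime : Prime p := (Ideal.prime_iff_isPrime hp0).mpr hp.isPrime
    have h1 : p ∣ Q.under A := hprime.dvd_of_dvd_pow hdvd
    rw [Ideal.dvd_iff_le] at h1
    exact h (hq.eq_of_le hp.ne_top h1)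

theorem multiplicity_top {P : Ideal B} (hP : P.IsMaximal) : multiplicity P (⊤ : Ideal B) = 0 := by
  rw [multiplicity_eq_zero, Ideal.dvd_iff_le, top_le_iff]
  exact hP.ne_top

/-- The multiplicity of a maximal ideal `p` of `A` in the relative norm of an ideal `I` of `B`
is the sum over the primes `Q` over `p` of `f(Q|p)` times the multiplicity of `Q` in `I`. -/
theorem multiplicity_relNorm (p : Ideal A) [hp : p.IsMaximal] (hp0 : p ≠ ⊥) (I : Ideal B)
    (hI : I ≠ ⊥) :
    multiplicity p (relNorm A I) =
      ∑ Q : p.primesOver B, Q.1.inertiaDeg A * multiplicity Q.1 I := by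
  have hint : Algebra.IsIntegral A B := Algebra.IsIntegral.of_finite A B
  have hprime : Prime p := (Ideal.prime_iff_isPrime hp0).mpr hp.isPrime
  have hQne : ∀ Q : p.primesOver B, Q.1 ≠ ⊥ := fun Q =>
    Ideal.ne_bot_of_mem_primesOver hp0 Q.2
  have hQprime : ∀ Q : p.primesOver B, Prime Q.1 := fun Q =>
    (Ideal.prime_iff_isPrime (hQne Q)).mpr Q.2.1
  have hQmax : ∀ Q : p.primesOver B, Q.1.IsMaximal := fun Q =>
    Q.2.1.isMaximal (hQne Q)
  revert hI
  refine UniqueFactorizationMonoid.induction_on_prime
    (P := fun I : Ideal B => I ≠ ⊥ → multiplicity p (relNorm A I) =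
      ∑ Q : p.primesOver B, Q.1.inertiaDeg A * multiplicity Q.1 I) I ?_ ?_ ?_
  · intro h
    exact absurd Ideal.zero_eq_bot h
  · intro x hx _
    rw [Ideal.isUnit_iff] at hx
    subst hx
    rw [relNorm_top, multiplicity_top hp]
    symm
    apply Finset.sum_eq_zero
    intro Q _
    rw [multiplicity_top (hQmax Q), mul_zero]
  · intro a q ha hq IH _
    have ha' : a ≠ ⊥ := ha
    have hq0 : q ≠ ⊥ := hq.ne_zero
    have hqP : q.IsPrime := (Ideal.prime_iff_isPrime hq0).mp hq
    have hqmax : q.IsMaximal := hqP.isMaximal hq0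
    have hne : relNorm A q * relNorm A a ≠ 0 := by
      apply mul_ne_zero
      · rw [Ne, Ideal.zero_eq_bot, relNorm_eq_bot_iff]; exact hq0
      · rw [Ne, Ideal.zero_eq_bot, relNorm_eq_bot_iff]; exact ha'
    rw [map_mul, multiplicity_mul hprime (FiniteMultiplicity.of_prime_left hprime hne), IH ha']
    have hsum : ∀ Q : p.primesOver B, Q.1.inertiaDeg A * multiplicity Q.1 (q * a) =
        Q.1.inertiaDeg A * multiplicity Q.1 q + Q.1.inertiaDeg A * multiplicity Q.1 a := by
      intro Q
      rw [multiplicity_mul (hQprime Q)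
        (FiniteMultiplicity.of_prime_left (hQprime Q) (mul_ne_zero hq0 ha')), mul_add]
    rw [Finset.sum_congr rfl (fun Q _ => hsum Q), Finset.sum_add_distrib]
    congr 1
    rw [multiplicity_relNorm_prime p hp0 q]
    split_ifs with h
    · -- `q` lies over `p`
      let Q₀ : p.primesOver B := ⟨q, hqP, ⟨h.symm⟩⟩
      rw [Finset.sum_eq_single Q₀]
      · show q.inertiaDeg A = q.inertiaDeg A * multiplicity q q
        rw [multiplicity_self, mul_one]
      · intro Q _ hQ
        rw [multiplicity_prime_prime (hQmax Q) hqmax, if_neg, mul_zero]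
        intro h'
        exact hQ (Subtype.ext h')
      · intro h'
        exact absurd (Finset.mem_univ _) h'
    · symm
      apply Finset.sum_eq_zero
      intro Q _
      rw [multiplicity_prime_prime (hQmax Q) hqmax, if_neg, mul_zero]
      intro h'
      apply h
      rw [← h']
      exact ((Ideal.liesOver_iff _ _).mp Q.2.2).symm

variable {L F : Type*} [Field L] [Field F] [Algebra A L] [IsFractionRing A L] [Algebra L F]
  [Algebra A F] [IsScalarTower A L F] [Algebra B F] [IsScalarTower A B F]
  [IsIntegralClosure B A F] [IsFractionRing B F] [FiniteDimensional L F]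

/-- a prime over `p`, as a height one prime -/
def primeOver (p : HeightOneSpectrum A) (Q : p.asIdeal.primesOver B) : HeightOneSpectrum B :=
  ⟨Q.1, Q.2.1, Ideal.ne_bot_of_mem_primesOver p.ne_bot Q.2⟩

omit [Module.Finite A B] [PerfectField (FractionRing A)] in
theorem log_valuation_algebraMap (P : HeightOneSpectrum B) {b : B} (hb : b ≠ 0) :
    log (P.valuation F (algebraMap B F b)) = -(multiplicity P.asIdeal (Ideal.span {b}) : ℤ) := by
  rw [valuation_of_algebraMap, intValuation_eq_exp_neg_multiplicity P hb, log_exp]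

theorem log_valuation_norm_algebraMap (p : HeightOneSpectrum A)
    (hf : ∀ Q : p.asIdeal.primesOver B, Q.1.inertiaDeg A = 1) {b : B} (hb : b ≠ 0) :
    log (p.valuation L (Algebra.norm L (algebraMap B F b))) =
      ∑ Q : p.asIdeal.primesOver B, log ((primeOver p Q).valuation F (algebraMap B F b)) := by
  have hpmax : p.asIdeal.IsMaximal := p.isMaximal
  have hbF : algebraMap B F b ≠ 0 := (IsFractionRing.injective B F).ne hb |>.trans_eq (map_zero _)
  have hN : Algebra.norm L (algebraMap B F b) ≠ 0 := by
    rw [Ne, Algebra.norm_eq_zero_iff]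
    exact hbF
  have hint : algebraMap A L (Algebra.intNorm A B b) = Algebra.norm L (algebraMap B F b) :=
    Algebra.algebraMap_intNorm (A := A) (K := L) (L := F) (B := B) b
  have hc0 : Algebra.intNorm A B b ≠ 0 := by
    intro h0
    rw [h0, map_zero] at hint
    exact hN hint.symm
  rw [← hint, valuation_of_algebraMap, intValuation_eq_exp_neg_multiplicity p hc0, log_exp,
    ← relNorm_singleton, multiplicity_relNorm p.asIdeal p.ne_bot _ (by simpa using hb)]
  rw [Finset.sum_congr rfl (fun Q _ => log_valuation_algebraMap (F := F) (primeOver p Q) hb),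
    Finset.sum_neg_distrib, Nat.cast_sum]
  congr 1
  refine Finset.sum_congr rfl (fun Q _ => ?_)
  rw [hf Q, one_mul]
  rfl

/-- **Valuation of a norm**: if all residue degrees over `p` are one, the `p`-adic order of
`N_{F/L} f` is the sum of the orders of `f` at the primes above `p`. -/
theorem log_valuation_norm (p : HeightOneSpectrum A)
    (hf : ∀ Q : p.asIdeal.primesOver B, Q.1.inertiaDeg A = 1) {f : F} (hf0 : f ≠ 0) :
    log (p.valuation L (Algebra.norm L f)) =
      ∑ Q : p.asIdeal.primesOver B, log ((primeOver p Q).valuation F f) := by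
  obtain ⟨b, c, hc, rfl⟩ := IsFractionRing.div_surjective (A := B) f
  have hc0 : c ≠ 0 := nonZeroDivisors.ne_zero hc
  have hb0 : b ≠ 0 := by
    rintro rfl
    simp at hf0
  have hbF : algebraMap B F b ≠ 0 := (IsFractionRing.injective B F).ne hb0 |>.trans_eq (map_zero _)
  have hcF : algebraMap B F c ≠ 0 := (IsFractionRing.injective B F).ne hc0 |>.trans_eq (map_zero _)
  have hNb : Algebra.norm L (algebraMap B F b) ≠ 0 := by
    rw [Ne, Algebra.norm_eq_zero_iff]; exact hbF
  have hNc : Algebra.norm L (algebraMap B F c) ≠ 0 := by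
    rw [Ne, Algebra.norm_eq_zero_iff]; exact hcF
  set f := algebraMap B F b / algebraMap B F c with hfdef
  have hmul : f * algebraMap B F c = algebraMap B F b := div_mul_cancel₀ _ hcF
  have hNf : Algebra.norm L f ≠ 0 := by
    rw [Ne, Algebra.norm_eq_zero_iff]; exact hf0
  have h1 : log (p.valuation L (Algebra.norm L f)) =
      log (p.valuation L (Algebra.norm L (algebraMap B F b))) -
        log (p.valuation L (Algebra.norm L (algebraMap B F c))) := by
    rw [eq_sub_iff_add_eq, ← log_mul ((Valuation.ne_zero_iff _).mpr hNf)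
      ((Valuation.ne_zero_iff _).mpr hNc), ← map_mul, ← map_mul, hmul]
  rw [h1, log_valuation_norm_algebraMap p hf hb0, log_valuation_norm_algebraMap p hf hc0,
    ← Finset.sum_sub_distrib]
  refine Finset.sum_congr rfl (fun Q _ => ?_)
  rw [sub_eq_iff_eq_add, ← log_mul ((Valuation.ne_zero_iff _).mpr hf0)
    ((Valuation.ne_zero_iff _).mpr hcF), ← map_mul, hmul]

end Abstract

variable {K F : Type*} [Field K] [Field F] [Algebra K F]

section XForm

variable [IsAlgClosed K] [CharZero K]
variable [Algebra K[X] F] [IsScalarTower K K[X] F] [Algebra (RatFunc K) F]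
  [IsScalarTower K[X] (RatFunc K) F] [FiniteDimensional (RatFunc K) F]

local notation "𝓑" => FunctionField.ringOfIntegers K F

theorem inertiaDeg_eq_one (Q : (Polynomial.idealX K).asIdeal.primesOver 𝓑) :
    Q.1.inertiaDeg K[X] = 1 := by
  have hmax : (Polynomial.idealX K).asIdeal.IsMaximal := (Polynomial.idealX K).isMaximal
  have hQmax : Q.1.IsMaximal :=
    Q.2.1.isMaximal (Ideal.ne_bot_of_mem_primesOver (Polynomial.idealX K).ne_bot Q.2)
  have hl : Q.1.LiesOver (Polynomial.idealX K).asIdeal := Q.2.2
  exact ZD.inertiaDeg_eq_one_of_isAlgClosed (K := K) (Polynomial.idealX K).asIdeal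
    ZD.surjective_algebraMap_quotient_span_X Q.1

/-- orders at a place over `X = 0` of elements of `K(X)` -/
theorem log_valuation_algebraMap_ratFunc (Q : (Polynomial.idealX K).asIdeal.primesOver 𝓑)
    (z : RatFunc K) :
    log ((primeOver (Polynomial.idealX K) Q).valuation F (algebraMap (RatFunc K) F z)) =
      log ((primeOver (Polynomial.idealX K) Q).valuation F (algebraMap K[X] F X)) *
        -log ((Polynomial.idealX K).valuation (RatFunc K) z) := by
  have hl : (primeOver (Polynomial.idealX K) Q).asIdeal.LiesOver (Polynomial.idealX K).asIdeal :=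
    Q.2.2
  have h1 := valuation_liesOver F (Polynomial.idealX K) (primeOver (Polynomial.idealX K) Q) z
  have h2 := valuation_liesOver F (Polynomial.idealX K) (primeOver (Polynomial.idealX K) Q)
    (RatFunc.X : RatFunc K)
  have hX : algebraMap (RatFunc K) F RatFunc.X = algebraMap K[X] F X := by
    rw [← RatFunc.algebraMap_X, ← IsScalarTower.algebraMap_apply]
  rw [hX, Polynomial.valuation_X_eq_neg_one] at h2
  rw [← h1, ← h2, log_pow, log_pow, log_exp]
  simp only [nsmul_eq_mul]
  ring

theorem ord_norm_X (v' : Place K F) (hv' : 0 < v'.ord (algebraMap K[X] F X)) (f : F)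
    (hf : f ≠ 0) :
    v'.ord (algebraMap (RatFunc K) F (Algebra.norm (RatFunc K) f)) =
      v'.ord (algebraMap K[X] F X) *
        ∑ᶠ v : {v : Place K F // 0 < v.ord (algebraMap K[X] F X)}, v.1.ord f := by
  classical
  have hX0 : (X : K[X]) ≠ 0 := X_ne_zero
  let e := ZD.primesOverEquivZeroPlaces (K := K) (F := F) 𝓑 (X : K[X]) hX0
  have hset := ZD.zeroPlaces_ringOfIntegers_X (K := K) (F := F)
  let e' : (Polynomial.idealX K).asIdeal.primesOver 𝓑 ≃
      {v : Place K F // 0 < v.ord (algebraMap K[X] F X)} := e.trans (Equiv.setCongr hset)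
  have hord : ∀ (Q : (Polynomial.idealX K).asIdeal.primesOver 𝓑) (g : F),
      (e' Q).1.ord g = -log ((primeOver (Polynomial.idealX K) Q).valuation F g) :=
    fun Q g => ZD.PlaceLemmas.ord_ofHeightOneSpectrum _ g
  obtain ⟨Q', hQ'⟩ := e'.surjective ⟨v', hv'⟩
  have hv'eq : v' = (e' Q').1 := by rw [hQ']
  -- the right hand sum
  have hsum : ∑ᶠ v : {v : Place K F // 0 < v.ord (algebraMap K[X] F X)}, v.1.ord f =
      ∑ Q : (Polynomial.idealX K).asIdeal.primesOver 𝓑, (e' Q).1.ord f := by
    rw [← finsum_comp_equiv e', finsum_eq_sum_of_fintype]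
  rw [hsum, Finset.sum_congr rfl (fun Q _ => hord Q f), Finset.sum_neg_distrib,
    ← log_valuation_norm (L := RatFunc K) (Polynomial.idealX K) inertiaDeg_eq_one hf,
    hv'eq, hord, hord, log_valuation_algebraMap_ratFunc]
  ring

end XForm

variable [IsAlgClosed K] [CharZero K]

/-- The `ord_norm` field of `ZeroPlacesData K y`. -/
theorem ord_norm (y : F) (hy : Transcendental K y) [FiniteDimensional K⟮y⟯ F] :
    ∀ v' : Place K F, 0 < v'.ord y → ∀ f : F, f ≠ 0 →
      v'.ord (algebraMap K⟮y⟯ F (Algebra.norm K⟮y⟯ f)) =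
        v'.ord y * ∑ᶠ v : {v : Place K F // 0 < v.ord y}, v.1.ord f := by
  let alg1 : Algebra K[X] F := (aeval y : K[X] →ₐ[K] F).toRingHom.toAlgebra
  have halg1 : ∀ p : K[X], algebraMap K[X] F p = aeval y p := fun p => rfl
  have tower1 : IsScalarTower K K[X] F := IsScalarTower.of_algebraMap_eq (fun a => by
    rw [halg1, Polynomial.algebraMap_eq, aeval_C])
  let e : RatFunc K ≃ₐ[K] K⟮y⟯ := RatFunc.algEquivOfTranscendental y hy
  let alg2 : Algebra (RatFunc K) F :=
    ((algebraMap K⟮y⟯ F).comp e.toRingEquiv.toRingHom).toAlgebra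
  have halg2 : ∀ r : RatFunc K, algebraMap (RatFunc K) F r = ((e r : K⟮y⟯) : F) := fun r => rfl
  have tower2 : IsScalarTower K[X] (RatFunc K) F := IsScalarTower.of_algebraMap_eq (fun p => by
    rw [halg1, halg2, RatFunc.algEquivOfTranscendental_algebraMap]
    simp)
  have fin : FiniteDimensional (RatFunc K) F :=
    Module.Finite.of_equiv_equiv e.symm.toRingEquiv (RingEquiv.refl F) (by
      ext r
      simp only [RingHom.coe_comp, Function.comp_apply, halg2]
      simp)
  have hX : algebraMap K[X] F X = y := by rw [halg1, aeval_X]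
  have hnorm : ∀ f : F, algebraMap K⟮y⟯ F (Algebra.norm K⟮y⟯ f) =
      algebraMap (RatFunc K) F (Algebra.norm (RatFunc K) f) := by
    intro f
    have h := Algebra.norm_eq_of_ringEquiv (A := RatFunc K) (B := K⟮y⟯) (C := F)
      e.toRingEquiv (by ext r; rfl) f
    rw [← h]
    rfl
  intro v' hv' f hf
  have key := ord_norm_X (K := K) (F := F) v' (by rw [hX]; exact hv') f hf
  rw [hX] at key
  rw [hnorm f]
  exact key

end Fermat.Agent.S24.OrdNorm
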