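import Mathlib

/-!
# The projective line over `ZMod N` and the action of `SL(2, ℤ)`

`Unimod N` : unimodular column vectors `(x, y)` over `ZMod N`;
`P1 N` : quotient by the cross-product relation `x * y' = y * x'` (equivalently by units).
`SL(2, ℤ)` acts on both on the left through reduction mod `N`.
-/

set_option autoImplicit false

namespace Fermat.Agent.S24.P1Model

open Matrix MatrixGroups

variable (N : ℕ)

/-- action of an integer matrix of determinant one on pairs mod `N` (column vectors) -/
def actPair (g : SL(2, ℤ)) (v : ZMod N × ZMod N) : ZMod N × ZMod N :=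
  ((g 0 0 : ZMod N) * v.1 + (g 0 1 : ZMod N) * v.2,
   (g 1 0 : ZMod N) * v.1 + (g 1 1 : ZMod N) * v.2)

variable {N}

@[simp] lemma actPair_fst (g : SL(2, ℤ)) (v : ZMod N × ZMod N) :
    (actPair N g v).1 = (g 0 0 : ZMod N) * v.1 + (g 0 1 : ZMod N) * v.2 := rfl

@[simp] lemma actPair_snd (g : SL(2, ℤ)) (v : ZMod N × ZMod N) :
    (actPair N g v).2 = (g 1 0 : ZMod N) * v.1 + (g 1 1 : ZMod N) * v.2 := rfl

lemma actPair_one (v : ZMod N × ZMod N) : actPair N 1 v = v := by
  ext <;> simp [actPair]

lemma actPair_mul (g h : SL(2, ℤ)) (v : ZMod N × ZMod N) :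
    actPair N (g * h) v = actPair N g (actPair N h v) := by
  ext <;>
  · simp only [actPair, Matrix.SpecialLinearGroup.coe_mul, Matrix.mul_apply, Fin.sum_univ_two,
      Int.cast_add, Int.cast_mul]
    ring

/-- determinant relation mod `N` -/
lemma det_cast (g : SL(2, ℤ)) :
    (g 0 0 : ZMod N) * (g 1 1 : ZMod N) - (g 0 1 : ZMod N) * (g 1 0 : ZMod N) = 1 := by
  have h := g.det_coe
  rw [Matrix.det_fin_two] at h
  have := congrArg (Int.cast : ℤ → ZMod N) h
  simpa using this

lemma isCoprime_actPair (g : SL(2, ℤ)) {v : ZMod N × ZMod N} (hv : IsCoprime v.1 v.2) :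
    IsCoprime (actPair N g v).1 (actPair N g v).2 := by
  obtain ⟨r, s, hrs⟩ := hv
  have hd := det_cast (N := N) g
  refine ⟨r * (g 1 1 : ZMod N) - s * (g 1 0 : ZMod N),
    -r * (g 0 1 : ZMod N) + s * (g 0 0 : ZMod N), ?_⟩
  simp only [actPair_fst, actPair_snd]
  linear_combination (r * v.1 + s * v.2) * hd + hrs

variable (N)

/-- unimodular column vectors mod `N` -/
def Unimod : Type := {v : ZMod N × ZMod N // IsCoprime v.1 v.2}

instance : MulAction SL(2, ℤ) (Unimod N) where
  smul g v := ⟨actPair N g v.1, isCoprime_actPair g v.2⟩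
  one_smul v := Subtype.ext (actPair_one v.1)
  mul_smul g h v := Subtype.ext (actPair_mul g h v.1)

variable {N}

lemma Unimod.smul_val (g : SL(2, ℤ)) (v : Unimod N) : (g • v).1 = actPair N g v.1 := rfl

/-- cross-product relation -/
def Unimod.Rel (v w : Unimod N) : Prop := v.1.1 * w.1.2 = v.1.2 * w.1.1

lemma Unimod.rel_iff_exists_unit (v w : Unimod N) :
    Unimod.Rel v w ↔ ∃ u : (ZMod N)ˣ, w.1 = ((u : ZMod N) * v.1.1, (u : ZMod N) * v.1.2) := by
  constructor
  · intro h
    obtain ⟨r, s, hrs⟩ := v.2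
    obtain ⟨r', s', hrs'⟩ := w.2
    have h1 : (r * w.1.1 + s * w.1.2) * v.1.1 = w.1.1 := by
      have : r * w.1.1 * v.1.1 + s * w.1.2 * v.1.1 = w.1.1 * (r * v.1.1 + s * v.1.2) := by
        unfold Unimod.Rel at h
        linear_combination s * h
      rw [add_mul, this, hrs, mul_one]
    have h2 : (r * w.1.1 + s * w.1.2) * v.1.2 = w.1.2 := by
      have : r * w.1.1 * v.1.2 + s * w.1.2 * v.1.2 = w.1.2 * (r * v.1.1 + s * v.1.2) := by
        unfold Unimod.Rel at h
        linear_combination (-r) * h
      rw [add_mul, this, hrs, mul_one]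
    have hu : IsUnit (r * w.1.1 + s * w.1.2) := by
      refine IsUnit.of_mul_eq_one (r' * v.1.1 + s' * v.1.2) ?_
      calc (r * w.1.1 + s * w.1.2) * (r' * v.1.1 + s' * v.1.2)
          = r' * ((r * w.1.1 + s * w.1.2) * v.1.1) + s' * ((r * w.1.1 + s * w.1.2) * v.1.2) := by
            ring
        _ = 1 := by rw [h1, h2, hrs']
    refine ⟨hu.unit, ?_⟩
    ext
    · simp [h1]
    · simp [h2]
  · rintro ⟨u, hu⟩
    unfold Unimod.Rel
    rw [hu]
    ring

lemma Unimod.rel_equivalence : Equivalence (Unimod.Rel (N := N)) where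
  refl v := by unfold Unimod.Rel; ring
  symm {v w} h := by unfold Unimod.Rel at *; linear_combination -h
  trans {v w z} h1 h2 := by
    rw [Unimod.rel_iff_exists_unit] at *
    obtain ⟨u, hu⟩ := h1
    obtain ⟨u', hu'⟩ := h2
    refine ⟨u' * u, ?_⟩
    rw [hu', hu]
    ext <;> simp [mul_assoc]

variable (N)

/-- the setoid of the cross-product relation -/
def Unimod.setoid : Setoid (Unimod N) := ⟨Unimod.Rel, Unimod.rel_equivalence⟩

/-- the projective line over `ZMod N` -/
def P1 : Type := Quotient (Unimod.setoid N)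

variable {N}

/-- the class of a unimodular vector -/
def P1.mk (v : Unimod N) : P1 N := Quotient.mk (Unimod.setoid N) v

lemma P1.mk_eq_mk_iff (v w : Unimod N) : P1.mk v = P1.mk w ↔ Unimod.Rel v w :=
  Quotient.eq (r := Unimod.setoid N)

lemma P1.mk_surjective : Function.Surjective (P1.mk (N := N)) := Quotient.mk_surjective

lemma Unimod.rel_smul (g : SL(2, ℤ)) {v w : Unimod N} (h : Unimod.Rel v w) :
    Unimod.Rel (g • v) (g • w) := by
  unfold Unimod.Rel at *
  simp only [Unimod.smul_val, actPair_fst, actPair_snd]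
  have hd := det_cast (N := N) g
  linear_combination (v.1.1 * w.1.2 - v.1.2 * w.1.1) * hd + h

instance : MulAction SL(2, ℤ) (P1 N) where
  smul g := Quotient.map' (g • ·) (fun _ _ h => Unimod.rel_smul g h)
  one_smul p := by
    induction p using Quotient.inductionOn with
    | h v => exact congrArg (P1.mk) (one_smul _ v)
  mul_smul g h p := by
    induction p using Quotient.inductionOn with
    | h v => exact congrArg (P1.mk) (mul_smul g h v)

lemma P1.smul_mk (g : SL(2, ℤ)) (v : Unimod N) : g • P1.mk v = P1.mk (g • v) := rfl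

end Fermat.Agent.S24.P1Model
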