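import Fermat.Agent.S24.P1Basic

/-!
# Normal forms in `P1 N`, transitivity of `SL(2, ℤ)` and identification with `SL(2, ℤ) ⧸ Γ₀(N)`
-/

set_option autoImplicit false

namespace Fermat.Agent.S24.P1Model

open Matrix MatrixGroups CongruenceSubgroup

variable {N : ℕ}

/-- the unimodular vector attached to a coprime pair of integers -/
def Unimod.ofInt (N : ℕ) (a c : ℤ) (h : IsCoprime a c) : Unimod N :=
  ⟨((a : ZMod N), (c : ZMod N)), by
    have := h.map (Int.castRingHom (ZMod N))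
    simpa using this⟩

@[simp] lemma Unimod.ofInt_val (a c : ℤ) (h : IsCoprime a c) :
    (Unimod.ofInt N a c h).1 = ((a : ZMod N), (c : ZMod N)) := rfl

/-- the point of `P1 N` attached to a coprime pair of integers -/
def P1.ofInt (N : ℕ) (a c : ℤ) (h : IsCoprime a c) : P1 N := P1.mk (Unimod.ofInt N a c h)

lemma P1.ofInt_eq_ofInt_iff {a c a' c' : ℤ} (h : IsCoprime a c) (h' : IsCoprime a' c') :
    P1.ofInt N a c h = P1.ofInt N a' c' h' ↔ (N : ℤ) ∣ a * c' - c * a' := by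
  rw [P1.ofInt, P1.ofInt, P1.mk_eq_mk_iff]
  unfold Unimod.Rel
  simp only [Unimod.ofInt_val]
  rw [← Int.cast_mul, ← Int.cast_mul, ZMod.intCast_eq_intCast_iff_dvd_sub]
  rw [← dvd_neg]
  ring_nf

/-- the first column of an element of `SL(2, ℤ)` is a coprime pair -/
lemma isCoprime_col (g : SL(2, ℤ)) : IsCoprime (g 0 0) (g 1 0) := by
  refine ⟨g 1 1, -(g 0 1), ?_⟩
  have h := g.det_coe
  rw [Matrix.det_fin_two] at h
  linear_combination h

lemma isCoprime_smul_int (g : SL(2, ℤ)) {a c : ℤ} (h : IsCoprime a c) :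
    IsCoprime (g 0 0 * a + g 0 1 * c) (g 1 0 * a + g 1 1 * c) := by
  obtain ⟨r, s, hrs⟩ := h
  have hd := g.det_coe
  rw [Matrix.det_fin_two] at hd
  refine ⟨r * g 1 1 - s * g 1 0, -r * g 0 1 + s * g 0 0, ?_⟩
  linear_combination (r * a + s * c) * hd + hrs

lemma P1.smul_ofInt (g : SL(2, ℤ)) {a c : ℤ} (h : IsCoprime a c) :
    g • P1.ofInt N a c h =
      P1.ofInt N (g 0 0 * a + g 0 1 * c) (g 1 0 * a + g 1 1 * c) (isCoprime_smul_int g h) := by
  rw [P1.ofInt, P1.smul_mk, P1.ofInt]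
  congr 1
  apply Subtype.ext
  simp [Unimod.smul_val, actPair]

/-- the base point `(1 : 0)` -/
def P1.base (N : ℕ) : P1 N := P1.ofInt N 1 0 isCoprime_one_left

lemma P1.smul_base (g : SL(2, ℤ)) :
    g • P1.base N = P1.ofInt N (g 0 0) (g 1 0) (isCoprime_col g) := by
  rw [P1.base, P1.smul_ofInt]
  congr 1 <;> ring

lemma P1.stabilizer_base : MulAction.stabilizer SL(2, ℤ) (P1.base N) = Gamma0 N := by
  ext g
  rw [MulAction.mem_stabilizer_iff, P1.smul_base, P1.base, P1.ofInt_eq_ofInt_iff, Gamma0_mem,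
    ZMod.intCast_zmod_eq_zero_iff_dvd]
  constructor
  · intro h
    have : g 0 0 * 0 - g 1 0 * 1 = -(g 1 0) := by ring
    rw [this, dvd_neg] at h
    exact h
  · intro h
    have : g 0 0 * 0 - g 1 0 * 1 = -(g 1 0) := by ring
    rw [this, dvd_neg]
    exact h

variable [NeZero N]

/-- **Normal form.** Every point of `P1 N` is `(a : d)` with `d ∣ N` a positive divisor and
`a` an integer prime to `d`. -/
lemma P1.exists_normal_form (p : P1 N) :
    ∃ (a : ℤ) (d : ℕ) (h : IsCoprime a (d : ℤ)), d ∣ N ∧ p = P1.ofInt N a d h := by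
  obtain ⟨v, rfl⟩ := P1.mk_surjective p
  obtain ⟨d, hdN, u, hu, hy⟩ := ZMod.eq_unit_mul_divisor v.1.2
  -- x' = u⁻¹ x
  set x' : ZMod N := (hu.unit⁻¹ : (ZMod N)ˣ) * v.1.1 with hx'
  have hcop : IsCoprime x' (d : ZMod N) := by
    obtain ⟨r, s, hrs⟩ := v.2
    refine ⟨r * u, s * u, ?_⟩
    have h1 : u * x' = v.1.1 := by
      rw [hx', ← mul_assoc]
      have : u * ((hu.unit⁻¹ : (ZMod N)ˣ) : ZMod N) = 1 := by
        have := hu.unit.mul_inv
        rwa [IsUnit.unit_spec] at this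
      rw [this, one_mul]
    calc r * u * x' + s * u * d = r * (u * x') + s * (u * d) := by ring
      _ = 1 := by rw [h1, ← hy, hrs]
  -- the integer lift
  set a : ℤ := (x'.val : ℤ) with ha
  have hax : ((a : ℤ) : ZMod N) = x' := by
    rw [ha, Int.cast_natCast, ZMod.natCast_zmod_val]
  have hcopZ : IsCoprime a (d : ℤ) := by
    rw [Int.isCoprime_iff_gcd_eq_one]
    by_contra hne
    obtain ⟨p, hp, hpd⟩ := Nat.exists_prime_and_dvd hne
    have hpa : (p : ℤ) ∣ a := by
      have := Int.gcd_dvd_left a (d : ℤ)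
      exact (Int.natCast_dvd_natCast.mpr hpd).trans this
    have hpd' : (p : ℤ) ∣ (d : ℤ) := by
      have := Int.gcd_dvd_right a (d : ℤ)
      exact (Int.natCast_dvd_natCast.mpr hpd).trans this
    have hpN : p ∣ N := (Int.natCast_dvd_natCast.mp hpd').trans hdN
    -- reduce mod p
    have hmap := hcop.map (ZMod.castHom hpN (ZMod p))
    have h1 : ZMod.castHom hpN (ZMod p) x' = 0 := by
      rw [← hax, map_intCast, ZMod.intCast_zmod_eq_zero_iff_dvd]
      exact hpa
    have h2 : ZMod.castHom hpN (ZMod p) (d : ZMod N) = 0 := by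
      rw [map_natCast, ZMod.natCast_eq_zero_iff]
      exact Int.natCast_dvd_natCast.mp hpd'
    rw [h1, h2] at hmap
    have : Fact p.Prime := ⟨hp⟩
    exact not_isCoprime_zero_zero hmap
  refine ⟨a, d, hcopZ, hdN, ?_⟩
  rw [P1.ofInt, P1.mk_eq_mk_iff, Unimod.rel_iff_exists_unit]
  refine ⟨hu.unit⁻¹, ?_⟩
  ext
  · simp only [Unimod.ofInt_val, hax, hx']
  · simp only [Unimod.ofInt_val, Int.cast_natCast]
    rw [hy, ← mul_assoc]
    have : ((hu.unit⁻¹ : (ZMod N)ˣ) : ZMod N) * u = 1 := by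
      have := hu.unit.inv_mul
      rwa [IsUnit.unit_spec] at this
    rw [this, one_mul]

/-- `SL(2, ℤ)` acts transitively on `P1 N`. -/
lemma P1.exists_smul_base (p : P1 N) : ∃ g : SL(2, ℤ), g • P1.base N = p := by
  obtain ⟨a, d, h, -, rfl⟩ := P1.exists_normal_form p
  obtain ⟨g, hg0, hg1⟩ := h.exists_SL2_col 0
  refine ⟨g, ?_⟩
  rw [P1.smul_base]
  congr 1

/-- the orbit map `SL(2, ℤ) ⧸ Γ₀(N) → P1 N`, `g Γ₀(N) ↦ g • (1 : 0)` -/
def cosetToP1 (N : ℕ) : SL(2, ℤ) ⧸ Gamma0 N → P1 N :=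
  fun q => Quotient.liftOn' q (fun g : SL(2, ℤ) => g • P1.base N) (by
    intro g h hgh
    rw [QuotientGroup.leftRel_apply, ← P1.stabilizer_base, MulAction.mem_stabilizer_iff] at hgh
    show g • P1.base N = h • P1.base N
    calc g • P1.base N = g • ((g⁻¹ * h) • P1.base N) := by rw [hgh]
      _ = h • P1.base N := by rw [← mul_smul, mul_inv_cancel_left])

omit [NeZero N] in
@[simp] lemma cosetToP1_mk (g : SL(2, ℤ)) :
    cosetToP1 N (QuotientGroup.mk g) = g • P1.base N := rfl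

omit [NeZero N] in
lemma cosetToP1_smul (g : SL(2, ℤ)) (q : SL(2, ℤ) ⧸ Gamma0 N) :
    cosetToP1 N (g • q) = g • cosetToP1 N q := by
  induction q using QuotientGroup.induction_on with
  | H h =>
    rw [MulAction.Quotient.smul_mk, cosetToP1_mk, cosetToP1_mk, smul_eq_mul, mul_smul]

omit [NeZero N] in
lemma cosetToP1_injective : Function.Injective (cosetToP1 N) := by
  intro q q' h
  induction q using QuotientGroup.induction_on with
  | H g =>
  induction q' using QuotientGroup.induction_on with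
  | H g' =>
  rw [cosetToP1_mk, cosetToP1_mk] at h
  rw [QuotientGroup.eq, ← P1.stabilizer_base, MulAction.mem_stabilizer_iff, mul_smul, ← h,
    ← mul_smul, inv_mul_cancel, one_smul]

lemma cosetToP1_surjective : Function.Surjective (cosetToP1 N) := by
  intro p
  obtain ⟨g, rfl⟩ := P1.exists_smul_base p
  exact ⟨QuotientGroup.mk g, rfl⟩

/-- `SL(2, ℤ) ⧸ Γ₀(N) ≃ P1 N`, equivariantly (see `cosetToP1_smul`). -/
noncomputable def cosetEquivP1 (N : ℕ) [NeZero N] : SL(2, ℤ) ⧸ Gamma0 N ≃ P1 N :=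
  Equiv.ofBijective (cosetToP1 N) ⟨cosetToP1_injective, cosetToP1_surjective⟩

lemma cosetEquivP1_smul (g : SL(2, ℤ)) (q : SL(2, ℤ) ⧸ Gamma0 N) :
    cosetEquivP1 N (g • q) = g • cosetEquivP1 N q := cosetToP1_smul g q

end Fermat.Agent.S24.P1Model
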