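import Fermat.Agent.S24.P1Coset
import Fermat.Prelude.Def_ModularCurve_GenusNumerics

/-!
# Orbits of `T` on `P1 N` and on `SL(2, ℤ) ⧸ Γ₀(N)`: the number of cusps

The orbits of the cyclic group generated by `T` on `SL(2, ℤ) ⧸ Γ₀(N)` are in bijection with
pairs `(d, u)`, `d ∣ N`, `u` a unit modulo `gcd d (N / d)`; hence their number is
`ModularCurve.cuspCount N`.
-/

set_option autoImplicit false

namespace Fermat.Agent.S24.P1Model

open Matrix MatrixGroups CongruenceSubgroup ModularGroup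

variable {N : ℕ}

/-- `T ^ k` acts by `(a : c) ↦ (a + k c : c)`. -/
lemma P1.T_zpow_smul_ofInt (k : ℤ) {a c : ℤ} (h : IsCoprime a c) :
    (T ^ k) • P1.ofInt N a c h = P1.ofInt N (a + k * c) c (h.add_mul_right_left k) := by
  rw [P1.smul_ofInt]
  have h00 : (T ^ k : SL(2, ℤ)) 0 0 = 1 := by rw [coe_T_zpow]; rfl
  have h01 : (T ^ k : SL(2, ℤ)) 0 1 = k := by rw [coe_T_zpow]; rfl
  have h10 : (T ^ k : SL(2, ℤ)) 1 0 = 0 := by rw [coe_T_zpow]; rfl
  have h11 : (T ^ k : SL(2, ℤ)) 1 1 = 1 := by rw [coe_T_zpow]; rfl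
  congr 1
  · rw [h00, h01]; ring
  · rw [h10, h11]; ring

/-- **Orbit criterion.** Two points in normal form are in the same `⟨T⟩`-orbit iff they have the
same `d` and the numerators agree modulo `gcd d (N / d)`. -/
lemma P1.exists_T_zpow_smul_eq_iff [NeZero N] {a a' : ℤ} {d d' : ℕ} (hd : d ∣ N) (hd' : d' ∣ N)
    (h : IsCoprime a (d : ℤ)) (h' : IsCoprime a' (d' : ℤ)) :
    (∃ k : ℤ, (T ^ k) • P1.ofInt N a d h = P1.ofInt N a' d' h') ↔
      d = d' ∧ ((Nat.gcd d (N / d) : ℕ) : ℤ) ∣ a - a' := by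
  have hN : N ≠ 0 := NeZero.ne N
  constructor
  · rintro ⟨k, hk⟩
    rw [P1.T_zpow_smul_ofInt, P1.ofInt_eq_ofInt_iff] at hk
    have hdN : (d : ℤ) ∣ (N : ℤ) := Int.natCast_dvd_natCast.mpr hd
    have hd'N : (d' : ℤ) ∣ (N : ℤ) := Int.natCast_dvd_natCast.mpr hd'
    -- d ∣ d'
    have h1 : (d : ℤ) ∣ (d' : ℤ) := by
      have hc : IsCoprime (d : ℤ) (a + k * d) := (h.add_mul_right_left k).symm
      apply hc.dvd_of_dvd_mul_left
      have : (d : ℤ) ∣ (a + k * d) * d' - d * a' := hdN.trans hk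
      have h2 : (d : ℤ) ∣ (d : ℤ) * a' := dvd_mul_right _ _
      have := dvd_add this h2
      rwa [sub_add_cancel] at this
    have h2 : (d' : ℤ) ∣ (d : ℤ) := by
      have hc : IsCoprime (d' : ℤ) a' := h'.symm
      apply hc.dvd_of_dvd_mul_right
      have : (d' : ℤ) ∣ (a + k * d) * d' - d * a' := hd'N.trans hk
      show (d' : ℤ) ∣ (d : ℤ) * a'
      have h3 : (d' : ℤ) ∣ (a + k * d) * d' := dvd_mul_left _ _
      have := dvd_sub h3 this
      rwa [sub_sub_cancel] at this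
    have hdd : d = d' :=
      Nat.dvd_antisymm (Int.natCast_dvd_natCast.mp h1) (Int.natCast_dvd_natCast.mp h2)
    subst hdd
    refine ⟨rfl, ?_⟩
    obtain ⟨m, hm⟩ := hd
    have hd0 : d ≠ 0 := by rintro rfl; simp at hm; exact hN hm
    have hNd : N / d = m := by rw [hm]; exact Nat.mul_div_cancel_left m (Nat.pos_of_ne_zero hd0)
    rw [hNd]
    have hmd : (m : ℤ) ∣ a + k * d - a' := by
      have : ((d : ℤ) * (m : ℤ)) ∣ (d : ℤ) * (a + k * d - a') := by
        have h3 : (a + k * d) * d - d * a' = (d : ℤ) * (a + k * d - a') := by ring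
        rw [← h3]
        convert hk using 1
        rw [hm]; push_cast; ring
      exact (mul_dvd_mul_iff_left (by exact_mod_cast hd0)).mp this
    have hg1 : ((Nat.gcd d m : ℕ) : ℤ) ∣ (m : ℤ) :=
      Int.natCast_dvd_natCast.mpr (Nat.gcd_dvd_right d m)
    have hg2 : ((Nat.gcd d m : ℕ) : ℤ) ∣ (d : ℤ) :=
      Int.natCast_dvd_natCast.mpr (Nat.gcd_dvd_left d m)
    have := dvd_sub (hg1.trans hmd) (hg2.mul_left k)
    have h4 : a + k * d - a' - k * d = a - a' := by ring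
    rwa [h4] at this
  · rintro ⟨rfl, t, ht⟩
    obtain ⟨m, hm⟩ := hd
    have hd0 : d ≠ 0 := by rintro rfl; simp at hm; exact hN hm
    have hNd : N / d = m := by rw [hm]; exact Nat.mul_div_cancel_left m (Nat.pos_of_ne_zero hd0)
    rw [hNd] at ht
    have hbez := Nat.gcd_eq_gcd_ab d m
    refine ⟨-(t * Nat.gcdA d m), ?_⟩
    rw [P1.T_zpow_smul_ofInt, P1.ofInt_eq_ofInt_iff]
    refine ⟨t * Nat.gcdB d m, ?_⟩
    rw [hm]
    push_cast
    have ha : a = a' + ((Nat.gcd d m : ℕ) : ℤ) * t := by linarith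
    rw [ha, hbez]
    ring

/-! ### Cusp data -/

/-- cusp data: a divisor `d` of `N` and a unit modulo `gcd d (N / d)` -/
abbrev CuspData (N : ℕ) : Type := Σ d : N.divisors, (ZMod (Nat.gcd d (N / d)))ˣ

instance neZero_gcd_divisor (N : ℕ) (d : N.divisors) : NeZero (Nat.gcd d (N / d)) :=
  ⟨Nat.gcd_ne_zero_left (Nat.pos_of_mem_divisors d.2).ne'⟩

lemma card_cuspData (N : ℕ) : Nat.card (CuspData N) = ModularCurve.cuspCount N := by
  rw [CuspData, Nat.card_sigma, ModularCurve.cuspCount,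
    ← Finset.sum_coe_sort N.divisors (fun d => Nat.totient (Nat.gcd d (N / d)))]
  refine Finset.sum_congr rfl fun d _ => ?_
  rw [Nat.card_eq_fintype_card, ZMod.card_units_eq_totient]

lemma exists_lift_of_unit {d g : ℕ} (hd : d ≠ 0) (hg : g ∣ d) (u : (ZMod g)ˣ) :
    ∃ a : ℤ, IsCoprime a (d : ℤ) ∧ ((a : ℤ) : ZMod g) = u := by
  have : NeZero d := ⟨hd⟩
  obtain ⟨v, rfl⟩ := ZMod.unitsMap_surjective hg u
  refine ⟨((v : ZMod d).val : ℤ), ?_, ?_⟩
  · exact Nat.isCoprime_iff_coprime.mpr (ZMod.val_coe_unit_coprime v)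
  · rw [ZMod.unitsMap_val, Int.cast_natCast, ZMod.natCast_val]

lemma isUnit_intCast_of_isCoprime_of_dvd {a : ℤ} {d g : ℕ} (hg : g ∣ d)
    (h : IsCoprime a (d : ℤ)) : IsUnit ((a : ℤ) : ZMod g) := by
  rw [ZMod.coe_int_isUnit_iff_isCoprime]
  exact (h.of_isCoprime_of_dvd_right (Int.natCast_dvd_natCast.mpr hg)).symm

/-! ### Orbits of `T` -/

/-- the set of orbits of the cyclic group generated by `T` -/
abbrev TOrbits (X : Type*) [MulAction SL(2, ℤ) X] : Type _ :=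
  MulAction.orbitRel.Quotient (Subgroup.zpowers (T : SL(2, ℤ))) X

lemma TOrbits.mk_eq_mk_iff {X : Type*} [MulAction SL(2, ℤ) X] (p q : X) :
    (Quotient.mk'' p : TOrbits X) = Quotient.mk'' q ↔ ∃ k : ℤ, (T ^ k) • q = p := by
  rw [Quotient.eq'', MulAction.orbitRel_apply, MulAction.mem_orbit_iff]
  constructor
  · rintro ⟨⟨g, hg⟩, hgp⟩
    obtain ⟨k, rfl⟩ := Subgroup.mem_zpowers_iff.mp hg
    exact ⟨k, hgp⟩
  · rintro ⟨k, hk⟩
    exact ⟨⟨T ^ k, Subgroup.zpow_mem_zpowers T k⟩, hk⟩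

/-- an equivariant bijection induces a bijection on `T`-orbits -/
def TOrbits.congr {X Y : Type*} [MulAction SL(2, ℤ) X] [MulAction SL(2, ℤ) Y] (e : X ≃ Y)
    (he : ∀ (g : SL(2, ℤ)) (x : X), e (g • x) = g • e x) : TOrbits X ≃ TOrbits Y :=
  Quotient.congr e (by
    intro a b
    have h1 := TOrbits.mk_eq_mk_iff a b
    have h2 := TOrbits.mk_eq_mk_iff (e a) (e b)
    rw [Quotient.eq''] at h1 h2
    rw [h1, h2]
    constructor
    · rintro ⟨k, rfl⟩
      exact ⟨k, (he _ _).symm⟩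
    · rintro ⟨k, hk⟩
      exact ⟨k, e.injective (by rw [he, hk])⟩)

section

variable [NeZero N]

omit [NeZero N] in
lemma cuspData_dvd (x : CuspData N) : (x.1 : ℕ) ∣ N := Nat.dvd_of_mem_divisors x.1.2

omit [NeZero N] in
lemma cuspData_ne_zero (x : CuspData N) : (x.1 : ℕ) ≠ 0 :=
  (Nat.pos_of_mem_divisors x.1.2).ne'

/-- an integer lift, prime to `d`, of the unit modulo `gcd d (N / d)` -/
noncomputable def cuspLift (x : CuspData N) : ℤ :=
  Classical.choose (exists_lift_of_unit (cuspData_ne_zero x)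
    (Nat.gcd_dvd_left (x.1 : ℕ) (N / x.1)) x.2)

lemma cuspLift_isCoprime (x : CuspData N) : IsCoprime (cuspLift x) ((x.1 : ℕ) : ℤ) :=
  (Classical.choose_spec (exists_lift_of_unit (cuspData_ne_zero x)
    (Nat.gcd_dvd_left (x.1 : ℕ) (N / x.1)) x.2)).1

lemma cuspLift_cast (x : CuspData N) :
    ((cuspLift x : ℤ) : ZMod (Nat.gcd (x.1 : ℕ) (N / x.1))) = x.2 :=
  (Classical.choose_spec (exists_lift_of_unit (cuspData_ne_zero x)
    (Nat.gcd_dvd_left (x.1 : ℕ) (N / x.1)) x.2)).2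

/-- the point of `P1 N` attached to a cusp datum -/
noncomputable def cuspPoint (x : CuspData N) : P1 N :=
  P1.ofInt N (cuspLift x) ((x.1 : ℕ) : ℤ) (cuspLift_isCoprime x)

/-- the `T`-orbit attached to a cusp datum -/
noncomputable def cuspOrbit (x : CuspData N) : TOrbits (P1 N) := Quotient.mk'' (cuspPoint x)

lemma cuspOrbit_injective : Function.Injective (cuspOrbit (N := N)) := by
  intro x y hxy
  rw [cuspOrbit, cuspOrbit, TOrbits.mk_eq_mk_iff, cuspPoint, cuspPoint,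
    P1.exists_T_zpow_smul_eq_iff (cuspData_dvd y) (cuspData_dvd x)] at hxy
  obtain ⟨hd, hdiv⟩ := hxy
  have hx := cuspLift_cast x
  have hy := cuspLift_cast y
  rcases x with ⟨⟨d, hd1⟩, u⟩
  rcases y with ⟨⟨d', hd2⟩, u'⟩
  dsimp only at hd hdiv hx hy
  subst hd
  congr 1
  apply Units.ext
  rw [← hx, ← hy, eq_comm, ZMod.intCast_eq_intCast_iff_dvd_sub]
  have h3 := hdiv
  rwa [← dvd_neg, neg_sub] at h3

lemma cuspOrbit_surjective : Function.Surjective (cuspOrbit (N := N)) := by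
  intro o
  induction o using Quotient.inductionOn' with
  | h p =>
  obtain ⟨a, d, h, hdN, rfl⟩ := P1.exists_normal_form p
  have hd0 : d ≠ 0 := by rintro rfl; exact (NeZero.ne N) (Nat.eq_zero_of_zero_dvd hdN)
  have hmem : d ∈ N.divisors := Nat.mem_divisors.mpr ⟨hdN, NeZero.ne N⟩
  let x : CuspData N :=
    ⟨⟨d, hmem⟩, (isUnit_intCast_of_isCoprime_of_dvd (Nat.gcd_dvd_left d (N / d)) h).unit⟩
  refine ⟨x, ?_⟩
  rw [cuspOrbit, TOrbits.mk_eq_mk_iff, cuspPoint,
    P1.exists_T_zpow_smul_eq_iff hdN (cuspData_dvd x)]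
  refine ⟨rfl, ?_⟩
  have hx := cuspLift_cast x
  have hx2 : ((x.2 : (ZMod (Nat.gcd d (N / d)))ˣ) : ZMod (Nat.gcd d (N / d))) = ((a : ℤ) : ZMod _) :=
    IsUnit.unit_spec _
  have : ((cuspLift x : ℤ) : ZMod (Nat.gcd d (N / d))) = ((a : ℤ) : ZMod _) := hx.trans hx2
  rw [ZMod.intCast_eq_intCast_iff_dvd_sub] at this
  exact this

/-- `T`-orbits on `P1 N` are parametrised by cusp data. -/
noncomputable def cuspDataEquiv : CuspData N ≃ TOrbits (P1 N) :=
  Equiv.ofBijective cuspOrbit ⟨cuspOrbit_injective, cuspOrbit_surjective⟩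

lemma card_TOrbits_P1 : Nat.card (TOrbits (P1 N)) = ModularCurve.cuspCount N := by
  rw [← Nat.card_congr (cuspDataEquiv (N := N)), card_cuspData]

/-- **The number of cusps.** The cyclic group generated by `T` has `cuspCount N` orbits on
`SL(2, ℤ) ⧸ Γ₀(N)`. -/
theorem card_orbits_T (N : ℕ) [NeZero N] :
    Nat.card (MulAction.orbitRel.Quotient (Subgroup.zpowers (T : SL(2, ℤ)))
      (SL(2, ℤ) ⧸ Gamma0 N)) = ModularCurve.cuspCount N := by
  rw [← card_TOrbits_P1 (N := N)]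
  exact Nat.card_congr (TOrbits.congr (cosetEquivP1 N) cosetEquivP1_smul)

end

end Fermat.Agent.S24.P1Model

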