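import Fermat.Agent.S24.Scott

/-!
# Orbit counts: transport along equivalences, and permutations of prime order
-/

set_option autoImplicit false

namespace Fermat.Agent.S24.PermCount

open Equiv.Perm

variable {X Y : Type*}

lemma semiconj_zpow (e : X ≃ Y) (σ : Equiv.Perm X) (τ : Equiv.Perm Y)
    (h : ∀ x, e (σ x) = τ (e x)) (k : ℤ) (x : X) : e ((σ ^ k) x) = (τ ^ k) (e x) := by
  have hτ : τ = e.permCongr σ := by
    ext y
    simp only [Equiv.permCongr_apply]
    rw [h, Equiv.apply_symm_apply]
  have hpow : τ ^ k = e.permCongr (σ ^ k) := by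
    rw [hτ]
    exact (map_zpow (e.permCongrHom : Equiv.Perm X →* Equiv.Perm Y) σ k).symm
  rw [hpow, Equiv.permCongr_apply, Equiv.symm_apply_apply]

/-- The number of orbits is invariant under conjugation by an equivalence. -/
lemma orbCount_congr (e : X ≃ Y) (σ : Equiv.Perm X) (τ : Equiv.Perm Y)
    (h : ∀ x, e (σ x) = τ (e x)) : orbCount σ = orbCount τ := by
  unfold orbCount
  refine Nat.card_congr (Quotient.congr e ?_)
  intro a b
  rw [orbitRel_zpowers_iff, orbitRel_zpowers_iff]
  constructor
  · rintro ⟨k, hk⟩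
    exact ⟨k, by rw [← semiconj_zpow e σ τ h, hk]⟩
  · rintro ⟨k, hk⟩
    refine ⟨k, e.injective ?_⟩
    rw [semiconj_zpow e σ τ h, hk]

variable [Fintype X] [DecidableEq X]

/-- For a permutation of prime power-order dividing `p`: `p * orb = |X| + (p - 1) * fix`. -/
lemma orbCount_of_pow_prime_eq_one (σ : Equiv.Perm X) (p : ℕ) (hp : p.Prime)
    (hσ : σ ^ p = 1) :
    p * orbCount σ = Fintype.card X + (p - 1) * Fintype.card (Function.fixedPoints σ) := by
  have hall : ∀ n ∈ σ.cycleType, n = p := by
    intro n hn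
    have h1 : n ∣ p := (dvd_of_mem_cycleType hn).trans (orderOf_dvd_of_pow_eq_one hσ)
    have h2 : 2 ≤ n := two_le_of_mem_cycleType hn
    rcases (Nat.dvd_prime hp).mp h1 with h | h
    · omega
    · exact h
  have hrep : σ.cycleType = Multiset.replicate (Multiset.card σ.cycleType) p :=
    Multiset.eq_replicate_card.mpr hall
  have hsum : σ.cycleType.sum = Multiset.card σ.cycleType * p := by
    conv_lhs => rw [hrep]
    rw [Multiset.sum_replicate, smul_eq_mul]
  have h1 := orbCount_add_sum_cycleType σ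
  have h2 := card_fixedPoints σ
  have h3 := sum_cycleType_le σ
  rw [h2]
  set k := Multiset.card σ.cycleType with hk
  set n := Fintype.card X with hn
  rw [hsum] at h1 h3 ⊢
  have hp1 : 1 ≤ p := hp.one_lt.le
  obtain ⟨q, rfl⟩ : ∃ q, p = q + 1 := ⟨p - 1, by omega⟩
  simp only [Nat.add_sub_cancel]
  -- orbCount + k (q+1) = n + k ; goal (q+1) orb = n + q (n - k(q+1))
  obtain ⟨m, hm⟩ : ∃ m, n = k * (q + 1) + m := ⟨n - k * (q + 1), by omega⟩
  have horb : orbCount σ = m + k := by omega
  rw [horb, hm, Nat.add_sub_cancel_left]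
  ring

end Fermat.Agent.S24.PermCount
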