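import Fermat.Agent.S24.P1Coset
import Fermat.Agent.S24.PermCount

/-!
# Fixed points of `S` and `S * T` on `P1 N`
-/

set_option autoImplicit false

namespace Fermat.Agent.S24.P1Model

open Matrix MatrixGroups ModularGroup

variable {N : ℕ}

lemma actPair_S (v : ZMod N × ZMod N) : actPair N S v = (-v.2, v.1) := by
  ext <;> simp [actPair, S]

lemma actPair_ST (v : ZMod N × ZMod N) : actPair N (S * T) v = (-v.2, v.1 + v.2) := by
  rw [actPair_mul]
  ext <;> simp [actPair, S, T]

lemma actPair_T (v : ZMod N × ZMod N) : actPair N T v = (v.1 + v.2, v.2) := by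
  ext <;> simp [actPair, T]

lemma actPair_neg_one (v : ZMod N × ZMod N) : actPair N (-1) v = (-v.1, -v.2) := by
  ext <;> simp [actPair]

lemma P1.neg_one_smul (p : P1 N) : (-1 : SL(2, ℤ)) • p = p := by
  obtain ⟨v, rfl⟩ := P1.mk_surjective p
  rw [P1.smul_mk, P1.mk_eq_mk_iff]
  unfold Unimod.Rel
  rw [Unimod.smul_val, actPair_neg_one]
  ring

lemma S_mul_S : (S * S : SL(2, ℤ)) = -1 := by
  ext i j
  fin_cases i <;> fin_cases j <;> simp [S, Matrix.mul_apply, Fin.sum_univ_two]

lemma ST_cube : ((S * T) ^ 3 : SL(2, ℤ)) = -1 := by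
  ext i j
  fin_cases i <;> fin_cases j <;>
    simp [S, T, pow_succ, Matrix.mul_apply, Fin.sum_univ_two]

/-- the point `(x : 1)` -/
def P1.affine (x : ZMod N) : P1 N := P1.mk ⟨(x, 1), isCoprime_one_right⟩

/-- the point `(1 : y)` -/
def P1.affine' (y : ZMod N) : P1 N := P1.mk ⟨(1, y), isCoprime_one_left⟩

lemma P1.affine_injective : Function.Injective (P1.affine (N := N)) := by
  intro x y h
  rw [P1.affine, P1.affine, P1.mk_eq_mk_iff] at h
  unfold Unimod.Rel at h
  simpa using h

lemma P1.affine'_injective : Function.Injective (P1.affine' (N := N)) := by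
  intro x y h
  rw [P1.affine', P1.affine', P1.mk_eq_mk_iff] at h
  unfold Unimod.Rel at h
  simpa using h.symm

lemma P1.S_smul_affine_eq_iff (x : ZMod N) : S • P1.affine x = P1.affine x ↔ x ^ 2 + 1 = 0 := by
  rw [P1.affine, P1.smul_mk, P1.mk_eq_mk_iff]
  unfold Unimod.Rel
  rw [Unimod.smul_val, actPair_S]
  simp only
  constructor
  · intro h; linear_combination -h
  · intro h; linear_combination -h

lemma P1.ST_smul_affine'_eq_iff (y : ZMod N) :
    (S * T) • P1.affine' y = P1.affine' y ↔ y ^ 2 + y + 1 = 0 := by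
  rw [P1.affine', P1.smul_mk, P1.mk_eq_mk_iff]
  unfold Unimod.Rel
  rw [Unimod.smul_val, actPair_ST]
  simp only
  constructor
  · intro h; linear_combination -h
  · intro h; linear_combination -h

lemma P1.exists_affine_of_S_fixed (p : P1 N) (hp : S • p = p) : ∃ x, p = P1.affine x := by
  obtain ⟨v, rfl⟩ := P1.mk_surjective p
  rw [P1.smul_mk, P1.mk_eq_mk_iff] at hp
  unfold Unimod.Rel at hp
  rw [Unimod.smul_val, actPair_S] at hp
  simp only at hp
  obtain ⟨r, s, hrs⟩ := v.2
  set x := v.1.1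
  set y := v.1.2
  -- y is a unit with inverse w
  set w := -r ^ 2 * y + 2 * r * s * x + s ^ 2 * y with hw
  have hyw : y * w = 1 := by
    have h1 : (r * x + s * y) ^ 2 = 1 := by rw [hrs, one_pow]
    linear_combination h1 + r ^ 2 * hp
  refine ⟨x * w, ?_⟩
  rw [P1.affine, P1.mk_eq_mk_iff]
  unfold Unimod.Rel
  simp only
  linear_combination (-x) * hyw

lemma P1.exists_affine'_of_ST_fixed (p : P1 N) (hp : (S * T) • p = p) :
    ∃ y, p = P1.affine' y := by
  obtain ⟨v, rfl⟩ := P1.mk_surjective p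
  rw [P1.smul_mk, P1.mk_eq_mk_iff] at hp
  unfold Unimod.Rel at hp
  rw [Unimod.smul_val, actPair_ST] at hp
  simp only at hp
  obtain ⟨r, s, hrs⟩ := v.2
  set x := v.1.1
  set y := v.1.2
  set w := r ^ 2 * x + 2 * r * s * y - s ^ 2 * (x + y) with hw
  have hxw : x * w = 1 := by
    have h1 : (r * x + s * y) ^ 2 = 1 := by rw [hrs, one_pow]
    linear_combination h1 + s ^ 2 * hp
  refine ⟨y * w, ?_⟩
  rw [P1.affine', P1.mk_eq_mk_iff]
  unfold Unimod.Rel
  simp only
  linear_combination y * hxw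

/-- fixed points of `S` on `P1 N` correspond to square roots of `-1` -/
noncomputable def P1.fixedSEquiv :
    {x : ZMod N // x ^ 2 + 1 = 0} ≃ {p : P1 N // S • p = p} :=
  Equiv.ofBijective
    (fun x => ⟨P1.affine x.1, (P1.S_smul_affine_eq_iff x.1).mpr x.2⟩)
    ⟨fun x y h => Subtype.ext (P1.affine_injective (congrArg Subtype.val h)),
     fun p => by
      obtain ⟨x, hx⟩ := P1.exists_affine_of_S_fixed p.1 p.2
      refine ⟨⟨x, ?_⟩, Subtype.ext hx.symm⟩
      rw [← P1.S_smul_affine_eq_iff, ← hx]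
      exact p.2⟩

/-- fixed points of `S * T` on `P1 N` correspond to roots of `y² + y + 1` -/
noncomputable def P1.fixedSTEquiv :
    {y : ZMod N // y ^ 2 + y + 1 = 0} ≃ {p : P1 N // (S * T) • p = p} :=
  Equiv.ofBijective
    (fun y => ⟨P1.affine' y.1, (P1.ST_smul_affine'_eq_iff y.1).mpr y.2⟩)
    ⟨fun x y h => Subtype.ext (P1.affine'_injective (congrArg Subtype.val h)),
     fun p => by
      obtain ⟨y, hy⟩ := P1.exists_affine'_of_ST_fixed p.1 p.2
      refine ⟨⟨y, ?_⟩, Subtype.ext hy.symm⟩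
      rw [← P1.ST_smul_affine'_eq_iff, ← hy]
      exact p.2⟩

end Fermat.Agent.S24.P1Model
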