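import Fermat.Agent.S24.PlaceBasic

set_option autoImplicit false
set_option linter.unusedSectionVars false

noncomputable section

open IsDedekindDomain WithZero IsLocalRing AlgebraicCurve Ideal

namespace Fermat.Agent.S24.ZD
namespace PlaceLemmas

variable {K F : Type*} [Field K] [Field F] [Algebra K F]

section Dedekind

variable {R : Type*} [CommRing R] [IsDedekindDomain R] [Algebra R F] [IsFractionRing R F]
  [Algebra K R] [IsScalarTower K R F]

/-- the prime of `R` cut out by a place whose valuation ring contains `R`. -/
def primeOfPlace (v : Place K F) (h : ∀ r : R, algebraMap R F r ∈ v.toValuationSubring) :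
    HeightOneSpectrum R where
  asIdeal := Ideal.comap
    ((algebraMap R F).codRestrict v.toValuationSubring h)
    (IsLocalRing.maximalIdeal v.toValuationSubring)
  isPrime := Ideal.comap_isPrime _ _
  ne_bot := by
    intro hbot
    apply v.ne_top'
    rw [eq_top_iff]
    intro x _
    obtain ⟨r, s, hs, rfl⟩ := IsFractionRing.div_surjective (A := R) x
    have hs0 : s ≠ 0 := nonZeroDivisors.ne_zero hs
    have hsu : IsUnit ((algebraMap R F).codRestrict v.toValuationSubring h s) := by
      by_contra hnu
      have : s ∈ (⊥ : Ideal R) := by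
        rw [← hbot, Ideal.mem_comap, IsLocalRing.mem_maximalIdeal, mem_nonunits_iff]
        exact hnu
      exact hs0 (by simpa using this)
    obtain ⟨u, hu⟩ := hsu
    have hinv : (algebraMap R F s)⁻¹ ∈ v.toValuationSubring := by
      have h1 : ((u⁻¹ : (v.toValuationSubring)ˣ) : v.toValuationSubring) *
          ((algebraMap R F).codRestrict v.toValuationSubring h s) = 1 := by
        rw [← hu]; simp
      have h2 := congrArg (Subtype.val) h1
      simp only [MulMemClass.coe_mul, OneMemClass.coe_one] at h2
      have h3 : (((u⁻¹ : (v.toValuationSubring)ˣ) : v.toValuationSubring) : F)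
          = (algebraMap R F s)⁻¹ := by
        exact eq_inv_of_mul_eq_one_left h2
      rw [← h3]
      exact Subtype.property _
    rw [div_eq_mul_inv]
    exact v.toValuationSubring.mul_mem _ _ (h r) hinv

theorem mem_primeOfPlace_iff (v : Place K F)
    (h : ∀ r : R, algebraMap R F r ∈ v.toValuationSubring) (r : R) :
    r ∈ (primeOfPlace v h).asIdeal ↔ v.adicValuation (algebraMap R F r) < 1 := by
  show (algebraMap R F).codRestrict v.toValuationSubring h r ∈
    IsLocalRing.maximalIdeal v.toValuationSubring ↔ _
  rw [← Place.heightOneSpectrum_asIdeal, ← HeightOneSpectrum.intValuation_lt_one_iff_mem,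
    ← v.adicValuation_coe]
  rfl

theorem inv_mem_of_adicValuation_eq_one (v : Place K F) {x : F} (hx : v.adicValuation x = 1) :
    x⁻¹ ∈ v.toValuationSubring := by
  rw [mem_iff_adicValuation_le_one, map_inv₀, hx, inv_one]

theorem ofHeightOneSpectrum_primeOfPlace (v : Place K F)
    (h : ∀ r : R, algebraMap R F r ∈ v.toValuationSubring) :
    Place.ofHeightOneSpectrum (K := K) (primeOfPlace v h) = v := by
  apply Place.ext
  rw [Place.ofHeightOneSpectrum_toValuationSubring,
    ← HeightOneSpectrum.valuationSubringAtPrime_eq_valuationSubring]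
  refine ValuationSubring.eq_of_le_of_ne_top _ ?_ v.ne_top'
  rw [HeightOneSpectrum.valuationSubringAtPrime_eq_valuationSubring]
  intro x hx
  rw [Valuation.mem_valuationSubring_iff] at hx
  obtain ⟨n, d, hnd⟩ := HeightOneSpectrum.exists_primeCompl_mul_eq_of_integer _ x hx
  have hd : v.adicValuation (algebraMap R F d) = 1 := by
    have h1 : ¬ v.adicValuation (algebraMap R F d) < 1 := by
      rw [← mem_primeOfPlace_iff v h]
      exact d.2
    exact le_antisymm ((mem_iff_adicValuation_le_one v _).mp (h d)) (not_lt.mp h1)
  have hd0 : algebraMap R F d ≠ 0 := by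
    intro h0; rw [h0, map_zero] at hd; exact zero_ne_one hd
  have : x = algebraMap R F n * (algebraMap R F d)⁻¹ := by
    rw [← hnd, mul_assoc, mul_inv_cancel₀ hd0, mul_one]
  rw [this]
  exact v.toValuationSubring.mul_mem _ _ (h n) (inv_mem_of_adicValuation_eq_one v hd)

theorem algebraMap_mem_ofHeightOneSpectrum (w : HeightOneSpectrum R) (r : R) :
    algebraMap R F r ∈ (Place.ofHeightOneSpectrum (K := K) w).toValuationSubring := by
  rw [Place.ofHeightOneSpectrum_toValuationSubring, Valuation.mem_valuationSubring_iff]
  exact w.valuation_le_one r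

end Dedekind

end PlaceLemmas

/-- inertia degree is one over an algebraically closed constant field. -/
theorem inertiaDeg_eq_one_of_isAlgClosed {K A B : Type*} [Field K] [IsAlgClosed K]
    [CommRing A] [CommRing B] [Algebra A B] [Module.Finite A B]
    [Algebra K A] [Algebra K B] [IsScalarTower K A B]
    (p : Ideal A) [p.IsMaximal] (hres : Function.Surjective (algebraMap K (A ⧸ p)))
    (P : Ideal B) [P.IsMaximal] [P.LiesOver p] : P.inertiaDeg A = 1 := by
  rw [inertiaDeg_eq_of_isMaximal p P]
  let : Field (A ⧸ p) := Quotient.field p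
  let : Field (B ⧸ P) := Quotient.field P
  have hfin1 : Module.Finite (A ⧸ p) (B ⧸ P) := inferInstance
  have hfinK : Module.Finite K (A ⧸ p) :=
    Module.Finite.of_surjective (Algebra.linearMap K (A ⧸ p)) hres
  have hfin : Module.Finite K (B ⧸ P) := Module.Finite.trans (A ⧸ p) (B ⧸ P)
  have : Algebra.IsIntegral K (B ⧸ P) := Algebra.IsIntegral.of_finite K (B ⧸ P)
  have hbij : Function.Bijective (algebraMap K (B ⧸ P)) :=
    IsAlgClosed.algebraMap_bijective_of_isIntegral
  have hsurj : Function.Surjective (algebraMap (A ⧸ p) (B ⧸ P)) := by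
    intro x
    obtain ⟨c, rfl⟩ := hbij.2 x
    exact ⟨algebraMap K (A ⧸ p) c, (IsScalarTower.algebraMap_apply K (A ⧸ p) (B ⧸ P) c).symm⟩
  exact _root_.finrank_eq_one (1 : B ⧸ P) one_ne_zero (fun y => by
    obtain ⟨a, rfl⟩ := hsurj y
    exact ⟨a, by rw [Algebra.smul_def, mul_one]⟩)

theorem ramificationIdx_eq_neg_log_valuation {A B F : Type*} [CommRing A] [CommRing B]
    [IsDedekindDomain B] [Algebra A B] [Module.IsTorsionFree A B] [IsDomain A]
    [Field F] [Algebra B F] [IsFractionRing B F] [Algebra A F] [IsScalarTower A B F]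
    (π : A) (hπ0 : π ≠ 0) (P : HeightOneSpectrum B) [P.asIdeal.LiesOver (span {π})] :
    (P.asIdeal.ramificationIdx A : ℤ) = -(log (P.valuation F (algebraMap A F π))) := by
  have hinj : Function.Injective (algebraMap A B) := FaithfulSMul.algebraMap_injective A B
  have hπB : algebraMap A B π ≠ 0 := (map_ne_zero_iff _ hinj).mpr hπ0
  have hmap : (span {π}).map (algebraMap A B) = span {algebraMap A B π} := by
    rw [Ideal.map_span, Set.image_singleton]
  have hne : (span {π}).map (algebraMap A B) ≠ ⊥ := by
    rw [hmap]; simpa using hπB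
  rw [IsDedekindDomain.ramificationIdx_eq_multiplicity (span {π}) P.asIdeal hne, hmap,
    IsScalarTower.algebraMap_apply A B F, HeightOneSpectrum.valuation_of_algebraMap,
    P.intValuation_eq_exp_neg_multiplicity hπB, log_exp, neg_neg]

end Fermat.Agent.S24.ZD
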