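import Fermat.Agent.S24.PlaceCount
import Fermat.Agent.S24.Approx
import Fermat.Agent.S24.OrdNorm

/-!
# `ZeroPlacesData K y` for a function field (S24, part I-b3, final packaging)

For `K` algebraically closed of characteristic zero and `y : F` transcendental with `F / K(y)`
finite, all three fields of `ZeroPlacesData K y` (the input of the place counting theorem
`placeCount`) hold.
-/

set_option autoImplicit false

open AlgebraicCurve IntermediateField

namespace Fermat.Agent.S24.ZeroPlacesAll

variable {K F : Type*} [Field K] [Field F] [Algebra K F] [IsAlgClosed K] [CharZero K]

/-- The input of the place counting theorem holds in every function field of one variable over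
an algebraically closed field of characteristic zero. -/
theorem zeroPlacesData (y : F) (hy : Transcendental K y) [FiniteDimensional K⟮y⟯ F] :
    ZeroPlacesData K y where
  finite := by
    obtain ⟨inst, -⟩ := ZD.sum_ord_zeros y hy
    exact Finite.of_fintype _
  ord_norm := OrdNorm.ord_norm y hy
  approx := Approx.approx y hy

end Fermat.Agent.S24.ZeroPlacesAll
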